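import Mathlib

/-! # S25 / H8 (general algebra) : invertible modules lift along square zero extensions -/
set_option autoImplicit false
set_option linter.style.haveILetI false
universe u
open TensorProduct

namespace Fermat.Agent.S25.Lift

/-- a finite projective module with `S ≃ End P` is invertible. -/
theorem invertible_of_end_bijective {S : Type u} [CommRing S] {P : Type u} [AddCommGroup P]
    [Module S P] [Module.Finite S P] [Module.Projective S P]
    (h : Function.Bijective (Algebra.linearMap S (Module.End S P))) : Module.Invertible S P := by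
  let e1 : Module.Dual S P ⊗[S] P ≃ₗ[S] (P →ₗ[S] P) := dualTensorHomEquiv S P P
  let e2 : S ≃ₗ[S] (P →ₗ[S] P) := LinearEquiv.ofBijective (Algebra.linearMap S (Module.End S P)) h
  exact Module.Invertible.right (e1.trans e2.symm)

section
variable {S S' : Type u} [CommRing S] [CommRing S'] {ρ : S →+* S'}
  (hρ : Function.Surjective ρ) (hJ : ∀ a b, ρ a = 0 → ρ b = 0 → a * b = 0)

include hρ hJ in
/-- finite projective modules lift along square zero extensions. -/
theorem exists_lift_projective (P' : Type u) [AddCommGroup P'] [Module S' P']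
    [Module.Finite S' P'] [Module.Projective S' P'] :
    ∃ (P : Type u) (_ : AddCommGroup P) (_ : Module S P) (_ : Module.Finite S P)
      (_ : Module.Projective S P) (b : P →ₛₗ[ρ] P'), Function.Surjective b ∧
        ∀ p, b p = 0 → p ∈ (RingHom.ker ρ) • (⊤ : Submodule S P) := by
  classical
  obtain ⟨n, π, hπ⟩ := Module.Finite.exists_fin' S' P'
  obtain ⟨i, hi⟩ := Module.projective_lifting_property π LinearMap.id hπ
  have hi' : ∀ p, π (i p) = p := fun p => LinearMap.congr_fun hi p
  let e' : Matrix (Fin n) (Fin n) S' := LinearMap.toMatrix' (i ∘ₗ π)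
  have he'v : ∀ w, e'.mulVec w = i (π w) := fun w => LinearMap.toMatrix'_mulVec (i ∘ₗ π) w
  have he' : IsIdempotentElem e' := by
    change e' * e' = e'
    rw [← LinearMap.toMatrix'_comp]
    congr 1
    refine LinearMap.ext fun w => ?_
    simp [hi']
  obtain ⟨e, he, hee'⟩ := exists_isIdempotentElem_eq_of_ker_isNilpotent ρ.mapMatrix (by
      intro x hx
      refine ⟨2, ?_⟩
      rw [RingHom.mem_ker] at hx
      have hx' : ∀ a b, ρ (x a b) = 0 := fun a b => by
        have := congrFun (congrFun hx a) b
        simpa using this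
      ext a b
      rw [pow_two, Matrix.mul_apply]
      exact Finset.sum_eq_zero fun c _ => hJ _ _ (hx' a c) (hx' c b)) e'
    ⟨Matrix.of fun a b => (hρ (e' a b)).choose, by
      ext a b
      simp [(hρ (e' a b)).choose_spec]⟩ he'
  have hρe : ∀ w : Fin n → S, (fun a => ρ (e.mulVec w a)) = e'.mulVec (fun a => ρ (w a)) := by
    intro w
    ext a
    rw [RingHom.map_mulVec, ← hee']
    rfl
  have hee : ∀ w, e.mulVec (e.mulVec w) = e.mulVec w := by
    intro w
    rw [Matrix.mulVec_mulVec, he.eq]
  let P : Submodule S (Fin n → S) := LinearMap.range e.mulVecLin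
  have hP : ∀ v : P, e.mulVec v.1 = v.1 := by
    rintro ⟨_, w, rfl⟩
    exact hee w
  let b : P →ₛₗ[ρ] P' :=
    { toFun := fun v => π (fun a => ρ (v.1 a))
      map_add' := fun v w => by
        rw [← map_add]
        congr 1
        ext a
        simp
      map_smul' := fun s v => by
        rw [← map_smul]
        congr 1
        ext a
        simp }
  have hproj : Module.Projective S P := by
    refine Module.Projective.of_split P.subtype e.mulVecLin.rangeRestrict ?_
    ext1 v
    apply Subtype.ext
    exact hP v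
  refine ⟨P, inferInstance, inferInstance, inferInstance, hproj, b, ?_, ?_⟩
  · intro p'
    choose w hw using fun a => hρ (i p' a)
    refine ⟨⟨e.mulVec w, w, rfl⟩, ?_⟩
    change π (fun a => ρ (e.mulVec w a)) = p'
    rw [hρe, he'v]
    have : (fun a => ρ (w a)) = i p' := funext hw
    rw [this, hi', hi']
  · intro v hv
    have h1 : (fun a => ρ (v.1 a)) = 0 := by
      have h2 : i (π (fun a => ρ (v.1 a))) = 0 := by
        have : π (fun a => ρ (v.1 a)) = 0 := hv
        rw [this, map_zero]
      rw [← he'v, ← hρe, hP v] at h2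
      exact h2
    have h3 : v = ∑ a, v.1 a • (⟨e.mulVec (Pi.single a 1), Pi.single a 1, rfl⟩ : P) := by
      apply Subtype.ext
      rw [Submodule.coe_sum]
      simp only [Submodule.coe_smul]
      conv_lhs => rw [← hP v, pi_eq_sum_univ v.1]
      rw [Matrix.mulVec_sum]
      refine Finset.sum_congr rfl fun a _ => ?_
      rw [← Matrix.mulVec_smul]
      congr 1
      ext c
      simp [Pi.single_apply, eq_comm]
    rw [h3]
    refine Submodule.sum_mem _ fun a _ => Submodule.smul_mem_smul ?_ Submodule.mem_top
    exact congrFun h1 a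

section
variable {P P' : Type u} [AddCommGroup P] [Module S P] [AddCommGroup P'] [Module S' P']
  (b : P →ₛₗ[ρ] P')

/-- `b` kills `J P`. -/
theorem map_eq_zero_of_mem_smul {p : P} (hp : p ∈ (RingHom.ker ρ) • (⊤ : Submodule S P)) :
    b p = 0 := by
  induction hp using Submodule.smul_induction_on' with
  | smul j hj q _ => rw [b.map_smulₛₗ, (RingHom.mem_ker).mp hj, zero_smul]
  | add x _ y _ hx hy => rw [map_add, hx, hy, add_zero]

include hJ in
/-- `J` kills `J P`. -/
theorem smul_eq_zero_of_mem_smul {j : S} (hj : ρ j = 0) {p : P}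
    (hp : p ∈ (RingHom.ker ρ) • (⊤ : Submodule S P)) : j • p = 0 := by
  induction hp using Submodule.smul_induction_on' with
  | smul j' hj' q _ => rw [smul_smul, hJ j j' hj ((RingHom.mem_ker).mp hj'), zero_smul]
  | add x _ y _ hx hy => rw [smul_add, hx, hy, add_zero]

/-- endomorphisms preserve `J P`. -/
theorem end_mem_smul (g : P →ₗ[S] P) {p : P} (hp : p ∈ (RingHom.ker ρ) • (⊤ : Submodule S P)) :
    g p ∈ (RingHom.ker ρ) • (⊤ : Submodule S P) := by
  induction hp using Submodule.smul_induction_on' with
  | smul j hj q _ => rw [map_smul]; exact Submodule.smul_mem_smul hj Submodule.mem_top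
  | add x _ y _ hx hy => rw [map_add]; exact Submodule.add_mem _ hx hy

variable (hb : Function.Surjective b)
  (hker : ∀ p, b p = 0 → p ∈ (RingHom.ker ρ) • (⊤ : Submodule S P))

include hρ hb hker in
/-- every endomorphism of `P` is a scalar modulo `J`. -/
theorem exists_scalar_mod [Module.Invertible S' P'] (g : P →ₗ[S] P) :
    ∃ s : S, ∀ p, g p - s • p ∈ (RingHom.ker ρ) • (⊤ : Submodule S P) := by
  have key : ∀ p₁ p₂, b p₁ = b p₂ → b (g p₁) = b (g p₂) := by
    intro p₁ p₂ h
    have h1 : b (p₁ - p₂) = 0 := by rw [map_sub, h, sub_self]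
    have h2 := map_eq_zero_of_mem_smul b (end_mem_smul g (hker _ h1))
    rwa [map_sub, map_sub, sub_eq_zero] at h2
  let σ : P' → P := Function.surjInv hb
  have hσ : ∀ p', b (σ p') = p' := Function.surjInv_eq hb
  let g' : P' →ₗ[S'] P' :=
    { toFun := fun p' => b (g (σ p'))
      map_add' := fun p' q' => by
        rw [← map_add, ← map_add]
        apply key
        rw [map_add, hσ, hσ, hσ]
      map_smul' := fun s' p' => by
        obtain ⟨s, rfl⟩ := hρ s'
        rw [RingHom.id_apply, ← b.map_smulₛₗ, ← map_smul]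
        apply key
        rw [b.map_smulₛₗ, hσ, hσ] }
  obtain ⟨s', hs'⟩ := (Module.Invertible.toModuleEnd_bijective S' P').2 g'
  obtain ⟨s, rfl⟩ := hρ s'
  refine ⟨s, fun p => hker _ ?_⟩
  have h1 : g' (b p) = ρ s • b p := by
    rw [← hs']
    rfl
  have h2 : g' (b p) = b (g p) := key _ _ (hσ _)
  rw [map_sub, b.map_smulₛₗ, ← h1, h2, sub_self]

include hρ hJ hb hker in
theorem exists_scalar_smul [Module.Invertible S' P'] {j : S} (hj : ρ j = 0) (g : P →ₗ[S] P) :
    ∃ j' : S, ρ j' = 0 ∧ ∀ p, j • g p = j' • p := by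
  obtain ⟨s, hs⟩ := exists_scalar_mod hρ b hb hker g
  refine ⟨j * s, by rw [map_mul, hj, zero_mul], fun p => ?_⟩
  have := smul_eq_zero_of_mem_smul hJ hj (hs p)
  rwa [smul_sub, sub_eq_zero, smul_smul] at this

include hρ hJ hb hker in
theorem exists_scalar_of_mem [Module.Invertible S' P'] (f : Module.Dual S P) {q : P}
    (hq : q ∈ (RingHom.ker ρ) • (⊤ : Submodule S P)) :
    ∃ j' : S, ρ j' = 0 ∧ ∀ p, f p • q = j' • p := by
  induction hq using Submodule.smul_induction_on' with
  | smul j hj q _ =>
    obtain ⟨j', hj', h⟩ := exists_scalar_smul hρ hJ b hb hker ((RingHom.mem_ker).mp hj)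
      (f.smulRight q)
    refine ⟨j', hj', fun p => ?_⟩
    rw [← h p, LinearMap.smulRight_apply, smul_comm]
  | add x _ y _ hx hy =>
    obtain ⟨j₁, hj₁, h₁⟩ := hx
    obtain ⟨j₂, hj₂, h₂⟩ := hy
    exact ⟨j₁ + j₂, by rw [map_add, hj₁, hj₂, add_zero], fun p => by
      rw [smul_add, h₁, h₂, add_smul]⟩

include hρ hJ hb hker in
/-- a finite projective lift of an invertible module is invertible. -/
theorem invertible_of_lift [Module.Finite S P] [Module.Projective S P] [Module.Invertible S' P'] :
    Module.Invertible S P := by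
  apply invertible_of_end_bijective
  constructor
  · rw [injective_iff_map_eq_zero]
    intro s hs
    have hs' : ∀ p : P, s • p = 0 := fun p => by
      have := LinearMap.congr_fun hs p
      simpa using this
    have hsJ : ρ s = 0 := by
      apply FaithfulSMul.eq_of_smul_eq_smul (α := P')
      intro p'
      obtain ⟨p, rfl⟩ := hb p'
      rw [← b.map_smulₛₗ, hs', map_zero, zero_smul]
    have key : ∀ t : Module.Dual S' P' ⊗[S'] P', ∃ τ : S, ρ τ = contractLeft S' P' t ∧ s * τ = 0 := by
      intro t
      induction t using TensorProduct.induction_on with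
      | zero => exact ⟨0, by simp, by simp⟩
      | tmul f' p' =>
        letI := ρ.toAlgebra
        let g : P →ₗ[S] S' :=
          { toFun := fun p => f' (b p)
            map_add' := fun p q => by rw [map_add, map_add]
            map_smul' := fun a p => by
              rw [b.map_smulₛₗ, map_smul, RingHom.id_apply, Algebra.smul_def]
              rfl }
        obtain ⟨f, hf⟩ := Module.projective_lifting_property (Algebra.linearMap S S') g hρ
        obtain ⟨p, rfl⟩ := hb p'
        refine ⟨f p, ?_, ?_⟩
        · have := LinearMap.congr_fun hf p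
          rw [contractLeft_apply]
          exact this
        · rw [← smul_eq_mul, ← map_smul, hs', map_zero]
      | add x y hx hy =>
        obtain ⟨τ₁, h₁, h₁'⟩ := hx
        obtain ⟨τ₂, h₂, h₂'⟩ := hy
        exact ⟨τ₁ + τ₂, by rw [map_add, map_add, h₁, h₂], by rw [mul_add, h₁', h₂', add_zero]⟩
    obtain ⟨t, ht⟩ := (Module.Invertible.bijective (R := S') (M := P')).2 1
    obtain ⟨τ, hτ, hsτ⟩ := key t
    have h1 : ρ (1 - τ) = 0 := by rw [map_sub, map_one, hτ, ht, sub_self]
    have h2 := hJ s (1 - τ) hsJ h1
    rwa [mul_sub, mul_one, hsτ, sub_zero] at h2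
  · intro g
    obtain ⟨s, hs⟩ := exists_scalar_mod hρ b hb hker g
    obtain ⟨t, ht⟩ := (dualTensorHom_bijective (R := S) (M := P) (N := P)).2 LinearMap.id
    have key : ∀ t : Module.Dual S P ⊗[S] P, ∃ j' : S, ρ j' = 0 ∧
        ∀ p, (g - s • LinearMap.id : P →ₗ[S] P) (dualTensorHom S P P t p) = j' • p := by
      intro t
      induction t using TensorProduct.induction_on with
      | zero => exact ⟨0, by simp, by simp⟩
      | tmul f p₀ =>
        obtain ⟨j', hj', h⟩ := exists_scalar_of_mem hρ hJ b hb hker f (hs p₀)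
        refine ⟨j', hj', fun p => ?_⟩
        rw [dualTensorHom_apply, map_smul, ← h p]
        rfl
      | add x y hx hy =>
        obtain ⟨j₁, hj₁, h₁⟩ := hx
        obtain ⟨j₂, hj₂, h₂⟩ := hy
        exact ⟨j₁ + j₂, by rw [map_add, hj₁, hj₂, add_zero], fun p => by
          rw [map_add, LinearMap.add_apply, map_add, h₁, h₂, add_smul]⟩
    obtain ⟨j', -, hj'⟩ := key t
    refine ⟨s + j', ?_⟩
    ext p
    have := hj' p
    rw [ht] at this
    simp only [LinearMap.id_apply, LinearMap.sub_apply, LinearMap.smul_apply] at this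
    simp only [Algebra.linearMap_apply, Module.algebraMap_end_apply]
    rw [add_smul, ← this]
    abel

end

include hρ hJ in
/-- **ML-6** : invertible modules lift along square zero extensions. -/
theorem exists_lift_invertible (P' : Type u) [AddCommGroup P'] [Module S' P']
    [Module.Invertible S' P'] :
    ∃ (P : Type u) (_ : AddCommGroup P) (_ : Module S P) (_ : Module.Invertible S P)
      (b : P →ₛₗ[ρ] P'), Function.Surjective b ∧
        ∀ p, b p = 0 → p ∈ (RingHom.ker ρ) • (⊤ : Submodule S P) := by
  obtain ⟨P, _, _, _, _, b, hb, hker⟩ := exists_lift_projective hρ hJ P'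
  exact ⟨P, inferInstance, inferInstance, invertible_of_lift hρ hJ b hb hker, b, hb, hker⟩

include hJ in
/-- square zero Nakayama. -/
theorem eq_top_of_sup_smul_eq_top {M : Type u} [AddCommGroup M] [Module S M] (W : Submodule S M)
    (h : W ⊔ (RingHom.ker ρ) • (⊤ : Submodule S M) = ⊤) : W = ⊤ := by
  have h0 : (RingHom.ker ρ) * (RingHom.ker ρ) = ⊥ := by
    rw [eq_bot_iff, Ideal.mul_le]
    intro a ha c hc
    rw [Ideal.mem_bot]
    exact hJ a c ha hc
  have h1 : (RingHom.ker ρ) • (⊤ : Submodule S M) ≤ W := by
    conv_lhs => rw [← h]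
    rw [Submodule.smul_sup, ← Submodule.mul_smul, h0, Submodule.bot_smul, sup_bot_eq]
    exact Submodule.smul_le_right
  rwa [sup_eq_left.mpr h1] at h

end

end Fermat.Agent.S25.Lift
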