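import Fermat.Agent.S25.L.PicAlg
import Fermat.Agent.S25.H.LiftAlg

/-! # S25 / H8 : line bundle data lift along square zero extensions -/
set_option autoImplicit false
set_option linter.style.haveILetI false
universe u
open TensorProduct

namespace Fermat.Agent.S25.Lift

section general
variable {R S : Type u} [CommRing R] [CommRing S] (φ : R →+* S) (x : R)

/-- `N → S ⊗ N` is a localisation datum. -/
theorem isLoc_mk (N : Type u) [AddCommGroup N] [Module R N] [Module.Flat R N]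
    (hφ : Function.Injective φ) (hu : IsUnit (φ x))
    (hring : ∀ s : S, ∃ (m : ℕ) (a : R), (φ x) ^ m * s = φ a) :
    SL.IsLoc φ x (SL.BCMod.mk φ N) where
  unit := hu
  ring := hring
  inj := SL.BCMod.mk_injective φ hφ
  span t := by
    induction t using SL.BCMod.induction_on with
    | zero => exact ⟨0, 0, by simp⟩
    | tmul s n =>
      obtain ⟨m, a, ha⟩ := hring s
      refine ⟨m, a • n, ?_⟩
      rw [SL.BCMod.smul_tmul, ha, (SL.BCMod.mk φ N).map_smulₛₗ, SL.BCMod.smul_mk]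
    | add s t hs ht =>
      obtain ⟨i, a, ha⟩ := hs
      obtain ⟨j, c, hc⟩ := ht
      refine ⟨i + j, x ^ j • a + x ^ i • c, ?_⟩
      rw [map_add, LinearMap.map_smulₛₗ, LinearMap.map_smulₛₗ, ← ha, ← hc, smul_add, map_pow,
        map_pow, smul_smul, smul_smul, pow_add, mul_comm]

variable {φ x}

/-- a spanning semilinear map between invertible modules along a localisation is a localisation
datum. -/
theorem isLoc_of_span {N M : Type u} [AddCommGroup N] [Module R N] [AddCommGroup M] [Module S M]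
    [Module.Invertible R N] [Module.Invertible S M]
    (hφ : Function.Injective φ) (hu : IsUnit (φ x))
    (hring : ∀ s : S, ∃ (m : ℕ) (a : R), (φ x) ^ m * s = φ a)
    (r : N →ₛₗ[φ] M) (hr : Submodule.span S (Set.range r) = ⊤) : SL.IsLoc φ x r where
  unit := hu
  ring := hring
  inj n n' h := by
    apply SL.BCMod.mk_injective φ hφ
    apply (SL.can_bijective r hr).1
    rw [SL.can_mk, SL.can_mk, h]
  span m := by
    obtain ⟨t, rfl⟩ := (SL.can_bijective r hr).2 m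
    obtain ⟨j, n, hn⟩ := (isLoc_mk φ x N hφ hu hring).span t
    exact ⟨j, n, by rw [← map_smul, hn, SL.can_mk]⟩

/-- lifting a semilinear map out of a projective module through a surjection. -/
theorem exists_semilinear_lift {S' : Type u} [CommRing S'] (ρS : S →+* S')
    {N M M' : Type u} [AddCommGroup N] [Module R N] [AddCommGroup M] [Module S M]
    [AddCommGroup M'] [Module S' M'] [Module.Projective R N]
    (β : M →ₛₗ[ρS] M') (hβ : Function.Surjective β) (c : N →ₛₗ[ρS.comp φ] M') :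
    ∃ r : N →ₛₗ[φ] M, ∀ n, β (r n) = c n := by
  letI : Module R M := Module.compHom M φ
  letI : Module R M' := Module.compHom M' (ρS.comp φ)
  let β' : M →ₗ[R] M' :=
    { toFun := β
      map_add' := β.map_add
      map_smul' := fun a m => β.map_smulₛₗ (φ a) m }
  let c' : N →ₗ[R] M' :=
    { toFun := c
      map_add' := c.map_add
      map_smul' := fun a n => c.map_smulₛₗ a n }
  obtain ⟨h, hh⟩ := Module.projective_lifting_property β' c' hβ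
  refine ⟨{ toFun := h, map_add' := h.map_add, map_smul' := fun a n => h.map_smul a n }, fun n => ?_⟩
  exact LinearMap.congr_fun hh n

end general

section glue
variable {R₀ R₁ S R₀' R₁' S' : Type u} [CommRing R₀] [CommRing R₁] [CommRing S]
  [CommRing R₀'] [CommRing R₁'] [CommRing S']
  {φ₀ : R₀ →+* S} {φ₁ : R₁ →+* S} {φ₀' : R₀' →+* S'} {φ₁' : R₁' →+* S'}
  {ρ₀ : R₀ →+* R₀'} {ρ₁ : R₁ →+* R₁'} {ρS : S →+* S'}

theorem exists_glue_lift
    (comm₀ : ∀ a, ρS (φ₀ a) = φ₀' (ρ₀ a)) (comm₁ : ∀ a, ρS (φ₁ a) = φ₁' (ρ₁ a))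
    (x : R₀) (y : R₁) (hφ₀ : Function.Injective φ₀) (hφ₁ : Function.Injective φ₁)
    (hx : IsUnit (φ₀ x)) (hy : IsUnit (φ₁ y))
    (hring₀ : ∀ s : S, ∃ (m : ℕ) (a : R₀), (φ₀ x) ^ m * s = φ₀ a)
    (hring₁ : ∀ s : S, ∃ (m : ℕ) (a : R₁), (φ₁ y) ^ m * s = φ₁ a)
    (hρ₀ : Function.Surjective ρ₀) (hρ₁ : Function.Surjective ρ₁)
    (hJ₀ : ∀ a b, ρ₀ a = 0 → ρ₀ b = 0 → a * b = 0)
    (hJ₁ : ∀ a b, ρ₁ a = 0 → ρ₁ b = 0 → a * b = 0)
    (hJS : ∀ a b, ρS a = 0 → ρS b = 0 → a * b = 0)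
    {N₀' N₁' M' : Type u} [AddCommGroup N₀'] [AddCommGroup N₁'] [AddCommGroup M']
    [Module R₀' N₀'] [Module R₁' N₁'] [Module S' M']
    [Module.Invertible R₀' N₀'] [Module.Invertible R₁' N₁']
    (r₀' : N₀' →ₛₗ[φ₀'] M') (r₁' : N₁' →ₛₗ[φ₁'] M')
    (h₀' : SL.IsLoc φ₀' (ρ₀ x) r₀') (h₁' : SL.IsLoc φ₁' (ρ₁ y) r₁') :
    ∃ (N₀ N₁ M : Type u) (_ : AddCommGroup N₀) (_ : AddCommGroup N₁) (_ : AddCommGroup M)
      (_ : Module R₀ N₀) (_ : Module R₁ N₁) (_ : Module S M)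
      (_ : Module.Invertible R₀ N₀) (_ : Module.Invertible R₁ N₁)
      (r₀ : N₀ →ₛₗ[φ₀] M) (r₁ : N₁ →ₛₗ[φ₁] M)
      (b₀ : N₀ →ₛₗ[ρ₀] N₀') (b₁ : N₁ →ₛₗ[ρ₁] N₁') (bM : M →ₛₗ[ρS] M'),
      SL.IsLoc φ₀ x r₀ ∧ SL.IsLoc φ₁ y r₁ ∧ (∀ n, bM (r₀ n) = r₀' (b₀ n)) ∧
        (∀ n, bM (r₁ n) = r₁' (b₁ n)) ∧ Function.Surjective b₀ ∧ Function.Surjective b₁ := by
  obtain ⟨N₀, _, _, _, b₀, hb₀, hk₀⟩ := exists_lift_invertible hρ₀ hJ₀ N₀'
  obtain ⟨N₁, _, _, _, b₁, hb₁, -⟩ := exists_lift_invertible hρ₁ hJ₁ N₁'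
  have hloc₀ := isLoc_mk φ₀ x N₀ hφ₀ hx hring₀
  -- the map `bM`
  let c₀ : N₀ →ₛₗ[ρS.comp φ₀] M' :=
    { toFun := fun n => r₀' (b₀ n)
      map_add' := fun n n' => by rw [map_add, map_add]
      map_smul' := fun a n => by
        rw [b₀.map_smulₛₗ, r₀'.map_smulₛₗ, ← comm₀]
        rfl }
  let bM : SL.BCMod φ₀ N₀ →ₛₗ[ρS] M' := SL.BCMod.lift φ₀ ρS (ρS.comp φ₀) (fun _ => rfl) c₀
  have hbM : ∀ n, bM (SL.BCMod.mk φ₀ N₀ n) = r₀' (b₀ n) := fun n => SL.BCMod.lift_mk ..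
  obtain ⟨u, hu⟩ := hx.exists_left_inv
  have hu' : ρS u * φ₀' (ρ₀ x) = 1 := by rw [← comm₀, ← map_mul, hu, map_one]
  have hbMsurj : Function.Surjective bM := by
    intro m'
    obtain ⟨j, n₀', hj⟩ := h₀'.span m'
    obtain ⟨n₀, rfl⟩ := hb₀ n₀'
    refine ⟨u ^ j • SL.BCMod.mk φ₀ N₀ n₀, ?_⟩
    rw [bM.map_smulₛₗ, hbM, ← hj, smul_smul, map_pow, ← mul_pow, hu', one_pow, one_smul]
  -- the kernel of `bM`
  have hmk : ∀ n : N₀, n ∈ (RingHom.ker ρ₀) • (⊤ : Submodule R₀ N₀) →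
      SL.BCMod.mk φ₀ N₀ n ∈ (RingHom.ker ρS) • (⊤ : Submodule S (SL.BCMod φ₀ N₀)) := by
    intro n hn
    induction hn using Submodule.smul_induction_on' with
    | smul j hj q _ =>
      rw [(SL.BCMod.mk φ₀ N₀).map_smulₛₗ]
      refine Submodule.smul_mem_smul ?_ Submodule.mem_top
      rw [RingHom.mem_ker, comm₀, (RingHom.mem_ker).mp hj, map_zero]
    | add a _ c _ ha hc => rw [map_add]; exact Submodule.add_mem _ ha hc
  have hkM : ∀ t, bM t = 0 → t ∈ (RingHom.ker ρS) • (⊤ : Submodule S (SL.BCMod φ₀ N₀)) := by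
    intro t ht
    obtain ⟨j, n₀, hj⟩ := hloc₀.span t
    have h1 : r₀' (b₀ n₀) = 0 := by rw [← hbM, ← hj, bM.map_smulₛₗ, ht, smul_zero]
    have h2 : b₀ n₀ = 0 := h₀'.inj (by rw [h1, map_zero])
    have h3 := hmk n₀ (hk₀ n₀ h2)
    have h4 : t = u ^ j • SL.BCMod.mk φ₀ N₀ n₀ := by
      rw [← hj, smul_smul, ← mul_pow, hu, one_pow, one_smul]
    rw [h4]
    exact Submodule.smul_mem _ _ h3
  -- the map `r₁`
  let c₁ : N₁ →ₛₗ[ρS.comp φ₁] M' :=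
    { toFun := fun n => r₁' (b₁ n)
      map_add' := fun n n' => by rw [map_add, map_add]
      map_smul' := fun a n => by
        rw [b₁.map_smulₛₗ, r₁'.map_smulₛₗ, ← comm₁]
        rfl }
  obtain ⟨r₁, hr₁⟩ := exists_semilinear_lift ρS bM hbMsurj c₁
  have hr₁' : ∀ n, bM (r₁ n) = r₁' (b₁ n) := hr₁
  obtain ⟨v, hv⟩ := hy.exists_left_inv
  have hspan : Submodule.span S (Set.range r₁) = ⊤ := by
    apply eq_top_of_sup_smul_eq_top hJS
    rw [eq_top_iff]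
    intro t _
    obtain ⟨j, n₁', hj⟩ := h₁'.span (bM t)
    obtain ⟨n₁, rfl⟩ := hb₁ n₁'
    have h1 : bM ((φ₁ y) ^ j • t - r₁ n₁) = 0 := by
      rw [map_sub, bM.map_smulₛₗ, hr₁', ← hj, map_pow, comm₁, sub_self]
    have h2 := hkM _ h1
    have h3 : t = v ^ j • r₁ n₁ + v ^ j • ((φ₁ y) ^ j • t - r₁ n₁) := by
      rw [← smul_add, add_sub_cancel, smul_smul, ← mul_pow, hv, one_pow, one_smul]
    rw [h3]
    exact Submodule.add_mem_sup
      (Submodule.smul_mem _ _ (Submodule.subset_span ⟨n₁, rfl⟩)) (Submodule.smul_mem _ _ h2)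
  exact ⟨N₀, N₁, SL.BCMod φ₀ N₀, inferInstance, inferInstance, inferInstance, inferInstance,
    inferInstance, inferInstance, inferInstance, inferInstance, SL.BCMod.mk φ₀ N₀, r₁, b₀, b₁, bM,
    hloc₀, isLoc_of_span hφ₁ hy hring₁ r₁ hspan, hbM, hr₁', hb₀, hb₁⟩

end glue

section rings
variable {k : Type u} [Field k] {A : Type u} [CommRing A] [Algebra k A] (I : Ideal A)
  (B : Type u) [CommRing B] [Algebra k B]

theorem map_mk_surjective : Function.Surjective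
    (Algebra.TensorProduct.map (Ideal.Quotient.mkₐ k I) (AlgHom.id k B)) :=
  LinearMap.rTensor_surjective B (g := (Ideal.Quotient.mkₐ k I).toLinearMap)
    (Ideal.Quotient.mkₐ_surjective k I)

theorem map_mk_sq_zero (hI : I ^ 2 = ⊥) (a b : A ⊗[k] B)
    (ha : Algebra.TensorProduct.map (Ideal.Quotient.mkₐ k I) (AlgHom.id k B) a = 0)
    (hb : Algebra.TensorProduct.map (Ideal.Quotient.mkₐ k I) (AlgHom.id k B) b = 0) :
    a * b = 0 := by
  have hker := Algebra.TensorProduct.rTensor_ker (R := k) (S := k) (C := B)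
    (Ideal.Quotient.mkₐ k I) (Ideal.Quotient.mkₐ_surjective k I)
  have hk : RingHom.ker (Ideal.Quotient.mkₐ k I) = I := Ideal.Quotient.mkₐ_ker k I
  rw [hk] at hker
  have ha' : a ∈ I.map (Algebra.TensorProduct.includeLeft : A →ₐ[k] A ⊗[k] B) := by
    rw [← hker]; exact ha
  have hb' : b ∈ I.map (Algebra.TensorProduct.includeLeft : A →ₐ[k] A ⊗[k] B) := by
    rw [← hker]; exact hb
  have h := Ideal.mul_mem_mul ha' hb'
  rw [← Ideal.map_mul, ← pow_two, hI, Ideal.map_bot] at h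
  exact h

end rings

end Fermat.Agent.S25.Lift

namespace Fermat.Agent.S25
variable {k : Type u} [Field k] {Γ : CurveAlg k} [hΓ : Fact Γ.IsGood]

/-- H8 : line bundles lift along square zero extensions. -/
theorem exists_lift_of_sq_zero_aux (A : Type u) [CommRing A] [Algebra k A] (I : Ideal A)
    (hI : I ^ 2 = ⊥) (n : PicAlg Γ (A ⧸ I)) :
    ∃ m : PicAlg Γ A, PicAlg.map (Ideal.Quotient.mkₐ k I) m = n := by
  obtain ⟨𝒩', rfl⟩ := PicAlg.exists_rep n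
  set f : A →ₐ[k] A ⧸ I := Ideal.Quotient.mkₐ k I with hf
  have h₀' : SL.IsLoc (Γ.φ₀ (A ⧸ I)).toRingHom ((Γ.ρ₀ f).toRingHom (Γ.xA A)) 𝒩'.r₀ := by
    have e : (Γ.ρ₀ f).toRingHom (Γ.xA A) = Γ.xA (A ⧸ I) := Γ.ρ₀_xA f
    rw [e]
    exact LB.isLoc₀ hΓ.out 𝒩'
  have h₁' : SL.IsLoc (Γ.φ₁ (A ⧸ I)).toRingHom ((Γ.ρ₁ f).toRingHom (Γ.yA A)) 𝒩'.r₁ := by
    have e : (Γ.ρ₁ f).toRingHom (Γ.yA A) = Γ.yA (A ⧸ I) := Γ.ρ₁_yA f
    rw [e]
    exact LB.isLoc₁ hΓ.out 𝒩'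
  obtain ⟨N₀, N₁, M, _, _, _, _, _, _, i₀, i₁, r₀, r₁, b₀, b₁, bM, hl₀, hl₁, hc₀, hc₁, hb₀, hb₁⟩ :=
    Lift.exists_glue_lift (φ₀ := (Γ.φ₀ A).toRingHom) (φ₁ := (Γ.φ₁ A).toRingHom)
      (φ₀' := (Γ.φ₀ (A ⧸ I)).toRingHom) (φ₁' := (Γ.φ₁ (A ⧸ I)).toRingHom)
      (ρ₀ := (Γ.ρ₀ f).toRingHom) (ρ₁ := (Γ.ρ₁ f).toRingHom) (ρS := (Γ.ρ₀₁ f).toRingHom)
      (Γ.ρ₀₁_φ₀ f) (Γ.ρ₀₁_φ₁ f) (Γ.xA A) (Γ.yA A)
      (CurveAlg.φ₀_injective hΓ.out A) (CurveAlg.φ₁_injective hΓ.out A)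
      (IsUnit.of_mul_eq_one _ (CurveAlg.φ₀_xA_mul_φ₁_yA hΓ.out A))
      (IsUnit.of_mul_eq_one _ ((mul_comm _ _).trans (CurveAlg.φ₀_xA_mul_φ₁_yA hΓ.out A)))
      (LB.unit_span₀ hΓ.out A) (LB.unit_span₁ hΓ.out A)
      (Lift.map_mk_surjective I Γ.B₀) (Lift.map_mk_surjective I Γ.B₁)
      (Lift.map_mk_sq_zero I Γ.B₀ hI) (Lift.map_mk_sq_zero I Γ.B₁ hI)
      (Lift.map_mk_sq_zero I Γ.B₀₁ hI) 𝒩'.r₀ 𝒩'.r₁ h₀' h₁'
  let 𝒩 : LB Γ A :=
    { N₀ := N₀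
      N₁ := N₁
      N₀₁ := M
      r₀ := r₀
      r₁ := r₁
      inv₀ := i₀
      inv₁ := i₁
      inj₀ := hl₀.inj
      inj₁ := hl₁.inj
      span₀ := hl₀.span
      span₁ := hl₁.span }
  refine ⟨PicAlg.mk 𝒩, PicAlg.map_mk_eq_iff.mpr ⟨?_⟩⟩
  exact
    { b₀ := b₀
      b₁ := b₁
      b₀₁ := bM
      comm₀ := hc₀
      comm₁ := hc₁
      span₀ := by
        rw [eq_top_iff]
        intro t _
        obtain ⟨n, rfl⟩ := hb₀ t
        exact Submodule.subset_span ⟨n, rfl⟩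
      span₁ := by
        rw [eq_top_iff]
        intro t _
        obtain ⟨n, rfl⟩ := hb₁ t
        exact Submodule.subset_span ⟨n, rfl⟩ }

end Fermat.Agent.S25
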