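import Fermat.Agent.S25.H.Cover

/-! # S25 / H5-H6 assembly : the (infinite) atlas of `G_alg` -/
set_option autoImplicit false
universe u
open TensorProduct Polynomial

namespace Fermat.Agent.S25
variable {k : Type u} [Field k] {Γ : CurveAlg k} [hΓ : Fact Γ.IsGood] [IsAlgClosed k]
variable {A A' : Type u} [CommRing A] [Algebra k A] [CommRing A'] [Algebra k A']

open PicAlg

/-! ### small general lemmas -/

theorem comp_kmap (f : A →ₐ[k] A') : f.comp (kmap k A) = kmap k A' := Subsingleton.elim _ _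

theorem map_map_kmap (f : A →ₐ[k] A') (γ : PicAlg Γ k) :
    PicAlg.map f (PicAlg.map (kmap k A) γ) = PicAlg.map (kmap k A') γ := by
  rw [PicAlg.map_map, comp_kmap]

theorem map_kmap_self (γ : PicAlg Γ k) : PicAlg.map (kmap k k) γ = γ := by
  have : kmap k k = AlgHom.id k k := Subsingleton.elim _ _
  rw [this, PicAlg.map_id]

theorem PicAlg.FromBase.eq_one_of_field {K : Type u} [Field K] [Algebra k K] {l : PicAlg Γ K}
    (h : FromBase l) : l = 1 := h.eq_one_of_rigid (rigid_of_field l)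

theorem commGroup_aux {G : Type*} [CommGroup G] {a b g x y : G}
    (h : a⁻¹ * g⁻¹ * x = b⁻¹ * g⁻¹ * y) : a * b⁻¹ = x * y⁻¹ := by
  rw [mul_right_comm a⁻¹ g⁻¹ x, mul_right_comm b⁻¹ g⁻¹ y] at h
  have h1 := eq_mul_of_inv_mul_eq (mul_right_cancel h)
  rw [h1, ← mul_assoc, mul_inv_cancel_right]

theorem ρ₀_comp {A'' : Type u} [CommRing A''] [Algebra k A''] (f : A →ₐ[k] A') (g : A' →ₐ[k] A'') :
    Γ.ρ₀ (g.comp f) = (Γ.ρ₀ g).comp (Γ.ρ₀ f) := by
  unfold CurveAlg.ρ₀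
  ext <;> simp

theorem map_ρ₀_map_ρ₀ {A'' : Type u} [CommRing A''] [Algebra k A''] (f : A →ₐ[k] A')
    (g : A' →ₐ[k] A'') (I : Ideal (Γ.R₀ A)) :
    (I.map (Γ.ρ₀ f)).map (Γ.ρ₀ g) = I.map (Γ.ρ₀ (g.comp f)) := by
  rw [ρ₀_comp, Ideal.map_mapₐ]

theorem exists_lift_away (a : A) (φ : A →ₐ[k] A') (h : IsUnit (φ a)) :
    ∃ ψ : Localization.Away a →ₐ[k] A', ψ.comp (toAway a) = φ := by
  have hf : ∀ y : Submonoid.powers a, IsUnit (φ y) := by
    rintro ⟨_, m, rfl⟩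
    simpa using h.pow m
  refine ⟨IsLocalization.liftAlgHom (S := Localization.Away a) hf, ?_⟩
  ext z
  simp [toAway, Algebra.ofId_apply]

theorem away_hom_ext (a : A) {ψ ψ' : Localization.Away a →ₐ[k] A'}
    (h : ψ.comp (toAway a) = ψ'.comp (toAway a)) : ψ = ψ' :=
  IsLocalization.algHom_ext (Submonoid.powers a) h

theorem isUnit_toAway (a : A) : IsUnit (toAway (k := k) a a) :=
  IsLocalization.Away.algebraMap_isUnit a

theorem comap_toResidue (p : PrimeSpectrum A) :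
    PrimeSpectrum.comap (toResidue (k := k) p).toRingHom ⊥ = p := by
  ext x
  simp [toResidue, Algebra.ofId_apply, Ideal.algebraMap_residueField_eq_zero]

theorem toResidue_ne_zero {p : PrimeSpectrum A} {a : A} (ha : a ∉ p.asIdeal) :
    toResidue (k := k) p a ≠ 0 := by
  simpa [toResidue, Algebra.ofId_apply, Ideal.algebraMap_residueField_eq_zero] using ha

/-- openness of the vanishing locus of `h¹`. -/
theorem exists_ne_zero_h1 (m : PicAlg Γ A) {K : Type u} [Field K] [Algebra k K] (φ : A →ₐ[k] K)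
    (h : h1 (PicAlg.map φ m) = 0) : ∃ a : A, φ a ≠ 0 ∧
      ∀ (K' : Type u) [Field K'] [Algebra k K'] (ψ : A →ₐ[k] K'), ψ a ≠ 0 →
        h1 (PicAlg.map ψ m) = 0 := by
  obtain ⟨e0, e1, he, -, hc, -⟩ := PicAlg.exists_h0_h1 m
  have hopen : IsOpen {p | 1 ≤ e1 p}ᶜ := (hc 1).isOpen_compl
  have hmem : PrimeSpectrum.comap φ.toRingHom ⊥ ∈ {p | 1 ≤ e1 p}ᶜ := by
    simp only [Set.mem_compl_iff, Set.mem_setOf_eq, not_le, Nat.lt_one_iff]
    rw [← (he K φ).2, h]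
  obtain ⟨_, ⟨a, rfl⟩, ha, hsub⟩ :=
    PrimeSpectrum.isTopologicalBasis_basic_opens.exists_subset_of_mem_open hmem hopen
  refine ⟨a, ?_, fun K' _ _ ψ hψ => ?_⟩
  · simpa using ha
  · have : PrimeSpectrum.comap ψ.toRingHom ⊥ ∈ {p | 1 ≤ e1 p}ᶜ := hsub (by simpa using hψ)
    simp only [Set.mem_compl_iff, Set.mem_setOf_eq, not_le, Nat.lt_one_iff] at this
    rw [(he K' ψ).2, this]

/-! ### degrees of the twisting classes -/
section deg
variable {K : Type u} [Field K] [Algebra k K]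

theorem deg_mul_pt₀_inv (n : PicAlg Γ K) (P : Γ.B₀ →ₐ[k] K) :
    deg (n * (pt₀ P)⁻¹) = deg n - 1 := by
  have := deg_mul_pt₀ (n * (pt₀ P)⁻¹) P
  rw [inv_mul_cancel_right] at this; linarith

/-- the degree of the divisor at infinity -/
noncomputable def dInf (Γ : CurveAlg k) [Fact Γ.IsGood] [IsAlgClosed k] : ℕ :=
  (exists_deg_mul_infty (Γ := Γ)).choose

theorem deg_mul_infty (n : PicAlg Γ K) : deg (n * infty Γ K) = deg n + dInf Γ :=
  (exists_deg_mul_infty (Γ := Γ)).choose_spec.2 K n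

theorem deg_mul_infty_pow (n : PicAlg Γ K) (j : ℕ) :
    deg (n * infty Γ K ^ j) = deg n + j * dInf Γ := by
  induction j with
  | zero => simp
  | succ j ih => rw [pow_succ, ← mul_assoc, deg_mul_infty, ih]; push_cast; ring

theorem deg_mul_prod_pt₀_inv (n : PicAlg Γ K) (l : List (Γ.B₀ →ₐ[k] K)) :
    deg (n * ((l.map pt₀).prod)⁻¹) = deg n - l.length := by
  induction l generalizing n with
  | nil => simp
  | cons P l ih =>
    rw [List.map_cons, List.prod_cons, mul_inv, ← mul_assoc, ih, deg_mul_pt₀_inv]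
    simp only [List.length_cons]; push_cast; ring

theorem map_gam (A : Type u) [CommRing A] [Algebra k A] (j : ℕ) (Rs : List (Γ.B₀ →ₐ[k] k)) :
    PicAlg.map (kmap k A) (gam Γ j Rs) =
      infty Γ A ^ j * (((Rs.map fun R => (kmap k A).comp R).map pt₀).prod)⁻¹ := by
  unfold gam
  rw [map_mul, map_pow, map_infty, map_inv, map_list_prod, List.map_map, List.map_map]
  congr 3
  apply List.map_congr_left
  intro R _
  simp [map_pt₀]

theorem deg_mul_map_gam (n : PicAlg Γ K) (j : ℕ) (Rs : List (Γ.B₀ →ₐ[k] k)) :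
    deg (n * PicAlg.map (kmap k K) (gam Γ j Rs)) = deg n + (j * dInf Γ - Rs.length) := by
  rw [map_gam, ← mul_assoc, deg_mul_prod_pt₀_inv, deg_mul_infty_pow]
  simp only [List.length_map]; ring

theorem deg_gam (j : ℕ) (Rs : List (Γ.B₀ →ₐ[k] k)) :
    deg (gam Γ j Rs) = j * dInf Γ - Rs.length := by
  have := deg_mul_map_gam (K := k) (1 : PicAlg Γ k) j Rs
  rw [one_mul, map_kmap_self, deg_one] at this
  linarith

theorem deg_mul_map_gam' (n : PicAlg Γ K) (j : ℕ) (Rs : List (Γ.B₀ →ₐ[k] k)) :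
    deg (n * PicAlg.map (kmap k K) (gam Γ j Rs)) = deg n + deg (gam Γ j Rs) := by
  rw [deg_mul_map_gam, deg_gam]

end deg

/-! ### the charts -/

/-- chosen representing object of the Hilbert functor in the basis chart `b` -/
noncomputable def hilb (b : Fin Γ.genus → Γ.B₀) : HilbRep k Γ.B₀ b :=
  haveI := hΓ.out.finiteType₀
  (nonempty_hilbRep b).some

/-- index set of all charts -/
structure ChartIdx (Γ : CurveAlg k) [Fact Γ.IsGood] [IsAlgClosed k] where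
  j : ℕ
  Rs : List (Γ.B₀ →ₐ[k] k)
  b : Fin Γ.genus → Γ.B₀
  f : (hilb b).R
  hγ : PicAlg.deg (gam Γ j Rs) = Γ.genus
  hf : ∀ (K : Type u) [Field K] [Algebra k K] (φ : (hilb b).R →ₐ[k] K), φ f ≠ 0 →
    PicAlg.h1 ((negDiv₀ ((hilb b).Iu.map (Γ.ρ₀ φ)))⁻¹) = 0

namespace ChartIdx
variable (c : ChartIdx Γ)

noncomputable abbrev H : HilbRep k Γ.B₀ c.b := hilb c.b
abbrev R : Type u := Localization.Away c.f
noncomputable def γ : PicAlg Γ k := gam Γ c.j c.Rs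
/-- the ideal classified by `φ` -/
noncomputable def J (φ : c.H.R →ₐ[k] A) : Ideal (Γ.R₀ A) := c.H.Iu.map (Γ.ρ₀ φ)

theorem isBasisMod_J (φ : c.H.R →ₐ[k] A) : IsBasisMod (c.J φ) c.b := c.H.basis.map φ

theorem J_comp (φ : c.H.R →ₐ[k] A) (g : A →ₐ[k] A') :
    c.J (g.comp φ) = (c.J φ).map (Γ.ρ₀ g) := (map_ρ₀_map_ρ₀ φ g _).symm

theorem map_negDiv₀_J (φ : c.H.R →ₐ[k] A) (g : A →ₐ[k] A') :
    PicAlg.map g (negDiv₀ (c.J φ)) = negDiv₀ (c.J (g.comp φ)) := by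
  rw [map_negDiv₀ (c.isBasisMod_J φ), J_comp]

theorem J_injective {φ ψ : c.H.R →ₐ[k] A} (h : c.J φ = c.J ψ) : φ = ψ :=
  (c.H.univ A (c.J φ) (c.isBasisMod_J φ)).unique rfl h

theorem exists_J {I : Ideal (Γ.R₀ A)} (h : IsBasisMod I c.b) : ∃ φ : c.H.R →ₐ[k] A, I = c.J φ :=
  (c.H.univ A I h).exists

theorem deg_negDiv₀_inv {K : Type u} [Field K] [Algebra k K] {g : ℕ} {b : Fin g → Γ.B₀}
    {I : Ideal (Γ.R₀ K)} (h : IsBasisMod I b) : deg ((negDiv₀ I)⁻¹) = g := by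
  have := deg_mul_negDiv₀ h ((negDiv₀ I)⁻¹)
  rw [inv_mul_cancel, deg_one] at this
  linarith

theorem h1_J {K : Type u} [Field K] [Algebra k K] (φ : c.H.R →ₐ[k] K) (h : φ c.f ≠ 0) :
    h1 ((negDiv₀ (c.J φ))⁻¹) = 0 := c.hf K φ h

theorem h0_eq_one_of_h1 {K : Type u} [Field K] [Algebra k K] {b : Fin Γ.genus → Γ.B₀}
    {I : Ideal (Γ.R₀ K)} (h : IsBasisMod I b) (h' : h1 ((negDiv₀ I)⁻¹) = 0) :
    h0 ((negDiv₀ I)⁻¹) = 1 := by
  have := deg_negDiv₀_inv h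
  unfold deg chi at this
  rw [h'] at this
  have h2 : (h0 ((negDiv₀ I)⁻¹) : ℤ) = 1 := by push_cast at this; linarith
  exact_mod_cast h2

theorem h0_J {K : Type u} [Field K] [Algebra k K] (φ : c.H.R →ₐ[k] K) (h : φ c.f ≠ 0) :
    h0 ((negDiv₀ (c.J φ))⁻¹) = 1 := h0_eq_one_of_h1 (c.isBasisMod_J φ) (c.h1_J φ h)

noncomputable def ξ₀ : PicAlg Γ c.R :=
  (negDiv₀ (c.J (toAway c.f)))⁻¹ * (PicAlg.map (kmap k c.R) c.γ)⁻¹
noncomputable def l : PicAlg Γ c.R := (exists_fromBase_mul_rigid c.ξ₀).choose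
theorem l_fromBase : FromBase c.l := (exists_fromBase_mul_rigid c.ξ₀).choose_spec.1
/-- the universal class on the chart -/
noncomputable def ξ : PicAlg Γ c.R := c.ξ₀ * c.l
theorem ξ_rigid : c.ξ.Rigid := (exists_fromBase_mul_rigid c.ξ₀).choose_spec.2

theorem map_ξ₀ (Φ : c.R →ₐ[k] A) : PicAlg.map Φ c.ξ₀ =
    (negDiv₀ (c.J (Φ.comp (toAway c.f))))⁻¹ * (PicAlg.map (kmap k A) c.γ)⁻¹ := by
  unfold ξ₀
  rw [map_mul, map_inv, map_inv, map_negDiv₀_J, map_map_kmap]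

theorem map_ξ_eq (Φ : c.R →ₐ[k] A) (n : PicAlg Γ A) (hn : n.Rigid)
    (h : n * PicAlg.map (kmap k A) c.γ * negDiv₀ (c.J (Φ.comp (toAway c.f))) = 1) :
    PicAlg.map Φ c.ξ = n := by
  have h0 : PicAlg.map Φ c.ξ₀ = n := by
    rw [map_ξ₀, ← mul_inv, eq_comm, ← mul_inv_eq_one, inv_inv, ← h, mul_assoc,
      mul_comm (negDiv₀ _)]
  have h1 : PicAlg.map Φ c.ξ = n * PicAlg.map Φ c.l := by
    unfold ξ; rw [map_mul, h0]
  have h2 : PicAlg.map Φ c.l = 1 := by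
    apply (c.l_fromBase.map Φ).eq_one_of_rigid
    have : PicAlg.map Φ c.l = PicAlg.map Φ c.ξ * n⁻¹ := by rw [h1]; simp [mul_comm]
    rw [this]
    exact (c.ξ_rigid.map Φ).mul hn.inv
  rw [h1, h2, mul_one]

/-- the chart condition on field valued points -/
def M (K : Type u) [Field K] [Algebra k K] (n : PicAlg Γ K) : Prop :=
  ∃ φ : c.H.R →ₐ[k] K, φ c.f ≠ 0 ∧ n * PicAlg.map (kmap k K) c.γ * negDiv₀ (c.J φ) = 1

theorem comp_toAway_f_ne_zero {K : Type u} [Field K] [Algebra k K] (Φ : c.R →ₐ[k] K) :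
    (Φ.comp (toAway c.f)) c.f ≠ 0 := ((isUnit_toAway (k := k) c.f).map Φ).ne_zero

theorem map_ξ_field {K : Type u} [Field K] [Algebra k K] (Φ : c.R →ₐ[k] K) :
    PicAlg.map Φ c.ξ * PicAlg.map (kmap k K) c.γ * negDiv₀ (c.J (Φ.comp (toAway c.f))) = 1 := by
  unfold ξ
  rw [map_mul, (c.l_fromBase.map Φ).eq_one_of_field, mul_one, map_ξ₀]
  simp

theorem deg_eq_zero_of_eq {K : Type u} [Field K] [Algebra k K] {n : PicAlg Γ K}
    {φ : c.H.R →ₐ[k] K} (h : n * PicAlg.map (kmap k K) c.γ * negDiv₀ (c.J φ) = 1) : deg n = 0 := by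
  have h1 := deg_mul_negDiv₀ (c.isBasisMod_J φ) (n * PicAlg.map (kmap k K) c.γ)
  rw [h, deg_one] at h1
  have h2 := deg_mul_map_gam' n c.j c.Rs
  rw [c.hγ] at h2
  unfold γ at h1
  linarith

theorem ξ_deg0 : c.ξ.Deg0 := fun _ _ _ Φ => c.deg_eq_zero_of_eq (c.map_ξ_field Φ)

theorem M_iff (K : Type u) [Field K] [Algebra k K] (n : PicAlg Γ K) :
    c.M K n ↔ ∃ φ : c.R →ₐ[k] K, PicAlg.map φ c.ξ = n := by
  constructor
  · rintro ⟨φ, hφ, h⟩
    obtain ⟨Φ, hΦ⟩ := exists_lift_away c.f φ (isUnit_iff_ne_zero.2 hφ)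
    exact ⟨Φ, c.map_ξ_eq Φ n (rigid_of_field n) (by rw [hΦ]; exact h)⟩
  · rintro ⟨Φ, rfl⟩
    exact ⟨Φ.comp (toAway c.f), c.comp_toAway_f_ne_zero Φ, c.map_ξ_field Φ⟩

theorem M_map_iff (K K' : Type u) [Field K] [Algebra k K] [Field K'] [Algebra k K']
    (f : K →ₐ[k] K') (n : PicAlg Γ K) : c.M K' (PicAlg.map f n) ↔ c.M K n := by
  constructor
  · rintro ⟨φ', hφ', h'⟩
    obtain ⟨I, hI, hII⟩ := InChart.descend (γ := c.γ) (b := c.b) f (n := n) (I' := c.J φ')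
      ⟨c.isBasisMod_J φ', h', c.h1_J φ' hφ'⟩
    obtain ⟨φ, rfl⟩ := c.exists_J hI.1
    rw [← J_comp] at hII
    have := c.J_injective hII
    subst this
    refine ⟨φ, fun h0 => hφ' (by simp [h0]), hI.2.1⟩
  · rintro ⟨φ, hφ, h⟩
    refine ⟨f.comp φ, by simpa using hφ, ?_⟩
    have := congrArg (PicAlg.map f) h
    rwa [map_mul, map_mul, map_one, map_map_kmap, map_negDiv₀_J] at this

theorem inj (A : Type u) [CommRing A] [Algebra k A] (Φ Ψ : c.R →ₐ[k] A)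
    (h : PicAlg.map Φ c.ξ = PicAlg.map Ψ c.ξ) : Φ = Ψ := by
  apply away_hom_ext
  apply c.J_injective
  apply eq_of_fromBase (c.isBasisMod_J _) (c.isBasisMod_J _)
  · intro K _ _ f
    rw [← J_comp]
    have : (f.comp (Φ.comp (toAway c.f))) c.f ≠ 0 := c.comp_toAway_f_ne_zero (f.comp Φ)
    exact ⟨c.h1_J _ this, c.h0_J _ this⟩
  · have : negDiv₀ (c.J (Φ.comp (toAway c.f))) * (negDiv₀ (c.J (Ψ.comp (toAway c.f))))⁻¹ =
        PicAlg.map Φ c.l * (PicAlg.map Ψ c.l)⁻¹ := by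
      unfold ξ at h
      rw [map_mul, map_mul, map_ξ₀, map_ξ₀] at h
      exact commGroup_aux h
    rw [this]
    exact (c.l_fromBase.map Φ).mul (c.l_fromBase.map Ψ).inv

theorem surj (A : Type u) [CommRing A] [Algebra k A] (n : PicAlg Γ A) (hn : n.Rigid)
    (p : PrimeSpectrum A) (h : c.M p.asIdeal.ResidueField (PicAlg.map (toResidue p) n)) :
    ∃ (a : A) (_ : a ∉ p.asIdeal) (φ : c.R →ₐ[k] Localization.Away a),
      PicAlg.map φ c.ξ = PicAlg.map (toAway a) n := by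
  obtain ⟨φp, hφp, hp⟩ := h
  obtain ⟨a, ha, I, hI, hIn, hI1⟩ := exists_chart_local c.γ c.b n p (c.J φp)
    ⟨c.isBasisMod_J φp, hp, c.h1_J φp hφp⟩
  obtain ⟨φ, rfl⟩ := c.exists_J hI
  obtain ⟨π, hπ⟩ := exists_lift_away a (toResidue (k := k) p)
    (isUnit_iff_ne_zero.2 (toResidue_ne_zero ha))
  have e1 : PicAlg.map (toResidue p) n * PicAlg.map (kmap k _) c.γ *
      negDiv₀ (c.J (π.comp φ)) = 1 := by
    have := congrArg (PicAlg.map π) hIn
    rwa [map_mul, map_mul, map_one, PicAlg.map_map, hπ, map_map_kmap, map_negDiv₀_J] at this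
  have e2 : negDiv₀ (c.J (π.comp φ)) = negDiv₀ (c.J φp) := mul_left_cancel (e1.trans hp.symm)
  have e3 : c.J (π.comp φ) = c.J φp := by
    apply eq_of_fromBase (c.isBasisMod_J _) (c.isBasisMod_J _)
    · intro K _ _ f
      rw [← J_comp]
      have h1 : h1 (negDiv₀ (c.J (f.comp (π.comp φ))))⁻¹ = 0 := by
        have := hI1 K (f.comp π)
        rwa [← J_comp] at this
      exact ⟨h1, h0_eq_one_of_h1 (c.isBasisMod_J _) h1⟩
    · rw [e2, mul_inv_cancel]; exact fromBase_one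
  have e4 : π.comp φ = φp := c.J_injective e3
  have hp' : PrimeSpectrum.comap (toAway (k := k) a).toRingHom
      (PrimeSpectrum.comap π.toRingHom ⊥) = p := by
    refine Eq.trans ?_ (comap_toResidue (k := k) p)
    rw [← hπ]
    rfl
  have ha' : φ c.f ∉ (PrimeSpectrum.comap π.toRingHom ⊥).asIdeal := by
    have : π (φ c.f) ≠ 0 := by
      have := hφp
      rw [← e4] at this
      exact this
    simpa using this
  obtain ⟨a'', ha'', ψ, hψ⟩ := exists_away_refinement a (φ c.f) p _ hp' ha'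
  obtain ⟨Φ, hΦ⟩ := exists_lift_away c.f ((ψ.comp (toAway (φ c.f))).comp φ)
    ((isUnit_toAway (k := k) (φ c.f)).map ψ)
  refine ⟨a'', ha'', Φ, c.map_ξ_eq Φ _ (hn.map _) ?_⟩
  rw [hΦ]
  have := congrArg (PicAlg.map (ψ.comp (toAway (φ c.f)))) hIn
  rwa [map_mul, map_mul, map_one, PicAlg.map_map, map_map_kmap, map_negDiv₀_J, AlgHom.comp_assoc,
    hψ] at this

theorem cover (K : Type u) [Field K] [Algebra k K] (n : PicAlg Γ K) (hn : n.Deg0) :
    ∃ c : ChartIdx Γ, c.M K n := by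
  have hn0 : deg n = 0 := by
    have := hn K (AlgHom.id k K)
    rwa [PicAlg.map_id] at this
  obtain ⟨j, Rs, b, I, hI, hIn, hI1⟩ := exists_inChart n hn0
  obtain ⟨φ, hφ⟩ := ((hilb b).univ K I hI).exists
  have hm : PicAlg.map φ ((negDiv₀ (hilb b).Iu)⁻¹) = (negDiv₀ I)⁻¹ := by
    rw [map_inv, map_negDiv₀ (hilb b).basis, hφ]; rfl
  obtain ⟨f, hf, hf'⟩ := exists_ne_zero_h1 ((negDiv₀ (hilb b).Iu)⁻¹) φ (by rw [hm]; exact hI1)
  have hγ : deg (gam Γ j Rs) = Γ.genus := by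
    have h1 := deg_mul_negDiv₀ hI (n * PicAlg.map (kmap k K) (gam Γ j Rs))
    rw [hIn, deg_one, deg_mul_map_gam', hn0] at h1
    linarith
  refine ⟨⟨j, Rs, b, f, hγ, fun K' _ _ ψ hψ => ?_⟩, φ, hf, ?_⟩
  · have := hf' K' ψ hψ
    rwa [map_inv, map_negDiv₀ (hilb b).basis] at this
  · rw [hφ] at hIn
    exact hIn

end ChartIdx

/-- the atlas of all charts -/
noncomputable def preAtlas (Γ : CurveAlg k) [Fact Γ.IsGood] : AlgPreAtlas Γ where
  ι := ChartIdx Γ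
  R c := c.R
  finiteType c := by
    have := c.H.finiteType
    exact (Algebra.FiniteType.trans (S := c.H.R) inferInstance
      (IsLocalization.finiteType_of_monoid_fg (Submonoid.powers c.f) c.R))
  ξ c := c.ξ
  ξ_mem c := ⟨c.ξ_rigid, c.ξ_deg0⟩
  M c := c.M
  M_map_iff c := c.M_map_iff
  M_iff c := c.M_iff
  inj c := c.inj
  surj c := c.surj
  cover := ChartIdx.cover

end Fermat.Agent.S25
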