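import Fermat.Agent.S25.H.Hilb

/-! # S25 / H5f : `IsBasisMod` is an open condition (quotient f.g. projective) -/
set_option autoImplicit false
universe u
open TensorProduct

namespace Fermat.Agent.S25
variable {k : Type u} [Field k] {B : Type u} [CommRing B] [Algebra k B] {g : ℕ}

namespace HilbOpen

variable {A : Type u} [CommRing A] [Algebra k A]

/-- a linear map killing the image of `I` kills the extended ideal -/
theorem eq_zero_of_mem_map {A' : Type u} [CommRing A'] [Algebra k A'] (f : A →ₐ[k] A')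
    (I : Ideal (A ⊗[k] B)) {M' : Type*} [AddCommGroup M'] [Module A' M']
    (L : A' ⊗[k] B →ₗ[A'] M') (hL : ∀ x ∈ I, L (bcMap B f x) = 0) :
    ∀ y ∈ I.map (bcMap B f), L y = 0 := by
  have key : ∀ y ∈ I.map (bcMap B f), ∀ w : A' ⊗[k] B, L (w * y) = 0 := by
    intro y hy
    refine Submodule.span_induction ?_ ?_ ?_ ?_ hy
    · rintro _ ⟨x, hx, rfl⟩ w
      induction w using TensorProduct.induction_on with
      | zero => simp
      | tmul a' β =>
        have e : a' ⊗ₜ[k] β * bcMap B f x = a' • bcMap B f ((1 : A) ⊗ₜ[k] β * x) := by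
          rw [map_mul, ← smul_mul_assoc]
          simp [TensorProduct.smul_tmul']
        have e' : L (a' ⊗ₜ[k] β * bcMap B f x) = 0 := by
          rw [e, map_smul, hL _ (I.mul_mem_left _ hx), smul_zero]
        exact e'
      | add w w' hw hw' => rw [add_mul, map_add, hw, hw', add_zero]
    · intro w; simp
    · intro y y' _ _ hy hy' w; rw [mul_add, map_add, hy, hy', add_zero]
    · intro c y _ hy w; rw [smul_eq_mul, ← mul_assoc]; exact hy _
  intro y hy
  simpa using key y hy 1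

/-- the quotient map as an `A`-linear map -/
noncomputable def mkL (I : Ideal (A ⊗[k] B)) : A ⊗[k] B →ₗ[A] ((A ⊗[k] B) ⧸ I) where
  toFun := Ideal.Quotient.mk I
  map_add' := map_add _
  map_smul' _ _ := rfl

@[simp] theorem mkL_apply (I : Ideal (A ⊗[k] B)) (z : A ⊗[k] B) :
    mkL I z = Ideal.Quotient.mk I z := rfl

/-- `c ↦ ∑ c i • [1 ⊗ b i]` -/
noncomputable def uMap (I : Ideal (A ⊗[k] B)) (b : Fin g → B) :
    (Fin g → A) →ₗ[A] ((A ⊗[k] B) ⧸ I) :=
  Fintype.linearCombination A (fun i => Ideal.Quotient.mk I ((1 : A) ⊗ₜ[k] b i))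

theorem uMap_apply (I : Ideal (A ⊗[k] B)) (b : Fin g → B) (c : Fin g → A) :
    uMap I b c = Ideal.Quotient.mk I (∑ i, c i ⊗ₜ[k] b i) := by
  rw [uMap, Fintype.linearCombination_apply, map_sum]
  refine Finset.sum_congr rfl (fun i _ => ?_)
  have : c i ⊗ₜ[k] b i = c i • ((1 : A) ⊗ₜ[k] b i) := by simp [TensorProduct.smul_tmul']
  rw [this]; rfl

theorem uMap_single (I : Ideal (A ⊗[k] B)) (b : Fin g → B) (i : Fin g) :
    uMap I b (Pi.single i 1) = Ideal.Quotient.mk I ((1 : A) ⊗ₜ[k] b i) := by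
  classical
  rw [uMap, Fintype.linearCombination_apply, Finset.sum_eq_single i]
  · simp
  · intro j _ hj; simp [Pi.single_eq_of_ne hj]
  · simp

theorem isBasisMod_iff_bijective (I : Ideal (A ⊗[k] B)) (b : Fin g → B) :
    IsBasisMod I b ↔ Function.Bijective (uMap I b) := by
  constructor
  · intro h
    constructor
    · rw [injective_iff_map_eq_zero]
      intro c hc
      rw [uMap_apply, Ideal.Quotient.eq_zero_iff_mem, h.mem_iff, h.coord_sum] at hc
      exact hc
    · intro x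
      obtain ⟨z, rfl⟩ := Ideal.Quotient.mk_surjective x
      refine ⟨h.coord z, ?_⟩
      rw [uMap_apply, eq_comm, Ideal.Quotient.eq]
      exact h.coord_spec z
  · intro h z
    obtain ⟨c, hc⟩ := h.2 (Ideal.Quotient.mk I z)
    refine ⟨c, ?_, ?_⟩
    · show z - ∑ i, c i ⊗ₜ[k] b i ∈ I
      rw [← Ideal.Quotient.eq, ← uMap_apply, hc]
    · intro c' hc'
      apply h.1
      rw [hc, uMap_apply, eq_comm, Ideal.Quotient.eq]
      exact hc'

/-- an approximate inverse of `uMap` gives `IsBasisMod` over every algebra where the two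
multipliers become units -/
theorem isBasisMod_of_approx_inverse {A' : Type u} [CommRing A'] [Algebra k A'] (f : A →ₐ[k] A')
    (I : Ideal (A ⊗[k] B)) (b : Fin g → B) (a₁ a₂ : A)
    (s w : ((A ⊗[k] B) ⧸ I) →ₗ[A] (Fin g → A))
    (hs : ∀ x, uMap I b (s x) = a₁ • x) (hw : ∀ c, w (uMap I b c) = a₂ • c)
    (h₁ : IsUnit (f a₁)) (h₂ : IsUnit (f a₂)) : IsBasisMod (I.map (bcMap B f)) b := by
  classical
  obtain ⟨v₁, hv₁⟩ := h₁.exists_left_inv
  obtain ⟨v₂, hv₂⟩ := h₂.exists_left_inv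
  let π₀' : B →ₗ[k] (Fin g → A') := (f.toLinearMap.compLeft (Fin g)) ∘ₗ
    ((w ∘ₗ mkL I).restrictScalars k) ∘ₗ (TensorProduct.mk k A B 1)
  have h0 : ∀ β l, π₀' β l = f ((w ∘ₗ mkL I) ((1 : A) ⊗ₜ[k] β) l) := fun _ _ => rfl
  let π' : A' ⊗[k] B →ₗ[A'] (Fin g → A') := v₂ • π₀'.liftBaseChange A'
  have hπ : ∀ x l, π' (bcMap B f x) l = v₂ * f (w (Ideal.Quotient.mk I x) l) := by
    intro x l
    have := IsBasisMod.liftBaseChange_bcMap f (w ∘ₗ mkL I) π₀' h0 x l
    simp only [π', LinearMap.smul_apply, Pi.smul_apply, smul_eq_mul, this]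
    rfl
  have hb : ∀ i, π' ((1 : A') ⊗ₜ[k] b i) = Pi.single i 1 := by
    intro i
    ext l
    have e : (1 : A') ⊗ₜ[k] b i = bcMap B f ((1 : A) ⊗ₜ[k] b i) := by simp
    rw [e, hπ, ← uMap_single, hw]
    by_cases hl : l = i
    · subst hl; simp [hv₂]
    · simp [Pi.single_eq_of_ne hl]
  have hkill : ∀ y ∈ I.map (bcMap B f), π' y = 0 := by
    apply eq_zero_of_mem_map
    intro x hx
    ext l
    rw [hπ, Ideal.Quotient.eq_zero_iff_mem.2 hx]
    simp
  have hsum : ∀ c : Fin g → A', π' (∑ i, c i ⊗ₜ[k] b i) = c := by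
    intro c
    have : ∀ i, c i ⊗ₜ[k] b i = c i • ((1 : A') ⊗ₜ[k] b i) := by
      intro i; simp [TensorProduct.smul_tmul']
    simp only [this, map_sum, map_smul, hb]
    ext j
    simp [Finset.sum_apply, Pi.single_apply]
  have hβ : ∀ β : B, (1 : A') ⊗ₜ[k] β - ∑ i, π' ((1 : A') ⊗ₜ[k] β) i ⊗ₜ[k] b i ∈
      I.map (bcMap B f) := by
    intro β
    have h1 : a₁ • ((1 : A) ⊗ₜ[k] β) - ∑ i, s (Ideal.Quotient.mk I ((1 : A) ⊗ₜ[k] β)) i ⊗ₜ[k] b i
        ∈ I := by
      rw [← Ideal.Quotient.eq, ← uMap_apply, hs]; rfl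
    have h2 := (I.map (bcMap B f)).mul_mem_left (v₁ ⊗ₜ[k] (1 : B)) (Ideal.mem_map_of_mem _ h1)
    have e : v₁ ⊗ₜ[k] (1 : B) * bcMap B f (a₁ • ((1 : A) ⊗ₜ[k] β) -
        ∑ i, s (Ideal.Quotient.mk I ((1 : A) ⊗ₜ[k] β)) i ⊗ₜ[k] b i) =
        (1 : A') ⊗ₜ[k] β -
          ∑ i, (fun i => v₁ * f (s (Ideal.Quotient.mk I ((1 : A) ⊗ₜ[k] β)) i)) i ⊗ₜ[k] b i := by
      simp only [TensorProduct.smul_tmul', smul_eq_mul, mul_one, map_sub, map_sum,
        Algebra.TensorProduct.map_tmul, AlgHom.coe_id, id_eq, mul_sub, Finset.mul_sum,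
        Algebra.TensorProduct.tmul_mul_tmul, one_mul, hv₁]
    rw [e] at h2
    have h3 := hkill _ h2
    rw [map_sub, hsum, sub_eq_zero] at h3
    rw [h3]
    exact h2
  have hspec : ∀ z, z - ∑ i, π' z i ⊗ₜ[k] b i ∈ I.map (bcMap B f) := by
    intro z
    induction z using TensorProduct.induction_on with
    | zero => simp
    | tmul a' β =>
      have h2 := (I.map (bcMap B f)).mul_mem_left (a' ⊗ₜ[k] (1 : B)) (hβ β)
      have e1 : a' ⊗ₜ[k] β = a' • ((1 : A') ⊗ₜ[k] β) := by simp [TensorProduct.smul_tmul']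
      have e : a' ⊗ₜ[k] (1 : B) * ((1 : A') ⊗ₜ[k] β - ∑ i, π' ((1 : A') ⊗ₜ[k] β) i ⊗ₜ[k] b i) =
          a' ⊗ₜ[k] β - ∑ i, π' (a' ⊗ₜ[k] β) i ⊗ₜ[k] b i := by
        conv_rhs => rw [e1, map_smul]
        simp only [mul_sub, Finset.mul_sum, Algebra.TensorProduct.tmul_mul_tmul, mul_one, one_mul,
          Pi.smul_apply, smul_eq_mul, TensorProduct.smul_tmul']
      rw [← e]; exact h2
    | add x y hx hy =>
      have := (I.map (bcMap B f)).add_mem hx hy
      have e : x + y - ∑ i, π' (x + y) i ⊗ₜ[k] b i =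
          (x - ∑ i, π' x i ⊗ₜ[k] b i) + (y - ∑ i, π' y i ⊗ₜ[k] b i) := by
        simp only [map_add, Pi.add_apply, TensorProduct.add_tmul, Finset.sum_add_distrib]
        ring
      rw [e]; exact this
  refine IsBasisMod.of_linearMap π' hb (fun z => ⟨hkill z, fun hz => ?_⟩)
  have := hspec z
  simpa [hz] using this

/-- Nakayama step: the cokernel of `uMap` vanishes at `κ(p)`. -/
theorem subsingleton_tensor_coker (I : Ideal (A ⊗[k] B)) (b : Fin g → B) (p : PrimeSpectrum A)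
    (h : IsBasisMod (I.map (bcMap B
      ((Algebra.ofId A p.asIdeal.ResidueField).restrictScalars k))) b) :
    Subsingleton (p.asIdeal.ResidueField ⊗[A] (((A ⊗[k] B) ⧸ I) ⧸ LinearMap.range (uMap I b))) := by
  classical
  set κ := p.asIdeal.ResidueField with hκ
  set f : A →ₐ[k] κ := (Algebra.ofId A κ).restrictScalars k with hf
  let θ₀ : B →ₗ[k] κ ⊗[A] ((A ⊗[k] B) ⧸ I) :=
    ((TensorProduct.mk A κ ((A ⊗[k] B) ⧸ I) 1).restrictScalars k) ∘ₗ
      ((mkL I).restrictScalars k) ∘ₗ (TensorProduct.mk k A B 1)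
  let Θ : κ ⊗[k] B →ₗ[κ] κ ⊗[A] ((A ⊗[k] B) ⧸ I) := θ₀.liftBaseChange κ
  have hΘ : ∀ z : A ⊗[k] B, Θ (bcMap B f z) = (1 : κ) ⊗ₜ[A] Ideal.Quotient.mk I z := by
    intro z
    induction z using TensorProduct.induction_on with
    | zero => simp
    | tmul a β =>
      have e1 : a ⊗ₜ[k] β = a • ((1 : A) ⊗ₜ[k] β) := by simp [TensorProduct.smul_tmul']
      have e2 : Ideal.Quotient.mk I (a ⊗ₜ[k] β) = a • Ideal.Quotient.mk I ((1 : A) ⊗ₜ[k] β) := by
        rw [e1]; rfl
      have e3 : Θ (bcMap B f (a ⊗ₜ[k] β)) = f a • ((1 : κ) ⊗ₜ[A] Ideal.Quotient.mk I ((1 : A) ⊗ₜ[k] β)) := by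
        simp only [Algebra.TensorProduct.map_tmul, AlgHom.coe_id, id_eq, Θ,
          LinearMap.liftBaseChange_tmul]
        rfl
      rw [e3, e2, TensorProduct.tmul_smul, TensorProduct.smul_tmul', TensorProduct.smul_tmul']
      congr 1
      show f a * 1 = a • (1 : κ)
      rw [mul_one, Algebra.smul_def, mul_one]
      rfl
    | add x y hx hy => rw [map_add, map_add, hx, hy, map_add, TensorProduct.tmul_add]
  have hkill : ∀ y ∈ I.map (bcMap B f), Θ y = 0 := by
    apply eq_zero_of_mem_map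
    intro x hx
    rw [hΘ, Ideal.Quotient.eq_zero_iff_mem.2 hx, TensorProduct.tmul_zero]
  have hz : ∀ z : A ⊗[k] B, (1 : κ) ⊗ₜ[A] Ideal.Quotient.mk I z =
      ∑ i, h.coord (bcMap B f z) i ⊗ₜ[A] Ideal.Quotient.mk I ((1 : A) ⊗ₜ[k] b i) := by
    intro z
    have h1 := hkill _ (h.coord_spec (bcMap B f z))
    rw [map_sub, sub_eq_zero, hΘ, map_sum] at h1
    rw [h1]
    refine Finset.sum_congr rfl (fun i _ => ?_)
    simp only [Θ, LinearMap.liftBaseChange_tmul]
    show h.coord (bcMap B f z) i • ((1 : κ) ⊗ₜ[A] Ideal.Quotient.mk I ((1 : A) ⊗ₜ[k] b i)) = _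
    rw [TensorProduct.smul_tmul', smul_eq_mul, mul_one]
  have hq : ∀ (c : κ) (q : ((A ⊗[k] B) ⧸ I) ⧸ LinearMap.range (uMap I b)), c ⊗ₜ[A] q = 0 := by
    intro c q
    obtain ⟨x, rfl⟩ := Submodule.mkQ_surjective _ q
    obtain ⟨z, rfl⟩ := Ideal.Quotient.mk_surjective x
    have h1 := congrArg ((LinearMap.range (uMap I b)).mkQ.baseChange κ) (hz z)
    rw [LinearMap.baseChange_tmul, map_sum] at h1
    have h2 : ∀ i, (LinearMap.range (uMap I b)).mkQ.baseChange κ
        (h.coord (bcMap B f z) i ⊗ₜ[A] Ideal.Quotient.mk I ((1 : A) ⊗ₜ[k] b i)) = 0 := by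
      intro i
      have h4 : (LinearMap.range (uMap I b)).mkQ (uMap I b (Pi.single i 1)) = 0 :=
        (Submodule.Quotient.mk_eq_zero _).2 (LinearMap.mem_range_self _ _)
      rw [LinearMap.baseChange_tmul, ← uMap_single, h4, TensorProduct.tmul_zero]
    rw [Finset.sum_eq_zero (fun i _ => h2 i)] at h1
    have h3 : c ⊗ₜ[A] (LinearMap.range (uMap I b)).mkQ (Ideal.Quotient.mk I z) =
        c • ((1 : κ) ⊗ₜ[A] (LinearMap.range (uMap I b)).mkQ (Ideal.Quotient.mk I z)) := by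
      rw [TensorProduct.smul_tmul', smul_eq_mul, mul_one]
    rw [h3, h1, smul_zero]
  refine ⟨fun x y => ?_⟩
  have : ∀ x : κ ⊗[A] (((A ⊗[k] B) ⧸ I) ⧸ LinearMap.range (uMap I b)), x = 0 := by
    intro x
    induction x using TensorProduct.induction_on with
    | zero => rfl
    | tmul c q => exact hq c q
    | add x y hx hy => rw [hx, hy, add_zero]
  rw [this x, this y]

/-- if `b` is a basis at `κ(p)` then `uMap` has an approximate inverse near `p`. -/
theorem exists_approx_inverse (I : Ideal (A ⊗[k] B)) (b : Fin g → B)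
    [Module.Finite A ((A ⊗[k] B) ⧸ I)] [Module.Projective A ((A ⊗[k] B) ⧸ I)]
    (p : PrimeSpectrum A)
    (h : IsBasisMod (I.map (bcMap B
      ((Algebra.ofId A p.asIdeal.ResidueField).restrictScalars k))) b) :
    ∃ (a₁ a₂ : A) (s w : ((A ⊗[k] B) ⧸ I) →ₗ[A] (Fin g → A)), a₁ ∉ p.asIdeal ∧ a₂ ∉ p.asIdeal ∧
      (∀ x, uMap I b (s x) = a₁ • x) ∧ (∀ c, w (uMap I b c) = a₂ • c) := by
  classical
  -- step 1,2 : `a₁`
  have hsub := subsingleton_tensor_coker I b p h
  have hsupp : p ∉ Module.support A (((A ⊗[k] B) ⧸ I) ⧸ LinearMap.range (uMap I b)) := by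
    rw [Module.mem_support_iff_nontrivial_residueField_tensorProduct]
    exact not_nontrivial_iff_subsingleton.2 hsub
  rw [Module.support_eq_zeroLocus, PrimeSpectrum.mem_zeroLocus, Set.not_subset] at hsupp
  obtain ⟨a₁, ha₁, ha₁p⟩ := hsupp
  have ha₁' : ∀ x : (A ⊗[k] B) ⧸ I, a₁ • x ∈ LinearMap.range (uMap I b) := by
    intro x
    have := Module.mem_annihilator.1 ha₁ ((LinearMap.range (uMap I b)).mkQ x)
    rw [← map_smul] at this
    exact (Submodule.Quotient.mk_eq_zero _).1 this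
  -- step 3 : `s`
  obtain ⟨s, hs⟩ := Module.projective_lifting_property (uMap I b).rangeRestrict
    ((a₁ • LinearMap.id : ((A ⊗[k] B) ⧸ I) →ₗ[A] ((A ⊗[k] B) ⧸ I)).codRestrict
      (LinearMap.range (uMap I b)) ha₁') (LinearMap.surjective_rangeRestrict _)
  have hs' : ∀ x, uMap I b (s x) = a₁ • x := by
    intro x
    have := congrArg Subtype.val (LinearMap.congr_fun hs x)
    simpa using this
  -- step 4 : the matrix
  set f : A →ₐ[k] p.asIdeal.ResidueField :=
    (Algebra.ofId A p.asIdeal.ResidueField).restrictScalars k with hf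
  have hfz : ∀ a : A, f a = 0 ↔ a ∈ p.asIdeal := fun a => Ideal.algebraMap_residueField_eq_zero
  let t : (Fin g → A) →ₗ[A] (Fin g → A) := s ∘ₗ uMap I b
  let T : Matrix (Fin g) (Fin g) A := LinearMap.toMatrix' t
  have hker : ∀ c : Fin g → A, uMap I b c = 0 → ∀ i, f (c i) = 0 := by
    intro c hc i
    rw [uMap_apply, Ideal.Quotient.eq_zero_iff_mem] at hc
    have h1 : bcMap B f (∑ i, c i ⊗ₜ[k] b i) ∈ I.map (bcMap B f) := Ideal.mem_map_of_mem _ hc
    have h2 : bcMap B f (∑ i, c i ⊗ₜ[k] b i) = ∑ i, (fun i => f (c i)) i ⊗ₜ[k] b i := by simp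
    rw [h2, h.mem_iff, h.coord_sum] at h1
    exact congrFun h1 i
  have hT : f.toRingHom.mapMatrix T = f a₁ • (1 : Matrix (Fin g) (Fin g) p.asIdeal.ResidueField) := by
    ext i j
    have h1 : uMap I b (t (Pi.single j 1) - a₁ • Pi.single j 1) = 0 := by
      rw [map_sub, map_smul]
      show uMap I b (s (uMap I b (Pi.single j 1))) - _ = 0
      rw [hs', sub_self]
    have h2 := hker _ h1 i
    have h3 : T i j = t (Pi.single j 1) i := by
      simp [T, LinearMap.toMatrix'_apply]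
    simp only [RingHom.mapMatrix_apply, Matrix.map_apply, AlgHom.toRingHom_eq_coe, RingHom.coe_coe,
      Matrix.smul_apply, smul_eq_mul, h3]
    rw [Pi.sub_apply, Pi.smul_apply, map_sub, sub_eq_zero, smul_eq_mul, map_mul] at h2
    rw [h2, Matrix.one_apply, Pi.single_apply]
    by_cases hij : i = j <;> simp [hij]
  have hdet : T.det ∉ p.asIdeal := by
    rw [← hfz]
    have h1 : f T.det = (f.toRingHom.mapMatrix T).det := RingHom.map_det f.toRingHom T
    rw [h1, hT, Matrix.det_smul, Matrix.det_one, mul_one]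
    exact pow_ne_zero _ (fun h0 => ha₁p ((hfz a₁).1 h0))
  refine ⟨a₁, T.det, s, (Matrix.toLin' T.adjugate) ∘ₗ s, ha₁p, hdet, hs', fun c => ?_⟩
  have h1 : s (uMap I b c) = Matrix.toLin' T c := by
    simp [T, t]
  rw [LinearMap.comp_apply, h1, ← LinearMap.comp_apply, ← Matrix.toLin'_mul, Matrix.adjugate_mul]
  simp

/-- **openness of `IsBasisMod`** -/
theorem exists_away (I : Ideal (A ⊗[k] B)) (b : Fin g → B)
    [Module.Finite A ((A ⊗[k] B) ⧸ I)] [Module.Projective A ((A ⊗[k] B) ⧸ I)]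
    (p : PrimeSpectrum A)
    (h : IsBasisMod (I.map (bcMap B
      ((Algebra.ofId A p.asIdeal.ResidueField).restrictScalars k))) b) :
    ∃ (a : A) (_ : a ∉ p.asIdeal), IsBasisMod (I.map (bcMap B
      ((Algebra.ofId A (Localization.Away a)).restrictScalars k))) b := by
  obtain ⟨a₁, a₂, s, w, h₁, h₂, hs, hw⟩ := exists_approx_inverse I b p h
  refine ⟨a₁ * a₂, fun h0 => (p.isPrime.mem_or_mem h0).elim h₁ h₂, ?_⟩
  have hu : IsUnit (algebraMap A (Localization.Away (a₁ * a₂)) (a₁ * a₂)) :=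
    IsLocalization.Away.algebraMap_isUnit _
  rw [map_mul] at hu
  exact isBasisMod_of_approx_inverse _ I b a₁ a₂ s w hs hw (isUnit_of_mul_isUnit_left hu)
    (isUnit_of_mul_isUnit_right hu)

/-- `IsBasisMod` can be checked on the fibres when the quotient is f.g. projective over `A`. -/
theorem of_fibres (I : Ideal (A ⊗[k] B))
    (b : Fin g → B) [Module.Finite A ((A ⊗[k] B) ⧸ I)] [Module.Projective A ((A ⊗[k] B) ⧸ I)]
    (h : ∀ p : PrimeSpectrum A, IsBasisMod (I.map (bcMap B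
      ((Algebra.ofId A p.asIdeal.ResidueField).restrictScalars k))) b) : IsBasisMod I b := by
  rw [isBasisMod_iff_bijective]
  have h1 : Module.annihilator A (((A ⊗[k] B) ⧸ I) ⧸ LinearMap.range (uMap I b)) = ⊤ := by
    by_contra hne
    obtain ⟨m, hm, hle⟩ := Ideal.exists_le_maximal _ hne
    obtain ⟨a₁, a₂, s, w, h₁, h₂, hs, hw⟩ := exists_approx_inverse I b ⟨m, hm.isPrime⟩ (h _)
    apply h₁
    apply hle
    rw [Module.mem_annihilator]
    intro q
    obtain ⟨x, rfl⟩ := Submodule.mkQ_surjective _ q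
    rw [← map_smul, ← hs]
    exact (Submodule.Quotient.mk_eq_zero _).2 (LinearMap.mem_range_self _ _)
  have h2 : Module.annihilator A (LinearMap.ker (uMap I b)) = ⊤ := by
    by_contra hne
    obtain ⟨m, hm, hle⟩ := Ideal.exists_le_maximal _ hne
    obtain ⟨a₁, a₂, s, w, h₁, h₂, hs, hw⟩ := exists_approx_inverse I b ⟨m, hm.isPrime⟩ (h _)
    apply h₂
    apply hle
    rw [Module.mem_annihilator]
    rintro ⟨c, hc⟩
    apply Subtype.ext
    show a₂ • c = 0
    rw [← hw, LinearMap.mem_ker.1 hc, map_zero]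
  constructor
  · rw [← LinearMap.ker_eq_bot, eq_bot_iff]
    intro c hc
    have := Module.mem_annihilator.1 (h2 ▸ Submodule.mem_top : (1 : A) ∈ _) ⟨c, hc⟩
    rw [one_smul] at this
    exact congrArg Subtype.val this
  · intro x
    have := Module.mem_annihilator.1 (h1 ▸ Submodule.mem_top : (1 : A) ∈ _)
      ((LinearMap.range (uMap I b)).mkQ x)
    rw [one_smul] at this
    exact (Submodule.Quotient.mk_eq_zero _).1 this

end HilbOpen

end Fermat.Agent.S25
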