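import Fermat.Agent.S25.H.Ideal
import Fermat.Agent.S25.L.Cohomology

/-! # S25 / H5e : (Sec3)  `R₀ / zero₀ s₀` is a f.g. projective `A`-module

`𝒩` over `A` with `H¹(𝒩) = 0`, `H⁰(𝒩) = A s`, `R₁ s₁ + y N₁ = N₁`.
* `y` is bijective on `Q₁ = N₁ / R₁ s₁` and `R₁ → N₁, 1 ↦ s₁` is injective (Nakayama + `y`-adic
  separatedness of `R₁`);
* `Q₀ = N₀ / R₀ s₀ ≅ H¹(O_A) = A ⊗ H¹(O_k)`;
* `R₀ / zero₀ s₀` is a retract of a finite power of `Q₀`. -/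
set_option autoImplicit false
set_option linter.style.haveILetI false
universe u
open TensorProduct Polynomial

namespace Fermat.Agent.S25
namespace Sec3

section General
variable {R : Type u} [CommRing R] {N : Type u} [AddCommGroup N] [Module R N]

/-- rank one identity -/
theorem apply_smul_comm [Module.Invertible R N] (l : Module.Dual R N) (n m : N) :
    l n • m = l m • n := by
  have h := congrArg (fun t => TensorProduct.lid R N (l.rTensor N t))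
    (Module.Invertible.tmul_comm (R := R) (m₁ := n) (m₂ := m))
  simpa using h

theorem exists_add_pow_smul {s : N} {y : R}
    (h : Submodule.span R {s} ⊔ (Ideal.span {y} • ⊤ : Submodule R N) = ⊤) (m : ℕ) (n : N) :
    ∃ (a : R) (n' : N), n = a • s + y ^ m • n' := by
  induction m generalizing n with
  | zero => exact ⟨0, n, by simp⟩
  | succ m ih =>
    obtain ⟨a, n', rfl⟩ := ih n
    have hn' : n' ∈ Submodule.span R {s} ⊔ (Ideal.span {y} • ⊤ : Submodule R N) := by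
      rw [h]; exact Submodule.mem_top
    obtain ⟨u, hu, v, hv, rfl⟩ := Submodule.mem_sup.1 hn'
    obtain ⟨b, rfl⟩ := Submodule.mem_span_singleton.1 hu
    rw [Submodule.ideal_span_singleton_smul] at hv
    obtain ⟨v', -, rfl⟩ := hv
    refine ⟨a + y ^ m * b, v', ?_⟩
    simp only [DistribSMul.toLinearMap_apply, add_smul, mul_smul, pow_succ, smul_add]
    abel

theorem mkQ_add_pow_smul (s : N) (y : R) (m : ℕ) (a : R) (n' : N) :
    (Submodule.span R {s}).mkQ (a • s + y ^ m • n') = y ^ m • (Submodule.span R {s}).mkQ n' := by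
  rw [map_add, map_smul, map_smul]
  have : (Submodule.span R {s}).mkQ s = 0 :=
    (Submodule.Quotient.mk_eq_zero _).2 (Submodule.mem_span_singleton_self s)
  rw [this, smul_zero, zero_add]

theorem mem_span_of_pow_smul_mem [Module.Finite R N] {s : N} {y : R}
    (h : Submodule.span R {s} ⊔ (Ideal.span {y} • ⊤ : Submodule R N) = ⊤) (m : ℕ) (n : N)
    (hn : y ^ m • n ∈ Submodule.span R {s}) : n ∈ Submodule.span R {s} := by
  let f : (N ⧸ Submodule.span R {s}) →ₗ[R] (N ⧸ Submodule.span R {s}) :=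
    LinearMap.lsmul R (N ⧸ Submodule.span R {s}) (y ^ m)
  have hsurj : Function.Surjective f := by
    intro q
    obtain ⟨n, rfl⟩ := (Submodule.span R {s}).mkQ_surjective q
    obtain ⟨a, n', rfl⟩ := exists_add_pow_smul h m n
    exact ⟨(Submodule.span R {s}).mkQ n', (mkQ_add_pow_smul s y m a n').symm⟩
  have hinj := OrzechProperty.injective_of_surjective_endomorphism f hsurj
  have h0 : f ((Submodule.span R {s}).mkQ n) = 0 := by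
    change y ^ m • (Submodule.span R {s}).mkQ n = 0
    rw [← map_smul]
    exact (Submodule.Quotient.mk_eq_zero _).2 hn
  have h1 := hinj (h0.trans (map_zero f).symm)
  exact (Submodule.Quotient.mk_eq_zero _).1 h1

theorem exists_sub_one_mem [Module.Finite R N] {s : N} {y : R}
    (h : Submodule.span R {s} ⊔ (Ideal.span {y} • ⊤ : Submodule R N) = ⊤) :
    ∃ r : R, r - 1 ∈ Ideal.span {y} ∧ ∀ n : N, r • n ∈ Submodule.span R {s} := by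
  have hfg : (⊤ : Submodule R (N ⧸ Submodule.span R {s})).FG := Module.finite_def.1 inferInstance
  have hle : (⊤ : Submodule R (N ⧸ Submodule.span R {s})) ≤ Ideal.span {y} • ⊤ := by
    intro q _
    obtain ⟨n, rfl⟩ := (Submodule.span R {s}).mkQ_surjective q
    obtain ⟨a, n', rfl⟩ := exists_add_pow_smul h 1 n
    rw [mkQ_add_pow_smul, pow_one]
    exact Submodule.smul_mem_smul (Ideal.mem_span_singleton_self y) trivial
  obtain ⟨r, hr, hr0⟩ :=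
    Submodule.exists_sub_one_mem_and_smul_eq_zero_of_fg_of_le_smul _ _ hfg hle
  refine ⟨r, hr, fun n => ?_⟩
  have h1 := hr0 ((Submodule.span R {s}).mkQ n) trivial
  rw [← map_smul] at h1
  exact (Submodule.Quotient.mk_eq_zero _).1 h1

/-- `1 ↦ s` is injective. -/
theorem eq_zero_of_smul_eq_zero [Module.Invertible R N] {s : N} {y : R}
    (h : Submodule.span R {s} ⊔ (Ideal.span {y} • ⊤ : Submodule R N) = ⊤)
    (hsep : ∀ b : R, (∀ m : ℕ, ∃ c, b = y ^ m * c) → b = 0) (b : R) (hb : b • s = 0) : b = 0 := by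
  obtain ⟨r, hr, hrN⟩ := exists_sub_one_mem h
  have hbr : b * r = 0 := by
    apply FaithfulSMul.eq_of_smul_eq_smul (α := N)
    intro n
    obtain ⟨a, ha⟩ := Submodule.mem_span_singleton.1 (hrN n)
    rw [mul_smul, ← ha, smul_comm, hb, smul_zero, zero_smul]
  obtain ⟨t, ht⟩ := Ideal.mem_span_singleton'.1 hr
  have h1 : b = y * (-t * b) := by
    have : b * r = b + b * (t * y) := by rw [ht]; ring
    rw [hbr] at this
    linear_combination -this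
  apply hsep
  intro m
  induction m with
  | zero => exact ⟨b, by simp⟩
  | succ m ih =>
    obtain ⟨c, hc⟩ := ih
    refine ⟨-t * c, ?_⟩
    calc b = y * (-t * b) := h1
      _ = y * (-t * (y ^ m * c)) := by rw [← hc]
      _ = y ^ (m + 1) * (-t * c) := by ring

/-- two surjections with the same kernel have isomorphic targets. -/
noncomputable def equivOfKerEq {A M U V : Type u} [CommRing A] [AddCommGroup M] [AddCommGroup U]
    [AddCommGroup V] [Module A M] [Module A U] [Module A V] (f : M →ₗ[A] U) (g : M →ₗ[A] V)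
    (hf : Function.Surjective f) (hg : Function.Surjective g)
    (h : LinearMap.ker f = LinearMap.ker g) : U ≃ₗ[A] V :=
  (f.quotKerEquivOfSurjective hf).symm ≪≫ₗ Submodule.quotEquivOfEq _ _ h ≪≫ₗ
    g.quotKerEquivOfSurjective hg

end General

section LBpart
variable {k : Type u} [Field k] {Γ : CurveAlg k} {A : Type u} [CommRing A] [Algebra k A]

theorem yA_separated (hΓ : Γ.IsGood) (b : Γ.R₁ A) (h : ∀ m : ℕ, ∃ c, b = (Γ.yA A) ^ m * c) :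
    b = 0 := by
  obtain ⟨n, β, hβ⟩ := CurveAlg.exists_basis_R₁ hΓ A
  obtain ⟨p, hp, hpu⟩ := hβ b
  have hp0 : p = 0 := by
    funext i
    ext j
    obtain ⟨c, hc⟩ := h (j + 1)
    obtain ⟨q, hq, -⟩ := hβ c
    have h1 : (fun i => (X : A[X]) ^ (j + 1) * q i) = p := hpu _ (by
      rw [hc, hq, Finset.mul_sum]
      refine Finset.sum_congr rfl fun i _ => ?_
      simp [mul_assoc])
    rw [← h1]
    simp [Polynomial.coeff_X_pow_mul']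
  rw [hp, hp0]; simp

variable (hΓ : Γ.IsGood) (𝒩 : LB Γ A) {s₁ : 𝒩.N₁}
  (hy : Submodule.span (Γ.R₁ A) {s₁} ⊔ (Ideal.span {Γ.yA A} • ⊤ : Submodule (Γ.R₁ A) 𝒩.N₁) = ⊤)

theorem r₁_smul (b : Γ.R₁ A) (n : 𝒩.N₁) : 𝒩.r₁ (b • n) = Γ.φ₁ A b • 𝒩.r₁ n :=
  𝒩.r₁.map_smulₛₗ b n

theorem r₀_smul (b : Γ.R₀ A) (n : 𝒩.N₀) : 𝒩.r₀ (b • n) = Γ.φ₀ A b • 𝒩.r₀ n :=
  𝒩.r₀.map_smulₛₗ b n

include hΓ hy

/-- `N₀₁ = R₀₁ s + r₁ N₁`. -/
theorem exists_eq_smul_add (n : 𝒩.N₀₁) :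
    ∃ (c : Γ.R₀₁ A) (n₁ : 𝒩.N₁), n = c • 𝒩.r₁ s₁ + 𝒩.r₁ n₁ := by
  obtain ⟨m, n₁, h⟩ := 𝒩.span₁ n
  obtain ⟨a, n', rfl⟩ := exists_add_pow_smul hy m n₁
  have hxy := CurveAlg.φ₀_xA_mul_φ₁_yA hΓ A
  refine ⟨(Γ.φ₀ A (Γ.xA A)) ^ m * Γ.φ₁ A a, n', ?_⟩
  have h1 : n = (Γ.φ₀ A (Γ.xA A)) ^ m • ((Γ.φ₁ A (Γ.yA A)) ^ m • n) := by
    rw [← mul_smul, ← mul_pow, hxy, one_pow, one_smul]
  rw [h1, h, map_add, r₁_smul, r₁_smul, map_pow, smul_add, ← mul_smul, ← mul_smul, ← mul_pow, hxy,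
    one_pow, one_smul]

/-- if `c s ∈ r₁ N₁` then `c ∈ φ₁ R₁`. -/
theorem mem_range_φ₁ (c : Γ.R₀₁ A) (n₁ : 𝒩.N₁) (h : c • 𝒩.r₁ s₁ = 𝒩.r₁ n₁) :
    ∃ b, c = Γ.φ₁ A b := by
  have hxy := CurveAlg.φ₀_xA_mul_φ₁_yA hΓ A
  obtain ⟨m, b, hb⟩ := LB.unit_span₁ hΓ A c
  have hb' : (Γ.φ₁ A (Γ.yA A)) ^ m * c = Γ.φ₁ A b := hb
  have h1 : b • s₁ = (Γ.yA A) ^ m • n₁ := by
    apply 𝒩.inj₁
    rw [r₁_smul, r₁_smul, ← hb', mul_smul, h, map_pow]
  have h2 : n₁ ∈ Submodule.span (Γ.R₁ A) {s₁} :=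
    mem_span_of_pow_smul_mem hy m n₁ (h1 ▸ Submodule.smul_mem _ _ (Submodule.mem_span_singleton_self s₁))
  obtain ⟨b', rfl⟩ := Submodule.mem_span_singleton.1 h2
  have h3 : b - (Γ.yA A) ^ m * b' = 0 :=
    eq_zero_of_smul_eq_zero hy (yA_separated hΓ) _ (by rw [sub_smul, mul_smul, h1, sub_self])
  refine ⟨b', ?_⟩
  have h4 : (Γ.φ₁ A (Γ.yA A)) ^ m * c = (Γ.φ₁ A (Γ.yA A)) ^ m * Γ.φ₁ A b' := by
    rw [hb', sub_eq_zero.1 h3, map_mul, map_pow]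
  calc c = ((Γ.φ₀ A (Γ.xA A)) ^ m * (Γ.φ₁ A (Γ.yA A)) ^ m) * c := by
        rw [← mul_pow, hxy, one_pow, one_mul]
    _ = (Γ.φ₀ A (Γ.xA A)) ^ m * ((Γ.φ₁ A (Γ.yA A)) ^ m * Γ.φ₁ A b') := by rw [mul_assoc, h4]
    _ = Γ.φ₁ A b' := by rw [← mul_assoc, ← mul_pow, hxy, one_pow, one_mul]

end LBpart

section Retract

theorem projective_pi {A Q : Type u} [CommRing A] [AddCommGroup Q] [Module A Q]
    [Module.Projective A Q] (ι : Type u) [Fintype ι] : Module.Projective A (ι → Q) :=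
  Module.Projective.of_equiv (DFinsupp.linearEquivFunOnFintype (R := A) (M := fun _ : ι => Q))

/-- `R / {λ(s)}` is a retract of a finite power of `N / R s`. -/
theorem retract {A R N : Type u} [CommRing A] [CommRing R] [Algebra A R] [AddCommGroup N]
    [Module R N] [Module A N] [IsScalarTower A R N] [Module.Invertible R N] (s : N)
    (hfin : Module.Finite A (N ⧸ Submodule.span R {s}))
    (hproj : Module.Projective A (N ⧸ Submodule.span R {s})) :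
    Module.Finite A (R ⧸ (LinearMap.range (Module.Dual.eval R N s) : Ideal R)) ∧
      Module.Projective A (R ⧸ (LinearMap.range (Module.Dual.eval R N s) : Ideal R)) := by
  classical
  obtain ⟨t, ht⟩ := (Module.Invertible.bijective (R := R) (M := N)).2 1
  obtain ⟨S, hS⟩ := TensorProduct.exists_finset t
  have hsum : ∑ j ∈ S, j.1 j.2 = 1 := by
    rw [← ht, hS, map_sum]
    exact Finset.sum_congr rfl fun j _ => (contractLeft_apply j.1 j.2).symm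
  set W : Submodule R N := Submodule.span R {s} with hW
  set J : Submodule R R := LinearMap.range (Module.Dual.eval R N s) with hJ
  let α : (R ⧸ J) →ₗ[R] (S → N ⧸ W) :=
    J.liftQ (LinearMap.pi fun j : S => W.mkQ ∘ₗ LinearMap.toSpanSingleton R N j.1.2) (by
      rintro _ ⟨l, rfl⟩
      rw [LinearMap.mem_ker]
      funext j
      change W.mkQ ((l s) • j.1.2) = 0
      rw [apply_smul_comm]
      exact (Submodule.Quotient.mk_eq_zero _).2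
        (Submodule.smul_mem _ _ (Submodule.mem_span_singleton_self s)))
  have hle : ∀ j : S, W ≤ J.comap j.1.1 := fun j => by
    rw [hW, Submodule.span_le]
    rintro _ rfl
    exact ⟨j.1.1, rfl⟩
  let β : (S → N ⧸ W) →ₗ[R] (R ⧸ J) := ∑ j : S, (W.mapQ J j.1.1 (hle j)) ∘ₗ LinearMap.proj j
  have hβα : ∀ z, β (α z) = z := by
    intro z
    obtain ⟨r, rfl⟩ := J.mkQ_surjective z
    have h1 : β (α (J.mkQ r)) = ∑ j : S, J.mkQ (j.1.1 (r • j.1.2)) := by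
      simp only [β, LinearMap.sum_apply]
      rfl
    rw [h1, ← map_sum]
    congr 1
    simp only [map_smul, ← Finset.smul_sum]
    rw [Finset.sum_coe_sort S (fun j => j.1 j.2), hsum, smul_eq_mul, mul_one]
  haveI := projective_pi (A := A) (Q := N ⧸ W) S
  refine ⟨Module.Finite.of_surjective (β.restrictScalars A) (fun z => ⟨α z, hβα z⟩),
    Module.Projective.of_split (α.restrictScalars A) (β.restrictScalars A)
      (LinearMap.ext hβα)⟩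

end Retract

section HO
variable {k : Type u} [Field k] {Γ : CurveAlg k} {A : Type u} [CommRing A] [Algebra k A]

theorem unit_H1_finite_projective (hΓ : Γ.IsGood) :
    Module.Finite A (LB.unit hΓ A).H1 ∧ Module.Projective A (LB.unit hΓ A).H1 := by
  refine ⟨LB.finite_H1 hΓ _, ?_⟩
  obtain ⟨h⟩ := LB.BC.unit (A := k) (A' := A) hΓ (Algebra.ofId k A)
  obtain ⟨e⟩ := h.H1_equiv hΓ
  letI := (Algebra.ofId k A).toRingHom.toAlgebra
  exact Module.Projective.of_equiv (e.trans (B.Perf.cokerBaseChangeEquiv _ A)).symm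

end HO

section Main
variable {k : Type u} [Field k] {Γ : CurveAlg k} {A : Type u} [CommRing A] [Algebra k A]

/-- `c ↦ c • t` -/
noncomputable def σ (hΓ : Γ.IsGood) (𝒩 : LB Γ A) (t : 𝒩.N₀₁) : (LB.unit hΓ A).N₀₁ →ₗ[A] 𝒩.N₀₁ where
  toFun c := (show Γ.R₀₁ A from c) • t
  map_add' _ _ := add_smul (R := Γ.R₀₁ A) _ _ _
  map_smul' _ _ := mul_smul (α := Γ.R₀₁ A) _ _ _

/-- `(c, n₀, n₁) ↦ c t - r₀ n₀ - r₁ n₁`. -/
noncomputable def T (hΓ : Γ.IsGood) (𝒩 : LB Γ A) (t : 𝒩.N₀₁) :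
    ((LB.unit hΓ A).N₀₁ × 𝒩.N₀ × 𝒩.N₁) →ₗ[A] 𝒩.N₀₁ :=
  (σ hΓ 𝒩 t).comp (LinearMap.fst A _ _)
    - 𝒩.r₀A.comp ((LinearMap.fst A _ _).comp (LinearMap.snd A _ _))
    - 𝒩.r₁A.comp ((LinearMap.snd A _ _).comp (LinearMap.snd A _ _))

theorem mem_ker_T (hΓ : Γ.IsGood) (𝒩 : LB Γ A) (t : 𝒩.N₀₁) (c : Γ.R₀₁ A) (n₀ : 𝒩.N₀) (n₁ : 𝒩.N₁) :
    ((c, n₀, n₁) : (LB.unit hΓ A).N₀₁ × 𝒩.N₀ × 𝒩.N₁) ∈ LinearMap.ker (T hΓ 𝒩 t) ↔
      c • t = 𝒩.r₀ n₀ + 𝒩.r₁ n₁ := by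
  rw [LinearMap.mem_ker]
  change c • t - 𝒩.r₀ n₀ - 𝒩.r₁ n₁ = 0 ↔ _
  rw [sub_sub, sub_eq_zero]

theorem mem_H0_iff (𝒩 : LB Γ A) (n₀ : 𝒩.N₀) (n₁ : 𝒩.N₁) :
    (n₀, n₁) ∈ 𝒩.H0 ↔ 𝒩.r₀ n₀ = 𝒩.r₁ n₁ := by
  change 𝒩.r₀A.coprod (-𝒩.r₁A) (n₀, n₁) = 0 ↔ _
  rw [LinearMap.coprod_apply, LinearMap.neg_apply, ← sub_eq_add_neg, sub_eq_zero]
  rfl

theorem mem_unit_range (hΓ : Γ.IsGood) (c : (LB.unit hΓ A).N₀₁) :
    c ∈ LinearMap.range (LB.unit hΓ A).r₀A ⊔ LinearMap.range (LB.unit hΓ A).r₁A ↔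
      ∃ (a : Γ.R₀ A) (b : Γ.R₁ A), Γ.φ₀ A a + Γ.φ₁ A b = c := by
  rw [Submodule.mem_sup]
  constructor
  · rintro ⟨_, ⟨a, rfl⟩, _, ⟨b, rfl⟩, h⟩
    exact ⟨a, b, h⟩
  · rintro ⟨a, b, h⟩
    exact ⟨_, ⟨a, rfl⟩, _, ⟨b, rfl⟩, h⟩

theorem key (hΓ : Γ.IsGood) (𝒩 : LB Γ A) (s : 𝒩.H0)
    (gen : ∀ s' : 𝒩.H0, ∃ c : A, s' = c • s)
    (hy : Submodule.span (Γ.R₁ A) {s.1.2} ⊔
      (Ideal.span {Γ.yA A} • ⊤ : Submodule (Γ.R₁ A) 𝒩.N₁) = ⊤)
    (c : Γ.R₀₁ A) (n₀ : 𝒩.N₀) (n₁ : 𝒩.N₁) (hm' : c • 𝒩.r₁ s.1.2 = 𝒩.r₀ n₀ + 𝒩.r₁ n₁) :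
    (∃ (a : Γ.R₀ A) (b : Γ.R₁ A), Γ.φ₀ A a + Γ.φ₁ A b = c) ↔
      n₀ ∈ Submodule.span (Γ.R₀ A) {s.1.1} := by
  have hs : 𝒩.r₀ s.1.1 = 𝒩.r₁ s.1.2 := (mem_H0_iff 𝒩 s.1.1 s.1.2).1 s.2
  constructor
  · rintro ⟨a, b, hc'⟩
    have hmem : (n₀ - a • s.1.1, b • s.1.2 - n₁) ∈ 𝒩.H0 := by
      rw [mem_H0_iff, map_sub, map_sub, r₀_smul, r₁_smul, hs]
      rw [← hc', add_smul] at hm'
      rw [sub_eq_sub_iff_add_eq_add, ← hm']; abel
    obtain ⟨c', hc''⟩ := gen ⟨_, hmem⟩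
    have h2 : n₀ - a • s.1.1 = c' • s.1.1 := congrArg (fun z : 𝒩.H0 => z.1.1) hc''
    have h3 : n₀ = (a + algebraMap A (Γ.R₀ A) c') • s.1.1 := by
      rw [add_smul, algebraMap_smul, ← h2]; abel
    rw [h3]
    exact Submodule.smul_mem _ _ (Submodule.mem_span_singleton_self _)
  · intro hn
    obtain ⟨a, rfl⟩ := Submodule.mem_span_singleton.1 hn
    rw [r₀_smul, hs] at hm'
    obtain ⟨b, hb⟩ := mem_range_φ₁ hΓ 𝒩 hy (c - Γ.φ₀ A a) n₁ (by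
      rw [sub_smul, hm']; abel)
    exact ⟨a, b, by rw [← hb]; abel⟩

/-- `N₀ / R₀ s₀ ≅ H¹(O_A)`. -/
theorem nonempty_equiv (hΓ : Γ.IsGood) (𝒩 : LB Γ A) (s : 𝒩.H0) (h1 : Subsingleton 𝒩.H1)
    (gen : ∀ s' : 𝒩.H0, ∃ c : A, s' = c • s)
    (hy : Submodule.span (Γ.R₁ A) {s.1.2} ⊔
      (Ideal.span {Γ.yA A} • ⊤ : Submodule (Γ.R₁ A) 𝒩.N₁) = ⊤) :
    Nonempty ((LB.unit hΓ A).H1 ≃ₗ[A] (𝒩.N₀ ⧸ Submodule.span (Γ.R₀ A) {s.1.1})) := by
  let f : LinearMap.ker (T hΓ 𝒩 (𝒩.r₁ s.1.2)) →ₗ[A] (LB.unit hΓ A).H1 :=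
    (Submodule.mkQ _).comp ((LinearMap.fst A _ _).comp (Submodule.subtype _))
  let g : LinearMap.ker (T hΓ 𝒩 (𝒩.r₁ s.1.2)) →ₗ[A] (𝒩.N₀ ⧸ Submodule.span (Γ.R₀ A) {s.1.1}) :=
    ((Submodule.span (Γ.R₀ A) {s.1.1}).mkQ.restrictScalars A).comp
      (((LinearMap.fst A _ _).comp (LinearMap.snd A _ _)).comp (Submodule.subtype _))
  have htop : LinearMap.range 𝒩.r₀A ⊔ LinearMap.range 𝒩.r₁A = ⊤ :=
    Submodule.Quotient.subsingleton_iff.1 h1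
  have hf : Function.Surjective f := by
    intro q
    obtain ⟨(c : Γ.R₀₁ A), rfl⟩ := Submodule.mkQ_surjective _ q
    have hc : c • 𝒩.r₁ s.1.2 ∈ LinearMap.range 𝒩.r₀A ⊔ LinearMap.range 𝒩.r₁A := by
      rw [htop]; exact Submodule.mem_top
    obtain ⟨_, ⟨n₀, rfl⟩, _, ⟨n₁, rfl⟩, h⟩ := Submodule.mem_sup.1 hc
    exact ⟨⟨(c, n₀, n₁), (mem_ker_T hΓ 𝒩 _ c n₀ n₁).2 h.symm⟩, rfl⟩
  have hg : Function.Surjective g := by
    intro q
    obtain ⟨n₀, rfl⟩ := Submodule.mkQ_surjective _ q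
    obtain ⟨c, n₁, h⟩ := exists_eq_smul_add hΓ 𝒩 hy (𝒩.r₀ n₀)
    refine ⟨⟨(c, n₀, -n₁), (mem_ker_T hΓ 𝒩 _ c n₀ (-n₁)).2 ?_⟩, rfl⟩
    rw [h, map_neg]; abel
  have hker : LinearMap.ker f = LinearMap.ker g := by
    ext ⟨⟨c, n₀, n₁⟩, hm⟩
    have hm' := (mem_ker_T hΓ 𝒩 _ c n₀ n₁).1 hm
    exact Iff.trans (LinearMap.mem_ker.trans (Submodule.Quotient.mk_eq_zero
      (LinearMap.range (LB.unit hΓ A).r₀A ⊔ LinearMap.range (LB.unit hΓ A).r₁A) (x := c)))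
      (Iff.trans ((mem_unit_range hΓ c).trans (key hΓ 𝒩 s gen hy c n₀ n₁ hm'))
        (LinearMap.mem_ker.trans (Submodule.Quotient.mk_eq_zero
        (Submodule.span (Γ.R₀ A) {s.1.1}) (x := n₀))).symm)
  exact ⟨equivOfKerEq f g hf hg hker⟩

/-- **(Sec3)** -/
theorem main (hΓ : Γ.IsGood) (𝒩 : LB Γ A) (s : 𝒩.H0) (h1 : Subsingleton 𝒩.H1)
    (gen : ∀ s' : 𝒩.H0, ∃ c : A, s' = c • s)
    (hy : Submodule.span (Γ.R₁ A) {s.1.2} ⊔
      (Ideal.span {Γ.yA A} • ⊤ : Submodule (Γ.R₁ A) 𝒩.N₁) = ⊤) :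
    Module.Finite A (Γ.R₀ A ⧸ 𝒩.zero₀ s.1.1) ∧ Module.Projective A (Γ.R₀ A ⧸ 𝒩.zero₀ s.1.1) := by
  obtain ⟨e⟩ := nonempty_equiv hΓ 𝒩 s h1 gen hy
  obtain ⟨hfin, hproj⟩ := unit_H1_finite_projective (A := A) hΓ
  exact retract (A := A) (R := Γ.R₀ A) (N := 𝒩.N₀) s.1.1 (Module.Finite.equiv e)
    (Module.Projective.of_equiv e)

end Main

end Sec3
end Fermat.Agent.S25
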