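import Fermat.Agent.S25.H.Infty
import Fermat.Agent.S25.H.HilbOpen
import Fermat.Agent.S25.AtlasDefs
import Fermat.Agent.S25.H.Chart.StageB
import Fermat.Agent.S25.H.Sec3

/-! # S25 / H5 : the charts of `G_alg` -/
set_option autoImplicit false
set_option linter.style.haveILetI false
universe u
open TensorProduct Polynomial

namespace Fermat.Agent.S25
variable {k : Type u} [Field k] {Γ : CurveAlg k}
variable {A A' : Type u} [CommRing A] [Algebra k A] [CommRing A'] [Algebra k A']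

/-- the map on `H⁰` induced by a base change -/
noncomputable def LB.BC.mapH0 {f : A →ₐ[k] A'} {𝒩 : LB Γ A} {𝒩' : LB Γ A'} (h : LB.BC f 𝒩 𝒩') (s : 𝒩.H0) : 𝒩'.H0 :=
  ⟨(h.b₀ s.1.1, h.b₁ s.1.2), LB.BC.exists_H0_map h s⟩

/-- `s` is a universal generator of `H⁰(𝒩)`, and `H¹(𝒩) = 0`. -/
structure LB.Sect (𝒩 : LB Γ A) (s : 𝒩.H0) : Prop where
  h1 : Subsingleton 𝒩.H1
  gen : ∀ s' : 𝒩.H0, ∃ c : A, s' = c • s
  fib : ∀ (K : Type u) [Field K] [Algebra k K] (f : A →ₐ[k] K) (𝒩' : LB Γ K) (h : LB.BC f 𝒩 𝒩'),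
    h.mapH0 s ≠ 0

/-- the divisor of `s` does not meet the fibre at infinity -/
def LB.GenAtInfty (𝒩 : LB Γ A) (s : 𝒩.H0) : Prop :=
  Submodule.span (Γ.R₁ A) {s.1.2} ⊔ (Ideal.span {Γ.yA A} • ⊤ : Submodule (Γ.R₁ A) 𝒩.N₁) = ⊤

variable [hΓ : Fact Γ.IsGood] [IsAlgClosed k]

/-- the explicit composite of two base changes -/
noncomputable def LB.BC.comp' {A'' : Type u} [CommRing A''] [Algebra k A''] {f : A →ₐ[k] A'}
    {g : A' →ₐ[k] A''} {𝒩 : LB Γ A} {𝒩' : LB Γ A'} {𝒩'' : LB Γ A''}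
    (h : LB.BC f 𝒩 𝒩') (h' : LB.BC g 𝒩' 𝒩'') : LB.BC (g.comp f) 𝒩 𝒩'' :=
  { b₀ := { toFun := fun n => h'.b₀ (h.b₀ n)
            map_add' := fun _ _ => by rw [map_add, map_add]
            map_smul' := fun a n => by
              rw [h.b₀.map_smulₛₗ, h'.b₀.map_smulₛₗ]
              change Γ.ρ₀ g (Γ.ρ₀ f a) • _ = Γ.ρ₀ (g.comp f) a • _
              rw [Γ.ρ₀_comp] }
    b₁ := { toFun := fun n => h'.b₁ (h.b₁ n)
            map_add' := fun _ _ => by rw [map_add, map_add]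
            map_smul' := fun a n => by
              rw [h.b₁.map_smulₛₗ, h'.b₁.map_smulₛₗ]
              change Γ.ρ₁ g (Γ.ρ₁ f a) • _ = Γ.ρ₁ (g.comp f) a • _
              rw [Γ.ρ₁_comp] }
    b₀₁ := { toFun := fun n => h'.b₀₁ (h.b₀₁ n)
             map_add' := fun _ _ => by rw [map_add, map_add]
             map_smul' := fun a n => by
               rw [h.b₀₁.map_smulₛₗ, h'.b₀₁.map_smulₛₗ]
               change Γ.ρ₀₁ g (Γ.ρ₀₁ f a) • _ = Γ.ρ₀₁ (g.comp f) a • _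
               rw [Γ.ρ₀₁_comp] }
    comm₀ := fun n => by
      change h'.b₀₁ (h.b₀₁ (𝒩.r₀ n)) = 𝒩''.r₀ (h'.b₀ (h.b₀ n))
      rw [h.comm₀, h'.comm₀]
    comm₁ := fun n => by
      change h'.b₀₁ (h.b₀₁ (𝒩.r₁ n)) = 𝒩''.r₁ (h'.b₁ (h.b₁ n))
      rw [h.comm₁, h'.comm₁]
    span₀ := LB.span_comp h.b₀ h'.b₀ h.span₀ h'.span₀
    span₁ := LB.span_comp h.b₁ h'.b₁ h.span₁ h'.span₁ }

omit hΓ [IsAlgClosed k] in
theorem LB.BC.mapH0_comp' {A'' : Type u} [CommRing A''] [Algebra k A''] {f : A →ₐ[k] A'}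
    {g : A' →ₐ[k] A''} {𝒩 : LB Γ A} {𝒩' : LB Γ A'} {𝒩'' : LB Γ A''}
    (h : LB.BC f 𝒩 𝒩') (h' : LB.BC g 𝒩' 𝒩'') (s : 𝒩.H0) :
    (h.comp' h').mapH0 s = h'.mapH0 (h.mapH0 s) := rfl

omit hΓ [IsAlgClosed k] in
theorem LB.BC.b₀_smul {f : A →ₐ[k] A'} {𝒩 : LB Γ A} {𝒩' : LB Γ A'} (h : LB.BC f 𝒩 𝒩') (c : A)
    (n : 𝒩.N₀) : h.b₀ (c • n) = f c • h.b₀ n := by
  change h.b₀ (algebraMap A (Γ.R₀ A) c • n) = algebraMap A' (Γ.R₀ A') (f c) • h.b₀ n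
  rw [h.b₀.map_smulₛₗ]
  congr 1

omit hΓ [IsAlgClosed k] in
theorem LB.BC.b₁_smul {f : A →ₐ[k] A'} {𝒩 : LB Γ A} {𝒩' : LB Γ A'} (h : LB.BC f 𝒩 𝒩') (c : A)
    (n : 𝒩.N₁) : h.b₁ (c • n) = f c • h.b₁ n := by
  change h.b₁ (algebraMap A (Γ.R₁ A) c • n) = algebraMap A' (Γ.R₁ A') (f c) • h.b₁ n
  rw [h.b₁.map_smulₛₗ]
  congr 1

omit [IsAlgClosed k] in
theorem LB.BC.subsingleton_H1 {f : A →ₐ[k] A'} {𝒩 : LB Γ A} {𝒩' : LB Γ A'} (h : LB.BC f 𝒩 𝒩')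
    (h1 : Subsingleton 𝒩.H1) : Subsingleton 𝒩'.H1 := by
  let _ := f.toRingHom.toAlgebra
  obtain ⟨e⟩ := h.H1_equiv hΓ.out
  have hsurj : Function.Surjective 𝒩.d := by
    rw [← LinearMap.range_eq_top, 𝒩.range_d]
    exact Submodule.Quotient.subsingleton_iff.1 h1
  have hsurj' : Function.Surjective (𝒩.d.baseChange A') := by
    rw [LinearMap.baseChange_eq_ltensor]
    exact LinearMap.lTensor_surjective A' hsurj
  have : Subsingleton (B.Coker (𝒩.d.baseChange A')) :=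
    Submodule.Quotient.subsingleton_iff.2 (LinearMap.range_eq_top.2 hsurj')
  exact e.toEquiv.subsingleton

theorem LB.Sect.bc {f : A →ₐ[k] A'} {𝒩 : LB Γ A} {𝒩' : LB Γ A'} (h : LB.BC f 𝒩 𝒩') {s : 𝒩.H0}
    (hs : 𝒩.Sect s) : 𝒩'.Sect (h.mapH0 s) := by
  refine ⟨h.subsingleton_H1 hs.h1, ?_, ?_⟩
  · intro s'
    have hspan := h.span_H0 hΓ.out hs.h1
    have hmem : s'.1 ∈ Submodule.span A'
        {z : 𝒩'.N₀ × 𝒩'.N₁ | ∃ s₀ : 𝒩.H0, z = (h.b₀ s₀.1.1, h.b₁ s₀.1.2)} := by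
      rw [hspan]
      exact s'.2
    have key : ∀ z ∈ Submodule.span A'
        {z : 𝒩'.N₀ × 𝒩'.N₁ | ∃ s₀ : 𝒩.H0, z = (h.b₀ s₀.1.1, h.b₁ s₀.1.2)},
        ∃ c : A', z = c • (h.mapH0 s).1 := by
      intro z hz
      induction hz using Submodule.span_induction with
      | mem x hx =>
        obtain ⟨s₀, rfl⟩ := hx
        obtain ⟨c, rfl⟩ := hs.gen s₀
        refine ⟨f c, ?_⟩
        change (h.b₀ (c • s.1.1), h.b₁ (c • s.1.2)) = (f c • h.b₀ s.1.1, f c • h.b₁ s.1.2)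
        rw [h.b₀_smul, h.b₁_smul]
      | zero => exact ⟨0, (zero_smul _ _).symm⟩
      | add x y _ _ hx hy =>
        obtain ⟨c, rfl⟩ := hx
        obtain ⟨c', rfl⟩ := hy
        exact ⟨c + c', (add_smul _ _ _).symm⟩
      | smul a x _ hx =>
        obtain ⟨c, rfl⟩ := hx
        exact ⟨a * c, (mul_smul _ _ _).symm⟩
    obtain ⟨c, hc⟩ := key _ hmem
    exact ⟨c, Subtype.ext hc⟩
  · intro K _ _ g 𝒩'' h'
    exact hs.fib K (g.comp f) 𝒩'' (h.comp' h')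

theorem LB.GenAtInfty.bc {f : A →ₐ[k] A'} {𝒩 : LB Γ A} {𝒩' : LB Γ A'} (h : LB.BC f 𝒩 𝒩') {s : 𝒩.H0}
    (hs : 𝒩.GenAtInfty s) : 𝒩'.GenAtInfty (h.mapH0 s) := by
  unfold LB.GenAtInfty at hs ⊢
  refine eq_top_iff.2 (le_trans (le_of_eq h.span₁.symm) (Submodule.span_le.2 ?_))
  rintro _ ⟨n, rfl⟩
  have hn : n ∈ Submodule.span (Γ.R₁ A) {s.1.2} ⊔
      (Ideal.span {Γ.yA A} • ⊤ : Submodule (Γ.R₁ A) 𝒩.N₁) := by
    rw [hs]
    exact Submodule.mem_top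
  obtain ⟨u, hu, z, hz, rfl⟩ := Submodule.mem_sup.1 hn
  obtain ⟨r, rfl⟩ := Submodule.mem_span_singleton.1 hu
  rw [Submodule.ideal_span_singleton_smul] at hz
  obtain ⟨z', -, rfl⟩ := hz
  change h.b₁ (r • s.1.2 + Γ.yA A • z') ∈ _
  rw [map_add, h.b₁.map_smulₛₗ, h.b₁.map_smulₛₗ]
  refine Submodule.add_mem _ (Submodule.mem_sup_left ?_) (Submodule.mem_sup_right ?_)
  · exact Submodule.smul_mem _ _ (Submodule.mem_span_singleton_self _)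
  · change Γ.ρ₁ f (Γ.yA A) • h.b₁ z' ∈ _
    rw [Γ.ρ₁_yA]
    exact Submodule.smul_mem_smul (Ideal.mem_span_singleton_self _) Submodule.mem_top

/-- (Ref) refinement of localisations. -/
theorem exists_away_refinement (a : A) (a' : Localization.Away a) (p : PrimeSpectrum A)
    (p' : PrimeSpectrum (Localization.Away a))
    (hp : PrimeSpectrum.comap (toAway (k := k) a).toRingHom p' = p) (ha' : a' ∉ p'.asIdeal) :
    ∃ (a'' : A) (_ : a'' ∉ p.asIdeal) (ψ : Localization.Away a' →ₐ[k] Localization.Away a''),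
      ψ.comp ((toAway a').comp (toAway a)) = toAway a'' := by
  obtain ⟨m, c, hc⟩ := IsLocalization.Away.surj a a'
  have hau : IsUnit (algebraMap A (Localization.Away a) a) := IsLocalization.Away.algebraMap_isUnit a
  have hmem : ∀ x : A, x ∈ p.asIdeal ↔ algebraMap A (Localization.Away a) x ∈ p'.asIdeal := by
    intro x
    rw [← hp]
    rfl
  have ha : a ∉ p.asIdeal := by
    rw [hmem]
    intro h
    exact p'.isPrime.ne_top (Ideal.eq_top_of_isUnit_mem _ h hau)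
  have hcp : c ∉ p.asIdeal := by
    rw [hmem, ← hc]
    intro h
    rcases p'.isPrime.mem_or_mem h with h | h
    · exact ha' h
    · exact p'.isPrime.ne_top (Ideal.eq_top_of_isUnit_mem _ h (hau.pow m))
  have hu : IsUnit (algebraMap A (Localization.Away (a * c)) (a * c)) :=
    IsLocalization.Away.algebraMap_isUnit (a * c)
  rw [map_mul] at hu
  have hua : IsUnit (toAway (k := k) (a * c) a) := isUnit_of_mul_isUnit_left hu
  have huc : IsUnit (algebraMap A (Localization.Away (a * c)) c) := isUnit_of_mul_isUnit_right hu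
  let ψ₀ : Localization.Away a →ₐ[k] Localization.Away (a * c) :=
    IsLocalization.Away.liftAlgHom a (f := toAway (k := k) (a * c)) hua
  have hψ₀ : ∀ x : A, ψ₀ (algebraMap A (Localization.Away a) x) =
      algebraMap A (Localization.Away (a * c)) x := fun x => IsLocalization.Away.lift_eq a hua x
  have hua' : IsUnit (ψ₀ a') := by
    have h1 : ψ₀ a' * ψ₀ (algebraMap A (Localization.Away a) a) ^ m =
        algebraMap A (Localization.Away (a * c)) c := by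
      rw [← map_pow, ← map_mul, hc, hψ₀]
    exact isUnit_of_mul_isUnit_left (h1 ▸ huc)
  refine ⟨a * c, fun h => (p.isPrime.mem_or_mem h).elim ha hcp,
    IsLocalization.Away.liftAlgHom a' (f := ψ₀) hua', ?_⟩
  ext x
  change IsLocalization.Away.lift a' hua' (algebraMap (Localization.Away a) (Localization.Away a')
    (algebraMap A (Localization.Away a) x)) = algebraMap A (Localization.Away (a * c)) x
  rw [IsLocalization.Away.lift_eq]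
  exact hψ₀ x

namespace StageA

theorem b₀_smul {f : A →ₐ[k] A'} {𝒩 : LB Γ A} {𝒩' : LB Γ A'} (h : LB.BC f 𝒩 𝒩') (a : A)
    (n : 𝒩.N₀) : h.b₀ (a • n) = f a • h.b₀ n := by
  change h.b₀ (algebraMap A (Γ.R₀ A) a • n) = algebraMap A' (Γ.R₀ A') (f a) • h.b₀ n
  rw [h.b₀.map_smulₛₗ]
  congr 1

theorem b₁_smul {f : A →ₐ[k] A'} {𝒩 : LB Γ A} {𝒩' : LB Γ A'} (h : LB.BC f 𝒩 𝒩') (a : A)
    (n : 𝒩.N₁) : h.b₁ (a • n) = f a • h.b₁ n := by
  change h.b₁ (algebraMap A (Γ.R₁ A) a • n) = algebraMap A' (Γ.R₁ A') (f a) • h.b₁ n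
  rw [h.b₁.map_smulₛₗ]
  congr 1

theorem mapH0_smul {f : A →ₐ[k] A'} {𝒩 : LB Γ A} {𝒩' : LB Γ A'} (h : LB.BC f 𝒩 𝒩') (a : A)
    (s : 𝒩.H0) : h.mapH0 (a • s) = f a • h.mapH0 s := by
  apply Subtype.ext
  change (h.b₀ (a • s.1.1), h.b₁ (a • s.1.2)) = (f a • h.b₀ s.1.1, f a • h.b₁ s.1.2)
  rw [b₀_smul, b₁_smul]

/-- `A' ⊗ H⁰(𝒩) → H⁰(𝒩')` is injective when `H¹(𝒩) = 0`. -/
theorem exists_tensor_H0 (hG : Γ.IsGood) [Algebra A A'] {f : A →ₐ[k] A'}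
    (hf : ∀ a, algebraMap A A' a = f a) {𝒩 : LB Γ A} {𝒩' : LB Γ A'}
    (h : LB.BC f 𝒩 𝒩') (h1 : Subsingleton 𝒩.H1) :
    ∃ Φ : A' ⊗[A] 𝒩.H0 →ₗ[A'] 𝒩'.N₀ × 𝒩'.N₁, Function.Injective Φ ∧
      ∀ (a : A') (s : 𝒩.H0), Φ (a ⊗ₜ s) = a • (h.mapH0 s).1 := by
  have hinst : ‹Algebra A A'› = f.toRingHom.toAlgebra := Algebra.algebra_ext _ _ hf
  subst hinst
  letI := f.toRingHom.toAlgebra
  obtain ⟨E, eM, hE, -, hd⟩ := h.exists_total hG
  have hsurj : Function.Surjective 𝒩.d := by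
    rw [← LinearMap.range_eq_top, 𝒩.range_d, ← Submodule.Quotient.subsingleton_iff]
    exact h1
  haveI : Module.Projective A 𝒩.N₀₁ := by
    letI := 𝒩.polyMod₀
    letI := 𝒩.polyMod₁
    haveI := PolyMod.tower (A := A) (Γ.xA A) 𝒩.N₀
    haveI := PolyMod.tower (A := A) (Γ.yA A) 𝒩.N₁
    have hb := 𝒩.isP1Bundle hG
    haveI := hb.projective₀
    exact B.projective_of_lattice 𝒩.r₀A (𝒩.xM hG) hb.inj₀ hb.semilinear₀ hb.span₀
  obtain ⟨e, he⟩ := B.Perf.exists_ker_baseChange_equiv 𝒩.d hsurj A'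
  refine ⟨E.toLinearMap ∘ₗ (LinearMap.ker 𝒩.d).subtype.baseChange A', ?_, ?_⟩
  · intro x y hxy
    have h2 : (LinearMap.ker 𝒩.d).subtype.baseChange A' x =
        (LinearMap.ker 𝒩.d).subtype.baseChange A' y := E.injective hxy
    have h3 : (e x : A' ⊗[A] (𝒩.N₀ × 𝒩.N₁)) = e y := (he x).trans (h2.trans (he y).symm)
    exact e.injective (Subtype.ext h3)
  · intro a s
    exact hE a s.1

/-- Nakayama: a section which is nonzero in a one dimensional fibre generates `H⁰` near the point. -/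
theorem exists_smul_eq_smul (hG : Γ.IsGood) (𝒩 : LB Γ A) (h1 : Subsingleton 𝒩.H1)
    (p : PrimeSpectrum A) (𝒩p : LB Γ p.asIdeal.ResidueField) (hp : LB.BC (toResidue p) 𝒩 𝒩p)
    (hdim : Module.finrank p.asIdeal.ResidueField 𝒩p.H0 = 1) (s : 𝒩.H0) (hs : hp.mapH0 s ≠ 0) :
    ∃ a : A, a ∉ p.asIdeal ∧ ∀ t : 𝒩.H0, ∃ c : A, a • t = c • s := by
  obtain ⟨hfin, -⟩ := 𝒩.H0_finite_projective hG h1
  obtain ⟨Φ, hΦi, hΦ⟩ := exists_tensor_H0 hG (f := toResidue p) (fun _ => rfl) hp h1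
  have hsub : Subsingleton (p.asIdeal.ResidueField ⊗[A] (𝒩.H0 ⧸ Submodule.span A {s})) := by
    have hq : ∀ (c : p.asIdeal.ResidueField) (q : 𝒩.H0 ⧸ Submodule.span A {s}), c ⊗ₜ[A] q = 0 := by
      intro c q
      obtain ⟨t, rfl⟩ := Submodule.mkQ_surjective _ q
      obtain ⟨c', hc'⟩ := (finrank_eq_one_iff_of_nonzero' _ hs).1 hdim (hp.mapH0 t)
      have h2 : (1 : p.asIdeal.ResidueField) ⊗ₜ[A] t = c' ⊗ₜ[A] s := by
        apply hΦi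
        rw [hΦ, hΦ, one_smul, ← hc']
        rfl
      have h3 := congrArg ((Submodule.span A {s}).mkQ.baseChange p.asIdeal.ResidueField) h2
      rw [LinearMap.baseChange_tmul, LinearMap.baseChange_tmul] at h3
      have h4 : (Submodule.span A {s}).mkQ s = 0 :=
        (Submodule.Quotient.mk_eq_zero _).2 (Submodule.mem_span_singleton_self s)
      rw [h4, TensorProduct.tmul_zero] at h3
      have h5 : c ⊗ₜ[A] (Submodule.span A {s}).mkQ t =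
          c • ((1 : p.asIdeal.ResidueField) ⊗ₜ[A] (Submodule.span A {s}).mkQ t) := by
        rw [TensorProduct.smul_tmul', smul_eq_mul, mul_one]
      rw [h5, h3, smul_zero]
    have h0 : ∀ x : p.asIdeal.ResidueField ⊗[A] (𝒩.H0 ⧸ Submodule.span A {s}), x = 0 := by
      intro x
      induction x using TensorProduct.induction_on with
      | zero => rfl
      | tmul c q => exact hq c q
      | add x y hx hy => rw [hx, hy, add_zero]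
    exact ⟨fun x y => by rw [h0 x, h0 y]⟩
  have hsupp : p ∉ Module.support A (𝒩.H0 ⧸ Submodule.span A {s}) := by
    rw [Module.mem_support_iff_nontrivial_residueField_tensorProduct]
    exact not_nontrivial_iff_subsingleton.2 hsub
  rw [Module.support_eq_zeroLocus, PrimeSpectrum.mem_zeroLocus, Set.not_subset] at hsupp
  obtain ⟨a, ha, hap⟩ := hsupp
  refine ⟨a, hap, fun t => ?_⟩
  have := Module.mem_annihilator.1 ha ((Submodule.span A {s}).mkQ t)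
  rw [← map_smul] at this
  obtain ⟨c, hc⟩ := Submodule.mem_span_singleton.1 ((Submodule.Quotient.mk_eq_zero _).1 this)
  exact ⟨c, hc.symm⟩

/-- some section is nonzero in a nonzero fibre -/
theorem exists_mapH0_ne_zero (hG : Γ.IsGood) {f : A →ₐ[k] A'} {𝒩 : LB Γ A} {𝒩' : LB Γ A'}
    (h : LB.BC f 𝒩 𝒩') (h1 : Subsingleton 𝒩.H1) (hne : Nontrivial 𝒩'.H0) :
    ∃ s : 𝒩.H0, h.mapH0 s ≠ 0 := by
  by_contra hcon
  simp only [not_exists, not_not] at hcon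
  have hspan := h.span_H0 hG h1
  have hbot : 𝒩'.H0 = ⊥ := by
    rw [← hspan, Submodule.span_eq_bot]
    rintro _ ⟨s, rfl⟩
    exact congrArg Subtype.val (hcon s)
  obtain ⟨x, y, hxy⟩ := hne
  apply hxy
  have hx : (x : 𝒩'.N₀ × 𝒩'.N₁) ∈ (⊥ : Submodule A' _) := hbot ▸ x.2
  have hy : (y : 𝒩'.N₀ × 𝒩'.N₁) ∈ (⊥ : Submodule A' _) := hbot ▸ y.2
  exact Subtype.ext (((Submodule.mem_bot _).1 hx).trans ((Submodule.mem_bot _).1 hy).symm)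

/-- all elements of `H⁰` of a base change are multiples of the image of `s`. -/
theorem gen_of_smul (hG : Γ.IsGood) {f : A →ₐ[k] A'} {𝒩 : LB Γ A} {𝒩' : LB Γ A'}
    (h : LB.BC f 𝒩 𝒩') (h1 : Subsingleton 𝒩.H1) (s : 𝒩.H0) (a : A)
    (ha : ∀ t : 𝒩.H0, ∃ c : A, a • t = c • s) (hu : IsUnit (f a)) :
    ∀ s' : 𝒩'.H0, ∃ c : A', s' = c • h.mapH0 s := by
  obtain ⟨v, hv⟩ := hu.exists_left_inv
  intro s'
  have hs' : (s' : 𝒩'.N₀ × 𝒩'.N₁) ∈ Submodule.span A'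
      {z : 𝒩'.N₀ × 𝒩'.N₁ | ∃ s : 𝒩.H0, z = (h.b₀ s.1.1, h.b₁ s.1.2)} := by
    rw [h.span_H0 hG h1]; exact s'.2
  have key : ∀ z ∈ Submodule.span A'
      {z : 𝒩'.N₀ × 𝒩'.N₁ | ∃ s : 𝒩.H0, z = (h.b₀ s.1.1, h.b₁ s.1.2)},
      ∃ c : A', z = c • (h.mapH0 s).1 := by
    intro z hz
    induction hz using Submodule.span_induction with
    | mem z hz =>
      obtain ⟨t, rfl⟩ := hz
      obtain ⟨c, hc⟩ := ha t
      have h2 := congrArg h.mapH0 hc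
      rw [mapH0_smul, mapH0_smul] at h2
      refine ⟨v * f c, ?_⟩
      have h3 : (h.mapH0 t).1 = (v * f c) • (h.mapH0 s).1 := by
        have h4 := congrArg (fun w : 𝒩'.H0 => v • w.1) h2
        simp only [Submodule.coe_smul, smul_smul, hv, one_smul] at h4
        exact h4
      exact h3
    | zero => exact ⟨0, by simp⟩
    | add x y _ _ hx hy =>
      obtain ⟨c, rfl⟩ := hx
      obtain ⟨c', rfl⟩ := hy
      exact ⟨c + c', by rw [add_smul]⟩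
    | smul r x _ hx =>
      obtain ⟨c, rfl⟩ := hx
      exact ⟨r * c, by rw [smul_smul]⟩
  obtain ⟨c, hc⟩ := key _ hs'
  exact ⟨c, Subtype.ext hc⟩

/-- **Lemma S** -/
theorem sect_of_smul (hG : Γ.IsGood) {f : A →ₐ[k] A'} {𝒩 : LB Γ A} {𝒩' : LB Γ A'}
    (h : LB.BC f 𝒩 𝒩')
    (hF : ∀ (K : Type u) [Field K] [Algebra k K] (g : A →ₐ[k] K) (𝒩K : LB Γ K),
      Nonempty (LB.BC g 𝒩 𝒩K) → Module.finrank K 𝒩K.H1 = 0 ∧ Module.finrank K 𝒩K.H0 = 1)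
    (s : 𝒩.H0) (a : A) (ha : ∀ t : 𝒩.H0, ∃ c : A, a • t = c • s) (hu : IsUnit (f a)) :
    𝒩'.Sect (h.mapH0 s) := by
  have hsub : ∀ (K : Type u) [Field K] [Algebra k K] (𝒩K : LB Γ K),
      Module.finrank K 𝒩K.H1 = 0 → Subsingleton 𝒩K.H1 := by
    intro K _ _ 𝒩K h0
    haveI := 𝒩K.finite_H1 hG
    exact Module.finrank_zero_iff.1 h0
  have h1 : Subsingleton 𝒩.H1 :=
    𝒩.H1_eq_zero_of_fibres hG (fun K _ _ g 𝒩K hK => hsub K 𝒩K (hF K g 𝒩K hK).1)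
  have h1' : Subsingleton 𝒩'.H1 :=
    𝒩'.H1_eq_zero_of_fibres hG (fun K _ _ g 𝒩K ⟨hK⟩ => hsub K 𝒩K (hF K _ 𝒩K (h.comp hK)).1)
  have hgen := gen_of_smul hG h h1 s a ha hu
  refine ⟨h1', hgen, fun K _ _ g 𝒩K hK h0 => ?_⟩
  have hdim := (hF K _ 𝒩K (h.comp hK)).2
  haveI : Nontrivial 𝒩K.H0 := Module.nontrivial_of_finrank_pos (R := K) (by omega)
  obtain ⟨t, ht⟩ := exists_mapH0_ne_zero hG hK h1' inferInstance
  obtain ⟨c, rfl⟩ := hgen t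
  rw [mapH0_smul, h0, smul_zero] at ht
  exact ht rfl

end StageA

/-- Stage A : near a point where `h¹ = 0`, `h⁰ = 1`, there is a universal generating section. -/
theorem exists_sect_local (m : PicAlg Γ A) (p : PrimeSpectrum A)
    (h1 : PicAlg.h1 (PicAlg.map (toResidue p) m) = 0) (h0 : PicAlg.h0 (PicAlg.map (toResidue p) m) = 1) :
    ∃ (a : A) (_ : a ∉ p.asIdeal) (𝒩 : LB Γ (Localization.Away a)) (s : 𝒩.H0),
      PicAlg.mk 𝒩 = PicAlg.map (toAway a) m ∧ 𝒩.Sect s := by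
  obtain ⟨e0, e1, he, hχ, hcl1, -⟩ := PicAlg.exists_h0_h1 m
  have hpp : PrimeSpectrum.comap (toResidue (k := k) p).toRingHom ⊥ = p := LB.comap_residueField p
  have hp0 : e0 p = 1 := by
    have := (he _ (toResidue p)).1
    rw [hpp] at this
    rw [← this, h0]
  have hp1 : e1 p = 0 := by
    have := (he _ (toResidue p)).2
    rw [hpp] at this
    rw [← this, h1]
  have hU : IsOpen ({q | (e0 q : ℤ) - e1 q = (e0 p : ℤ) - e1 p} ∩ {q | 1 ≤ e1 q}ᶜ) :=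
    (hχ.isOpen_fiber _).inter (hcl1 1).isOpen_compl
  have hpU : p ∈ ({q | (e0 q : ℤ) - e1 q = (e0 p : ℤ) - e1 p} ∩ {q | 1 ≤ e1 q}ᶜ) := by
    refine ⟨rfl, ?_⟩
    show ¬ (1 ≤ e1 p)
    omega
  obtain ⟨_, ⟨a, rfl⟩, hpa, haU⟩ :=
    PrimeSpectrum.isTopologicalBasis_basic_opens.exists_subset_of_mem_open hpU hU
  have hap : a ∉ p.asIdeal := hpa
  obtain ⟨𝒩a, h𝒩a⟩ := PicAlg.exists_rep (PicAlg.map (toAway a) m)
  have hF : ∀ (K : Type u) [Field K] [Algebra k K] (g : Localization.Away a →ₐ[k] K) (𝒩K : LB Γ K),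
      Nonempty (LB.BC g 𝒩a 𝒩K) → Module.finrank K 𝒩K.H1 = 0 ∧ Module.finrank K 𝒩K.H0 = 1 := by
    intro K _ _ g 𝒩K hK
    have hcl : PicAlg.map (g.comp (toAway a)) m = PicAlg.mk 𝒩K := by
      rw [← PicAlg.map_map, ← h𝒩a]; exact PicAlg.map_mk_eq_iff.2 hK
    have hq : PrimeSpectrum.comap (g.comp (toAway a)).toRingHom ⊥ ∈
        ({q | (e0 q : ℤ) - e1 q = (e0 p : ℤ) - e1 p} ∩ {q | 1 ≤ e1 q}ᶜ) := by
      apply haU
      show a ∉ (PrimeSpectrum.comap (g.comp (toAway a)).toRingHom ⊥).asIdeal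
      rw [PrimeSpectrum.comap_asIdeal, Ideal.mem_comap]
      have hu : IsUnit (algebraMap A (Localization.Away a) a) :=
        IsLocalization.Away.algebraMap_isUnit a
      have hu' : IsUnit (g (algebraMap A (Localization.Away a) a)) := hu.map g
      intro h0'
      exact hu'.ne_zero ((Ideal.mem_bot).1 h0')
    obtain ⟨hq1, hq2⟩ := hq
    have hq1' : (e0 (PrimeSpectrum.comap (g.comp (toAway a)).toRingHom ⊥) : ℤ) -
        e1 (PrimeSpectrum.comap (g.comp (toAway a)).toRingHom ⊥) = (e0 p : ℤ) - e1 p := hq1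
    have hq2' : ¬ (1 ≤ e1 (PrimeSpectrum.comap (g.comp (toAway a)).toRingHom ⊥)) := hq2
    have h3 := he K (g.comp (toAway a))
    rw [hcl] at h3
    have e1' : PicAlg.h1 (PicAlg.mk 𝒩K) = Module.finrank K 𝒩K.H1 := rfl
    have e0' : PicAlg.h0 (PicAlg.mk 𝒩K) = Module.finrank K 𝒩K.H0 := rfl
    rw [e1', e0'] at h3
    constructor <;> omega
  have hH1 : Subsingleton 𝒩a.H1 := by
    refine 𝒩a.H1_eq_zero_of_fibres hΓ.out (fun K _ _ g 𝒩K hK => ?_)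
    haveI := 𝒩K.finite_H1 hΓ.out
    exact Module.finrank_zero_iff.1 (hF K g 𝒩K hK).1
  obtain ⟨p', hp'⟩ : ∃ p' : PrimeSpectrum (Localization.Away a),
      PrimeSpectrum.comap (toAway (k := k) a).toRingHom p' = p := by
    have h := PrimeSpectrum.localization_away_comap_range (Localization.Away a) a
    have hp : p ∈ (PrimeSpectrum.basicOpen a : Set (PrimeSpectrum A)) := hap
    rw [← h] at hp
    exact hp
  obtain ⟨𝒩p, ⟨hbp⟩⟩ := LB.exists_BC hΓ.out (toResidue p') 𝒩a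
  have hdim := (hF _ _ 𝒩p ⟨hbp⟩).2
  haveI : Nontrivial 𝒩p.H0 :=
    Module.nontrivial_of_finrank_pos (R := p'.asIdeal.ResidueField) (by omega)
  obtain ⟨s, hs⟩ := StageA.exists_mapH0_ne_zero hΓ.out hbp hH1 inferInstance
  obtain ⟨a₁, ha₁, hgen⟩ := StageA.exists_smul_eq_smul hΓ.out 𝒩a hH1 p' 𝒩p hbp hdim s hs
  obtain ⟨a'', ha'', ψ, hψ⟩ := exists_away_refinement (k := k) a a₁ p p' hp' ha₁
  obtain ⟨𝒩₃, ⟨hb₃⟩⟩ := LB.exists_BC hΓ.out (ψ.comp (toAway a₁)) 𝒩a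
  refine ⟨a'', ha'', 𝒩₃, hb₃.mapH0 s, ?_, ?_⟩
  · rw [← hψ, ← AlgHom.comp_assoc, ← PicAlg.map_map, ← h𝒩a]
    exact (PicAlg.map_mk_eq_iff.2 ⟨hb₃⟩).symm
  · refine StageA.sect_of_smul hΓ.out hb₃ hF s a₁ hgen ?_
    have hu : IsUnit (algebraMap (Localization.Away a) (Localization.Away a₁) a₁) :=
      IsLocalization.Away.algebraMap_isUnit a₁
    exact hu.map ψ


/-- Stage B : `GenAtInfty` is an open condition. -/
theorem exists_genAtInfty_local (𝒩 : LB Γ A) (s : 𝒩.H0) (hs : 𝒩.Sect s) (p : PrimeSpectrum A)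
    (𝒩p : LB Γ p.asIdeal.ResidueField) (hp : LB.BC (toResidue p) 𝒩 𝒩p)
    (h : 𝒩p.GenAtInfty (hp.mapH0 s)) :
    ∃ (a : A) (_ : a ∉ p.asIdeal), ∀ (𝒩a : LB Γ (Localization.Away a)) (ha : LB.BC (toAway a) 𝒩 𝒩a),
      𝒩a.GenAtInfty (ha.mapH0 s) :=
  StageB.main hΓ.out 𝒩 s.1.2 p 𝒩p hp h

/-- (Sec3) -/
theorem finite_projective_quotient_zero₀ (𝒩 : LB Γ A) (s : 𝒩.H0) (hs : 𝒩.Sect s)
    (hy : 𝒩.GenAtInfty s) :
    Module.Finite A (Γ.R₀ A ⧸ 𝒩.zero₀ s.1.1) ∧ Module.Projective A (Γ.R₀ A ⧸ 𝒩.zero₀ s.1.1) :=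
  Sec3.main hΓ.out 𝒩 s hs.h1 hs.gen hy

/-- Stage C : "`b` is a basis of `O_D`" is an open condition. -/
theorem exists_isBasisMod_local {g : ℕ} (b : Fin g → Γ.B₀) (𝒩 : LB Γ A) (s : 𝒩.H0) (hs : 𝒩.Sect s)
    (hy : 𝒩.GenAtInfty s) (p : PrimeSpectrum A)
    (h : IsBasisMod ((𝒩.zero₀ s.1.1).map (Γ.ρ₀ (toResidue p))) b) :
    ∃ (a : A) (_ : a ∉ p.asIdeal), IsBasisMod ((𝒩.zero₀ s.1.1).map (Γ.ρ₀ (toAway a))) b := by
  obtain ⟨h1, h2⟩ := finite_projective_quotient_zero₀ 𝒩 s hs hy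
  exact HilbOpen.exists_away (𝒩.zero₀ s.1.1) b p h

/-- the fibre condition of the chart `(γ, b)`. -/
def InChart (γ : PicAlg Γ k) {g : ℕ} (b : Fin g → Γ.B₀) {K : Type u} [Field K] [Algebra k K]
    (n : PicAlg Γ K) (I : Ideal (Γ.R₀ K)) : Prop :=
  IsBasisMod I b ∧ n * PicAlg.map (kmap k K) γ * negDiv₀ I = 1 ∧ PicAlg.h1 ((negDiv₀ I)⁻¹) = 0

omit [IsAlgClosed k] in
/-- `R₀(K)` is infinite dimensional over `K`, so `⊥` has no finite basis modulo it. -/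
theorem IsBasisMod.ne_bot_R₀ {K : Type u} [Field K] [Algebra k K] {g : ℕ} {b : Fin g → Γ.B₀}
    {I : Ideal (Γ.R₀ K)} (hI : IsBasisMod I b) : I ≠ ⊥ := by
  rintro rfl
  have hinj : Function.Injective hI.proj := by
    rw [injective_iff_map_eq_zero]
    intro z hz
    exact (Submodule.mem_bot _).1 ((hI.mem_iff z).2 hz)
  have hfin : Module.Finite K (K ⊗[k] Γ.B₀) := Module.Finite.of_injective hI.proj hinj
  have h1 : Module.rank K (K ⊗[k] Γ.B₀) < Cardinal.aleph0 := Module.rank_lt_aleph0 K _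
  rw [Module.rank_baseChange, Cardinal.lift_lt_aleph0] at h1
  have h2 : Module.Finite k Γ.B₀ := Module.rank_lt_aleph0_iff.1 h1
  exact hΓ.out.transc₀ (Algebra.IsAlgebraic.isAlgebraic Γ.x)

omit hΓ [IsAlgClosed k] in
theorem LB.zero₀_zero (𝒩 : LB Γ A) : 𝒩.zero₀ (0 : 𝒩.N₀) = ⊥ := by
  unfold LB.zero₀
  rw [map_zero, LinearMap.range_zero]

/-- (C-fib) cohomological description of the chart condition (`g` = genus). -/
theorem InChart.exists_sect {γ : PicAlg Γ k} {b : Fin Γ.genus → Γ.B₀} {K : Type u} [Field K]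
    [Algebra k K] {n : PicAlg Γ K} {I : Ideal (Γ.R₀ K)} (h : InChart γ b n I) :
    ∃ (𝒩 : LB Γ K) (s : 𝒩.H0), PicAlg.mk 𝒩 = n * PicAlg.map (kmap k K) γ ∧ 𝒩.Sect s ∧
      𝒩.GenAtInfty s ∧ 𝒩.zero₀ s.1.1 = I := by
  obtain ⟨hI, hone, hh1⟩ := h
  obtain ⟨𝒩, s, hmk, hz, hgen⟩ := exists_section_of_isBasisMod hI
  have hs : s ≠ 0 := by
    rintro rfl
    have : 𝒩.zero₀ (0 : 𝒩.N₀) = I := hz
    rw [LB.zero₀_zero] at this
    exact hI.ne_bot_R₀ this.symm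
  have hH1 : Module.finrank K 𝒩.H1 = 0 := by
    have : PicAlg.h1 (PicAlg.mk 𝒩) = 0 := by rw [hmk]; exact hh1
    exact this
  have hdeg : PicAlg.deg (PicAlg.mk 𝒩) = Γ.genus := by
    have h1 := deg_mul_negDiv₀ hI (PicAlg.mk 𝒩)
    rw [hmk, inv_mul_cancel, deg_one] at h1
    rw [hmk]
    linarith
  have hH0 : Module.finrank K 𝒩.H0 = 1 := by
    have e0 : PicAlg.h0 (PicAlg.mk 𝒩) = Module.finrank K 𝒩.H0 := rfl
    have e1 : PicAlg.h1 (PicAlg.mk 𝒩) = Module.finrank K 𝒩.H1 := rfl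
    simp only [PicAlg.deg, PicAlg.chi, e0, e1, hH1] at hdeg
    omega
  refine ⟨𝒩, s, ?_, ⟨?_, ?_, ?_⟩, hgen, hz⟩
  · rw [hmk, ← eq_inv_of_mul_eq_one_left hone]
  · haveI := LB.finite_H1 hΓ.out 𝒩
    exact Module.finrank_zero_iff.1 hH1
  · intro s'
    obtain ⟨c, hc⟩ := (finrank_eq_one_iff_of_nonzero' s hs).1 hH0 s'
    exact ⟨c, hc.symm⟩
  · intro K' _ _ f 𝒩' hBC h0
    have hb : hBC.b₀ s.1.1 = 0 := congrArg (fun t : 𝒩'.H0 => t.1.1) h0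
    have hz' := hBC.zero₀ s.1.1
    rw [hb, LB.zero₀_zero, hz] at hz'
    exact (hI.map f).ne_bot_R₀ hz'.symm

/-! ### auxiliary lemmas for (C-inj) -/
namespace Cinj

omit hΓ [IsAlgClosed k] in
/-- transport of a section along an isomorphism -/
theorem iso_mem_H0 {𝒩 𝒩' : LB Γ A} (e : LB.Iso 𝒩 𝒩') (s : 𝒩.H0) :
    (e.e₀ s.1.1, e.e₁ s.1.2) ∈ 𝒩'.H0 := by
  have hs : 𝒩.r₀A.coprod (-𝒩.r₁A) s.1 = 0 := s.2
  change 𝒩'.r₀A.coprod (-𝒩'.r₁A) (e.e₀ s.1.1, e.e₁ s.1.2) = 0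
  rw [LinearMap.coprod_apply] at hs ⊢
  simp only [LinearMap.neg_apply, LB.r₀A_apply, LB.r₁A_apply] at hs ⊢
  rw [← e.comm₀, ← e.comm₁, ← map_neg, ← map_add, hs, map_zero]

omit hΓ [IsAlgClosed k] in
/-- an element of `A` which is nonzero at all residue fields is a unit. -/
theorem isUnit_of_forall_toResidue (c : A)
    (h : ∀ p : PrimeSpectrum A, toResidue (k := k) p c ≠ 0) : IsUnit c := by
  by_contra hc
  obtain ⟨m, hm, hcm⟩ := exists_max_ideal_of_mem_nonunits hc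
  apply h ⟨m, hm.isPrime⟩
  change algebraMap A m.ResidueField c = 0
  rwa [Ideal.algebraMap_residueField_eq_zero]

/-- the zero ideal of a universal generating section of `O(D)` is the ideal of `D`. -/
theorem eq_zero₀_of_sect {g : ℕ} {b : Fin g → Γ.B₀} {J : Ideal (Γ.R₀ A)} (hJ : IsBasisMod J b)
    (𝒩 : LB Γ A) (s : 𝒩.H0) (hs : 𝒩.Sect s) (hmk : PicAlg.mk 𝒩 = (negDiv₀ J)⁻¹) :
    J = 𝒩.zero₀ s.1.1 := by
  obtain ⟨𝒩₁, s₁, hmk₁, hz₁, -⟩ := exists_section_of_isBasisMod hJ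
  obtain ⟨e⟩ : 𝒩₁.Equiv 𝒩 := PicAlg.mk_eq_mk.mp (hmk₁.trans hmk.symm)
  obtain ⟨c, hc⟩ := hs.gen ⟨_, iso_mem_H0 e s₁⟩
  have hc₀ : e.e₀ s₁.1.1 = algebraMap A (Γ.R₀ A) c • s.1.1 :=
    congrArg (fun t : 𝒩.H0 => t.1.1) hc
  have hu : IsUnit c := by
    apply isUnit_of_forall_toResidue (k := k)
    intro p hp
    obtain ⟨𝒩K, ⟨hb⟩⟩ := LB.exists_BC hΓ.out (toResidue p) 𝒩
    have h1 := hb.zero₀ (e.e₀ s₁.1.1)
    rw [e.zero₀, hz₁, hc₀, hb.b₀.map_smulₛₗ] at h1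
    have h2 : (Γ.ρ₀ (toResidue p)).toRingHom (algebraMap A (Γ.R₀ A) c) = 0 := by
      have := Γ.ρ₀_algebraMap (toResidue p) c
      rw [hp, map_zero] at this
      exact this
    rw [h2, zero_smul, LB.zero₀_zero] at h1
    exact (hJ.map (toResidue p)).ne_bot_R₀ h1.symm
  rw [← hz₁, ← e.zero₀, hc₀]
  exact 𝒩.zero₀_smul_unit s.1.1 (hu.map (algebraMap A (Γ.R₀ A))).unit

omit hΓ [IsAlgClosed k] in
theorem coord_map {g : ℕ} {b : Fin g → Γ.B₀} {J : Ideal (Γ.R₀ A)} (hJ : IsBasisMod J b)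
    (f : A →ₐ[k] A') (hJ' : IsBasisMod (J.map (Γ.ρ₀ f)) b) (z : Γ.R₀ A) (i : Fin g) :
    hJ'.coord (Γ.ρ₀ f z) i = f (hJ.coord z i) := by
  have h : hJ'.coord (Γ.ρ₀ f z) = fun i => f (hJ.coord z i) := by
    apply hJ'.coord_unique
    have h1 := Ideal.mem_map_of_mem (Γ.ρ₀ f) (hJ.coord_spec z)
    have e : Γ.ρ₀ f (z - ∑ i, hJ.coord z i ⊗ₜ[k] b i) =
        Γ.ρ₀ f z - ∑ i, f (hJ.coord z i) ⊗ₜ[k] b i := by
      rw [map_sub, map_sum]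
      simp [CurveAlg.ρ₀]
    rwa [e] at h1
  rw [h]

omit hΓ [IsAlgClosed k] in
/-- an element of `A` vanishing Zariski locally vanishes. -/
theorem eq_zero_of_local (c : A)
    (h : ∀ p : PrimeSpectrum A, ∃ a : A, a ∉ p.asIdeal ∧ toAway (k := k) a c = 0) : c = 0 := by
  by_contra hc
  have hne : LinearMap.ker (LinearMap.toSpanSingleton A A c) ≠ ⊤ := by
    intro htop
    have : (1 : A) ∈ LinearMap.ker (LinearMap.toSpanSingleton A A c) := htop ▸ Submodule.mem_top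
    rw [LinearMap.mem_ker, LinearMap.toSpanSingleton_apply, one_smul] at this
    exact hc this
  obtain ⟨m, hm, hle⟩ := Ideal.exists_le_maximal _ hne
  obtain ⟨a, ha, hac⟩ := h ⟨m, hm.isPrime⟩
  have hac' : algebraMap A (Localization.Away a) c = 0 := hac
  rw [IsLocalization.map_eq_zero_iff (Submonoid.powers a)] at hac'
  obtain ⟨⟨_, n, rfl⟩, hn⟩ := hac'
  apply ha
  apply hm.isPrime.mem_of_pow_mem n
  apply hle
  rw [LinearMap.mem_ker, LinearMap.toSpanSingleton_apply, smul_eq_mul]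
  exact hn

omit hΓ [IsAlgClosed k] in
/-- equality of ideals with a basis is local on `Spec A`. -/
theorem eq_of_local {g : ℕ} {b : Fin g → Γ.B₀} {I I' : Ideal (Γ.R₀ A)} (hI : IsBasisMod I b)
    (hI' : IsBasisMod I' b)
    (h : ∀ p : PrimeSpectrum A, ∃ a : A, a ∉ p.asIdeal ∧
      I.map (Γ.ρ₀ (toAway a)) = I'.map (Γ.ρ₀ (toAway a))) : I = I' := by
  apply hI.eq_of_le hI'
  intro z hz
  rw [hI'.mem_iff]
  ext i
  apply eq_zero_of_local (k := k)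
  intro p
  obtain ⟨a, ha, hIa⟩ := h p
  refine ⟨a, ha, ?_⟩
  have hJ' : IsBasisMod (I'.map (Γ.ρ₀ (toAway a))) b := hI'.map (toAway a)
  rw [← coord_map hI' (toAway a) hJ' z i]
  have h1 : Γ.ρ₀ (toAway a) z ∈ I'.map (Γ.ρ₀ (toAway a)) := hIa ▸ Ideal.mem_map_of_mem _ hz
  rw [(hJ'.mem_iff _).1 h1]
  rfl

omit hΓ [IsAlgClosed k] in
theorem exists_point_above (a : A) (p : PrimeSpectrum A) (ha : a ∉ p.asIdeal) :
    ∃ p' : PrimeSpectrum (Localization.Away a),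
      PrimeSpectrum.comap (toAway (k := k) a).toRingHom p' = p := by
  have h := PrimeSpectrum.localization_away_comap_range (Localization.Away a) a
  have hp : p ∈ (PrimeSpectrum.basicOpen a : Set (PrimeSpectrum A)) := ha
  rw [← h] at hp
  exact hp

end Cinj

/-- (C-inj) -/
theorem eq_of_fromBase {g : ℕ} {b : Fin g → Γ.B₀} {I I' : Ideal (Γ.R₀ A)} (hI : IsBasisMod I b)
    (hI' : IsBasisMod I' b)
    (h1 : ∀ (K : Type u) [Field K] [Algebra k K] (f : A →ₐ[k] K),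
      PicAlg.h1 ((negDiv₀ (I.map (Γ.ρ₀ f)))⁻¹) = 0 ∧ PicAlg.h0 ((negDiv₀ (I.map (Γ.ρ₀ f)))⁻¹) = 1)
    (h : PicAlg.FromBase (negDiv₀ I * (negDiv₀ I')⁻¹)) : I = I' := by
  apply Cinj.eq_of_local hI hI'
  intro p
  obtain ⟨m, hm⟩ : ∃ m : PicAlg Γ A, m = (negDiv₀ I)⁻¹ := ⟨_, rfl⟩
  have hmap : ∀ (A'' : Type u) [CommRing A''] [Algebra k A''] (f : A →ₐ[k] A''),
      PicAlg.map f m = (negDiv₀ (I.map (Γ.ρ₀ f)))⁻¹ := by
    intro A'' _ _ f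
    rw [hm, map_inv, map_negDiv₀ hI]
  obtain ⟨a₁, ha₁, 𝒩₁, s₁, hc₁, hS₁⟩ := exists_sect_local m p
    (by rw [hmap]; exact (h1 _ _).1) (by rw [hmap]; exact (h1 _ _).2)
  obtain ⟨p₁, hp₁⟩ := Cinj.exists_point_above (k := k) a₁ p ha₁
  obtain ⟨a₂, ha₂, htriv⟩ := (h.map (toAway a₁)).exists_localization p₁
  obtain ⟨a, ha, ψ, hψ⟩ := exists_away_refinement (k := k) a₁ a₂ p p₁ hp₁ ha₂
  refine ⟨a, ha, ?_⟩
  have htriv' : PicAlg.map (toAway a) (negDiv₀ I * (negDiv₀ I')⁻¹) = 1 := by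
    rw [← hψ, ← PicAlg.map_map, ← PicAlg.map_map]
    have e : PicAlg.map (toAway a₂) (PicAlg.map (toAway a₁) (negDiv₀ I * (negDiv₀ I')⁻¹)) = 1 :=
      htriv
    rw [e, map_one]
  have heq : negDiv₀ (I.map (Γ.ρ₀ (toAway a))) = negDiv₀ (I'.map (Γ.ρ₀ (toAway a))) := by
    rwa [map_mul, map_inv, map_negDiv₀ hI, map_negDiv₀ hI', mul_inv_eq_one] at htriv'
  obtain ⟨𝒩₂, ⟨hb₂⟩⟩ := LB.exists_BC hΓ.out (toAway a₂) 𝒩₁
  obtain ⟨𝒩₃, ⟨hb₃⟩⟩ := LB.exists_BC hΓ.out ψ 𝒩₂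
  have hS₃ : 𝒩₃.Sect (hb₃.mapH0 (hb₂.mapH0 s₁)) := (hS₁.bc hb₂).bc hb₃
  have hc₃ : PicAlg.mk 𝒩₃ = PicAlg.map (toAway a) m := by
    rw [← hψ, ← PicAlg.map_map, ← PicAlg.map_map, ← hc₁, PicAlg.map_mk_eq_iff.mpr ⟨hb₂⟩,
      PicAlg.map_mk_eq_iff.mpr ⟨hb₃⟩]
  exact (Cinj.eq_zero₀_of_sect (hI.map (toAway a)) 𝒩₃ _ hS₃ (hc₃.trans (hmap _ _))).trans
    (Cinj.eq_zero₀_of_sect (hI'.map (toAway a)) 𝒩₃ _ hS₃
      ((hc₃.trans (hmap _ _)).trans (congrArg _ heq))).symm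

/-! ### auxiliary lemmas for (C-loc) -/

namespace Cloc

omit hΓ [IsAlgClosed k] in
theorem exists_point_above (a : A) (p : PrimeSpectrum A) (ha : a ∉ p.asIdeal) :
    ∃ p' : PrimeSpectrum (Localization.Away a),
      PrimeSpectrum.comap (toAway (k := k) a).toRingHom p' = p := by
  have h := PrimeSpectrum.localization_away_comap_range (Localization.Away a) a
  have hp : p ∈ (PrimeSpectrum.basicOpen a : Set (PrimeSpectrum A)) := ha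
  rw [← h] at hp
  exact hp

omit hΓ [IsAlgClosed k] in
theorem exists_residue_map (φ : A →ₐ[k] A') (p' : PrimeSpectrum A') (p : PrimeSpectrum A)
    (hp : PrimeSpectrum.comap φ.toRingHom p' = p) :
    ∃ j : p.asIdeal.ResidueField →ₐ[k] p'.asIdeal.ResidueField,
      j.comp (toResidue p) = (toResidue p').comp φ := by
  subst hp
  refine ⟨Ideal.ResidueField.mapₐ _ _ φ rfl, ?_⟩
  ext x
  exact Ideal.ResidueField.map_algebraMap _ _ φ.toRingHom rfl x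

omit hΓ [IsAlgClosed k] in
theorem mapH0_zero {f : A →ₐ[k] A'} {𝒩 : LB Γ A} {𝒩' : LB Γ A'} (h : LB.BC f 𝒩 𝒩') :
    h.mapH0 0 = 0 := by
  apply Subtype.ext
  change (h.b₀ 0, h.b₁ 0) = 0
  rw [map_zero, map_zero]
  rfl

omit hΓ [IsAlgClosed k] in
theorem sect_ne_zero {𝒩 : LB Γ A} {s : 𝒩.H0} (hs : 𝒩.Sect s) {K : Type u} [Field K] [Algebra k K]
    (f : A →ₐ[k] K) (𝒩' : LB Γ K) (h : LB.BC f 𝒩 𝒩') : s ≠ 0 := by
  rintro rfl
  exact hs.fib K f 𝒩' h (mapH0_zero h)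

theorem h1_mk_of_sect {K : Type u} [Field K] [Algebra k K] {𝒩 : LB Γ K} {s : 𝒩.H0}
    (hs : 𝒩.Sect s) : PicAlg.h1 (PicAlg.mk 𝒩) = 0 := by
  have := hs.h1
  exact Module.finrank_zero_of_subsingleton

theorem h0_mk_of_sect {K : Type u} [Field K] [Algebra k K] {𝒩 : LB Γ K} {s : 𝒩.H0}
    (hs : 𝒩.Sect s) : PicAlg.h0 (PicAlg.mk 𝒩) = 1 := by
  obtain ⟨hid⟩ := LB.BC.id 𝒩
  have hs0 : s ≠ 0 := sect_ne_zero hs (AlgHom.id k K) 𝒩 hid
  change Module.finrank K 𝒩.H0 = 1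
  rw [finrank_eq_one_iff_of_nonzero' s hs0]
  intro w
  obtain ⟨c, hc⟩ := hs.gen w
  exact ⟨c, hc.symm⟩

/-- comparison of a family of sections with a model of its fibre -/
theorem exists_bc_smul {𝒩 : LB Γ A} {s : 𝒩.H0} (hs : 𝒩.Sect s) {K : Type u} [Field K] [Algebra k K]
    (f : A →ₐ[k] K) {𝒩K : LB Γ K} {sK : 𝒩K.H0} (hsK : 𝒩K.Sect sK)
    (hcls : PicAlg.map f (PicAlg.mk 𝒩) = PicAlg.mk 𝒩K) :
    ∃ (hb : LB.BC f 𝒩 𝒩K) (c : K), c ≠ 0 ∧ hb.mapH0 s = c • sK := by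
  obtain ⟨hb⟩ := PicAlg.map_mk_eq_iff.mp hcls
  obtain ⟨c, hc⟩ := hsK.gen (hb.mapH0 s)
  refine ⟨hb, c, ?_, hc⟩
  rintro rfl
  rw [zero_smul] at hc
  exact hs.fib K f 𝒩K hb hc

omit hΓ [IsAlgClosed k] in
theorem genAtInfty_smul {K : Type u} [Field K] [Algebra k K] {𝒩K : LB Γ K} {sK t : 𝒩K.H0}
    (h : 𝒩K.GenAtInfty sK) {c : K} (hc : c ≠ 0) (ht : t = c • sK) : 𝒩K.GenAtInfty t := by
  subst ht
  unfold LB.GenAtInfty at h ⊢
  have h1 : (c • sK).1.2 = algebraMap K (Γ.R₁ K) c • sK.1.2 := rfl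
  rw [h1, Submodule.span_singleton_smul_eq ((isUnit_iff_ne_zero.2 hc).map (algebraMap K (Γ.R₁ K)))]
  exact h

theorem zero₀_smul {K : Type u} [Field K] [Algebra k K] {𝒩K : LB Γ K} {sK t : 𝒩K.H0}
    {c : K} (hc : c ≠ 0) (ht : t = c • sK) : 𝒩K.zero₀ t.1.1 = 𝒩K.zero₀ sK.1.1 := by
  subst ht
  exact 𝒩K.zero₀_smul_unit sK.1.1 (Units.map (algebraMap K (Γ.R₀ K)).toMonoidHom (Units.mk0 c hc))

/-- the fibre of a family `(𝒩', s')` of class `m` at a point `p'` above `p`, compared with the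
model `(𝒩κ, sκ)` of the fibre of `m` at `p`. -/
theorem fibre_compare {g : ℕ} {b : Fin g → Γ.B₀} {m : PicAlg Γ A} {p : PrimeSpectrum A}
    {𝒩κ : LB Γ p.asIdeal.ResidueField} {sκ : 𝒩κ.H0}
    (hmκ : PicAlg.map (toResidue p) m = PicAlg.mk 𝒩κ) (hSκ : 𝒩κ.Sect sκ) (hGκ : 𝒩κ.GenAtInfty sκ)
    (hIκ : IsBasisMod (𝒩κ.zero₀ sκ.1.1) b)
    (φ : A →ₐ[k] A') (p' : PrimeSpectrum A') (hp : PrimeSpectrum.comap φ.toRingHom p' = p)
    (𝒩' : LB Γ A') (s' : 𝒩'.H0) (hS' : 𝒩'.Sect s') (hc' : PicAlg.mk 𝒩' = PicAlg.map φ m) :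
    ∃ (𝒩p : LB Γ p'.asIdeal.ResidueField) (hb : LB.BC (toResidue p') 𝒩' 𝒩p),
      𝒩p.GenAtInfty (hb.mapH0 s') ∧
      IsBasisMod ((𝒩'.zero₀ s'.1.1).map (Γ.ρ₀ (toResidue p'))) b := by
  obtain ⟨j, hj⟩ := exists_residue_map φ p' p hp
  obtain ⟨𝒩p, ⟨hbj⟩⟩ := LB.exists_BC hΓ.out j 𝒩κ
  have hSp : 𝒩p.Sect (hbj.mapH0 sκ) := hSκ.bc hbj
  have hGp : 𝒩p.GenAtInfty (hbj.mapH0 sκ) := hGκ.bc hbj
  have hcls : PicAlg.map (toResidue p') (PicAlg.mk 𝒩') = PicAlg.mk 𝒩p := by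
    rw [hc', PicAlg.map_map, ← hj, ← PicAlg.map_map, hmκ]
    exact PicAlg.map_mk_eq_iff.mpr ⟨hbj⟩
  obtain ⟨hb, c, hc0, hc⟩ := exists_bc_smul hS' (toResidue p') hSp hcls
  refine ⟨𝒩p, hb, genAtInfty_smul hGp hc0 hc, ?_⟩
  have h1 : 𝒩p.zero₀ (hb.mapH0 s').1.1 = (𝒩'.zero₀ s'.1.1).map (Γ.ρ₀ (toResidue p')) :=
    hb.zero₀ s'.1.1
  have h2 : 𝒩p.zero₀ (hbj.mapH0 sκ).1.1 = (𝒩κ.zero₀ sκ.1.1).map (Γ.ρ₀ j) := hbj.zero₀ sκ.1.1
  rw [← h1, zero₀_smul hc0 hc, h2]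
  exact hIκ.map j

end Cloc

/-! ### auxiliary lemmas for (C-ext) -/

namespace Cext

omit hΓ [IsAlgClosed k] in
/-- a `K`-linear retraction of a field extension -/
theorem exists_retraction {K K' : Type u} [Field K] [Algebra k K] [Field K'] [Algebra k K']
    (f : K →ₐ[k] K') :
    ∃ π : K' →ₗ[k] K, (∀ a, π (f a) = a) ∧ ∀ a w, π (f a * w) = a * π w := by
  letI := f.toRingHom.toAlgebra
  obtain ⟨π, hπ⟩ := LinearMap.exists_leftInverse_of_injective (Algebra.linearMap K K')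
    (LinearMap.ker_eq_bot.2 (algebraMap K K').injective)
  have h1 : ∀ a, π (f a) = a := fun a => LinearMap.congr_fun hπ a
  have h2 : ∀ a w, π (f a * w) = a * π w := fun a w => by
    have : f a * w = a • w := rfl
    rw [this, map_smul, smul_eq_mul]
  refine ⟨{ toFun := π, map_add' := π.map_add, map_smul' := fun c w => ?_ }, h1, h2⟩
  have e : c • w = f (algebraMap k K c) * w := by
    rw [AlgHom.commutes, Algebra.smul_def]
  rw [e, h2, RingHom.id_apply, Algebra.smul_def]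

omit hΓ [IsAlgClosed k] in
/-- descent of `IsBasisMod` along a field extension -/
theorem isBasisMod_descend {B : Type u} [CommRing B] [Algebra k B] {g : ℕ} {b : Fin g → B}
    {K K' : Type u} [Field K] [Algebra k K] [Field K'] [Algebra k K'] (f : K →ₐ[k] K')
    {I : Ideal (K ⊗[k] B)} (h : IsBasisMod (I.map (bcMap B f)) b) : IsBasisMod I b := by
  obtain ⟨π, hπ1, hπ2⟩ := exists_retraction f
  let P : K' ⊗[k] B →ₗ[k] K ⊗[k] B := TensorProduct.map π LinearMap.id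
  have hP1 : ∀ (w : K' ⊗[k] B) (x : K ⊗[k] B), P (w * bcMap B f x) = P w * x := by
    intro w x
    induction x using TensorProduct.induction_on with
    | zero => simp
    | add x y hx hy => rw [map_add, mul_add, map_add, hx, hy, mul_add]
    | tmul a β =>
      induction w using TensorProduct.induction_on with
      | zero => simp
      | add x y hx hy => rw [add_mul, map_add, hx, hy, map_add, add_mul]
      | tmul a' β' =>
        simp only [P, bcMap, Algebra.TensorProduct.map_tmul, Algebra.TensorProduct.tmul_mul_tmul,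
          TensorProduct.map_tmul, LinearMap.id_apply, AlgHom.id_apply]
        rw [mul_comm a' (f a), hπ2, mul_comm]
  have hP2 : ∀ x : K ⊗[k] B, P (bcMap B f x) = x := by
    intro x
    have := hP1 1 x
    rw [one_mul] at this
    rw [this]
    have : P 1 = 1 := by
      change P ((1 : K') ⊗ₜ[k] (1 : B)) = 1
      simp only [P, TensorProduct.map_tmul, LinearMap.id_apply]
      rw [← map_one f, hπ1]
      rfl
    rw [this, one_mul]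
  have hP3 : ∀ y ∈ I.map (bcMap B f), P y ∈ I := by
    intro y hy
    have key : ∀ y ∈ I.map (bcMap B f), ∀ w : K' ⊗[k] B, P (w * y) ∈ I := by
      intro y hy
      induction hy using Submodule.span_induction with
      | mem x hx =>
        obtain ⟨x₀, hx₀, rfl⟩ := hx
        intro w
        have := hP1 w x₀
        erw [this]
        exact I.mul_mem_left _ hx₀
      | zero => intro w; simp
      | add x y _ _ hx hy => intro w; rw [mul_add, map_add]; exact I.add_mem (hx w) (hy w)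
      | smul a x _ hx =>
        intro w
        rw [smul_eq_mul, ← mul_assoc]
        exact hx _
    have := key y hy 1
    rwa [one_mul] at this
  intro z
  obtain ⟨c', hc', huniq⟩ := h (bcMap B f z)
  refine ⟨fun i => π (c' i), ?_, ?_⟩
  · have := hP3 _ hc'
    rw [map_sub, hP2, map_sum] at this
    simpa [P] using this
  · intro c hc
    have h1 : bcMap B f (z - ∑ i, c i ⊗ₜ[k] b i) ∈ I.map (bcMap B f) := Ideal.mem_map_of_mem _ hc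
    rw [map_sub, map_sum] at h1
    have h2 := huniq (fun i => f (c i)) (by simpa [bcMap] using h1)
    funext i
    rw [← h2]
    exact (hπ1 _).symm

omit [IsAlgClosed k] in
/-- over a field, `h¹ = 0` and `h⁰ = 1` give a universal generating section -/
theorem exists_sect_of_field {K : Type u} [Field K] [Algebra k K] (𝒩 : LB Γ K)
    (h1 : PicAlg.h1 (PicAlg.mk 𝒩) = 0) (h0 : PicAlg.h0 (PicAlg.mk 𝒩) = 1) :
    ∃ s : 𝒩.H0, 𝒩.Sect s := by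
  have h1' : Module.finrank K 𝒩.H1 = 0 := h1
  have h0' : Module.finrank K 𝒩.H0 = 1 := h0
  haveI := LB.finite_H1 hΓ.out 𝒩
  have hS1 : Subsingleton 𝒩.H1 := Module.finrank_zero_iff.1 h1'
  obtain ⟨s, hs0, hs⟩ := finrank_eq_one_iff'.1 h0'
  refine ⟨s, hS1, fun s' => ?_, ?_⟩
  · obtain ⟨c, hc⟩ := hs s'
    exact ⟨c, hc.symm⟩
  · intro K' _ _ f 𝒩' hb hzero
    have hdim : Module.finrank K' 𝒩'.H0 = 1 := by
      have e : PicAlg.h0 (PicAlg.map f (PicAlg.mk 𝒩)) = 1 := by rw [PicAlg.h0_map, h0]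
      rw [PicAlg.map_mk_eq_iff.2 ⟨hb⟩] at e
      exact e
    have hspan := hb.span_H0 hΓ.out hS1
    have hbot : Submodule.span K'
        {z : 𝒩'.N₀ × 𝒩'.N₁ | ∃ s₀ : 𝒩.H0, z = (hb.b₀ s₀.1.1, hb.b₁ s₀.1.2)} = ⊥ := by
      rw [Submodule.span_eq_bot]
      rintro _ ⟨s₀, rfl⟩
      obtain ⟨c, rfl⟩ := hs s₀
      change (hb.b₀ (c • s.1.1), hb.b₁ (c • s.1.2)) = 0
      rw [hb.b₀_smul, hb.b₁_smul]
      have e0 : hb.b₀ s.1.1 = 0 := congrArg (fun t : 𝒩'.H0 => t.1.1) hzero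
      have e1 : hb.b₁ s.1.2 = 0 := congrArg (fun t : 𝒩'.H0 => t.1.2) hzero
      rw [e0, e1, smul_zero, smul_zero]
      rfl
    rw [hbot] at hspan
    rw [← hspan, finrank_bot] at hdim
    exact zero_ne_one hdim

end Cext

/-- (C-ext) -/
theorem InChart.map {γ : PicAlg Γ k} {g : ℕ} {b : Fin g → Γ.B₀} {K K' : Type u} [Field K] [Algebra k K]
    [Field K'] [Algebra k K'] (f : K →ₐ[k] K') {n : PicAlg Γ K} {I : Ideal (Γ.R₀ K)}
    (h : InChart γ b n I) : InChart γ b (PicAlg.map f n) (I.map (Γ.ρ₀ f)) := by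
  obtain ⟨hI, hone, hh1⟩ := h
  refine ⟨hI.map f, ?_, ?_⟩
  · have := congrArg (PicAlg.map f) hone
    rwa [map_mul, map_mul, PicAlg.map_map, Subsingleton.elim (f.comp (kmap k K)) (kmap k K'),
      map_negDiv₀ hI f, map_one] at this
  · rw [← map_negDiv₀ hI f, ← map_inv, PicAlg.h1_map]
    exact hh1
theorem InChart.descend {γ : PicAlg Γ k} {b : Fin Γ.genus → Γ.B₀} {K K' : Type u} [Field K]
    [Algebra k K] [Field K'] [Algebra k K'] (f : K →ₐ[k] K') {n : PicAlg Γ K} {I' : Ideal (Γ.R₀ K')}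
    (h : InChart γ b (PicAlg.map f n) I') :
    ∃ I : Ideal (Γ.R₀ K), InChart γ b n I ∧ I.map (Γ.ρ₀ f) = I' := by
  obtain ⟨𝒩', s', hmk', hS', -, hz'⟩ := h.exists_sect
  obtain ⟨hI', hone', hh1'⟩ := h
  obtain ⟨𝒩, h𝒩⟩ := PicAlg.exists_rep (n * PicAlg.map (kmap k K) γ)
  have hcls : PicAlg.map f (PicAlg.mk 𝒩) = PicAlg.mk 𝒩' := by
    rw [h𝒩, hmk', map_mul, PicAlg.map_map, Subsingleton.elim (f.comp (kmap k K)) (kmap k K')]
  have e1 : PicAlg.h1 (PicAlg.mk 𝒩) = 0 := by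
    rw [← PicAlg.h1_map f, hcls]; exact Cloc.h1_mk_of_sect hS'
  have e0 : PicAlg.h0 (PicAlg.mk 𝒩) = 1 := by
    rw [← PicAlg.h0_map f, hcls]; exact Cloc.h0_mk_of_sect hS'
  obtain ⟨s, hS⟩ := Cext.exists_sect_of_field 𝒩 e1 e0
  obtain ⟨hb, c, hc0, hc⟩ := Cloc.exists_bc_smul hS f hS' hcls
  have hmapI : (𝒩.zero₀ s.1.1).map (Γ.ρ₀ f) = I' := by
    have h1 : 𝒩'.zero₀ (hb.mapH0 s).1.1 = (𝒩.zero₀ s.1.1).map (Γ.ρ₀ f) := hb.zero₀ s.1.1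
    rw [← h1, Cloc.zero₀_smul hc0 hc, hz']
  have hI : IsBasisMod (𝒩.zero₀ s.1.1) b := by
    apply Cext.isBasisMod_descend f
    have : (𝒩.zero₀ s.1.1).map (bcMap Γ.B₀ f) = I' := hmapI
    rw [this]
    exact hI'
  have hmapx : PicAlg.map f (n * PicAlg.map (kmap k K) γ * negDiv₀ (𝒩.zero₀ s.1.1)) = 1 := by
    rw [map_mul, map_mul, PicAlg.map_map, Subsingleton.elim (f.comp (kmap k K)) (kmap k K'),
      map_negDiv₀ hI f, hmapI]
    exact hone'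
  refine ⟨𝒩.zero₀ s.1.1, ⟨hI, ?_, ?_⟩, hmapI⟩
  · apply eq_one_of_h0_pos
    · rw [← PicAlg.h0_map f, hmapx, h0_one]; exact one_pos
    · rw [← PicAlg.h0_map f, map_inv, hmapx, inv_one, h0_one]; exact one_pos
  · rw [← PicAlg.h1_map f, map_inv, map_negDiv₀ hI f, hmapI]
    exact hh1'

/-- **(C-loc)** local surjectivity of the chart. -/
theorem exists_chart_local (γ : PicAlg Γ k) (b : Fin Γ.genus → Γ.B₀) (n : PicAlg Γ A)
    (p : PrimeSpectrum A) (Ip : Ideal (Γ.R₀ p.asIdeal.ResidueField))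
    (h : InChart γ b (PicAlg.map (toResidue p) n) Ip) :
    ∃ (a : A) (_ : a ∉ p.asIdeal) (I : Ideal (Γ.R₀ (Localization.Away a))), IsBasisMod I b ∧
      PicAlg.map (toAway a) n * PicAlg.map (kmap k _) γ * negDiv₀ I = 1 ∧
      ∀ (K : Type u) [Field K] [Algebra k K] (f : Localization.Away a →ₐ[k] K),
        PicAlg.h1 ((negDiv₀ (I.map (Γ.ρ₀ f)))⁻¹) = 0 := by
  obtain ⟨𝒩κ, sκ, hκ, hSκ, hGκ, hZκ⟩ := h.exists_sect
  have hIκ : IsBasisMod (𝒩κ.zero₀ sκ.1.1) b := hZκ ▸ h.1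
  obtain ⟨m, hm⟩ : ∃ m : PicAlg Γ A, m = n * PicAlg.map (kmap k A) γ := ⟨_, rfl⟩
  have hmap : ∀ (A'' : Type u) [CommRing A''] [Algebra k A''] (f : A →ₐ[k] A''),
      PicAlg.map f m = PicAlg.map f n * PicAlg.map (kmap k A'') γ := by
    intro A'' _ _ f
    rw [hm, map_mul, PicAlg.map_map, Subsingleton.elim (f.comp (kmap k A)) (kmap k A'')]
  have hmκ : PicAlg.map (toResidue p) m = PicAlg.mk 𝒩κ := by rw [hκ, hmap]
  -- Stage A
  obtain ⟨a₁, ha₁, 𝒩₁, s₁, hc₁, hS₁⟩ := exists_sect_local m p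
    (by rw [hmκ]; exact Cloc.h1_mk_of_sect hSκ) (by rw [hmκ]; exact Cloc.h0_mk_of_sect hSκ)
  obtain ⟨p₁, hp₁⟩ := Cloc.exists_point_above (k := k) a₁ p ha₁
  obtain ⟨𝒩p₁, hb₁, hG₁, -⟩ := Cloc.fibre_compare hmκ hSκ hGκ hIκ (toAway a₁) p₁ hp₁ 𝒩₁ s₁ hS₁ hc₁
  -- Stage B
  obtain ⟨a₂, ha₂, hB⟩ := exists_genAtInfty_local 𝒩₁ s₁ hS₁ p₁ 𝒩p₁ hb₁ hG₁
  obtain ⟨a₃, ha₃, ψ₁, hψ₁⟩ := exists_away_refinement (k := k) a₁ a₂ p p₁ hp₁ ha₂
  obtain ⟨𝒩₂, ⟨hb₂⟩⟩ := LB.exists_BC hΓ.out (toAway a₂) 𝒩₁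
  obtain ⟨𝒩₃, ⟨hb₃⟩⟩ := LB.exists_BC hΓ.out ψ₁ 𝒩₂
  have hS₃ : 𝒩₃.Sect (hb₃.mapH0 (hb₂.mapH0 s₁)) := (hS₁.bc hb₂).bc hb₃
  have hG₃ : 𝒩₃.GenAtInfty (hb₃.mapH0 (hb₂.mapH0 s₁)) := (hB 𝒩₂ hb₂).bc hb₃
  have hc₃ : PicAlg.mk 𝒩₃ = PicAlg.map (toAway a₃) m := by
    rw [← hψ₁, ← PicAlg.map_map, ← PicAlg.map_map, ← hc₁, PicAlg.map_mk_eq_iff.mpr ⟨hb₂⟩,
      PicAlg.map_mk_eq_iff.mpr ⟨hb₃⟩]
  obtain ⟨p₃, hp₃⟩ := Cloc.exists_point_above (k := k) a₃ p ha₃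
  obtain ⟨-, -, -, hI₃⟩ := Cloc.fibre_compare hmκ hSκ hGκ hIκ (toAway a₃) p₃ hp₃ 𝒩₃ _ hS₃ hc₃
  -- Stage C
  obtain ⟨a₄, ha₄, hC⟩ := exists_isBasisMod_local b 𝒩₃ _ hS₃ hG₃ p₃ hI₃
  obtain ⟨a, ha, ψ₂, hψ₂⟩ := exists_away_refinement (k := k) a₃ a₄ p p₃ hp₃ ha₄
  obtain ⟨𝒩₄, ⟨hb₄⟩⟩ := LB.exists_BC hΓ.out (toAway a₄) 𝒩₃
  obtain ⟨𝒩₅, ⟨hb₅⟩⟩ := LB.exists_BC hΓ.out ψ₂ 𝒩₄
  obtain ⟨s₃, hs₃⟩ : ∃ s₃ : 𝒩₃.H0, s₃ = hb₃.mapH0 (hb₂.mapH0 s₁) := ⟨_, rfl⟩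
  rw [← hs₃] at hS₃ hG₃ hC
  have hS₅ : 𝒩₅.Sect (hb₅.mapH0 (hb₄.mapH0 s₃)) := (hS₃.bc hb₄).bc hb₅
  have hG₅ : 𝒩₅.GenAtInfty (hb₅.mapH0 (hb₄.mapH0 s₃)) := (hG₃.bc hb₄).bc hb₅
  have hc₅ : PicAlg.mk 𝒩₅ = PicAlg.map (toAway a) m := by
    rw [← hψ₂, ← PicAlg.map_map, ← PicAlg.map_map, ← hc₃, PicAlg.map_mk_eq_iff.mpr ⟨hb₄⟩,
      PicAlg.map_mk_eq_iff.mpr ⟨hb₅⟩]
  have hZ₅ : 𝒩₅.zero₀ (hb₅.mapH0 (hb₄.mapH0 s₃)).1.1 =
      ((𝒩₃.zero₀ s₃.1.1).map (Γ.ρ₀ (toAway a₄))).map (Γ.ρ₀ ψ₂) := by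
    rw [← hb₄.zero₀, ← hb₅.zero₀]
    rfl
  have hI₅ : IsBasisMod (𝒩₅.zero₀ (hb₅.mapH0 (hb₄.mapH0 s₃)).1.1) b := by
    rw [hZ₅]
    exact hC.map ψ₂
  have hone := mk_mul_negDiv₀_zero₀ 𝒩₅ _ hI₅ hG₅
  refine ⟨a, ha, 𝒩₅.zero₀ (hb₅.mapH0 (hb₄.mapH0 s₃)).1.1, hI₅, ?_, ?_⟩
  · rw [← hmap, ← hc₅]
    exact hone
  · intro K _ _ f
    obtain ⟨𝒩K, ⟨hbK⟩⟩ := LB.exists_BC hΓ.out f 𝒩₅
    rw [← map_negDiv₀ hI₅ f, ← map_inv, ← eq_inv_of_mul_eq_one_left hone,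
      PicAlg.map_mk_eq_iff.mpr ⟨hbK⟩]
    exact Cloc.h1_mk_of_sect (hS₅.bc hbK)

end Fermat.Agent.S25
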