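import Mathlib

/-! # S25 / H6b, H6c : pure algebra -/
set_option autoImplicit false
set_option linter.style.haveILetI false
universe u
open TensorProduct

namespace Fermat.Agent.S25.CoverAlg

variable {k : Type u} [Field k] {B : Type u} [CommRing B] [Algebra k B]

/-- a point is determined by its kernel -/
theorem algHom_ext_of_ker {R R' : B →ₐ[k] k} (h : RingHom.ker R ≤ RingHom.ker R') : R = R' := by
  ext b
  have h1 : b - algebraMap k B (R b) ∈ RingHom.ker R := by
    rw [RingHom.mem_ker, map_sub, AlgHom.commutes]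
    simp
  have h2 := h h1
  rw [RingHom.mem_ker, map_sub, AlgHom.commutes, sub_eq_zero] at h2
  simpa using h2.symm

/-- a nonzero function on an affine Dedekind curve has finitely many zeros. -/
theorem finite_zeros [IsDedekindDomain B] (β : B) (hβ : β ≠ 0) :
    {R : B →ₐ[k] k | R β = 0}.Finite := by
  have hI : Ideal.span {β} ≠ 0 := by
    rw [Ne, Ideal.zero_eq_bot, Ideal.span_singleton_eq_bot]
    exact hβ
  have hfin := Ideal.finite_factors hI
  have hker : ∀ R : B →ₐ[k] k, (RingHom.ker R).IsPrime := fun R => RingHom.ker_isPrime _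
  let F : {R : B →ₐ[k] k | R β = 0} →
      {v : IsDedekindDomain.HeightOneSpectrum B | v.asIdeal ∣ Ideal.span {β}} := fun R =>
    ⟨⟨RingHom.ker (R : B →ₐ[k] k), hker _, fun h0 => hβ (by
      have : β ∈ RingHom.ker (R : B →ₐ[k] k) := R.2
      rw [h0] at this
      exact this)⟩, by
      rw [Set.mem_setOf_eq, Ideal.dvd_iff_le, Ideal.span_singleton_le_iff_mem]
      exact R.2⟩
  have hF : Function.Injective F := by
    intro R R' h
    have h1 : RingHom.ker (R : B →ₐ[k] k) = RingHom.ker (R' : B →ₐ[k] k) :=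
      congrArg (fun v => v.1.asIdeal) h
    exact Subtype.ext (algHom_ext_of_ker h1.le)
  haveI : Finite {v : IsDedekindDomain.HeightOneSpectrum B | v.asIdeal ∣ Ideal.span {β}} :=
    hfin.to_subtype
  exact Set.finite_coe_iff.mp (Finite.of_injective F hF)

variable {K : Type u} [Field K] [Algebra k K]

/-- the `K`-point of `K ⊗ B` attached to a `k`-point of `B`. -/
noncomputable abbrev ptHom (K : Type u) [Field K] [Algebra k K] (R : B →ₐ[k] k) : K ⊗[k] B →ₐ[K] K :=
  Algebra.TensorProduct.lift (Algebra.ofId K K) ((Algebra.ofId k K).comp R)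
    (fun _ _ => Commute.all _ _)

theorem ptHom_tmul (R : B →ₐ[k] k) (c : K) (b : B) :
    ptHom K R (c ⊗ₜ b) = c * algebraMap k K (R b) := by
  simp [ptHom, Algebra.ofId_apply]

/-- a nonzero function on `U_K` vanishing at `k`-points: reduce to a nonzero function on `U`. -/
theorem exists_ne_zero_of_ptHom (z : K ⊗[k] B) (hz : z ≠ 0) :
    ∃ β : B, β ≠ 0 ∧ ∀ R : B →ₐ[k] k, ptHom K R z = 0 → R β = 0 := by
  classical
  let ℬ := Module.Basis.ofVectorSpace k K
  obtain ⟨c, hc⟩ := TensorProduct.eq_repr_basis_left ℬ z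
  have hc0 : c ≠ 0 := by
    rintro rfl
    exact hz (by rw [← hc]; simp)
  obtain ⟨i₀, hi₀⟩ := Finsupp.ne_iff.mp hc0
  refine ⟨c i₀, hi₀, fun R hR => ?_⟩
  rw [← hc, Finsupp.sum, map_sum] at hR
  have h1 : ∑ i ∈ c.support, R (c i) • ℬ i = 0 := by
    rw [← hR]
    refine Finset.sum_congr rfl fun i _ => ?_
    rw [ptHom_tmul, Algebra.smul_def, mul_comm]
  have h2 := linearIndependent_iff'.mp ℬ.linearIndependent c.support (fun i => R (c i)) h1
  by_cases hi : i₀ ∈ c.support
  · exact h2 i₀ hi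
  · exact absurd (Finsupp.notMem_support_iff.mp hi) hi₀

/-- finitely many `k`-points in the zero set of a nonzero function on `U_K`. -/
theorem finite_zeros_ptHom [IsDedekindDomain B] (z : K ⊗[k] B) (hz : z ≠ 0) :
    {R : B →ₐ[k] k | ptHom K R z = 0}.Finite := by
  obtain ⟨β, hβ, h⟩ := exists_ne_zero_of_ptHom z hz
  exact (finite_zeros β hβ).subset fun R hR => h R hR

theorem sub_ptHom_mem (𝔪 : Ideal (K ⊗[k] B)) (Q : B →ₐ[k] k)
    (h : ∀ b : B, (1 : K) ⊗ₜ[k] b - algebraMap k (K ⊗[k] B) (Q b) ∈ 𝔪) (z : K ⊗[k] B) :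
    z - algebraMap K (K ⊗[k] B) (ptHom K Q z) ∈ 𝔪 := by
  induction z with
  | zero => simp
  | tmul c b =>
    have h1 : c ⊗ₜ[k] b - algebraMap K (K ⊗[k] B) (ptHom K Q (c ⊗ₜ b)) =
        (c ⊗ₜ[k] (1 : B)) * ((1 : K) ⊗ₜ[k] b - algebraMap k (K ⊗[k] B) (Q b)) := by
      rw [ptHom_tmul, mul_sub, Algebra.TensorProduct.tmul_mul_tmul, mul_one, one_mul,
        Algebra.TensorProduct.algebraMap_apply, Algebra.TensorProduct.algebraMap_apply,
        Algebra.TensorProduct.tmul_mul_tmul, mul_one]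
      simp
    rw [h1]
    exact 𝔪.mul_mem_left _ (h b)
  | add a b ha hb =>
    have : a + b - algebraMap K (K ⊗[k] B) (ptHom K Q (a + b)) =
        (a - algebraMap K (K ⊗[k] B) (ptHom K Q a)) + (b - algebraMap K (K ⊗[k] B) (ptHom K Q b)) := by
      rw [map_add, map_add]; ring
    rw [this]
    exact 𝔪.add_mem ha hb

/-- every maximal ideal of `K ⊗ B` over the finite `k`-scheme `y = 0` comes from a `k`-point. -/
theorem exists_point_of_isMaximal [IsAlgClosed k] (y : B) [Module.Finite k (B ⧸ Ideal.span {y})]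
    (𝔪 : Ideal (K ⊗[k] B)) [h𝔪 : 𝔪.IsMaximal] (hy : (1 : K) ⊗ₜ[k] y ∈ 𝔪) :
    ∃ Q : B →ₐ[k] k, Q y = 0 ∧ 𝔪 = RingHom.ker (ptHom K Q) := by
  let L := (K ⊗[k] B) ⧸ 𝔪
  letI : Field L := Ideal.Quotient.field 𝔪
  let β : B →ₐ[k] L := (Ideal.Quotient.mkₐ k 𝔪).comp Algebra.TensorProduct.includeRight
  have hβy : ∀ a ∈ Ideal.span {y}, β a = 0 := by
    intro a ha
    obtain ⟨b, rfl⟩ := Ideal.mem_span_singleton'.1 ha
    have : β y = 0 := Ideal.Quotient.eq_zero_iff_mem.2 hy
    rw [map_mul, this, mul_zero]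
  let β' : (B ⧸ Ideal.span {y}) →ₐ[k] L := Ideal.Quotient.liftₐ _ β hβy
  haveI : Module.Finite k β'.range := Module.Finite.range β'.toLinearMap
  haveI : Algebra.IsIntegral k β'.range := Algebra.IsIntegral.of_finite k _
  have hbij : Function.Bijective (algebraMap k β'.range) :=
    IsAlgClosed.algebraMap_bijective_of_isIntegral
  let e : k ≃ₐ[k] β'.range := AlgEquiv.ofBijective (Algebra.ofId k β'.range) hbij
  let Q : B →ₐ[k] k := (e.symm : β'.range →ₐ[k] k).comp
    (β'.rangeRestrict.comp (Ideal.Quotient.mkₐ k (Ideal.span {y})))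
  have hQ : ∀ b, algebraMap k L (Q b) = β b := by
    intro b
    have h1 : e (Q b) = β'.rangeRestrict (Ideal.Quotient.mkₐ k (Ideal.span {y}) b) :=
      e.apply_symm_apply _
    have h2 := congrArg Subtype.val h1
    exact h2
  have hmem : ∀ b : B, (1 : K) ⊗ₜ[k] b - algebraMap k (K ⊗[k] B) (Q b) ∈ 𝔪 := by
    intro b
    rw [← Ideal.Quotient.eq_zero_iff_mem, map_sub, sub_eq_zero]
    exact (hQ b).symm
  have hle : RingHom.ker (ptHom K Q) ≤ 𝔪 := by
    intro z hz
    have := sub_ptHom_mem 𝔪 Q hmem z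
    rwa [RingHom.mem_ker.1 hz, map_zero, sub_zero] at this
  have hmax : (RingHom.ker (ptHom K Q)).IsMaximal :=
    RingHom.ker_isMaximal_of_surjective _ (fun c => ⟨algebraMap K _ c, by simp⟩)
  refine ⟨Q, ?_, (hmax.eq_of_le h𝔪.ne_top hle).symm⟩
  have h1 : algebraMap k L (Q y) = 0 := by
    rw [hQ]
    exact Ideal.Quotient.eq_zero_iff_mem.2 hy
  exact (map_eq_zero_iff _ (algebraMap k L).injective).1 h1

end Fermat.Agent.S25.CoverAlg
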