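import Mathlib

/-! # S25 / H6a : points of an affine curve which is finite over the affine line -/
set_option autoImplicit false
set_option linter.style.haveILetI false
universe u
open Polynomial

namespace Fermat.Agent.S25.CoverPoints

variable {k : Type u} [Field k] [IsAlgClosed k] {B : Type u} [CommRing B] [Algebra k B]

/-- a maximal ideal of a finite type algebra over an algebraically closed field is the kernel of
a point. -/
theorem exists_algHom_of_isMaximal [Algebra.FiniteType k B] (Q : Ideal B) [hQ : Q.IsMaximal] :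
    ∃ R : B →ₐ[k] k, ∀ b ∈ Q, R b = 0 := by
  letI := Ideal.Quotient.field Q
  haveI : Algebra.FiniteType k (B ⧸ Q) :=
    Algebra.FiniteType.of_surjective (Ideal.Quotient.mkₐ k Q) (Ideal.Quotient.mkₐ_surjective k Q)
  haveI : Module.Finite k (B ⧸ Q) := finite_of_finite_type_of_isJacobsonRing k (B ⧸ Q)
  have hbij : Function.Bijective (algebraMap k (B ⧸ Q)) :=
    IsAlgClosed.algebraMap_bijective_of_isIntegral
  let e : k ≃ₐ[k] (B ⧸ Q) := AlgEquiv.ofBijective (Algebra.ofId k (B ⧸ Q)) hbij
  refine ⟨(e.symm : (B ⧸ Q) →ₐ[k] k).comp (Ideal.Quotient.mkₐ k Q), fun b hb => ?_⟩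
  have : Ideal.Quotient.mk Q b = 0 := Ideal.Quotient.eq_zero_iff_mem.2 hb
  simp [this]

/-- every value of `x` is taken at some point. -/
theorem exists_point [Algebra.FiniteType k B] (x : B)
    (hfin : (Polynomial.aeval (R := k) x).toRingHom.Finite) (htr : Transcendental k x) (c : k) :
    ∃ R : B →ₐ[k] k, R x = c := by
  letI : Algebra k[X] B := (Polynomial.aeval (R := k) x).toRingHom.toAlgebra
  haveI : Module.Finite k[X] B := hfin
  have hinj : Function.Injective (algebraMap k[X] B) := transcendental_iff_injective.1 htr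
  let P : Ideal k[X] := RingHom.ker (Polynomial.evalRingHom c)
  haveI : P.IsMaximal := RingHom.ker_isMaximal_of_surjective _ (fun a => ⟨C a, by simp⟩)
  have hker : RingHom.ker (algebraMap k[X] B) ≤ P := by
    rw [(RingHom.injective_iff_ker_eq_bot _).1 hinj]; exact bot_le
  obtain ⟨Q, hQmax, hQ⟩ := Ideal.exists_ideal_over_maximal_of_isIntegral P hker
  obtain ⟨R, hR⟩ := exists_algHom_of_isMaximal (k := k) Q
  refine ⟨R, ?_⟩
  have h1 : (X - C c : k[X]) ∈ P := by simp [P, RingHom.mem_ker]
  rw [← hQ, Ideal.mem_comap] at h1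
  have h2 : algebraMap k[X] B (X - C c) = x - algebraMap k B c := by
    show Polynomial.aeval x (X - C c) = _
    simp
  rw [h2] at h1
  have h3 := hR _ h1
  rw [map_sub, AlgHom.commutes, sub_eq_zero] at h3
  simpa using h3

theorem infinite_points [Algebra.FiniteType k B] (x : B)
    (hfin : (Polynomial.aeval (R := k) x).toRingHom.Finite) (htr : Transcendental k x) :
    Infinite (B →ₐ[k] k) := by
  choose R hR using exists_point x hfin htr
  haveI : Infinite k := IsAlgClosed.instInfinite
  refine Infinite.of_injective R (fun c c' h => ?_)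
  rw [← hR c, ← hR c', h]

omit [IsAlgClosed k] in
/-- `B/(y)` is finite dimensional. -/
theorem finite_quotient (y : B) (hfin : (Polynomial.aeval (R := k) y).toRingHom.Finite) :
    Module.Finite k (B ⧸ Ideal.span {y}) := by
  classical
  letI : Algebra k[X] B := (Polynomial.aeval (R := k) y).toRingHom.toAlgebra
  haveI : Module.Finite k[X] B := hfin
  obtain ⟨s, hs⟩ := (Module.finite_def (R := k[X]) (M := B)).1 inferInstance
  refine ⟨⟨s.image (Ideal.Quotient.mk (Ideal.span {y})), ?_⟩⟩
  rw [eq_top_iff]
  rintro e -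
  obtain ⟨b, rfl⟩ := Ideal.Quotient.mk_surjective e
  have hb : b ∈ Submodule.span k[X] (s : Set B) := by rw [hs]; trivial
  induction hb using Submodule.span_induction with
  | mem b hb =>
    apply Submodule.subset_span
    simp only [Finset.coe_image]
    exact ⟨b, hb, rfl⟩
  | zero => simp
  | add a b _ _ ha hb => rw [map_add]; exact Submodule.add_mem _ ha hb
  | smul p b _ hb =>
    have h1 : p • b = Polynomial.aeval y p * b := rfl
    have h2 : Ideal.Quotient.mk (Ideal.span {y}) (Polynomial.aeval y p)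
        = algebraMap k (B ⧸ Ideal.span {y}) (p.coeff 0) := by
      have h3 : Ideal.Quotient.mk (Ideal.span {y}) (Polynomial.aeval y p)
          = Polynomial.aeval (Ideal.Quotient.mkₐ k (Ideal.span {y}) y) p :=
        (Polynomial.aeval_algHom_apply (Ideal.Quotient.mkₐ k (Ideal.span {y})) y p).symm
      have h4 : Ideal.Quotient.mkₐ k (Ideal.span {y}) y = 0 :=
        Ideal.Quotient.eq_zero_iff_mem.2 (Ideal.mem_span_singleton_self y)
      rw [h3, h4, Polynomial.aeval_def, Polynomial.eval₂_at_zero]
    rw [h1, map_mul, h2, ← Algebra.smul_def]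
    exact Submodule.smul_mem _ _ hb

omit [IsAlgClosed k] in
theorem finite_fib (y : B) (hfin : (Polynomial.aeval (R := k) y).toRingHom.Finite) :
    {Q : B →ₐ[k] k | Q y = 0}.Finite := by
  haveI := finite_quotient y hfin
  have hle : ∀ Q : {Q : B →ₐ[k] k | Q y = 0}, ∀ a ∈ Ideal.span {y}, (Q : B →ₐ[k] k) a = 0 := by
    rintro ⟨Q, hQ⟩ a ha
    obtain ⟨b, rfl⟩ := Ideal.mem_span_singleton'.1 ha
    have hQ' : Q y = 0 := hQ
    simp [hQ']
  let F : {Q : B →ₐ[k] k | Q y = 0} → ((B ⧸ Ideal.span {y}) →ₐ[k] k) :=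
    fun Q => Ideal.Quotient.liftₐ (Ideal.span {y}) (Q : B →ₐ[k] k) (hle Q)
  have hF : Function.Injective F := by
    intro Q Q' h
    apply Subtype.ext
    ext b
    exact congrArg (fun f => f (Ideal.Quotient.mk (Ideal.span {y}) b)) h
  exact Set.finite_coe_iff.mp (Finite.of_injective F hF)

end Fermat.Agent.S25.CoverPoints
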