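import Fermat.Agent.S25.H.Ideal

/-! # S25 / H : sections of `𝒩(-D)` = sections of `𝒩` vanishing on `D`
(common lemma of H4b, H6b, H6c) -/
set_option autoImplicit false
universe u
open TensorProduct

namespace Fermat.Agent.S25
namespace Twist

/-! ### module level lemmas -/
section mod
variable {S : Type u} [CommRing S] {N T : Type u} [AddCommGroup N] [Module S N]
  [AddCommGroup T] [Module S T]

/-- the bilinear map `(n, z) ↦ z • n`, `z ∈ I`. -/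
noncomputable def smulB (I : Ideal S) (N : Type u) [AddCommGroup N] [Module S N] :
    N →ₗ[S] I →ₗ[S] N :=
  ((LinearMap.lsmul S N).flip).compl₂ (Submodule.subtype I)

@[simp] theorem smulB_apply (I : Ideal S) (n : N) (z : I) : smulB I N n z = (z : S) • n := rfl

theorem lift_smulB_injective (I : Ideal S) [Module.Flat S N] :
    Function.Injective (TensorProduct.lift (smulB I N)) := by
  have h1 : Function.Injective (LinearMap.lTensor N (Submodule.subtype I)) :=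
    Module.Flat.lTensor_preserves_injective_linearMap _ Subtype.val_injective
  have h2 : (TensorProduct.lift (smulB I N)) =
      (TensorProduct.rid S N).toLinearMap ∘ₗ LinearMap.lTensor N (Submodule.subtype I) := by
    ext n z
    simp
  rw [h2]
  exact (TensorProduct.rid S N).injective.comp h1

theorem range_lift_smulB (I : Ideal S) :
    LinearMap.range (TensorProduct.lift (smulB I N)) = I • (⊤ : Submodule S N) := by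
  apply le_antisymm
  · rintro _ ⟨t, rfl⟩
    induction t with
    | zero => simp
    | tmul n z => exact Submodule.smul_mem_smul z.2 trivial
    | add a b ha hb => rw [map_add]; exact add_mem ha hb
  · rw [Submodule.smul_le]
    intro z hz n _
    exact ⟨n ⊗ₜ ⟨z, hz⟩, rfl⟩

variable [Module.Invertible S N] [Module.Invertible S T]

/-- the inclusion `N(-D) → N`. -/
noncomputable def incl (I : Ideal S) [Module.Invertible S I] (m : N →ₗ[S] I →ₗ[S] T)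
    (h : Submodule.span S {z | ∃ p q, m p q = z} = ⊤) : T →ₗ[S] N :=
  SL.factorₗ m h N (smulB I N)

theorem incl_apply (I : Ideal S) [Module.Invertible S I] (m : N →ₗ[S] I →ₗ[S] T)
    (h : Submodule.span S {z | ∃ p q, m p q = z} = ⊤) (n : N) (z : I) :
    incl I m h (m n z) = (z : S) • n := SL.factorₗ_apply m h _ n z

theorem incl_eq (I : Ideal S) [Module.Invertible S I] (m : N →ₗ[S] I →ₗ[S] T)
    (h : Submodule.span S {z | ∃ p q, m p q = z} = ⊤) :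
    incl I m h = TensorProduct.lift (smulB I N) ∘ₗ ((SL.equivOfSpan m h).symm : T →ₗ[S] N ⊗[S] I) :=
  rfl

theorem incl_injective (I : Ideal S) [Module.Invertible S I] (m : N →ₗ[S] I →ₗ[S] T)
    (h : Submodule.span S {z | ∃ p q, m p q = z} = ⊤) : Function.Injective (incl I m h) := by
  rw [incl_eq]
  exact (lift_smulB_injective I).comp (SL.equivOfSpan m h).symm.injective

theorem range_incl (I : Ideal S) [Module.Invertible S I] (m : N →ₗ[S] I →ₗ[S] T)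
    (h : Submodule.span S {z | ∃ p q, m p q = z} = ⊤) :
    LinearMap.range (incl I m h) = I • (⊤ : Submodule S N) := by
  rw [incl_eq, LinearMap.range_comp, LinearEquiv.range, Submodule.map_top, range_lift_smulB]

omit [Module.Invertible S T] in
/-- rank one: `λ(s) n = λ(n) s`. -/
theorem dual_smul_comm (l : Module.Dual S N) (s n : N) : l s • n = l n • s := by
  have h := congrArg (TensorProduct.lift ((LinearMap.lsmul S N).comp l))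
    (Module.Invertible.tmul_comm (R := S) (m₁ := s) (m₂ := n))
  simpa using h

omit [Module.Invertible S T] in
/-- membership in `I • ⊤` is detected by linear forms. -/
theorem mem_smul_top_iff (I : Ideal S) (s : N) :
    s ∈ I • (⊤ : Submodule S N) ↔ ∀ l : Module.Dual S N, l s ∈ I := by
  constructor
  · intro hs l
    have : (I • (⊤ : Submodule S N)).map l ≤ I := by
      rw [Submodule.map_smul'']
      exact Submodule.smul_le.2 fun r hr n _ => I.mul_mem_right _ hr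
    exact this ⟨s, hs, rfl⟩
  · intro hs
    obtain ⟨n, f, g, -, -, hfg⟩ := Module.Finite.exists_comp_eq_id_of_projective S N
    have h1 : s = ∑ i, (g s i) • f (Pi.single i 1) := by
      conv_lhs => rw [← LinearMap.id_apply (R := S) s, ← hfg, LinearMap.comp_apply,
        pi_eq_sum_univ' (g s)]
      simp
    rw [h1]
    refine Submodule.sum_mem _ fun i _ => Submodule.smul_mem_smul ?_ trivial
    exact hs ((LinearMap.proj i).comp g)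

end mod

section lb
variable {k : Type u} [Field k] {Γ : CurveAlg k} {A : Type u} [CommRing A] [Algebra k A]

theorem mem_H0_iff (𝒩 : LB Γ A) (s : 𝒩.N₀ × 𝒩.N₁) : s ∈ 𝒩.H0 ↔ 𝒩.r₀ s.1 = 𝒩.r₁ s.2 := by
  change 𝒩.r₀A.coprod (-𝒩.r₁A) s = 0 ↔ _
  rw [LinearMap.coprod_apply, LinearMap.neg_apply, ← sub_eq_add_neg, sub_eq_zero]
  rfl

variable {hΓ : Γ.IsGood} {𝒩 𝒩'' : LB Γ A} {I₀ : Ideal (Γ.R₀ A)} {I₁ : Ideal (Γ.R₁ A)}
  {h : I₀.map (Γ.φ₀ A) = I₁.map (Γ.φ₁ A)} {h₀ : Module.Invertible (Γ.R₀ A) I₀}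
  {h₁ : Module.Invertible (Γ.R₁ A) I₁} (t : LB.Tens 𝒩 (LB.ofIdeals hΓ I₀ I₁ h h₀ h₁) 𝒩'')

/-- the inclusions `𝒩(-D) → 𝒩` on the two charts -/
noncomputable def j₀ : 𝒩''.N₀ →ₗ[Γ.R₀ A] 𝒩.N₀ := incl I₀ t.m₀ t.span₀
noncomputable def j₁ : 𝒩''.N₁ →ₗ[Γ.R₁ A] 𝒩.N₁ := incl I₁ t.m₁ t.span₁

theorem j₀_apply (n : 𝒩.N₀) (z : (LB.ofIdeals hΓ I₀ I₁ h h₀ h₁).N₀) :
    j₀ t (t.m₀ n z) = (@Subtype.val _ (fun x => x ∈ I₀) z) • n :=
  incl_apply I₀ t.m₀ t.span₀ n z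
theorem j₁_apply (n : 𝒩.N₁) (z : (LB.ofIdeals hΓ I₀ I₁ h h₀ h₁).N₁) :
    j₁ t (t.m₁ n z) = (@Subtype.val _ (fun x => x ∈ I₁) z) • n :=
  incl_apply I₁ t.m₁ t.span₁ n z
theorem j₀_injective : Function.Injective (j₀ t) := incl_injective I₀ t.m₀ t.span₀
theorem j₁_injective : Function.Injective (j₁ t) := incl_injective I₁ t.m₁ t.span₁
theorem range_j₀ : LinearMap.range (j₀ t) = I₀ • (⊤ : Submodule (Γ.R₀ A) 𝒩.N₀) :=
  range_incl I₀ t.m₀ t.span₀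
theorem range_j₁ : LinearMap.range (j₁ t) = I₁ • (⊤ : Submodule (Γ.R₁ A) 𝒩.N₁) :=
  range_incl I₁ t.m₁ t.span₁

theorem exists_j₀₁ : ∃ j₀₁ : 𝒩''.N₀₁ →ₗ[Γ.R₀₁ A] 𝒩.N₀₁, Function.Injective j₀₁ ∧
    (∀ u, j₀₁ (𝒩''.r₀ u) = 𝒩.r₀ (j₀ t u)) ∧ (∀ u, j₀₁ (𝒩''.r₁ u) = 𝒩.r₁ (j₁ t u)) := by
  obtain ⟨j, hj⟩ := (𝒩''.isLoc₀ hΓ).isUniv.lift _ (𝒩.r₀.comp (j₀ t))
  have hj' : ∀ u, j (𝒩''.r₀ u) = 𝒩.r₀ (j₀ t u) := hj
  have key : t.m₀₁.compr₂ j = smulB (I₀.map (Γ.φ₀ A)) 𝒩.N₀₁ := by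
    refine SL.IsUniv.ext₂ (𝒩.isLoc₀ hΓ).isUniv
      ((LB.ofIdeals hΓ I₀ I₁ h h₀ h₁).isLoc₀ hΓ).isUniv _ _ ?_
    intro n z
    rw [LinearMap.compr₂_apply, t.comm₀, hj', j₀_apply, 𝒩.r₀.map_smulₛₗ]
    rfl
  refine ⟨j, ?_, hj', ?_⟩
  · rw [injective_iff_map_eq_zero]
    intro w hw
    obtain ⟨m, u, hu⟩ := 𝒩''.span₀ w
    have h1 : 𝒩.r₀ (j₀ t u) = 0 := by rw [← hj', ← hu, map_smul, hw, smul_zero]
    have h2 : u = 0 := j₀_injective t (𝒩.inj₀ (by rw [h1, map_zero, map_zero]))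
    rw [h2, map_zero] at hu
    exact (((𝒩''.isLoc₀ hΓ).unit.pow m).smul_eq_zero).1 hu
  · intro u
    have := SL.ext_of_span₂ t.m₁ t.span₁ ((j : 𝒩''.N₀₁ →ₗ[Γ.R₀₁ A] 𝒩.N₀₁).comp 𝒩''.r₁)
      (𝒩.r₁.comp (j₁ t)) (by
        intro n z
        rw [LinearMap.comp_apply, LinearMap.comp_apply, ← t.comm₁, j₁_apply, 𝒩.r₁.map_smulₛₗ]
        exact LinearMap.congr_fun₂ key _ _)
    exact LinearMap.congr_fun this u

end lb

section lb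
variable {k : Type u} [Field k] {Γ : CurveAlg k} {A : Type u} [CommRing A] [Algebra k A]

section
variable {hΓ : Γ.IsGood} {𝒩 𝒩'' : LB Γ A} {I₀ : Ideal (Γ.R₀ A)} {I₁ : Ideal (Γ.R₁ A)}
  {h : I₀.map (Γ.φ₀ A) = I₁.map (Γ.φ₁ A)} {h₀ : Module.Invertible (Γ.R₀ A) I₀}
  {h₁ : Module.Invertible (Γ.R₁ A) I₁} (t : LB.Tens 𝒩 (LB.ofIdeals hΓ I₀ I₁ h h₀ h₁) 𝒩'')

/-- the sections of `𝒩(-D)` are the sections of `𝒩` vanishing on `D`. -/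
theorem exists_twistH0 : ∃ J : 𝒩''.H0 →ₗ[A] 𝒩.H0, Function.Injective J ∧
    (∀ u, (J u).1 = (j₀ t u.1.1, j₁ t u.1.2)) ∧
    ∀ s : 𝒩.H0, s ∈ LinearMap.range J ↔ s.1.1 ∈ I₀ • (⊤ : Submodule (Γ.R₀ A) 𝒩.N₀) ∧
      s.1.2 ∈ I₁ • (⊤ : Submodule (Γ.R₁ A) 𝒩.N₁) := by
  obtain ⟨j, hinj, hj₀, hj₁⟩ := exists_j₀₁ t
  let F : (𝒩''.N₀ × 𝒩''.N₁) →ₗ[A] (𝒩.N₀ × 𝒩.N₁) :=
    ((j₀ t).restrictScalars A).prodMap ((j₁ t).restrictScalars A)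
  have hF : ∀ u ∈ 𝒩''.H0, F u ∈ 𝒩.H0 := by
    intro u hu
    rw [mem_H0_iff] at hu ⊢
    change 𝒩.r₀ (j₀ t u.1) = 𝒩.r₁ (j₁ t u.2)
    rw [← hj₀, ← hj₁, hu]
  refine ⟨F.restrict hF, ?_, fun u => rfl, ?_⟩
  · intro u v huv
    have h1 : F u.1 = F v.1 := congrArg Subtype.val huv
    have h2 : j₀ t u.1.1 = j₀ t v.1.1 := congrArg Prod.fst h1
    have h3 : j₁ t u.1.2 = j₁ t v.1.2 := congrArg Prod.snd h1
    exact Subtype.ext (Prod.ext (j₀_injective t h2) (j₁_injective t h3))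
  · intro s
    rw [← range_j₀ t, ← range_j₁ t]
    constructor
    · rintro ⟨u, rfl⟩
      exact ⟨⟨u.1.1, rfl⟩, ⟨u.1.2, rfl⟩⟩
    · rintro ⟨⟨u₀, hu₀⟩, ⟨u₁, hu₁⟩⟩
      have hs := (mem_H0_iff 𝒩 s.1).1 s.2
      have hu : (u₀, u₁) ∈ 𝒩''.H0 := by
        rw [mem_H0_iff]
        apply hinj
        rw [hj₀, hj₁, hu₀, hu₁, hs]
      exact ⟨⟨(u₀, u₁), hu⟩, Subtype.ext (Prod.ext hu₀ hu₁)⟩

end

/-! ### vanishing on one chart implies vanishing on the other -/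

theorem r₀_mem_map_smul_top (𝒩 : LB Γ A) (I : Ideal (Γ.R₀ A)) {s₀ : 𝒩.N₀}
    (hs : s₀ ∈ I • (⊤ : Submodule (Γ.R₀ A) 𝒩.N₀)) :
    𝒩.r₀ s₀ ∈ (I.map (Γ.φ₀ A)) • (⊤ : Submodule (Γ.R₀₁ A) 𝒩.N₀₁) := by
  induction hs using Submodule.smul_induction_on' with
  | smul r hr n _ =>
    rw [𝒩.r₀.map_smulₛₗ]
    exact Submodule.smul_mem_smul (Ideal.mem_map_of_mem _ hr) trivial
  | add x _ y _ hx hy => rw [map_add]; exact add_mem hx hy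

theorem r₁_mem_map_smul_top (𝒩 : LB Γ A) (I : Ideal (Γ.R₁ A)) {s₁ : 𝒩.N₁}
    (hs : s₁ ∈ I • (⊤ : Submodule (Γ.R₁ A) 𝒩.N₁)) :
    𝒩.r₁ s₁ ∈ (I.map (Γ.φ₁ A)) • (⊤ : Submodule (Γ.R₀₁ A) 𝒩.N₀₁) := by
  induction hs using Submodule.smul_induction_on' with
  | smul r hr n _ =>
    rw [𝒩.r₁.map_smulₛₗ]
    exact Submodule.smul_mem_smul (Ideal.mem_map_of_mem _ hr) trivial
  | add x _ y _ hx hy => rw [map_add]; exact add_mem hx hy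

theorem dual_mem_of_mem_smul_top {S : Type u} [CommRing S] {M : Type u} [AddCommGroup M]
    [Module S M] (J : Ideal S) (l : Module.Dual S M) {s : M}
    (hs : s ∈ J • (⊤ : Submodule S M)) : l s ∈ J := by
  have : (J • (⊤ : Submodule S M)).map l ≤ J := by
    rw [Submodule.map_smul'']
    exact Submodule.smul_le.2 fun r hr n _ => J.mul_mem_right _ hr
  exact this ⟨s, hs, rfl⟩

theorem mem_comap_smul_top₀ (hΓ : Γ.IsGood) (𝒩 : LB Γ A) (J : Ideal (Γ.R₀₁ A)) {s₀ : 𝒩.N₀}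
    (hs : 𝒩.r₀ s₀ ∈ J • (⊤ : Submodule (Γ.R₀₁ A) 𝒩.N₀₁)) :
    s₀ ∈ (J.comap (Γ.φ₀ A)) • (⊤ : Submodule (Γ.R₀ A) 𝒩.N₀) := by
  rw [mem_smul_top_iff]
  intro l
  rw [Ideal.mem_comap]
  have := dual_mem_of_mem_smul_top J ((𝒩.isLoc₀ hΓ).dualMap l) hs
  rwa [SL.IsLoc.dualMap_apply] at this

theorem mem_comap_smul_top₁ (hΓ : Γ.IsGood) (𝒩 : LB Γ A) (J : Ideal (Γ.R₀₁ A)) {s₁ : 𝒩.N₁}
    (hs : 𝒩.r₁ s₁ ∈ J • (⊤ : Submodule (Γ.R₀₁ A) 𝒩.N₀₁)) :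
    s₁ ∈ (J.comap (Γ.φ₁ A)) • (⊤ : Submodule (Γ.R₁ A) 𝒩.N₁) := by
  rw [mem_smul_top_iff]
  intro l
  rw [Ideal.mem_comap]
  have := dual_mem_of_mem_smul_top J ((𝒩.isLoc₁ hΓ).dualMap l) hs
  rwa [SL.IsLoc.dualMap_apply] at this

theorem mem_other₁_smul_top (hΓ : Γ.IsGood) (𝒩 : LB Γ A) (I₀ : Ideal (Γ.R₀ A)) (s : 𝒩.H0)
    (hs : s.1.1 ∈ I₀ • (⊤ : Submodule (Γ.R₀ A) 𝒩.N₀)) :
    s.1.2 ∈ (Γ.other₁ I₀) • (⊤ : Submodule (Γ.R₁ A) 𝒩.N₁) := by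
  apply mem_comap_smul_top₁ hΓ
  rw [← (mem_H0_iff 𝒩 s.1).1 s.2]
  exact r₀_mem_map_smul_top 𝒩 I₀ hs

theorem mem_other₀_smul_top (hΓ : Γ.IsGood) (𝒩 : LB Γ A) (I₁ : Ideal (Γ.R₁ A)) (s : 𝒩.H0)
    (hs : s.1.2 ∈ I₁ • (⊤ : Submodule (Γ.R₁ A) 𝒩.N₁)) :
    s.1.1 ∈ (Γ.other₀ I₁) • (⊤ : Submodule (Γ.R₀ A) 𝒩.N₀) := by
  apply mem_comap_smul_top₀ hΓ
  rw [(mem_H0_iff 𝒩 s.1).1 s.2]
  exact r₁_mem_map_smul_top 𝒩 I₁ hs

/-- the sections vanishing on `V(I₀) ⊂ U₀ × Spec A`. -/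
noncomputable def vanish₀ (𝒩 : LB Γ A) (I₀ : Ideal (Γ.R₀ A)) : Submodule A 𝒩.H0 :=
  ((I₀ • (⊤ : Submodule (Γ.R₀ A) 𝒩.N₀)).restrictScalars A).comap
    ((LinearMap.fst A 𝒩.N₀ 𝒩.N₁).comp 𝒩.H0.subtype)
noncomputable def vanish₁ (𝒩 : LB Γ A) (I₁ : Ideal (Γ.R₁ A)) : Submodule A 𝒩.H0 :=
  ((I₁ • (⊤ : Submodule (Γ.R₁ A) 𝒩.N₁)).restrictScalars A).comap
    ((LinearMap.snd A 𝒩.N₀ 𝒩.N₁).comp 𝒩.H0.subtype)

theorem mem_vanish₀ (𝒩 : LB Γ A) (I₀ : Ideal (Γ.R₀ A)) (s : 𝒩.H0) :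
    s ∈ vanish₀ 𝒩 I₀ ↔ s.1.1 ∈ I₀ • (⊤ : Submodule (Γ.R₀ A) 𝒩.N₀) := Iff.rfl
theorem mem_vanish₁ (𝒩 : LB Γ A) (I₁ : Ideal (Γ.R₁ A)) (s : 𝒩.H0) :
    s ∈ vanish₁ 𝒩 I₁ ↔ s.1.2 ∈ I₁ • (⊤ : Submodule (Γ.R₁ A) 𝒩.N₁) := Iff.rfl

end lb

section field
variable {k : Type u} [Field k] {Γ : CurveAlg k} [hΓ : Fact Γ.IsGood] [IsAlgClosed k]
  {K : Type u} [Field K] [Algebra k K]

/-- `h⁰(𝒩(-D))` is the dimension of the space of sections vanishing on `D`. -/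
theorem h0_mk_mul_negDiv₀ {g : ℕ} {b : Fin g → Γ.B₀} {I₀ : Ideal (Γ.R₀ K)} (hI : IsBasisMod I₀ b)
    (𝒩 : LB Γ K) :
    PicAlg.h0 (PicAlg.mk 𝒩 * negDiv₀ I₀) = Module.finrank K (vanish₀ 𝒩 I₀) := by
  rw [negDiv₀_eq hI]
  obtain ⟨𝒩'', h''⟩ := PicAlg.exists_rep (PicAlg.mk 𝒩 * PicAlg.mk (LB.ofIdeals hΓ.out I₀
    (Γ.other₁ I₀) (map_other₁ I₀) (invertible₀_of_isBasisMod hI) (invertible_other₁ hI)))
  obtain ⟨t⟩ := PicAlg.mk_mul_mk_eq_iff.1 h''.symm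
  rw [← h'']
  obtain ⟨J, hJ, -, hr⟩ := exists_twistH0 t
  have hrange : LinearMap.range J = vanish₀ 𝒩 I₀ := by
    ext s
    rw [hr, mem_vanish₀]
    exact ⟨fun h => h.1, fun h => ⟨h, mem_other₁_smul_top hΓ.out 𝒩 I₀ s h⟩⟩
  rw [← hrange]
  exact (LinearMap.finrank_range_of_inj hJ).symm

theorem h0_mk_mul_negDiv₁ {g : ℕ} {b : Fin g → Γ.B₁} {I₁ : Ideal (Γ.R₁ K)} (hI : IsBasisMod I₁ b)
    (𝒩 : LB Γ K) :
    PicAlg.h0 (PicAlg.mk 𝒩 * negDiv₁ I₁) = Module.finrank K (vanish₁ 𝒩 I₁) := by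
  rw [negDiv₁_eq hI]
  obtain ⟨𝒩'', h''⟩ := PicAlg.exists_rep (PicAlg.mk 𝒩 * PicAlg.mk (LB.ofIdeals hΓ.out
    (Γ.other₀ I₁) I₁ (map_other₀ I₁) (invertible_other₀ hI) (invertible₁_of_isBasisMod hI)))
  obtain ⟨t⟩ := PicAlg.mk_mul_mk_eq_iff.1 h''.symm
  rw [← h'']
  obtain ⟨J, hJ, -, hr⟩ := exists_twistH0 t
  have hrange : LinearMap.range J = vanish₁ 𝒩 I₁ := by
    ext s
    rw [hr, mem_vanish₁]
    exact ⟨fun h => h.2, fun h => ⟨mem_other₀_smul_top hΓ.out 𝒩 I₁ s h, h⟩⟩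
  rw [← hrange]
  exact (LinearMap.finrank_range_of_inj hJ).symm

end field
end Twist
end Fermat.Agent.S25
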