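import Fermat.Agent.S25.H.Chart
import Fermat.Agent.S25.H.Twist
import Fermat.Agent.S25.H.CoverAlg
import Fermat.Agent.S25.H.CoverPoints

/-! # S25 / H6b, H6c : base points, generation at infinity -/
set_option autoImplicit false
set_option linter.style.haveILetI false
universe u
open TensorProduct Polynomial

namespace Fermat.Agent.S25
namespace CoverBP
variable {k : Type u} [Field k] {Γ : CurveAlg k} [hΓ : Fact Γ.IsGood] [IsAlgClosed k]
variable {K : Type u} [Field K] [Algebra k K]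

omit hΓ [IsAlgClosed k] in
theorem fst_ne_zero (𝒩 : LB Γ K) (s : 𝒩.H0) (hs : s ≠ 0) : s.1.1 ≠ 0 := by
  intro h0
  apply hs
  have h1 := (Twist.mem_H0_iff 𝒩 s.1).1 s.2
  rw [h0, map_zero] at h1
  have h2 : s.1.2 = 0 := 𝒩.inj₁ (by rw [← h1, map_zero])
  exact Subtype.ext (Prod.ext h0 h2)

omit hΓ [IsAlgClosed k] in
theorem exists_dual_ne_zero {S : Type u} [CommRing S] {N : Type u} [AddCommGroup N] [Module S N]
    [Module.Invertible S N] (s : N) (hs : s ≠ 0) : ∃ l : Module.Dual S N, l s ≠ 0 := by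
  by_contra hcon
  push Not at hcon
  apply hs
  have := (Twist.mem_smul_top_iff (⊥ : Ideal S) s).2 (fun l => by rw [hcon l]; exact zero_mem _)
  simpa using this

/-- (BP) -/
theorem finite_basePoints (m : PicAlg Γ K) (h : 0 < PicAlg.h0 m) :
    {R : Γ.B₀ →ₐ[k] k | PicAlg.h0 (m * (pt₀ ((kmap k K).comp R))⁻¹) = PicAlg.h0 m}.Finite := by
  obtain ⟨𝒩, rfl⟩ := PicAlg.exists_rep m
  have hfr : 0 < Module.finrank K 𝒩.H0 := h
  haveI : Nontrivial 𝒩.H0 := Module.nontrivial_of_finrank_pos (R := K) hfr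
  haveI : Module.Finite K 𝒩.H0 := LB.finite_H0_field hΓ.out 𝒩
  obtain ⟨s, hs⟩ := exists_ne (0 : 𝒩.H0)
  obtain ⟨l, hl⟩ := exists_dual_ne_zero (S := Γ.R₀ K) s.1.1 (fst_ne_zero 𝒩 s hs)
  haveI := hΓ.out.dedekind₀
  refine (CoverAlg.finite_zeros_ptHom (K := K) (l s.1.1) hl).subset ?_
  intro R hR
  have hR' : PicAlg.h0 (PicAlg.mk 𝒩 * (pt₀ ((kmap k K).comp R))⁻¹) = Module.finrank K 𝒩.H0 := hR
  unfold pt₀ at hR'
  rw [inv_inv, Twist.h0_mk_mul_negDiv₀ (isBasisMod_ker_pointHom₀ _)] at hR'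
  have htop := Submodule.eq_top_of_finrank_eq hR'
  have hmem : s ∈ Twist.vanish₀ 𝒩 (RingHom.ker (pointHom₀ ((kmap k K).comp R))) := by
    rw [htop]; trivial
  rw [Twist.mem_vanish₀, Twist.mem_smul_top_iff] at hmem
  exact hmem l

/-- if the unique section vanishes at no point of the fibre at infinity, it generates there. -/
theorem genAtInfty_of_h0_eq_zero (𝒩 : LB Γ K) (s : 𝒩.H0) (hs : s ≠ 0)
    (h : ∀ Q : Γ.B₁ →ₐ[k] k, Q Γ.y = 0 →
      PicAlg.h0 (PicAlg.mk 𝒩 * (pt₁ ((kmap k K).comp Q))⁻¹) = 0) :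
    𝒩.GenAtInfty s := by
  haveI : Module.Finite K 𝒩.H0 := LB.finite_H0_field hΓ.out 𝒩
  haveI : Module.Finite k (Γ.B₁ ⧸ Ideal.span {Γ.y}) :=
    CoverPoints.finite_quotient Γ.y hΓ.out.finite₁
  by_contra hne
  set Z : Ideal (Γ.R₁ K) := LinearMap.range (Module.Dual.eval (Γ.R₁ K) 𝒩.N₁ s.1.2) with hZ
  have hZy : Z ⊔ Ideal.span {Γ.yA K} ≠ ⊤ := by
    intro htop
    apply hne
    have h1 : (1 : Γ.R₁ K) ∈ Z ⊔ Ideal.span {Γ.yA K} := by rw [htop]; trivial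
    obtain ⟨a, ⟨l, rfl⟩, b, hb, hab⟩ := Submodule.mem_sup.1 h1
    unfold LB.GenAtInfty
    rw [eq_top_iff]
    intro n _
    have h2 : n = l n • s.1.2 + b • n := by
      have h3 : (Module.Dual.eval (Γ.R₁ K) 𝒩.N₁ s.1.2) l = l s.1.2 := rfl
      rw [h3] at hab
      rw [← Twist.dual_smul_comm l s.1.2 n, ← add_smul, hab, one_smul]
    rw [h2]
    exact Submodule.add_mem _
      (Submodule.mem_sup_left (Submodule.smul_mem _ _ (Submodule.mem_span_singleton_self _)))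
      (Submodule.mem_sup_right (Submodule.smul_mem_smul hb trivial))
  obtain ⟨𝔪, h𝔪, hle⟩ := Ideal.exists_le_maximal _ hZy
  have hy : (1 : K) ⊗ₜ[k] Γ.y ∈ 𝔪 :=
    hle (Ideal.mem_sup_right (Ideal.mem_span_singleton_self _))
  obtain ⟨Q, hQy, hQ⟩ := CoverAlg.exists_point_of_isMaximal (K := K) Γ.y 𝔪 hy
  have h0 := h Q hQy
  unfold pt₁ at h0
  rw [inv_inv, Twist.h0_mk_mul_negDiv₁ (isBasisMod_ker_pointHom₁ _), Submodule.finrank_eq_zero] at h0
  have hmem : s ∈ Twist.vanish₁ 𝒩 (RingHom.ker (pointHom₁ ((kmap k K).comp Q))) := by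
    rw [Twist.mem_vanish₁, Twist.mem_smul_top_iff]
    intro l
    have h1 : l s.1.2 ∈ 𝔪 := hle (Ideal.mem_sup_left ⟨l, rfl⟩)
    rw [hQ] at h1
    exact h1
  rw [h0] at hmem
  exact hs ((Submodule.mem_bot K).1 hmem)

end CoverBP
end Fermat.Agent.S25
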