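import Fermat.Agent.S25.H.Hilb

/-! # S25 / H6d : auxiliary algebra for `exists_isBasisMod_zero₀` -/
set_option autoImplicit false
set_option linter.style.haveILetI false
universe u
open TensorProduct Polynomial

namespace Fermat.Agent.S25.DivisorBasis

/-- the quotient of `K[X]` by a nonzero ideal is finite dimensional. -/
theorem finite_polynomial_quotient {K : Type u} [Field K] (J : Ideal K[X]) (hJ : J ≠ ⊥) :
    Module.Finite K (K[X] ⧸ J) := by
  obtain ⟨c, hcJ, hc0⟩ := Submodule.exists_mem_ne_zero_of_ne_bot hJ
  have hmon : (c * C c.leadingCoeff⁻¹).Monic := Polynomial.monic_mul_leadingCoeff_inv hc0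
  have hle : Ideal.span {c * C c.leadingCoeff⁻¹} ≤ J := by
    rw [Ideal.span_singleton_le_iff_mem]
    exact J.mul_mem_right _ hcJ
  haveI := hmon.finite_quotient
  refine Module.Finite.of_surjective
    ((Submodule.factor hle).restrictScalars K) (Submodule.factor_surjective hle)

/-- a domain `R`, finite over `K[x]`: the quotient by a nonzero ideal is finite dimensional. -/
theorem finite_quotient_of_ne_bot {K : Type u} [Field K] {R : Type u} [CommRing R] [IsDomain R]
    [Algebra K R] (x : R) (hfin : (Polynomial.aeval (R := K) x).toRingHom.Finite)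
    (I : Ideal R) (hI : I ≠ ⊥) : Module.Finite K (R ⧸ I) := by
  letI : Algebra K[X] R := (Polynomial.aeval (R := K) x).toRingHom.toAlgebra
  haveI : Module.Finite K[X] R := hfin
  haveI : IsScalarTower K K[X] R := .of_algebraMap_eq fun r => by
    change algebraMap K R r = Polynomial.aeval x (algebraMap K K[X] r)
    rw [AlgHom.commutes]
  obtain ⟨z, hzI, hz0⟩ := Submodule.exists_mem_ne_zero_of_ne_bot hI
  have hJ : I.comap (algebraMap K[X] R) ≠ ⊥ :=
    Ideal.comap_ne_bot_of_integral_mem hz0 hzI (Algebra.IsIntegral.isIntegral z)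
  haveI := finite_polynomial_quotient _ hJ
  haveI : Module.Finite (K[X] ⧸ I.comap (algebraMap K[X] R)) (R ⧸ I) :=
    Module.Finite.of_restrictScalars_finite K[X] _ _
  exact Module.Finite.trans (K[X] ⧸ I.comap (algebraMap K[X] R)) (R ⧸ I)

/-- a finite dimensional quotient of `K ⊗ B` has a basis consisting of classes `1 ⊗ β`. -/
theorem exists_isBasisMod_of_finite {k : Type u} [Field k] {B : Type u} [CommRing B] [Algebra k B]
    {K : Type u} [Field K] [Algebra k K] (I : Ideal (K ⊗[k] B))
    [Module.Finite K ((K ⊗[k] B) ⧸ I)] :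
    ∃ (d : ℕ) (b : Fin d → B), IsBasisMod I b := by
  classical
  set S : Set ((K ⊗[k] B) ⧸ I) :=
    Set.range (fun β : B => Ideal.Quotient.mk I ((1 : K) ⊗ₜ[k] β)) with hS
  have hspan : Submodule.span K S = ⊤ := by
    rw [eq_top_iff]
    rintro e -
    obtain ⟨z, rfl⟩ := Ideal.Quotient.mk_surjective e
    induction z using TensorProduct.induction_on with
    | zero => simp
    | tmul a β =>
      have : a ⊗ₜ[k] β = a • ((1 : K) ⊗ₜ[k] β) := by
        rw [TensorProduct.smul_tmul', smul_eq_mul, mul_one]
      rw [this]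
      have h1 : Ideal.Quotient.mk I ((1 : K) ⊗ₜ[k] β) ∈ Submodule.span K S :=
        Submodule.subset_span ⟨β, rfl⟩
      exact Submodule.smul_mem _ a h1
    | add z z' hz hz' => rw [map_add]; exact Submodule.add_mem _ hz hz'
  obtain ⟨f, hfS, hfspan, hfli⟩ := Submodule.exists_fun_fin_finrank_span_eq K S
  choose b hb using hfS
  refine ⟨_, b, (HilbFibres.isBasisMod_iff I b).2 ?_⟩
  have hΦ : HilbFibres.Phi I b = Fintype.linearCombination K f := by
    unfold HilbFibres.Phi
    congr 1
    funext i
    exact hb i
  rw [hΦ]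
  constructor
  · exact hfli.fintypeLinearCombination_injective
  · rw [← LinearMap.range_eq_top, Fintype.range_linearCombination, hfspan, hspan]

end Fermat.Agent.S25.DivisorBasis
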