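import Fermat.Agent.S25.H.Chart
import Fermat.Agent.S25.H.CoverPoints
import Fermat.Agent.S25.H.CoverBP
import Fermat.Agent.S25.H.DivisorBasis

/-! # S25 / H6 : every class of degree 0 lies in a chart (general position) -/
set_option autoImplicit false
universe u
open TensorProduct Polynomial

namespace Fermat.Agent.S25
variable {k : Type u} [Field k] {Γ : CurveAlg k} [hΓ : Fact Γ.IsGood] [IsAlgClosed k]
variable {K : Type u} [Field K] [Algebra k K]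

/-- a `k`-point viewed as a `K`-point -/
noncomputable abbrev ptK₀ (K : Type u) [Field K] [Algebra k K] (R : Γ.B₀ →ₐ[k] k) : Γ.B₀ →ₐ[k] K :=
  (kmap k K).comp R
noncomputable abbrev ptK₁ (K : Type u) [Field K] [Algebra k K] (Q : Γ.B₁ →ₐ[k] k) : Γ.B₁ →ₐ[k] K :=
  (kmap k K).comp Q

/-- the twisting classes `γ(j, Rs) = O(j∞ - ΣR)`. -/
noncomputable def gam (Γ : CurveAlg k) [Fact Γ.IsGood] (j : ℕ) (Rs : List (Γ.B₀ →ₐ[k] k)) : PicAlg Γ k :=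
  infty Γ k ^ j * ((Rs.map pt₀).prod)⁻¹

theorem infinite_points₀ : Infinite (Γ.B₀ →ₐ[k] k) :=
  haveI := hΓ.out.finiteType₀
  CoverPoints.infinite_points Γ.x hΓ.out.finite₀ hΓ.out.transc₀
theorem finite_fib : {Q : Γ.B₁ →ₐ[k] k | Q Γ.y = 0}.Finite :=
  CoverPoints.finite_fib Γ.y hΓ.out.finite₁

/-- (BP) a class with a nonzero section has finitely many `k`-rational base points. -/
theorem finite_basePoints (m : PicAlg Γ K) (h : 0 < PicAlg.h0 m) :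
    {R : Γ.B₀ →ₐ[k] k | PicAlg.h0 (m * (pt₀ (ptK₀ K R))⁻¹) = PicAlg.h0 m}.Finite :=
  CoverBP.finite_basePoints m h

/-- if the unique section vanishes at no point of the fibre at infinity, it generates there. -/
theorem genAtInfty_of_h0_eq_zero (𝒩 : LB Γ K) (s : 𝒩.H0) (hs : s ≠ 0)
    (h : ∀ Q : Γ.B₁ →ₐ[k] k, Q Γ.y = 0 → PicAlg.h0 (PicAlg.mk 𝒩 * (pt₁ (ptK₁ K Q))⁻¹) = 0) :
    𝒩.GenAtInfty s := CoverBP.genAtInfty_of_h0_eq_zero 𝒩 s hs h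

omit [IsAlgClosed k] in
/-- `R₀ K` is finite over `K[x]`. -/
theorem db_finite_R₀ : (Polynomial.aeval (R := K) (Γ.xA K)).toRingHom.Finite := by
  classical
  obtain ⟨n, β, hβ⟩ := CurveAlg.exists_basis_R₀ hΓ.out K
  let _ : Algebra K[X] (Γ.R₀ K) := (Polynomial.aeval (R := K) (Γ.xA K)).toRingHom.toAlgebra
  change Module.Finite K[X] (Γ.R₀ K)
  refine ⟨⟨Finset.univ.image β, ?_⟩⟩
  rw [eq_top_iff]
  rintro z -
  obtain ⟨p, hp, -⟩ := hβ z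
  rw [hp]
  refine Submodule.sum_mem _ fun i _ => ?_
  have : Polynomial.aeval (Γ.xA K) (p i) * β i = p i • β i := rfl
  rw [this]
  exact Submodule.smul_mem _ _ (Submodule.subset_span (by simp))

omit hΓ [IsAlgClosed k] in
/-- the zero ideal of a nonzero section is nonzero. -/
theorem db_zero₀_ne_bot (𝒩 : LB Γ K) (s : 𝒩.H0) (hs : s ≠ 0) : 𝒩.zero₀ s.1.1 ≠ ⊥ := by
  intro hbot
  apply hs
  have h0 : s.1.1 = 0 := by
    have hinj : Function.Injective (Module.Dual.eval (Γ.R₀ K) 𝒩.N₀) :=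
      (Module.bijective_dual_eval (Γ.R₀ K) 𝒩.N₀).1
    apply hinj
    rw [map_zero]
    exact LinearMap.range_eq_bot.1 hbot
  have hmem : (𝒩.r₀A.coprod (-𝒩.r₁A)) s.1 = 0 := s.2
  rw [LinearMap.coprod_apply, h0, map_zero, zero_add,
    LinearMap.neg_apply, neg_eq_zero] at hmem
  have h1 : s.1.2 = 0 := 𝒩.inj₁ (by rw [map_zero]; exact hmem)
  exact Subtype.ext (Prod.ext h0 h1)

/-- a nonzero section generating at infinity has a divisor `D ⊂ U₀`, finite of degree `deg`. -/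
theorem exists_isBasisMod_zero₀ (𝒩 : LB Γ K) (s : 𝒩.H0) (hs : s ≠ 0) (hy : 𝒩.GenAtInfty s)
    (g : ℕ) (hg : PicAlg.deg (PicAlg.mk 𝒩) = g) :
    ∃ b : Fin g → Γ.B₀, IsBasisMod (𝒩.zero₀ s.1.1) b := by
  have := CurveAlg.isDomain_R₀ hΓ.out K
  have : Module.Finite K ((K ⊗[k] Γ.B₀) ⧸ 𝒩.zero₀ s.1.1) :=
    DivisorBasis.finite_quotient_of_ne_bot (Γ.xA K) db_finite_R₀ _ (db_zero₀_ne_bot 𝒩 s hs)
  obtain ⟨d, b, hb⟩ := DivisorBasis.exists_isBasisMod_of_finite (𝒩.zero₀ s.1.1)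
  have hone := mk_mul_negDiv₀_zero₀ 𝒩 s hb hy
  have hdeg := deg_mul_negDiv₀ hb (PicAlg.mk 𝒩)
  rw [hone, deg_one, hg] at hdeg
  have hdg : d = g := by omega
  subst hdg
  exact ⟨b, hb⟩

/-- twisting down by a point lowers the degree by one -/
theorem gp_deg_mul_pt₀_inv (m : PicAlg Γ K) (P : Γ.B₀ →ₐ[k] K) :
    PicAlg.deg (m * (pt₀ P)⁻¹) = PicAlg.deg m - 1 := by
  have h := deg_mul_pt₀ (m * (pt₀ P)⁻¹) P
  rw [inv_mul_cancel_right] at h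
  linarith

theorem gp_deg_mul_pt₁_inv (m : PicAlg Γ K) (P : Γ.B₁ →ₐ[k] K) :
    PicAlg.deg (m * (pt₁ P)⁻¹) = PicAlg.deg m - 1 := by
  have h := deg_mul_pt₁ (m * (pt₁ P)⁻¹) P
  rw [inv_mul_cancel_right] at h
  linarith

theorem exists_general_position_aux (N : ℕ) : ∀ (m : PicAlg Γ K), PicAlg.h1 m = 0 →
    PicAlg.h0 m = N + 1 →
    (∀ Q : Γ.B₁ →ₐ[k] k, Q Γ.y = 0 →
      PicAlg.h0 (m * (pt₁ (ptK₁ K Q))⁻¹) + 1 = PicAlg.h0 m) →
    ∃ Rs : List (Γ.B₀ →ₐ[k] k), Rs.length + 1 = PicAlg.h0 m ∧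
      PicAlg.h1 (m * ((Rs.map fun R => pt₀ (ptK₀ K R)).prod)⁻¹) = 0 ∧
      PicAlg.h0 (m * ((Rs.map fun R => pt₀ (ptK₀ K R)).prod)⁻¹) = 1 ∧
      ∀ Q : Γ.B₁ →ₐ[k] k, Q Γ.y = 0 →
        PicAlg.h0 (m * ((Rs.map fun R => pt₀ (ptK₀ K R)).prod)⁻¹ * (pt₁ (ptK₁ K Q))⁻¹) = 0 := by
  induction N with
  | zero =>
    intro m h1 h0 hQ
    refine ⟨[], by simp [h0], by simpa using h1, by simpa using h0, ?_⟩
    intro Q hQy
    have := hQ Q hQy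
    simp only [List.map_nil, List.prod_nil, inv_one, mul_one]
    omega
  | succ N ih =>
    intro m h1 h0 hQ
    -- the bad set
    have hfin : ({R : Γ.B₀ →ₐ[k] k | PicAlg.h0 (m * (pt₀ (ptK₀ K R))⁻¹) = PicAlg.h0 m} ∪
        ⋃ Q ∈ {Q : Γ.B₁ →ₐ[k] k | Q Γ.y = 0},
          {R : Γ.B₀ →ₐ[k] k | PicAlg.h0 (m * (pt₁ (ptK₁ K Q))⁻¹ * (pt₀ (ptK₀ K R))⁻¹) =
            PicAlg.h0 (m * (pt₁ (ptK₁ K Q))⁻¹)}).Finite := by
      refine (finite_basePoints m (by omega)).union (finite_fib.biUnion ?_)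
      intro Q hQy
      refine finite_basePoints _ ?_
      have := hQ Q hQy
      omega
    haveI : Infinite (Γ.B₀ →ₐ[k] k) := infinite_points₀
    obtain ⟨R, hR⟩ := hfin.exists_notMem
    rw [Set.mem_union, not_or] at hR
    obtain ⟨hR1, hR2⟩ := hR
    have hR1' : PicAlg.h0 (m * (pt₀ (ptK₀ K R))⁻¹) ≠ PicAlg.h0 m := hR1
    have hR2' : ∀ Q : Γ.B₁ →ₐ[k] k, Q Γ.y = 0 →
        PicAlg.h0 (m * (pt₁ (ptK₁ K Q))⁻¹ * (pt₀ (ptK₀ K R))⁻¹) ≠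
            PicAlg.h0 (m * (pt₁ (ptK₁ K Q))⁻¹) := by
      intro Q hQy h
      exact hR2 (Set.mem_biUnion (show Q ∈ {Q : Γ.B₁ →ₐ[k] k | Q Γ.y = 0} from hQy) h)
    have hb := h0_mul_pt₀_inv_le m (ptK₀ K R)
    have h0' : PicAlg.h0 (m * (pt₀ (ptK₀ K R))⁻¹) = N + 1 := by omega
    have h1' : PicAlg.h1 (m * (pt₀ (ptK₀ K R))⁻¹) = 0 := by
      have hd := gp_deg_mul_pt₀_inv m (ptK₀ K R)
      simp only [PicAlg.deg, PicAlg.chi] at hd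
      omega
    have hQ' : ∀ Q : Γ.B₁ →ₐ[k] k, Q Γ.y = 0 →
        PicAlg.h0 (m * (pt₀ (ptK₀ K R))⁻¹ * (pt₁ (ptK₁ K Q))⁻¹) + 1 =
          PicAlg.h0 (m * (pt₀ (ptK₀ K R))⁻¹) := by
      intro Q hQy
      have e1 := hQ Q hQy
      have e2 := hR2' Q hQy
      have e3 := h0_mul_pt₀_inv_le (m * (pt₁ (ptK₁ K Q))⁻¹) (ptK₀ K R)
      rw [mul_right_comm] at e2 e3
      omega
    obtain ⟨Rs, hl, a1, a2, a3⟩ := ih _ h1' h0' hQ'
    have hprod : m * (((R :: Rs).map fun R => pt₀ (ptK₀ K R)).prod)⁻¹ =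
        m * (pt₀ (ptK₀ K R))⁻¹ * ((Rs.map fun R => pt₀ (ptK₀ K R)).prod)⁻¹ := by
      rw [List.map_cons, List.prod_cons, mul_inv, mul_assoc]
    refine ⟨R :: Rs, ?_, ?_, ?_, ?_⟩
    · rw [List.length_cons]; omega
    · rw [hprod]; exact a1
    · rw [hprod]; exact a2
    · intro Q hQy; rw [hprod]; exact a3 Q hQy

/-- the general position induction (numbers only). -/
theorem exists_general_position (m : PicAlg Γ K) (h1 : PicAlg.h1 m = 0) (h0 : 0 < PicAlg.h0 m)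
    (hQ : ∀ Q : Γ.B₁ →ₐ[k] k, Q Γ.y = 0 →
      PicAlg.h0 (m * (pt₁ (ptK₁ K Q))⁻¹) + 1 = PicAlg.h0 m) :
    ∃ Rs : List (Γ.B₀ →ₐ[k] k), Rs.length + 1 = PicAlg.h0 m ∧
      PicAlg.h1 (m * ((Rs.map fun R => pt₀ (ptK₀ K R)).prod)⁻¹) = 0 ∧
      PicAlg.h0 (m * ((Rs.map fun R => pt₀ (ptK₀ K R)).prod)⁻¹) = 1 ∧
      ∀ Q : Γ.B₁ →ₐ[k] k, Q Γ.y = 0 →
        PicAlg.h0 (m * ((Rs.map fun R => pt₀ (ptK₀ K R)).prod)⁻¹ * (pt₁ (ptK₁ K Q))⁻¹) = 0 := by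
  obtain ⟨N, hN⟩ : ∃ N, PicAlg.h0 m = N + 1 := ⟨PicAlg.h0 m - 1, by omega⟩
  exact exists_general_position_aux N m h1 hN hQ

theorem gp_map_gam (j : ℕ) (Rs : List (Γ.B₀ →ₐ[k] k)) :
    PicAlg.map (kmap k K) (gam Γ j Rs) =
      infty Γ K ^ j * ((Rs.map fun R => pt₀ (ptK₀ K R)).prod)⁻¹ := by
  unfold gam
  rw [map_mul, map_pow, map_infty, map_inv, map_list_prod, List.map_map]
  have : (⇑(PicAlg.map (Γ := Γ) (kmap k K)) ∘ pt₀) = fun R => pt₀ (ptK₀ K R) := by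
    funext R
    exact map_pt₀ _ _
  rw [this]

theorem gp_deg_mul_infty_pow {d : ℕ}
    (hd : ∀ n : PicAlg Γ K, PicAlg.deg (n * infty Γ K) = PicAlg.deg n + d) (n : PicAlg Γ K)
    (j : ℕ) : PicAlg.deg (n * infty Γ K ^ j) = PicAlg.deg n + j * d := by
  induction j with
  | zero => simp
  | succ j ih =>
    rw [pow_succ, ← mul_assoc, hd, ih]
    push_cast
    ring

/-- **H6** : covering. -/
theorem exists_inChart (n : PicAlg Γ K) (hn : PicAlg.deg n = 0) :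
    ∃ (j : ℕ) (Rs : List (Γ.B₀ →ₐ[k] k)) (b : Fin Γ.genus → Γ.B₀) (I : Ideal (Γ.R₀ K)),
      InChart (gam Γ j Rs) b n I := by
  obtain ⟨d, hd0, hd⟩ := exists_deg_mul_infty (Γ := Γ)
  have E1 : ∀ᶠ j in Filter.atTop, PicAlg.h1 (n * infty Γ K ^ j) = 0 :=
    Filter.eventually_atTop.2 (exists_h1_mul_infty_pow_eq_zero n)
  have E2 : ∀ᶠ j in Filter.atTop, ∀ Q ∈ {Q : Γ.B₁ →ₐ[k] k | Q Γ.y = 0},
      PicAlg.h1 (n * (pt₁ (ptK₁ K Q))⁻¹ * infty Γ K ^ j) = 0 :=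
    (Filter.eventually_all_finite finite_fib).2 fun Q _ =>
      Filter.eventually_atTop.2 (exists_h1_mul_infty_pow_eq_zero _)
  have E3 : ∀ᶠ j in Filter.atTop, Γ.genus ≤ j := Filter.eventually_ge_atTop _
  obtain ⟨j, e1, e2, e3⟩ := (E1.and (E2.and E3)).exists
  have hdeg : PicAlg.deg (n * infty Γ K ^ j) = j * d := by
    rw [gp_deg_mul_infty_pow (hd K) n j, hn, zero_add]
  have hjd : (Γ.genus : ℤ) ≤ j * d := by
    have h1 : (j : ℤ) * 1 ≤ j * d := by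
      apply mul_le_mul_of_nonneg_left _ (by positivity)
      exact_mod_cast hd0
    have h2 : (Γ.genus : ℤ) ≤ j := by exact_mod_cast e3
    linarith
  have hdeg' := hdeg
  simp only [PicAlg.deg, PicAlg.chi] at hdeg'
  obtain ⟨Rs, -, a1, a2, a3⟩ := exists_general_position (n * infty Γ K ^ j) e1 (by omega) (by
    intro Q hQy
    have h1 := gp_deg_mul_pt₁_inv (n * infty Γ K ^ j) (ptK₁ K Q)
    have h2 := e2 Q hQy
    rw [mul_right_comm] at h2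
    simp only [PicAlg.deg, PicAlg.chi] at h1
    omega)
  obtain ⟨𝒩, h𝒩⟩ := PicAlg.exists_rep
    (n * infty Γ K ^ j * ((Rs.map fun R => pt₀ (ptK₀ K R)).prod)⁻¹)
  have hfr : Module.finrank K 𝒩.H0 = 1 := by
    have : PicAlg.h0 (PicAlg.mk 𝒩) = 1 := by rw [h𝒩]; exact a2
    exact this
  haveI : Nontrivial 𝒩.H0 := Module.nontrivial_of_finrank_pos (R := K) (by omega)
  obtain ⟨s, hs⟩ := exists_ne (0 : 𝒩.H0)
  have hy : 𝒩.GenAtInfty s := genAtInfty_of_h0_eq_zero 𝒩 s hs (fun Q hQy => by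
    rw [h𝒩]; exact a3 Q hQy)
  have hg : PicAlg.deg (PicAlg.mk 𝒩) = Γ.genus := by
    rw [h𝒩]
    simp only [PicAlg.deg, PicAlg.chi, a1, a2]
    push_cast
    ring
  obtain ⟨b, hb⟩ := exists_isBasisMod_zero₀ 𝒩 s hs hy Γ.genus hg
  have hone := mk_mul_negDiv₀_zero₀ 𝒩 s hb hy
  refine ⟨j, Rs, b, 𝒩.zero₀ s.1.1, hb, ?_, ?_⟩
  · rw [gp_map_gam, ← mul_assoc, ← h𝒩]
    exact hone
  · rw [← eq_inv_of_mul_eq_one_left hone, h𝒩]
    exact a1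

end Fermat.Agent.S25
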