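import Fermat.Agent.S25.H.Atlas

/-! # S25 / H7 : finitely many charts suffice -/
set_option autoImplicit false
universe u
open TensorProduct Polynomial

namespace Fermat.Agent.S25
variable {k : Type u} [Field k] {Γ : CurveAlg k} [hΓ : Fact Γ.IsGood] [IsAlgClosed k]
variable {A A' : Type u} [CommRing A] [Algebra k A] [CommRing A'] [Algebra k A']

open PicAlg

/-- every field valued point factors through the residue field of its kernel -/
theorem exists_residue_factor {K : Type u} [Field K] [Algebra k K] (ψ : A →ₐ[k] K) :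
    ∃ ψ' : (PrimeSpectrum.comap ψ.toRingHom ⊥).asIdeal.ResidueField →ₐ[k] K,
      ψ'.comp (toResidue _) = ψ := by
  have h1 : (PrimeSpectrum.comap ψ.toRingHom ⊥).asIdeal ≤ RingHom.ker ψ := by
    intro x hx
    simpa using hx
  have h2 : (PrimeSpectrum.comap ψ.toRingHom ⊥).asIdeal.primeCompl ≤
      (IsUnit.submonoid K).comap ψ := by
    intro x hx
    have : ψ x ≠ 0 := by simpa [Ideal.primeCompl] using hx
    exact isUnit_iff_ne_zero.2 this
  refine ⟨Ideal.ResidueField.liftₐ _ ψ h1 h2, ?_⟩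
  ext x
  exact Ideal.ResidueField.liftₐ_algebraMap _ _ h1 h2 _

theorem PicAlg.Deg0.map {n : PicAlg Γ A} (h : n.Deg0) (f : A →ₐ[k] A') : (PicAlg.map f n).Deg0 := by
  intro K _ _ g
  rw [PicAlg.map_map]
  exact h K _

theorem PicAlg.Deg0.mul_fromBase {n l : PicAlg Γ A} (h : n.Deg0) (hl : FromBase l) :
    (n * l).Deg0 := by
  intro K _ _ g
  rw [map_mul, (hl.map g).eq_one_of_field, mul_one]
  exact h K _

/-! ### the families -/

/-- a family of classes over an affine base -/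
structure Fam (Γ : CurveAlg k) [Fact Γ.IsGood] where
  A : Type u
  [commRing : CommRing A]
  [algebra : Algebra k A]
  n : PicAlg Γ A

attribute [instance] Fam.commRing Fam.algebra

/-- add a tautological point of `U₀`, subtract the base point -/
noncomputable def Fam.ext₀ (F : Fam Γ) : Fam Γ where
  A := F.A ⊗[k] Γ.B₀
  n := PicAlg.map Algebra.TensorProduct.includeLeft F.n * pt₀ Algebra.TensorProduct.includeRight *
    (pt₀ ((kmap k _).comp Γ.e₀))⁻¹
noncomputable def Fam.ext₁ (F : Fam Γ) : Fam Γ where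
  A := F.A ⊗[k] Γ.B₁
  n := PicAlg.map Algebra.TensorProduct.includeLeft F.n * pt₁ Algebra.TensorProduct.includeRight *
    (pt₀ ((kmap k _).comp Γ.e₀))⁻¹

noncomputable def fams (Γ : CurveAlg k) [Fact Γ.IsGood] : ℕ → List (Fam Γ)
  | 0 => [⟨k, 1⟩]
  | m + 1 => (fams Γ m).flatMap fun F => [F.ext₀, F.ext₁]

theorem map_ext₀ (F : Fam Γ) (ψ : F.ext₀.A →ₐ[k] A) : PicAlg.map ψ F.ext₀.n =
    PicAlg.map (ψ.comp Algebra.TensorProduct.includeLeft) F.n *
      pt₀ (ψ.comp Algebra.TensorProduct.includeRight) * (pt₀ ((kmap k A).comp Γ.e₀))⁻¹ := by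
  unfold Fam.ext₀
  rw [map_mul, map_mul, map_inv, PicAlg.map_map, map_pt₀, map_pt₀, ← AlgHom.comp_assoc, comp_kmap]

theorem map_ext₁ (F : Fam Γ) (ψ : F.ext₁.A →ₐ[k] A) : PicAlg.map ψ F.ext₁.n =
    PicAlg.map (ψ.comp Algebra.TensorProduct.includeLeft) F.n *
      pt₁ (ψ.comp Algebra.TensorProduct.includeRight) * (pt₀ ((kmap k A).comp Γ.e₀))⁻¹ := by
  unfold Fam.ext₁
  rw [map_mul, map_mul, map_inv, PicAlg.map_map, map_pt₁, map_pt₀, ← AlgHom.comp_assoc, comp_kmap]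

theorem fams_deg0 (m : ℕ) : ∀ F ∈ fams Γ m, F.n.Deg0 := by
  induction m with
  | zero =>
    intro F hF
    simp only [fams, List.mem_singleton] at hF
    subst hF
    intro K _ _ f
    rw [map_one, deg_one]
  | succ m ih =>
    intro F hF
    simp only [fams, List.mem_flatMap, List.mem_cons, List.not_mem_nil, or_false] at hF
    obtain ⟨F', hF', rfl | rfl⟩ := hF
    · intro K _ _ f
      rw [map_ext₀, deg_mul_pt₀_inv, deg_mul_pt₀, ih F' hF' K]; ring
    · intro K _ _ f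
      rw [map_ext₁, deg_mul_pt₀_inv, deg_mul_pt₁, ih F' hF' K]; ring

section
variable {K : Type u} [Field K] [Algebra k K]

/-- the class of a point of either chart -/
noncomputable def ptS : (Γ.B₀ →ₐ[k] K) ⊕ (Γ.B₁ →ₐ[k] K) → PicAlg Γ K
  | .inl P => pt₀ P
  | .inr P => pt₁ P

theorem fams_spec (l : List ((Γ.B₀ →ₐ[k] K) ⊕ (Γ.B₁ →ₐ[k] K))) :
    ∃ F ∈ fams Γ l.length, ∃ ψ : F.A →ₐ[k] K, PicAlg.map ψ F.n =
      (l.map fun P => ptS P * (pt₀ ((kmap k K).comp Γ.e₀))⁻¹).prod := by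
  induction l with
  | nil => exact ⟨⟨k, 1⟩, by simp [fams], kmap k K, by simp⟩
  | cons P l ih =>
    obtain ⟨F, hF, ψ, hψ⟩ := ih
    rcases P with P | P
    · refine ⟨F.ext₀, ?_, Algebra.TensorProduct.lift ψ P (fun _ _ => Commute.all _ _), ?_⟩
      · simp only [List.length_cons, fams, List.mem_flatMap, List.mem_cons, List.not_mem_nil,
          or_false]
        exact ⟨F, hF, Or.inl rfl⟩
      · refine (map_ext₀ F _).trans ?_
        change PicAlg.map ((Algebra.TensorProduct.lift ψ P _).comp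
          Algebra.TensorProduct.includeLeft) F.n * pt₀ ((Algebra.TensorProduct.lift ψ P _).comp
          Algebra.TensorProduct.includeRight) * _ = _
        rw [Algebra.TensorProduct.lift_comp_includeLeft,
          Algebra.TensorProduct.lift_comp_includeRight', hψ, List.map_cons, List.prod_cons]
        simp only [ptS]
        rw [mul_comm (List.prod _), mul_right_comm]
    · refine ⟨F.ext₁, ?_, Algebra.TensorProduct.lift ψ P (fun _ _ => Commute.all _ _), ?_⟩
      · simp only [List.length_cons, fams, List.mem_flatMap, List.mem_cons, List.not_mem_nil,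
          or_false]
        exact ⟨F, hF, Or.inr rfl⟩
      · refine (map_ext₁ F _).trans ?_
        change PicAlg.map ((Algebra.TensorProduct.lift ψ P _).comp
          Algebra.TensorProduct.includeLeft) F.n * pt₁ ((Algebra.TensorProduct.lift ψ P _).comp
          Algebra.TensorProduct.includeRight) * _ = _
        rw [Algebra.TensorProduct.lift_comp_includeLeft,
          Algebra.TensorProduct.lift_comp_includeRight', hψ, List.map_cons, List.prod_cons]
        simp only [ptS]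
        rw [mul_comm (List.prod _), mul_right_comm]

theorem deg_prod_ptS (l : List ((Γ.B₀ →ₐ[k] K) ⊕ (Γ.B₁ →ₐ[k] K))) :
    deg ((l.map ptS).prod) = l.length := by
  induction l with
  | nil => simp [deg_one]
  | cons P l ih =>
    rw [List.map_cons, List.prod_cons, mul_comm]
    rcases P with P | P
    · simp only [ptS]; rw [deg_mul_pt₀, ih]; simp
    · simp only [ptS]; rw [deg_mul_pt₁, ih]; simp

theorem deg_mul_pt₀_pow (n : PicAlg Γ K) (P : Γ.B₀ →ₐ[k] K) (j : ℕ) :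
    deg (n * pt₀ P ^ j) = deg n + j := by
  induction j with
  | zero => simp
  | succ j ih => rw [pow_succ, ← mul_assoc, deg_mul_pt₀, ih]; push_cast; ring

theorem exists_fam_of_deg_eq_zero [IsAlgClosed K] (m : PicAlg Γ K) (hm : deg m = 0) :
    ∃ F ∈ fams Γ Γ.genus, ∃ ψ : F.A →ₐ[k] K, PicAlg.map ψ F.n = m := by
  set E : PicAlg Γ K := pt₀ ((kmap k K).comp Γ.e₀) with hE
  have hdeg : deg (m * E ^ Γ.genus) = Γ.genus := by rw [deg_mul_pt₀_pow, hm, zero_add]
  have hpos : 0 < h0 (m * E ^ Γ.genus) := by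
    unfold deg chi at hdeg
    by_contra h
    have h' : h0 (m * E ^ Γ.genus) = 0 := by omega
    rw [h'] at hdeg
    have : (0 : ℤ) ≤ h1 (m * E ^ Γ.genus) := Int.natCast_nonneg _
    push_cast at hdeg
    linarith
  obtain ⟨l₀, l₁, hl⟩ := exists_points_of_h0_pos _ hpos
  set l : List ((Γ.B₀ →ₐ[k] K) ⊕ (Γ.B₁ →ₐ[k] K)) := l₀.map Sum.inl ++ l₁.map Sum.inr with hl'
  have hprod : (l.map ptS).prod = m * E ^ Γ.genus := by
    rw [hl, hl', List.map_append, List.prod_append, List.map_map, List.map_map]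
    rfl
  have hlen : l.length = Γ.genus := by
    have := deg_prod_ptS l
    rw [hprod, hdeg] at this
    exact_mod_cast this.symm
  obtain ⟨F, hF, ψ, hψ⟩ := fams_spec l
  rw [hlen] at hF
  refine ⟨F, hF, ψ, ?_⟩
  rw [hψ, List.prod_map_mul, hprod, List.map_const', List.prod_replicate, hlen, inv_pow,
    mul_inv_cancel_right]

end

/-! ### extraction of a finite atlas -/
namespace AlgPreAtlas
variable (𝔄 : AlgPreAtlas Γ)

/-- the locus of a chart -/
def locus (i : 𝔄.ι) (n : PicAlg Γ A) : Set (PrimeSpectrum A) :=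
  {p | 𝔄.M i p.asIdeal.ResidueField (PicAlg.map (toResidue p) n)}

theorem isOpen_locus (i : 𝔄.ι) (n : PicAlg Γ A) (hn : n.Rigid) : IsOpen (𝔄.locus i n) := by
  rw [isOpen_iff_forall_mem_open]
  intro p hp
  obtain ⟨a, ha, φ, hφ⟩ := 𝔄.surj i A n hn p hp
  refine ⟨PrimeSpectrum.basicOpen a, ?_, (PrimeSpectrum.basicOpen a).isOpen, ha⟩
  intro q hq
  obtain ⟨π, hπ⟩ := exists_lift_away a (toResidue (k := k) q)
    (isUnit_iff_ne_zero.2 (toResidue_ne_zero hq))
  refine (𝔄.M_iff i _ _).2 ⟨π.comp φ, ?_⟩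
  rw [← PicAlg.map_map, hφ, PicAlg.map_map, hπ]

theorem mem_locus_iff (i : 𝔄.ι) (n : PicAlg Γ A) {K : Type u} [Field K] [Algebra k K]
    (ψ : A →ₐ[k] K) : PrimeSpectrum.comap ψ.toRingHom ⊥ ∈ 𝔄.locus i n ↔ 𝔄.M i K (PicAlg.map ψ n) := by
  obtain ⟨ψ', hψ'⟩ := exists_residue_factor ψ
  unfold locus
  simp only [Set.mem_setOf_eq]
  rw [← 𝔄.M_map_iff i _ _ ψ', PicAlg.map_map, hψ']

theorem exists_finset (n : PicAlg Γ A) (hn : n.Rigid) (hd : n.Deg0) :
    ∃ t : Finset 𝔄.ι, ∀ p, ∃ i ∈ t, p ∈ 𝔄.locus i n := by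
  obtain ⟨t, ht⟩ := isCompact_univ.elim_finite_subcover (fun i => 𝔄.locus i n)
    (fun i => 𝔄.isOpen_locus i n hn) (fun p _ => by
      obtain ⟨i, hi⟩ := 𝔄.cover _ _ (hd.map (toResidue p))
      exact Set.mem_iUnion.2 ⟨i, hi⟩)
  refine ⟨t, fun p => ?_⟩
  have := ht (Set.mem_univ p)
  simpa using this

theorem exists_finset_fam (F : Fam Γ) (hF : F.n.Deg0) : ∃ t : Finset 𝔄.ι,
    ∀ (K : Type u) [Field K] [Algebra k K] (ψ : F.A →ₐ[k] K), ∃ i ∈ t, 𝔄.M i K (PicAlg.map ψ F.n) := by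
  obtain ⟨l, hl, hr⟩ := exists_fromBase_mul_rigid F.n
  obtain ⟨t, ht⟩ := 𝔄.exists_finset (F.n * l) hr (hF.mul_fromBase hl)
  refine ⟨t, fun K _ _ ψ => ?_⟩
  obtain ⟨i, hi, hp⟩ := ht (PrimeSpectrum.comap ψ.toRingHom ⊥)
  refine ⟨i, hi, ?_⟩
  rw [mem_locus_iff, map_mul, (hl.map ψ).eq_one_of_field, mul_one] at hp
  exact hp

theorem exists_finset_list (L : List (Fam Γ)) (hL : ∀ F ∈ L, F.n.Deg0) : ∃ t : Finset 𝔄.ι,
    ∀ F ∈ L, ∀ (K : Type u) [Field K] [Algebra k K] (ψ : F.A →ₐ[k] K),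
      ∃ i ∈ t, 𝔄.M i K (PicAlg.map ψ F.n) := by
  classical
  induction L with
  | nil => exact ⟨∅, by simp⟩
  | cons F L ih =>
    obtain ⟨t, ht⟩ := ih (fun F' hF' => hL F' (List.mem_cons_of_mem _ hF'))
    obtain ⟨t', ht'⟩ := 𝔄.exists_finset_fam F (hL F List.mem_cons_self)
    refine ⟨t' ∪ t, fun F' hF' K _ _ ψ => ?_⟩
    rcases List.mem_cons.1 hF' with rfl | hF'
    · obtain ⟨i, hi, h⟩ := ht' K ψ
      exact ⟨i, Finset.mem_union_left _ hi, h⟩
    · obtain ⟨i, hi, h⟩ := ht F' hF' K ψ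
      exact ⟨i, Finset.mem_union_right _ hi, h⟩

/-- restriction of an atlas to a set of charts which still covers -/
def restrict (S : Set 𝔄.ι) (hS : ∀ (K : Type u) [Field K] [Algebra k K] (n : PicAlg Γ K),
    n.Deg0 → ∃ i ∈ S, 𝔄.M i K n) : AlgPreAtlas Γ where
  ι := S
  R i := 𝔄.R i
  finiteType i := 𝔄.finiteType i
  ξ i := 𝔄.ξ i
  ξ_mem i := 𝔄.ξ_mem i
  M i := 𝔄.M i
  M_map_iff i := 𝔄.M_map_iff i
  M_iff i := 𝔄.M_iff i
  inj i := 𝔄.inj i
  surj i := 𝔄.surj i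
  cover K _ _ n hn := by
    obtain ⟨i, hi, h⟩ := hS K n hn
    exact ⟨⟨i, hi⟩, h⟩

theorem exists_finite (𝔄 : AlgPreAtlas Γ) : Nonempty (AlgAtlas Γ) := by
  obtain ⟨t, ht⟩ := 𝔄.exists_finset_list (fams Γ Γ.genus) (fams_deg0 _)
  refine ⟨⟨𝔄.restrict (t : Set 𝔄.ι) fun K _ _ n hn => ?_, ?_⟩⟩
  · let f : K →ₐ[k] AlgebraicClosure K := (Algebra.ofId K (AlgebraicClosure K)).restrictScalars k
    obtain ⟨F, hF, ψ, hψ⟩ := exists_fam_of_deg_eq_zero (PicAlg.map f n) (hn _ f)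
    obtain ⟨i, hi, h⟩ := ht F hF _ ψ
    rw [hψ, 𝔄.M_map_iff] at h
    exact ⟨i, hi, h⟩
  · exact Finite.of_fintype (t : Set 𝔄.ι)

end AlgPreAtlas

end Fermat.Agent.S25
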