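import Mathlib

/-! # S25 / H1, H2 : the Hilbert functor of points of an affine curve, in a basis chart -/
set_option autoImplicit false
universe u
open TensorProduct Polynomial

namespace Fermat.Agent.S25
variable {k : Type u} [Field k] {B : Type u} [CommRing B] [Algebra k B] {g : ℕ}

/-- the images of `1 ⊗ b i` form an `A`-basis of `(A ⊗ B)/I`. -/
def IsBasisMod {A : Type u} [CommRing A] [Algebra k A] (I : Ideal (A ⊗[k] B)) (b : Fin g → B) : Prop :=
  ∀ z : A ⊗[k] B, ∃! c : Fin g → A, z - ∑ i, c i ⊗ₜ[k] b i ∈ I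

/-- base change of coefficient rings -/
noncomputable abbrev bcMap (B : Type u) [CommRing B] [Algebra k B] {A A' : Type u} [CommRing A]
    [Algebra k A] [CommRing A'] [Algebra k A'] (f : A →ₐ[k] A') : A ⊗[k] B →ₐ[k] A' ⊗[k] B :=
  Algebra.TensorProduct.map f (AlgHom.id k B)

namespace IsBasisMod

variable {A : Type u} [CommRing A] [Algebra k A] {I : Ideal (A ⊗[k] B)} {b : Fin g → B}

/-- the coordinates of `z` modulo `I` -/
noncomputable def coord (hI : IsBasisMod I b) (z : A ⊗[k] B) : Fin g → A := (hI z).choose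

theorem coord_spec (hI : IsBasisMod I b) (z : A ⊗[k] B) :
    z - ∑ i, hI.coord z i ⊗ₜ[k] b i ∈ I := (hI z).choose_spec.1

theorem coord_unique (hI : IsBasisMod I b) {z : A ⊗[k] B} {c : Fin g → A}
    (h : z - ∑ i, c i ⊗ₜ[k] b i ∈ I) : hI.coord z = c := ((hI z).choose_spec.2 c h).symm

theorem coord_add (hI : IsBasisMod I b) (z z' : A ⊗[k] B) :
    hI.coord (z + z') = hI.coord z + hI.coord z' := by
  apply hI.coord_unique
  have h := I.add_mem (hI.coord_spec z) (hI.coord_spec z')
  have e : z + z' - ∑ i, (hI.coord z + hI.coord z') i ⊗ₜ[k] b i =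
      (z - ∑ i, hI.coord z i ⊗ₜ[k] b i) + (z' - ∑ i, hI.coord z' i ⊗ₜ[k] b i) := by
    simp only [Pi.add_apply, TensorProduct.add_tmul, Finset.sum_add_distrib]
    ring
  rw [e]; exact h

theorem coord_smul (hI : IsBasisMod I b) (a : A) (z : A ⊗[k] B) :
    hI.coord (a • z) = a • hI.coord z := by
  apply hI.coord_unique
  have h : a • (z - ∑ i, hI.coord z i ⊗ₜ[k] b i) ∈ I :=
    Submodule.smul_of_tower_mem I a (hI.coord_spec z)
  have e : a • z - ∑ i, (a • hI.coord z) i ⊗ₜ[k] b i = a • (z - ∑ i, hI.coord z i ⊗ₜ[k] b i) := by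
    simp only [Pi.smul_apply, smul_sub, Finset.smul_sum, TensorProduct.smul_tmul']
  rw [e]; exact h

/-- the coordinate map as an `A`-linear map -/
noncomputable def proj (hI : IsBasisMod I b) : A ⊗[k] B →ₗ[A] (Fin g → A) where
  toFun := hI.coord
  map_add' := hI.coord_add
  map_smul' := hI.coord_smul

@[simp] theorem proj_apply (hI : IsBasisMod I b) (z : A ⊗[k] B) : hI.proj z = hI.coord z := rfl

theorem mem_iff (hI : IsBasisMod I b) (z : A ⊗[k] B) : z ∈ I ↔ hI.coord z = 0 := by
  constructor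
  · intro hz
    apply hI.coord_unique
    simpa using hz
  · intro hz
    have := hI.coord_spec z
    simpa [hz] using this

theorem coord_sum (hI : IsBasisMod I b) (c : Fin g → A) :
    hI.coord (∑ i, c i ⊗ₜ[k] b i) = c := by
  apply hI.coord_unique
  simp

theorem coord_tmul_b (hI : IsBasisMod I b) (j : Fin g) :
    hI.coord ((1 : A) ⊗ₜ[k] b j) = Pi.single j 1 := by
  classical
  apply hI.coord_unique
  have : ∑ i, (Pi.single j (1 : A) : Fin g → A) i ⊗ₜ[k] b i = (1 : A) ⊗ₜ[k] b j := by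
    rw [Finset.sum_eq_single j]
    · simp
    · intro i _ hij
      simp [Pi.single_eq_of_ne hij]
    · simp
  rw [this, sub_self]
  exact I.zero_mem

/-- multiplication formula -/
theorem coord_mul (hI : IsBasisMod I b) (β β' : B) :
    hI.coord ((1 : A) ⊗ₜ[k] (β * β')) =
      ∑ i, hI.coord ((1 : A) ⊗ₜ[k] β) i • hI.coord ((1 : A) ⊗ₜ[k] (b i * β')) := by
  have h1 := I.mul_mem_right ((1 : A) ⊗ₜ[k] β') (hI.coord_spec ((1 : A) ⊗ₜ[k] β))
  rw [hI.mem_iff] at h1
  have e : ((1 : A) ⊗ₜ[k] β - ∑ i, hI.coord ((1 : A) ⊗ₜ[k] β) i ⊗ₜ[k] b i) * (1 : A) ⊗ₜ[k] β' =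
      (1 : A) ⊗ₜ[k] (β * β') -
        ∑ i, hI.coord ((1 : A) ⊗ₜ[k] β) i • ((1 : A) ⊗ₜ[k] (b i * β')) := by
    simp only [sub_mul, Finset.sum_mul, Algebra.TensorProduct.tmul_mul_tmul, mul_one,
      TensorProduct.smul_tmul', smul_eq_mul]
  rw [e] at h1
  have h2 : hI.proj ((1 : A) ⊗ₜ[k] (β * β') -
        ∑ i, hI.coord ((1 : A) ⊗ₜ[k] β) i • ((1 : A) ⊗ₜ[k] (b i * β'))) = 0 := h1
  rw [map_sub, map_sum, sub_eq_zero] at h2
  simpa using h2

/-- a criterion -/
theorem of_linearMap (π : A ⊗[k] B →ₗ[A] (Fin g → A))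
    (hb : ∀ i, π ((1 : A) ⊗ₜ[k] b i) = Pi.single i 1) (hker : ∀ z, z ∈ I ↔ π z = 0) :
    IsBasisMod I b := by
  classical
  have hsum : ∀ c : Fin g → A, π (∑ i, c i ⊗ₜ[k] b i) = c := by
    intro c
    have : ∀ i, c i ⊗ₜ[k] b i = c i • ((1 : A) ⊗ₜ[k] b i) := by
      intro i; simp [TensorProduct.smul_tmul']
    simp only [this, map_sum, map_smul, hb]
    ext j
    simp [Finset.sum_apply, Pi.single_apply]
  intro z
  refine ⟨π z, ?_, ?_⟩
  · show z - ∑ i, π z i ⊗ₜ[k] b i ∈ I
    rw [hker, map_sub, hsum, sub_self]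
  · intro c hc
    rw [hker, map_sub, hsum, sub_eq_zero] at hc
    exact hc.symm

end IsBasisMod

/-- compatibility of coordinates with base change, abstract form -/
theorem IsBasisMod.liftBaseChange_bcMap {A A' : Type u} [CommRing A] [Algebra k A] [CommRing A']
    [Algebra k A'] (f : A →ₐ[k] A') (π : A ⊗[k] B →ₗ[A] (Fin g → A))
    (π₀' : B →ₗ[k] (Fin g → A')) (h : ∀ β l, π₀' β l = f (π ((1 : A) ⊗ₜ[k] β) l))
    (x : A ⊗[k] B) (l : Fin g) :
    π₀'.liftBaseChange A' (bcMap B f x) l = f (π x l) := by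
  induction x using TensorProduct.induction_on with
  | zero => simp
  | tmul a β =>
    have e : π (a ⊗ₜ[k] β) = a • π ((1 : A) ⊗ₜ[k] β) := by
      rw [← map_smul]; simp [TensorProduct.smul_tmul']
    rw [e]
    simp [h]
  | add x y hx hy => simp only [map_add, Pi.add_apply, hx, hy]

section Ker

variable {A : Type u} [CommRing A] [Algebra k A] {b : Fin g → B}

theorem IsBasisMod.liftBaseChange_mul (π₀ : B →ₗ[k] (Fin g → A))
    (hmul : ∀ β β', π₀ (β * β') = ∑ i, π₀ β i • π₀ (b i * β')) (z : A ⊗[k] B) (β' : B) :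
    π₀.liftBaseChange A (z * (1 : A) ⊗ₜ[k] β') =
      ∑ i, (π₀.liftBaseChange A z) i • π₀ (b i * β') := by
  induction z using TensorProduct.induction_on with
  | zero => simp
  | tmul a β =>
    rw [Algebra.TensorProduct.tmul_mul_tmul, mul_one, LinearMap.liftBaseChange_tmul, hmul β β',
      LinearMap.liftBaseChange_tmul, Finset.smul_sum]
    refine Finset.sum_congr rfl (fun i _ => ?_)
    rw [Pi.smul_apply, smul_smul, smul_eq_mul]
  | add x y hx hy =>
    simp only [add_mul, map_add, hx, hy, Pi.add_apply, add_smul, Finset.sum_add_distrib]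

/-- the kernel of the `A`-linear extension of a multiplicative coordinate system is an ideal -/
noncomputable def IsBasisMod.kerIdeal (π₀ : B →ₗ[k] (Fin g → A))
    (hmul : ∀ β β', π₀ (β * β') = ∑ i, π₀ β i • π₀ (b i * β')) : Ideal (A ⊗[k] B) where
  carrier := {z | π₀.liftBaseChange A z = 0}
  add_mem' := by
    intro x y hx hy
    simp only [Set.mem_ofPred_eq] at hx hy ⊢
    rw [map_add, hx, hy, add_zero]
  zero_mem' := by simp
  smul_mem' := by
    intro c x hx
    simp only [Set.mem_ofPred_eq] at hx ⊢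
    induction c using TensorProduct.induction_on with
    | zero => simp
    | tmul a β' =>
      have e : (a ⊗ₜ[k] β') • x = a • (x * (1 : A) ⊗ₜ[k] β') := by
        rw [smul_eq_mul, mul_comm x, ← smul_mul_assoc]
        simp [TensorProduct.smul_tmul']
      rw [e, map_smul, IsBasisMod.liftBaseChange_mul π₀ hmul, hx]
      simp
    | add y y' hy hy' => rw [add_smul, map_add, hy, hy', add_zero]

theorem IsBasisMod.mem_kerIdeal (π₀ : B →ₗ[k] (Fin g → A))
    (hmul : ∀ β β', π₀ (β * β') = ∑ i, π₀ β i • π₀ (b i * β')) (z : A ⊗[k] B) :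
    z ∈ IsBasisMod.kerIdeal π₀ hmul ↔ π₀.liftBaseChange A z = 0 := Iff.rfl

theorem IsBasisMod.isBasisMod_kerIdeal (π₀ : B →ₗ[k] (Fin g → A))
    (hmul : ∀ β β', π₀ (β * β') = ∑ i, π₀ β i • π₀ (b i * β'))
    (hb : ∀ i, π₀ (b i) = Pi.single i 1) : IsBasisMod (IsBasisMod.kerIdeal π₀ hmul) b :=
  IsBasisMod.of_linearMap (π₀.liftBaseChange A) (fun i => by simp [hb])
    (IsBasisMod.mem_kerIdeal π₀ hmul)

/-- the `k`-linear coordinate system of an ideal with basis -/
noncomputable def IsBasisMod.coord₀ {I : Ideal (A ⊗[k] B)} (hI : IsBasisMod I b) :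
    B →ₗ[k] (Fin g → A) :=
  (hI.proj.restrictScalars k) ∘ₗ (TensorProduct.mk k A B 1)

@[simp] theorem IsBasisMod.coord₀_apply {I : Ideal (A ⊗[k] B)} (hI : IsBasisMod I b) (β : B) :
    hI.coord₀ β = hI.coord ((1 : A) ⊗ₜ[k] β) := rfl

end Ker

/-- two ideals with the same basis, one contained in the other, are equal -/
theorem IsBasisMod.eq_of_le {A : Type u} [CommRing A] [Algebra k A] {I J : Ideal (A ⊗[k] B)}
    {b : Fin g → B} (hI : IsBasisMod I b) (hJ : IsBasisMod J b) (h : I ≤ J) : I = J := by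
  refine le_antisymm h (fun z hz => ?_)
  have h1 := hI.coord_spec z
  have h2 : ∑ i, hI.coord z i ⊗ₜ[k] b i ∈ J := by
    have := J.sub_mem hz (h h1)
    simpa using this
  have h3 : hJ.coord (∑ i, hI.coord z i ⊗ₜ[k] b i) = 0 := (hJ.mem_iff _).1 h2
  rw [hJ.coord_sum] at h3
  exact (hI.mem_iff z).2 h3

theorem IsBasisMod.map_aux {A A' : Type u} [CommRing A] [Algebra k A] [CommRing A'] [Algebra k A']
    {I : Ideal (A ⊗[k] B)} {b : Fin g → B} (hI : IsBasisMod I b) (f : A →ₐ[k] A')
    (π₀' : B →ₗ[k] (Fin g → A')) (h : ∀ β l, π₀' β l = f (hI.coord ((1 : A) ⊗ₜ[k] β) l))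
    (z : A' ⊗[k] B) :
    z - ∑ i, (π₀'.liftBaseChange A' z) i ⊗ₜ[k] b i ∈ I.map (bcMap B f) := by
  induction z using TensorProduct.induction_on with
  | zero => simp
  | tmul a' β =>
    have h1 : bcMap B f ((1 : A) ⊗ₜ[k] β - ∑ i, hI.coord ((1 : A) ⊗ₜ[k] β) i ⊗ₜ[k] b i) ∈
        I.map (bcMap B f) := Ideal.mem_map_of_mem _ (hI.coord_spec _)
    have h2 := (I.map (bcMap B f)).mul_mem_left (a' ⊗ₜ[k] (1 : B)) h1
    have e : a' ⊗ₜ[k] (1 : B) *
        bcMap B f ((1 : A) ⊗ₜ[k] β - ∑ i, hI.coord ((1 : A) ⊗ₜ[k] β) i ⊗ₜ[k] b i) =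
        a' ⊗ₜ[k] β - ∑ i, (π₀'.liftBaseChange A' (a' ⊗ₜ[k] β)) i ⊗ₜ[k] b i := by
      simp only [map_sub, map_sum, Algebra.TensorProduct.map_tmul, map_one, AlgHom.coe_id, id_eq,
        mul_sub, Finset.mul_sum, Algebra.TensorProduct.tmul_mul_tmul, mul_one, one_mul,
        LinearMap.liftBaseChange_tmul, Pi.smul_apply, smul_eq_mul, h]
    rw [← e]; exact h2
  | add x y hx hy =>
    have := (I.map (bcMap B f)).add_mem hx hy
    have e : x + y - ∑ i, (π₀'.liftBaseChange A' (x + y)) i ⊗ₜ[k] b i =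
        (x - ∑ i, (π₀'.liftBaseChange A' x) i ⊗ₜ[k] b i) +
          (y - ∑ i, (π₀'.liftBaseChange A' y) i ⊗ₜ[k] b i) := by
      simp only [map_add, Pi.add_apply, TensorProduct.add_tmul, Finset.sum_add_distrib]
      ring
    rw [e]; exact this

theorem IsBasisMod.map {A A' : Type u} [CommRing A] [Algebra k A] [CommRing A'] [Algebra k A']
    {I : Ideal (A ⊗[k] B)} {b : Fin g → B} (hI : IsBasisMod I b) (f : A →ₐ[k] A') :
    IsBasisMod (I.map (bcMap B f)) b := by
  classical
  let π₀' : B →ₗ[k] (Fin g → A') := (f.toLinearMap.compLeft (Fin g)) ∘ₗ hI.coord₀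
  have h : ∀ β l, π₀' β l = f (hI.coord ((1 : A) ⊗ₜ[k] β) l) := fun _ _ => rfl
  have hmul : ∀ β β', π₀' (β * β') = ∑ i, π₀' β i • π₀' (b i * β') := by
    intro β β'
    ext l
    simp only [h, hI.coord_mul β β', Finset.sum_apply, Pi.smul_apply, smul_eq_mul, map_sum, map_mul]
  have hb : ∀ i, π₀' (b i) = Pi.single i 1 := by
    intro i
    ext l
    rw [h, hI.coord_tmul_b]
    by_cases hl : l = i
    · subst hl; simp
    · simp [Pi.single_eq_of_ne hl]
  have hJ := IsBasisMod.isBasisMod_kerIdeal π₀' hmul hb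
  have heq : I.map (bcMap B f) = IsBasisMod.kerIdeal π₀' hmul := by
    apply le_antisymm
    · rw [Ideal.map_le_iff_le_comap]
      intro x hx
      rw [Ideal.mem_comap, IsBasisMod.mem_kerIdeal]
      ext l
      have := IsBasisMod.liftBaseChange_bcMap f hI.proj π₀' h x l
      rw [hI.proj_apply, (hI.mem_iff x).1 hx] at this
      simpa using this
    · intro z hz
      rw [IsBasisMod.mem_kerIdeal] at hz
      have := hI.map_aux f π₀' h z
      simpa [hz] using this
  rw [heq]
  exact hJ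

namespace HilbFibres

/-- Nakayama, global form: a f.g. submodule with `N ≤ m • N` for all maximal `m` is zero. -/
theorem eq_bot_of_forall_le_smul {A M : Type*} [CommRing A] [AddCommGroup M] [Module A M]
    (N : Submodule A M) (hN : N.FG) (h : ∀ m : Ideal A, m.IsMaximal → N ≤ m • N) : N = ⊥ := by
  by_contra hne
  have hann : N.annihilator ≠ ⊤ := by
    intro htop
    apply hne
    rw [eq_bot_iff]
    intro n hn
    have h1 : (1 : A) ∈ N.annihilator := by rw [htop]; trivial
    have := Submodule.mem_annihilator.1 h1 n hn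
    simpa using this
  obtain ⟨m, hm, hle⟩ := Ideal.exists_le_maximal _ hann
  obtain ⟨r, hr1, hr⟩ := Submodule.exists_sub_one_mem_and_smul_eq_zero_of_fg_of_le_smul m N hN
    (h m hm)
  have hrm : r ∈ m := hle (Submodule.mem_annihilator.2 hr)
  apply hm.ne_top
  rw [Ideal.eq_top_iff_one]
  have := m.sub_mem hrm hr1
  simpa using this

/-- surjectivity can be checked modulo all maximal ideals when the target is finite. -/
theorem surjective_of_forall_maximal {A M P : Type*} [CommRing A] [AddCommGroup M] [Module A M]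
    [AddCommGroup P] [Module A P] [Module.Finite A P] (f : M →ₗ[A] P)
    (h : ∀ m : Ideal A, m.IsMaximal → ∀ p : P, ∃ x, p - f x ∈ m • (⊤ : Submodule A P)) :
    Function.Surjective f := by
  have htop : (⊤ : Submodule A (P ⧸ LinearMap.range f)) = ⊥ := by
    refine eq_bot_of_forall_le_smul _ Module.Finite.fg_top fun m hm => ?_
    rintro q -
    obtain ⟨p, rfl⟩ := Submodule.mkQ_surjective _ q
    obtain ⟨x, hx⟩ := h m hm p
    have h1 : (LinearMap.range f).mkQ p = (LinearMap.range f).mkQ (p - f x) := by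
      rw [map_sub, sub_eq_self.2]
      simp
    rw [h1]
    have h2 : (LinearMap.range f).mkQ (p - f x) ∈ (m • (⊤ : Submodule A P)).map
        (LinearMap.range f).mkQ := Submodule.mem_map_of_mem hx
    rw [Submodule.map_smul''] at h2
    exact Submodule.smul_mono le_rfl le_top h2
  intro p
  have h1 : (LinearMap.range f).mkQ p ∈ (⊤ : Submodule A (P ⧸ LinearMap.range f)) := trivial
  rw [htop, Submodule.mem_bot, Submodule.mkQ_apply, Submodule.Quotient.mk_eq_zero] at h1
  exact h1

variable {A : Type u} [CommRing A] [Algebra k A]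

/-- the comparison map `A^g → (A ⊗ B)/I`. -/
noncomputable def Phi (I : Ideal (A ⊗[k] B)) (b : Fin g → B) :
    (Fin g → A) →ₗ[A] ((A ⊗[k] B) ⧸ I) :=
  Fintype.linearCombination A (fun i => Ideal.Quotient.mk I ((1 : A) ⊗ₜ[k] b i))

theorem Phi_apply (I : Ideal (A ⊗[k] B)) (b : Fin g → B) (c : Fin g → A) :
    Phi I b c = Ideal.Quotient.mk I (∑ i, c i ⊗ₜ[k] b i) := by
  rw [Phi, Fintype.linearCombination_apply, map_sum]
  refine Finset.sum_congr rfl fun i _ => ?_
  have : c i ⊗ₜ[k] b i = c i • ((1 : A) ⊗ₜ[k] b i) := by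
    rw [TensorProduct.smul_tmul', smul_eq_mul, mul_one]
  rw [this]
  rfl

theorem isBasisMod_iff (I : Ideal (A ⊗[k] B)) (b : Fin g → B) :
    IsBasisMod I b ↔ Function.Bijective (Phi I b) := by
  have key : ∀ (z : A ⊗[k] B) (c : Fin g → A),
      z - ∑ i, c i ⊗ₜ[k] b i ∈ I ↔ Phi I b c = Ideal.Quotient.mk I z := by
    intro z c
    rw [Phi_apply, eq_comm, Ideal.Quotient.eq]
  constructor
  · intro h
    constructor
    · intro c c' hcc
      obtain ⟨c₀, -, huniq⟩ := h (∑ i, c i ⊗ₜ[k] b i)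
      have h1 := huniq c ((key _ _).2 (Phi_apply I b c))
      have h2 := huniq c' ((key _ _).2 (by rw [← hcc, Phi_apply]))
      rw [h1, h2]
    · intro q
      obtain ⟨z, rfl⟩ := Ideal.Quotient.mk_surjective q
      obtain ⟨c, hc, -⟩ := h z
      exact ⟨c, (key _ _).1 hc⟩
  · intro h z
    obtain ⟨c, hc⟩ := h.2 (Ideal.Quotient.mk I z)
    refine ⟨c, (key _ _).2 hc, fun c' hc' => h.1 ?_⟩
    rw [(key _ _).1 hc', hc]

end HilbFibres

open HilbFibres in
/-- `IsBasisMod` can be checked on the fibres when the quotient is f.g. projective over `A`. -/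
theorem isBasisMod_of_fibres {A : Type u} [CommRing A] [Algebra k A] (I : Ideal (A ⊗[k] B))
    (b : Fin g → B) [Module.Finite A ((A ⊗[k] B) ⧸ I)] [Module.Projective A ((A ⊗[k] B) ⧸ I)]
    (h : ∀ p : PrimeSpectrum A, IsBasisMod (I.map (bcMap B
      ((Algebra.ofId A p.asIdeal.ResidueField).restrictScalars k))) b) : IsBasisMod I b := by
  rw [isBasisMod_iff]
  -- the residue field at a maximal ideal
  have hres : ∀ m : Ideal A, ∀ hm : m.IsMaximal,
      Function.Surjective ((Algebra.ofId A m.ResidueField).restrictScalars k) ∧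
      RingHom.ker ((Algebra.ofId A m.ResidueField).restrictScalars k) = m := by
    intro m hm
    exact ⟨m.algebraMap_residueField_surjective, m.ker_algebraMap_residueField⟩
  -- surjectivity
  have hsurj : Function.Surjective (Phi I b) := by
    refine surjective_of_forall_maximal _ fun m hm q => ?_
    obtain ⟨z, rfl⟩ := Ideal.Quotient.mk_surjective q
    obtain ⟨hfs, hfk⟩ := hres m hm
    set f := (Algebra.ofId A m.ResidueField).restrictScalars k with hf
    obtain ⟨c', hc', -⟩ := h ⟨m, hm.isPrime⟩ (bcMap B f z)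
    choose c hc using fun i => hfs (c' i)
    refine ⟨c, ?_⟩
    have hbs : Function.Surjective (bcMap B f) :=
      Algebra.TensorProduct.map_surjective _ _ hfs Function.surjective_id
    have h1 : bcMap B f (z - ∑ i, c i ⊗ₜ[k] b i) ∈ I.map (bcMap B f) := by
      rw [map_sub, map_sum]
      simpa [bcMap, hc] using hc'
    obtain ⟨x, hxI, hx⟩ := (Ideal.mem_map_iff_of_surjective _ hbs).1 h1
    have h2 : z - ∑ i, c i ⊗ₜ[k] b i - x ∈ RingHom.ker (bcMap B f) := by
      rw [RingHom.mem_ker, map_sub, hx, sub_self]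
    rw [Algebra.TensorProduct.rTensor_ker _ hfs, hfk] at h2
    have h3 : z - ∑ i, c i ⊗ₜ[k] b i - x ∈ m • (⊤ : Submodule A (A ⊗[k] B)) := by
      rw [Ideal.smul_top_eq_map]
      exact h2
    have h4 : (Ideal.Quotient.mkₐ A I).toLinearMap (z - ∑ i, c i ⊗ₜ[k] b i - x) ∈
        (m • (⊤ : Submodule A (A ⊗[k] B))).map (Ideal.Quotient.mkₐ A I).toLinearMap :=
      Submodule.mem_map_of_mem h3
    rw [Submodule.map_smul''] at h4
    have h5 := Submodule.smul_mono le_rfl le_top h4
    have h6 : (Ideal.Quotient.mkₐ A I).toLinearMap (z - ∑ i, c i ⊗ₜ[k] b i - x)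
        = Ideal.Quotient.mk I z - Phi I b c := by
      rw [Phi_apply]
      show Ideal.Quotient.mk I (z - ∑ i, c i ⊗ₜ[k] b i - x) = _
      rw [map_sub, map_sub, Ideal.Quotient.eq_zero_iff_mem.2 hxI, sub_zero]
    rw [← h6]
    exact h5
  refine ⟨?_, hsurj⟩
  -- injectivity
  obtain ⟨s, hs⟩ := Module.projective_lifting_property (Phi I b) LinearMap.id hsurj
  have hs' : ∀ q, Phi I b (s q) = q := fun q => LinearMap.congr_fun hs q
  let π : (Fin g → A) →ₗ[A] (Fin g → A) := LinearMap.id - s ∘ₗ Phi I b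
  have hπker : ∀ c, π c ∈ LinearMap.ker (Phi I b) := by
    intro c
    simp [π, hs']
  have hπid : ∀ c ∈ LinearMap.ker (Phi I b), π c = c := by
    intro c hc
    rw [LinearMap.mem_ker] at hc
    simp [π, hc]
  have hrange : LinearMap.ker (Phi I b) = LinearMap.range π := by
    apply le_antisymm
    · intro c hc; exact ⟨c, hπid c hc⟩
    · rintro _ ⟨c, rfl⟩; exact hπker c
  have hfg : (LinearMap.ker (Phi I b)).FG := by
    rw [hrange, LinearMap.range_eq_map]
    exact Module.Finite.fg_top.map π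
  have hker : LinearMap.ker (Phi I b) = ⊥ := by
    refine eq_bot_of_forall_le_smul _ hfg fun m hm c hc => ?_
    obtain ⟨hfs, hfk⟩ := hres m hm
    set f := (Algebra.ofId A m.ResidueField).restrictScalars k with hf
    have hcI : ∑ i, c i ⊗ₜ[k] b i ∈ I := by
      rw [LinearMap.mem_ker, Phi_apply] at hc
      exact Ideal.Quotient.eq_zero_iff_mem.1 hc
    obtain ⟨c₀, -, huniq⟩ := h ⟨m, hm.isPrime⟩ 0
    have h1 : (fun i => f (c i)) = c₀ := by
      apply huniq
      have := Ideal.mem_map_of_mem (bcMap B f) hcI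
      rw [map_sum] at this
      simpa [bcMap] using this
    have h2 : (0 : Fin g → m.ResidueField) = c₀ := by
      apply huniq
      simp
    have hcm : ∀ i, c i ∈ m := by
      intro i
      rw [← hfk, RingHom.mem_ker]
      have := congrFun (h1.trans h2.symm) i
      exact this
    have h3 : c = ∑ i, c i • π (Pi.single i 1) := by
      conv_lhs => rw [← hπid c hc, pi_eq_sum_univ' c]
      simp [map_sum]
    rw [h3]
    exact Submodule.sum_mem _ fun i _ => Submodule.smul_mem_smul (hcm i) (hπker _)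
  exact LinearMap.ker_eq_bot.1 hker

/-- a representing object of `A ↦ {I | IsBasisMod I b}`. -/
structure HilbRep (k : Type u) [Field k] (B : Type u) [CommRing B] [Algebra k B] {g : ℕ}
    (b : Fin g → B) where
  R : Type u
  [commRing : CommRing R]
  [algebra : Algebra k R]
  finiteType : Algebra.FiniteType k R
  Iu : Ideal (R ⊗[k] B)
  basis : IsBasisMod Iu b
  univ : ∀ (A : Type u) [CommRing A] [Algebra k A] (I : Ideal (A ⊗[k] B)), IsBasisMod I b →
    ∃! φ : R →ₐ[k] A, I = Iu.map (bcMap B φ)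

attribute [instance] HilbRep.commRing HilbRep.algebra

namespace HilbConstr


variable (k) (b : Fin g → B)

open Classical in
/-- the relations defining the universal ring -/
def rels : Set (MvPolynomial (B × Fin g) k) :=
  {p | ∃ (β β' : B) (l : Fin g), p = MvPolynomial.X (β + β', l) - MvPolynomial.X (β, l) - MvPolynomial.X (β', l)} ∪
  {p | ∃ (c : k) (β : B) (l : Fin g), p = MvPolynomial.X (c • β, l) - c • MvPolynomial.X (β, l)} ∪
  {p | ∃ (j l : Fin g), p = MvPolynomial.X (b j, l) - MvPolynomial.C (if l = j then 1 else 0)} ∪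
  {p | ∃ (β β' : B) (l : Fin g), p = MvPolynomial.X (β * β', l) - ∑ i, MvPolynomial.X (β, i) * MvPolynomial.X (b i * β', l)}

/-- the universal ring -/
abbrev HR : Type u := MvPolynomial (B × Fin g) k ⧸ Ideal.span (rels k b)

/-- the universal coordinates -/
noncomputable def x (β : B) (l : Fin g) : HR k b := Ideal.Quotient.mkₐ k _ (MvPolynomial.X (β, l))

theorem mk_eq_zero {p : MvPolynomial (B × Fin g) k} (hp : p ∈ rels k b) :
    Ideal.Quotient.mkₐ k (Ideal.span (rels k b)) p = 0 :=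
  Ideal.Quotient.eq_zero_iff_mem.2 (Ideal.subset_span hp)

theorem x_add (β β' : B) (l : Fin g) : x k b (β + β') l = x k b β l + x k b β' l := by
  have := mk_eq_zero k b (p := MvPolynomial.X (β + β', l) - MvPolynomial.X (β, l) - MvPolynomial.X (β', l))
    (Or.inl (Or.inl (Or.inl ⟨β, β', l, rfl⟩)))
  rw [map_sub, map_sub, sub_sub, sub_eq_zero] at this
  exact this

theorem x_smul (c : k) (β : B) (l : Fin g) : x k b (c • β) l = c • x k b β l := by
  have := mk_eq_zero k b (p := MvPolynomial.X (c • β, l) - c • MvPolynomial.X (β, l))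
    (Or.inl (Or.inl (Or.inr ⟨c, β, l, rfl⟩)))
  rw [map_sub, map_smul, sub_eq_zero] at this
  exact this

open Classical in
theorem x_b (j l : Fin g) : x k b (b j) l = if l = j then 1 else 0 := by
  have := mk_eq_zero k b (p := MvPolynomial.X (b j, l) - MvPolynomial.C (if l = j then 1 else 0))
    (Or.inl (Or.inr ⟨j, l, rfl⟩))
  rw [map_sub, sub_eq_zero] at this
  rw [x, this]
  split_ifs <;> simp

theorem x_mul (β β' : B) (l : Fin g) :
    x k b (β * β') l = ∑ i, x k b β i * x k b (b i * β') l := by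
  have := mk_eq_zero k b (p := MvPolynomial.X (β * β', l) - ∑ i, MvPolynomial.X (β, i) * MvPolynomial.X (b i * β', l))
    (Or.inr ⟨β, β', l, rfl⟩)
  rw [map_sub, sub_eq_zero, map_sum] at this
  simp only [map_mul] at this
  exact this

/-- the universal coordinate system -/
noncomputable def pi0 : B →ₗ[k] (Fin g → HR k b) where
  toFun β l := x k b β l
  map_add' β β' := by ext l; exact x_add k b β β' l
  map_smul' c β := by ext l; exact x_smul k b c β l

@[simp] theorem pi0_apply (β : B) (l : Fin g) : pi0 k b β l = x k b β l := rfl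

theorem pi0_mul (β β' : B) : pi0 k b (β * β') = ∑ i, pi0 k b β i • pi0 k b (b i * β') := by
  ext l
  simp only [pi0_apply, Finset.sum_apply, Pi.smul_apply, smul_eq_mul]
  exact x_mul k b β β' l

theorem pi0_b (i : Fin g) : pi0 k b (b i) = Pi.single i 1 := by
  classical
  ext l
  rw [pi0_apply, x_b, Pi.single_apply]

/-- the universal ideal -/
noncomputable def Iu : Ideal (HR k b ⊗[k] B) := IsBasisMod.kerIdeal (pi0 k b) (pi0_mul k b)

theorem basis_Iu : IsBasisMod (Iu k b) b := IsBasisMod.isBasisMod_kerIdeal _ _ (pi0_b k b)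

theorem spec_Iu (β : B) : (1 : HR k b) ⊗ₜ[k] β - ∑ i, x k b β i ⊗ₜ[k] b i ∈ Iu k b := by
  classical
  rw [Iu, IsBasisMod.mem_kerIdeal, map_sub, map_sum]
  simp only [LinearMap.liftBaseChange_tmul, one_smul, pi0_b]
  ext l
  simp [Finset.sum_apply, Pi.single_apply]

section Univ

variable {k b} {A : Type u} [CommRing A] [Algebra k A] {I : Ideal (A ⊗[k] B)}

theorem _root_.Fermat.Agent.S25.IsBasisMod.liftBaseChange_coord₀ (hI : IsBasisMod I b)
    (z : A ⊗[k] B) : hI.coord₀.liftBaseChange A z = hI.coord z := by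
  induction z using TensorProduct.induction_on with
  | zero => simpa using (hI.proj.map_zero).symm
  | tmul a β =>
    rw [LinearMap.liftBaseChange_tmul, hI.coord₀_apply, ← hI.coord_smul]
    simp [TensorProduct.smul_tmul']
  | add y y' hy hy' => rw [map_add, hy, hy', hI.coord_add]

/-- the evaluation attached to an ideal with basis -/
noncomputable def ev (hI : IsBasisMod I b) : MvPolynomial (B × Fin g) k →ₐ[k] A :=
  MvPolynomial.aeval (fun p : B × Fin g => hI.coord ((1 : A) ⊗ₜ[k] p.1) p.2)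

theorem ev_rels (hI : IsBasisMod I b) : ∀ a ∈ Ideal.span (rels k b), ev hI a = 0 := by
  classical
  have : Ideal.span (rels k b) ≤ RingHom.ker (ev hI).toRingHom := by
    rw [Ideal.span_le]
    rintro p (((⟨β, β', l, rfl⟩ | ⟨c, β, l, rfl⟩) | ⟨j, l, rfl⟩) | ⟨β, β', l, rfl⟩)
    · simp only [SetLike.mem_coe, RingHom.mem_ker, AlgHom.toRingHom_eq_coe, RingHom.coe_coe, ev,
        map_sub, MvPolynomial.aeval_X, TensorProduct.tmul_add, hI.coord_add, Pi.add_apply]
      ring
    · have e : (1 : A) ⊗ₜ[k] (c • β) = (algebraMap k A c) • ((1 : A) ⊗ₜ[k] β) := by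
        rw [TensorProduct.tmul_smul, algebraMap_smul]
      rw [SetLike.mem_coe, RingHom.mem_ker, AlgHom.toRingHom_eq_coe, RingHom.coe_coe, ev,
        map_sub, map_smul, MvPolynomial.aeval_X, MvPolynomial.aeval_X]
      show hI.coord ((1 : A) ⊗ₜ[k] (c • β)) l - c • hI.coord ((1 : A) ⊗ₜ[k] β) l = 0
      rw [e, hI.coord_smul, Pi.smul_apply, algebraMap_smul, sub_self]
    · simp only [SetLike.mem_coe, RingHom.mem_ker, AlgHom.toRingHom_eq_coe, RingHom.coe_coe, ev,
        map_sub, MvPolynomial.aeval_X, hI.coord_tmul_b, Pi.single_apply]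
      split_ifs <;> simp
    · simp only [SetLike.mem_coe, RingHom.mem_ker, AlgHom.toRingHom_eq_coe, RingHom.coe_coe, ev,
        map_sub, map_sum, map_mul, MvPolynomial.aeval_X, hI.coord_mul β β', Finset.sum_apply, Pi.smul_apply,
        smul_eq_mul, sub_self]
  intro a ha
  exact this ha

/-- the classifying map -/
noncomputable def cl (hI : IsBasisMod I b) : HR k b →ₐ[k] A :=
  Ideal.Quotient.liftₐ _ (ev hI) (ev_rels hI)

theorem cl_x (hI : IsBasisMod I b) (β : B) (l : Fin g) :
    cl hI (x k b β l) = hI.coord ((1 : A) ⊗ₜ[k] β) l := by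
  have h1 : cl hI (x k b β l) = ev hI (MvPolynomial.X (β, l)) := rfl
  rw [h1, ev, MvPolynomial.aeval_X]

theorem eq_map_cl (hI : IsBasisMod I b) : I = (Iu k b).map (bcMap B (cl hI)) := by
  refine (IsBasisMod.eq_of_le ((basis_Iu k b).map (cl hI)) hI ?_).symm
  rw [Ideal.map_le_iff_le_comap]
  intro z hz
  rw [Ideal.mem_comap, hI.mem_iff]
  rw [Iu, IsBasisMod.mem_kerIdeal] at hz
  ext l
  have := IsBasisMod.liftBaseChange_bcMap (cl hI) ((pi0 k b).liftBaseChange (HR k b)) hI.coord₀
    (fun β l => by simp [cl_x]) z l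
  rw [hI.liftBaseChange_coord₀, hz] at this
  simpa using this

theorem cl_unique (hI : IsBasisMod I b) (ψ : HR k b →ₐ[k] A)
    (hψ : I = (Iu k b).map (bcMap B ψ)) : ψ = cl hI := by
  apply Ideal.Quotient.algHom_ext
  apply MvPolynomial.algHom_ext
  rintro ⟨β, l⟩
  show ψ (x k b β l) = cl hI (x k b β l)
  rw [cl_x]
  have h1 : bcMap B ψ ((1 : HR k b) ⊗ₜ[k] β - ∑ i, x k b β i ⊗ₜ[k] b i) ∈ I := by
    rw [hψ]; exact Ideal.mem_map_of_mem _ (spec_Iu k b β)
  have h2 : (1 : A) ⊗ₜ[k] β - ∑ i, (fun i => ψ (x k b β i)) i ⊗ₜ[k] b i ∈ I := by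
    simpa using h1
  rw [hI.coord_unique h2]

end Univ

theorem finiteType_HR [Algebra.FiniteType k B] : Algebra.FiniteType k (HR k b) := by
  classical
  obtain ⟨S, hS⟩ := (Algebra.FiniteType.out : (⊤ : Subalgebra k B).FG)
  let G : Set (HR k b) := (Set.range fun l => x k b 1 l) ∪
    (Set.range fun p : (Fin g × S) × Fin g => x k b (b p.1.1 * p.1.2) p.2)
  have hGfin : G.Finite := (Set.finite_range _).union (Set.finite_range _)
  have key : ∀ β' : B, ∀ β₀ : B, (∀ l, x k b β₀ l ∈ Algebra.adjoin k G) →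
      ∀ l, x k b (β₀ * β') l ∈ Algebra.adjoin k G := by
    intro β'
    have hβ' : β' ∈ Algebra.adjoin k (S : Set B) := by rw [hS]; trivial
    induction hβ' using Algebra.adjoin_induction with
    | mem z hz =>
      intro β₀ h₀ l
      rw [x_mul]
      exact Subalgebra.sum_mem _ (fun i _ => Subalgebra.mul_mem _ (h₀ i)
        (Algebra.subset_adjoin (Or.inr ⟨((i, ⟨z, hz⟩), l), rfl⟩)))
    | algebraMap c =>
      intro β₀ h₀ l
      rw [mul_comm, ← Algebra.smul_def, x_smul]
      exact Subalgebra.smul_mem _ (h₀ l) c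
    | add y z _ _ hy hz =>
      intro β₀ h₀ l
      rw [mul_add, x_add]
      exact Subalgebra.add_mem _ (hy β₀ h₀ l) (hz β₀ h₀ l)
    | mul y z _ _ hy hz =>
      intro β₀ h₀ l
      rw [← mul_assoc]
      exact hz _ (hy β₀ h₀) l
  have hall : ∀ β l, x k b β l ∈ Algebra.adjoin k G := by
    intro β l
    have := key β 1 (fun l => Algebra.subset_adjoin (Or.inl ⟨l, rfl⟩)) l
    rwa [one_mul] at this
  have htop : Algebra.adjoin k G = ⊤ := by
    rw [eq_top_iff]
    rintro r -
    obtain ⟨p, rfl⟩ := Ideal.Quotient.mkₐ_surjective k (Ideal.span (rels k b)) r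
    induction p using MvPolynomial.induction_on with
    | C c => exact (Algebra.adjoin k G).algebraMap_mem c
    | add p q hp hq => rw [map_add]; exact Subalgebra.add_mem _ hp hq
    | mul_X p i hp => rw [map_mul]; exact Subalgebra.mul_mem _ hp (hall i.1 i.2)
  exact ⟨(Subalgebra.fg_def).2 ⟨G, hGfin, htop⟩⟩

end HilbConstr

/-- **H1** -/
theorem nonempty_hilbRep [Algebra.FiniteType k B] (b : Fin g → B) : Nonempty (HilbRep k B b) :=
  ⟨{ R := HilbConstr.HR k b
     finiteType := HilbConstr.finiteType_HR k b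
     Iu := HilbConstr.Iu k b
     basis := HilbConstr.basis_Iu k b
     univ := fun _ _ _ _ hI =>
      ⟨HilbConstr.cl hI, HilbConstr.eq_map_cl hI, fun ψ hψ => HilbConstr.cl_unique hI ψ hψ⟩ }⟩

end Fermat.Agent.S25
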