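import Mathlib

/-! # S25 : criteria for an ideal to be an invertible module
* `invertible_of_one_mem_trace` : the trace ideal is everything.
* `dualIdeal I c = (c : I)`; `I` is invertible as soon as `c ∈ I * dualIdeal I c`, `c` a nonzerodivisor.
* this condition is local and stable under base change. -/
set_option autoImplicit false
open TensorProduct

namespace Fermat.Agent.S25
variable {S : Type*} [CommRing S]

theorem ideal_rank_one (I : Ideal S) (μ : Module.Dual S I) (x z : I) : μ z • x = μ x • z := by
  apply Subtype.ext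
  have h1 : μ ((x : S) • z) = (x : S) * μ z := by rw [map_smul, smul_eq_mul]
  have h2 : μ ((z : S) • x) = (z : S) * μ x := by rw [map_smul, smul_eq_mul]
  have h3 : (x : S) • z = (z : S) • x := Subtype.ext (by simp [mul_comm])
  rw [h3, h2] at h1
  simp only [Submodule.coe_smul, smul_eq_mul]
  rw [mul_comm, ← h1, mul_comm]

theorem contractLeft_smul_comm (I : Ideal S) (t T : Module.Dual S I ⊗[S] I) :
    contractLeft S I T • t = contractLeft S I t • T := by
  induction t using TensorProduct.induction_on with
  | zero => simp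
  | add t t' h h' => rw [smul_add, h, h', map_add, add_smul]
  | tmul μ x =>
    induction T using TensorProduct.induction_on with
    | zero => simp
    | add T T' h h' => rw [map_add, add_smul, h, h', smul_add]
    | tmul l a =>
      rw [contractLeft_apply, contractLeft_apply]
      have h1 : l a • x = l x • a := ideal_rank_one I l x a
      have h2 : l x • μ = μ x • l := by
        ext z
        have := congrArg l (ideal_rank_one I μ x z)
        rw [map_smul, map_smul, smul_eq_mul, smul_eq_mul] at this
        simp only [LinearMap.smul_apply, smul_eq_mul]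
        rw [mul_comm, this]
      calc l a • (μ ⊗ₜ[S] x) = μ ⊗ₜ[S] (l a • x) := by rw [TensorProduct.tmul_smul]
        _ = μ ⊗ₜ[S] (l x • a) := by rw [h1]
        _ = (l x • μ) ⊗ₜ[S] a := by rw [TensorProduct.tmul_smul, TensorProduct.smul_tmul']
        _ = μ x • (l ⊗ₜ[S] a) := by rw [h2, TensorProduct.smul_tmul']

/-- trace criterion -/
theorem invertible_of_one_mem_trace (I : Ideal S) (h : ∃ T, contractLeft S I T = 1) :
    Module.Invertible S I := by
  obtain ⟨T, hT⟩ := h
  refine ⟨⟨?_, fun r => ⟨r • T, by rw [map_smul, hT, smul_eq_mul, mul_one]⟩⟩⟩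
  rw [injective_iff_map_eq_zero]
  intro t ht
  have := contractLeft_smul_comm I t T
  rwa [hT, ht, one_smul, zero_smul] at this

/-- `(c : I)` -/
def dualIdeal (I : Ideal S) (c : S) : Ideal S where
  carrier := {m | ∀ z ∈ I, c ∣ m * z}
  add_mem' := fun {a b} ha hb z hz => by rw [add_mul]; exact dvd_add (ha z hz) (hb z hz)
  zero_mem' := fun z _ => by simp
  smul_mem' := fun r m hm z hz => by
    rw [smul_eq_mul, mul_assoc]; exact Dvd.dvd.mul_left (hm z hz) r

theorem mem_dualIdeal {I : Ideal S} {c m : S} : m ∈ dualIdeal I c ↔ ∀ z ∈ I, c ∣ m * z := Iff.rfl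

/-- multiplication by `m / c` -/
noncomputable def divMap (I : Ideal S) {c : S} (hc : c ∈ nonZeroDivisors S) {m : S}
    (hm : m ∈ dualIdeal I c) : Module.Dual S I where
  toFun z := (hm z.1 z.2).choose
  map_add' a b := by
    apply (mul_cancel_left_mem_nonZeroDivisors hc).1
    rw [mul_add, ← (hm a.1 a.2).choose_spec, ← (hm b.1 b.2).choose_spec,
      ← (hm (a + b).1 (a + b).2).choose_spec]
    simp [mul_add]
  map_smul' r a := by
    apply (mul_cancel_left_mem_nonZeroDivisors hc).1
    rw [← (hm (r • a).1 (r • a).2).choose_spec, RingHom.id_apply, smul_eq_mul, mul_left_comm,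
      ← (hm a.1 a.2).choose_spec]
    simp [mul_left_comm]

theorem mul_divMap (I : Ideal S) {c : S} (hc : c ∈ nonZeroDivisors S) {m : S}
    (hm : m ∈ dualIdeal I c) (z : I) : c * divMap I hc hm z = m * z :=
  ((hm z.1 z.2).choose_spec).symm

theorem invertible_of_mem_mul_dualIdeal (I : Ideal S) {c : S} (hc : c ∈ nonZeroDivisors S)
    (h : c ∈ I * dualIdeal I c) : Module.Invertible S I := by
  apply invertible_of_one_mem_trace
  have key : ∀ w ∈ I * dualIdeal I c, ∃ T, c * contractLeft S I T = w := by
    intro w hw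
    induction hw using Submodule.mul_induction_on' with
    | mem_mul_mem a ha m hm =>
      refine ⟨divMap I hc hm ⊗ₜ ⟨a, ha⟩, ?_⟩
      rw [contractLeft_apply, mul_divMap, mul_comm]
    | add x _ y _ hx hy =>
      obtain ⟨T, hT⟩ := hx
      obtain ⟨T', hT'⟩ := hy
      exact ⟨T + T', by rw [map_add, mul_add, hT, hT']⟩
  obtain ⟨T, hT⟩ := key c h
  refine ⟨T, ?_⟩
  apply (mul_cancel_left_mem_nonZeroDivisors hc).1
  rw [hT, mul_one]

/-- the condition is local -/
theorem mem_mul_dualIdeal_of_local (I : Ideal S) {c : S} (hcI : c ∈ I)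
    (h : ∀ q : Ideal S, q.IsMaximal → ∃ f ∈ I, ∃ v, v ∉ q ∧ ∀ z ∈ I, f ∣ v * z) :
    c ∈ I * dualIdeal I c := by
  let T : Ideal S :=
    { carrier := {t | t * c ∈ I * dualIdeal I c}
      add_mem' := fun {a b} ha hb => by
        simp only [Set.mem_setOf_eq] at *
        rw [add_mul]; exact add_mem ha hb
      zero_mem' := by simp
      smul_mem' := fun r t ht => by
        simp only [Set.mem_setOf_eq, smul_eq_mul] at *
        rw [mul_assoc]; exact Ideal.mul_mem_left _ r ht }
  have hT : T = ⊤ := by
    by_contra hne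
    obtain ⟨q, hq, hTq⟩ := Ideal.exists_le_maximal T hne
    obtain ⟨f, hf, v, hv, hfv⟩ := h q hq
    obtain ⟨s, hs⟩ := hfv c hcI
    have hm : s * v ∈ dualIdeal I c := by
      intro z hz
      obtain ⟨z', hz'⟩ := hfv z hz
      refine ⟨v * z', ?_⟩
      calc s * v * z = s * (v * z) := by ring
        _ = s * (f * z') := by rw [hz']
        _ = (f * s) * z' := by ring
        _ = (v * c) * z' := by rw [hs]
        _ = c * (v * z') := by ring
    have : v * v ∈ T := by
      change v * v * c ∈ I * dualIdeal I c
      have e : v * v * c = f * (s * v) := by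
        calc v * v * c = v * (v * c) := by ring
          _ = v * (f * s) := by rw [hs]
          _ = f * (s * v) := by ring
      rw [e]
      exact Ideal.mul_mem_mul hf hm
    rcases hq.isPrime.mem_or_mem (hTq this) with h' | h' <;> exact hv h'
  have : (1 : S) ∈ T := hT ▸ Submodule.mem_top
  simpa [T] using this

/-- the condition is stable under base change -/
theorem mem_mul_dualIdeal_map {S' : Type*} [CommRing S'] (φ : S →+* S') (I : Ideal S) {c : S}
    (h : c ∈ I * dualIdeal I c) : φ c ∈ I.map φ * dualIdeal (I.map φ) (φ c) := by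
  have h1 : φ c ∈ (I * dualIdeal I c).map φ := Ideal.mem_map_of_mem φ h
  rw [Ideal.map_mul] at h1
  refine Ideal.mul_mono_right ?_ h1
  rw [Ideal.map_le_iff_le_comap]
  intro m hm
  rw [Ideal.mem_comap, mem_dualIdeal]
  intro z hz
  induction hz using Submodule.span_induction with
  | mem z hz =>
    obtain ⟨z₀, hz₀, rfl⟩ := hz
    obtain ⟨w, hw⟩ := hm z₀ hz₀
    exact ⟨φ w, by rw [← map_mul, hw, map_mul]⟩
  | zero => simp
  | add x y _ _ hx hy => rw [mul_add]; exact dvd_add hx hy
  | smul r x _ hx => rw [smul_eq_mul, mul_left_comm]; exact Dvd.dvd.mul_left hx r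

end Fermat.Agent.S25
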