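import Fermat.Agent.S25.H.Hilb
import Fermat.Agent.S25.H.InvIdeal
import Fermat.Agent.S25.L.Rings

/-! # S25 / H2 : the ideals of the Hilbert functor are invertible modules -/
set_option autoImplicit false
universe u
open TensorProduct Polynomial

namespace Fermat.Agent.S25

/-! ### general lemmas -/

/-- Nullstellensatz: maximal ideals of a f.g. algebra over an alg. closed field are kernels of points. -/
theorem exists_algHom_ker_eq {k : Type u} [Field k] [IsAlgClosed k] {S : Type u} [CommRing S]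
    [Algebra k S] [Algebra.FiniteType k S] (q : Ideal S) (hq : q.IsMaximal) :
    ∃ ev : S →ₐ[k] k, RingHom.ker ev = q := by
  letI : Field (S ⧸ q) := Ideal.Quotient.field q
  haveI : Algebra.FiniteType k (S ⧸ q) :=
    Algebra.FiniteType.of_surjective (Ideal.Quotient.mkₐ k q) Ideal.Quotient.mk_surjective
  haveI : Module.Finite k (S ⧸ q) := finite_of_finite_type_of_isJacobsonRing k (S ⧸ q)
  have hb : Function.Bijective (algebraMap k (S ⧸ q)) :=
    IsAlgClosed.algebraMap_bijective_of_isIntegral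
  let e : k ≃ₐ[k] (S ⧸ q) := AlgEquiv.ofBijective (Algebra.ofId k (S ⧸ q)) hb
  refine ⟨e.symm.toAlgHom.comp (Ideal.Quotient.mkₐ k q), ?_⟩
  ext z
  simp [RingHom.mem_ker, Ideal.Quotient.eq_zero_iff_mem]

/-- ideals of a Dedekind domain are locally principal -/
theorem dedekind_local_principal {B : Type u} [CommRing B] [IsDedekindDomain B] (J : Ideal B)
    (hJ : J ≠ ⊥) (𝔪 : Ideal B) (h𝔪 : 𝔪 ≠ ⊤) : ∃ a ∈ J, ∃ w, w ∉ 𝔪 ∧ ∀ z ∈ J, a ∣ w * z := by
  by_contra hcon
  push_neg at hcon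
  apply h𝔪
  have hinv := FractionalIdeal.coe_ideal_mul_inv (K := FractionRing B) J hJ
  have hle : (J : FractionalIdeal (nonZeroDivisors B) (FractionRing B)) *
      (J : FractionalIdeal (nonZeroDivisors B) (FractionRing B))⁻¹ ≤
      (𝔪 : FractionalIdeal (nonZeroDivisors B) (FractionRing B)) := by
    rw [FractionalIdeal.mul_le]
    intro i hi j hj
    obtain ⟨a, ha, rfl⟩ := (FractionalIdeal.mem_coeIdeal _).1 hi
    have h1 : algebraMap B (FractionRing B) a * j ∈
        (1 : FractionalIdeal (nonZeroDivisors B) (FractionRing B)) := by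
      rw [← hinv]; exact FractionalIdeal.mul_mem_mul hi hj
    obtain ⟨w, hw⟩ := (FractionalIdeal.mem_one_iff _).1 h1
    rw [← hw]
    apply FractionalIdeal.mem_coeIdeal_of_mem
    by_contra hw𝔪
    obtain ⟨z, hz, hndvd⟩ := hcon a ha w hw𝔪
    apply hndvd
    have h2 : algebraMap B (FractionRing B) z * j ∈
        (1 : FractionalIdeal (nonZeroDivisors B) (FractionRing B)) := by
      rw [← hinv]
      exact FractionalIdeal.mul_mem_mul (FractionalIdeal.mem_coeIdeal_of_mem _ hz) hj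
    obtain ⟨t, ht⟩ := (FractionalIdeal.mem_one_iff _).1 h2
    refine ⟨t, ?_⟩
    apply IsFractionRing.injective B (FractionRing B)
    rw [map_mul, map_mul, hw, ht]
    ring
  rw [hinv] at hle
  have : (1 : FractionRing B) ∈ (𝔪 : FractionalIdeal (nonZeroDivisors B) (FractionRing B)) :=
    hle (FractionalIdeal.one_mem_one _)
  obtain ⟨m, hm, hm1⟩ := (FractionalIdeal.mem_coeIdeal _).1 this
  have : m = 1 := IsFractionRing.injective B (FractionRing B) (by rw [hm1, map_one])
  rw [Ideal.eq_top_iff_one, ← this]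
  exact hm

/-! ### coordinates modulo `I` -/
section coord
variable {k : Type u} [Field k] {B : Type u} [CommRing B] [Algebra k B] {g : ℕ}
  {A : Type u} [CommRing A] [Algebra k A] {I : Ideal (A ⊗[k] B)} {b : Fin g → B}

/-- `c ↦ Σ c i ⊗ b i` -/
noncomputable def sigB (A : Type u) [CommRing A] [Algebra k A] (b : Fin g → B) :
    (Fin g → A) →ₗ[A] A ⊗[k] B where
  toFun c := ∑ i, c i ⊗ₜ[k] b i
  map_add' c c' := by simp [TensorProduct.add_tmul, Finset.sum_add_distrib]
  map_smul' a c := by simp [Finset.smul_sum, TensorProduct.smul_tmul']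

theorem sigB_apply (c : Fin g → A) : sigB A b c = ∑ i, c i ⊗ₜ[k] b i := rfl

namespace IsBasisMod
variable (hI : IsBasisMod I b)

theorem sub_coord_mem (z : A ⊗[k] B) : z - sigB A b (hI.coord z) ∈ I := hI.coord_spec z

theorem coord_eq_zero_iff {z : A ⊗[k] B} : hI.coord z = 0 ↔ z ∈ I := (hI.mem_iff z).symm

theorem coord_sigB (c : Fin g → A) : hI.coord (sigB A b c) = c := hI.coord_sum c

/-- the `A`-linear projection onto `I` -/
noncomputable def projI : A ⊗[k] B →ₗ[A] A ⊗[k] B := LinearMap.id - (sigB A b) ∘ₗ hI.proj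

theorem projI_mem (z : A ⊗[k] B) : hI.projI z ∈ I := hI.sub_coord_mem z

theorem projI_of_mem {z : A ⊗[k] B} (hz : z ∈ I) : hI.projI z = z := by
  simp [projI, hI.coord_eq_zero_iff.2 hz]

include hI in
/-- `I ∩ 𝔭 S = 𝔭 I`. -/
theorem mem_map_mul_of_mem (p : Ideal A) {z : A ⊗[k] B} (hz : z ∈ I)
    (hzp : z ∈ p.map (algebraMap A (A ⊗[k] B))) : z ∈ p.map (algebraMap A (A ⊗[k] B)) * I := by
  have key : ∀ w ∈ (p • ⊤ : Submodule A (A ⊗[k] B)),
      hI.projI w ∈ p.map (algebraMap A (A ⊗[k] B)) * I := by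
    intro w hw
    induction hw using Submodule.smul_induction_on' with
    | smul r hr s _ =>
      rw [map_smul, Algebra.smul_def]
      exact Ideal.mul_mem_mul (Ideal.mem_map_of_mem _ hr) (hI.projI_mem s)
    | add x _ y _ hx hy => rw [map_add]; exact add_mem hx hy
  rw [← hI.projI_of_mem hz]
  apply key
  rw [Ideal.smul_top_eq_map]
  exact hzp

/-- the quotient is free of rank `g` -/
noncomputable def quotEquiv : ((A ⊗[k] B) ⧸ I) ≃ₗ[A] (Fin g → A) :=
  (Submodule.Quotient.restrictScalarsEquiv A I).symm ≪≫ₗ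
    (Submodule.quotEquivOfEq _ _ (by
      ext z
      simp only [Submodule.restrictScalars_mem, LinearMap.mem_ker]
      exact hI.coord_eq_zero_iff.symm)) ≪≫ₗ
    hI.proj.quotKerEquivOfSurjective (fun c => ⟨_, hI.coord_sigB c⟩)

include hI in
/-- Cayley-Hamilton -/
theorem exists_monic (x : A ⊗[k] B) : ∃ χ : A[X], χ.Monic ∧ Polynomial.aeval x χ ∈ I := by
  haveI : Module.Free A ((A ⊗[k] B) ⧸ I) := Module.Free.of_equiv hI.quotEquiv.symm
  haveI : Module.Finite A ((A ⊗[k] B) ⧸ I) := Module.Finite.equiv hI.quotEquiv.symm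
  let f : ((A ⊗[k] B) ⧸ I) →ₗ[A] ((A ⊗[k] B) ⧸ I) :=
    Algebra.lmul A ((A ⊗[k] B) ⧸ I) (Ideal.Quotient.mk I x)
  refine ⟨f.charpoly, f.charpoly_monic, ?_⟩
  have h := f.aeval_self_charpoly
  rw [Polynomial.aeval_algHom_apply] at h
  have h1 := congrArg (fun φ => φ 1) h
  simp only [Algebra.lmul, LinearMap.zero_apply] at h1
  have h2 : Polynomial.aeval (Ideal.Quotient.mk I x) f.charpoly = 0 := by simpa using h1
  rw [← Ideal.Quotient.eq_zero_iff_mem, ← h2]
  exact (Polynomial.aeval_algHom_apply (Ideal.Quotient.mkₐ A I) x f.charpoly).symm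

end IsBasisMod
end coord

/-! ### nonzerodivisors -/
theorem aeval_mem_nonZeroDivisors {k : Type u} [Field k] {B : Type u} [CommRing B] [Algebra k B]
    [IsDomain B] (A : Type u) [CommRing A] [Algebra k A] (x : B)
    (hfin : (Polynomial.aeval (R := k) x).toRingHom.Finite) (htr : Transcendental k x)
    {χ : A[X]} (hχ : χ ∈ nonZeroDivisors A[X]) :
    Polynomial.aeval ((1 : A) ⊗ₜ[k] x) χ ∈ nonZeroDivisors (A ⊗[k] B) := by
  obtain ⟨n, β, hβ⟩ := Rings.exists_basis A x hfin htr
  rw [mem_nonZeroDivisors_iff_right]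
  intro z hz
  obtain ⟨p, hp, -⟩ := hβ z
  have h0 : (0 : A ⊗[k] B) = ∑ i, Polynomial.aeval ((1 : A) ⊗ₜ[k] x) ((fun i => p i * χ) i) * β i := by
    rw [← hz, hp, Finset.sum_mul]
    apply Finset.sum_congr rfl
    intro i _
    rw [map_mul]; ring
  have h0' : (0 : A ⊗[k] B) =
      ∑ i, Polynomial.aeval ((1 : A) ⊗ₜ[k] x) ((fun _ => (0 : A[X])) i) * β i := by simp
  have := (hβ 0).unique h0 h0'
  have hp0 : p = 0 := by
    ext1 i
    have hi := congrFun this i
    exact (mem_nonZeroDivisors_iff_right.1 hχ) _ hi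
  rw [hp, hp0]; simp

/-! ### the local structure at a `k`-point -/
section main
variable {k : Type u} [Field k] {B : Type u} [CommRing B] [Algebra k B] {g : ℕ}
  {A : Type u} [CommRing A] [Algebra k A] {I : Ideal (A ⊗[k] B)} {b : Fin g → B}

/-- the fibre map at a `k`-point `φ` of `A` -/
noncomputable def fibMap (B : Type u) [CommRing B] [Algebra k B] (φ : A →ₐ[k] k) :
    A ⊗[k] B →ₐ[k] B :=
  Algebra.TensorProduct.lift ((Algebra.ofId k B).comp φ) (AlgHom.id k B)
    (fun _ _ => Commute.all _ _)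

theorem fibMap_tmul (φ : A →ₐ[k] k) (a : A) (β : B) : fibMap B φ (a ⊗ₜ β) = φ a • β := by
  simp [fibMap, Algebra.ofId_apply, Algebra.smul_def]

theorem sub_one_tmul_fibMap_mem (φ : A →ₐ[k] k) (z : A ⊗[k] B) :
    z - 1 ⊗ₜ fibMap B φ z ∈ (RingHom.ker φ).map (algebraMap A (A ⊗[k] B)) := by
  induction z using TensorProduct.induction_on with
  | zero => simp
  | add z z' h h' =>
    rw [map_add, TensorProduct.tmul_add]
    have := add_mem h h'
    convert this using 1
    ring
  | tmul a β =>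
    have e : a ⊗ₜ[k] β - 1 ⊗ₜ fibMap B φ (a ⊗ₜ β) =
        algebraMap A (A ⊗[k] B) (a - algebraMap k A (φ a)) * (1 ⊗ₜ β) := by
      rw [fibMap_tmul, Algebra.TensorProduct.algebraMap_apply, Algebra.TensorProduct.tmul_mul_tmul,
        one_mul, Algebra.algebraMap_self, RingHom.id_apply, mul_one, TensorProduct.sub_tmul,
        TensorProduct.tmul_smul, TensorProduct.smul_tmul', Algebra.smul_def, mul_one]
    rw [e]
    apply Ideal.mul_mem_right
    apply Ideal.mem_map_of_mem
    simp [RingHom.mem_ker]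

theorem IsBasisMod.local_principal [IsDedekindDomain B] (hI : IsBasisMod I b) (x : B)
    (htr : Transcendental k x) (hfg : I.FG) (ev : A ⊗[k] B →ₐ[k] k) :
    ∃ f ∈ I, ∃ v, ev v ≠ 0 ∧ ∀ z ∈ I, f ∣ v * z := by
  set φ : A →ₐ[k] k := ev.comp (Algebra.TensorProduct.includeLeft : A →ₐ[k] A ⊗[k] B) with hφ
  set P : B →ₐ[k] k := ev.comp Algebra.TensorProduct.includeRight with hP
  set θ := fibMap B φ with hθ
  have hev : ∀ z, ev z = P (θ z) := by
    intro z
    induction z using TensorProduct.induction_on with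
    | zero => simp
    | add z z' h h' => rw [map_add, map_add, map_add, h, h']
    | tmul a β =>
      rw [hθ, fibMap_tmul, map_smul, smul_eq_mul, hφ, hP]
      simp only [AlgHom.comp_apply, Algebra.TensorProduct.includeLeft_apply,
        Algebra.TensorProduct.includeRight_apply]
      rw [← map_mul, Algebra.TensorProduct.tmul_mul_tmul, mul_one, one_mul]
  have hθs : Function.Surjective θ := fun β => ⟨1 ⊗ₜ β, by rw [hθ, fibMap_tmul, map_one, one_smul]⟩
  have hθ1 : ∀ β : B, θ (1 ⊗ₜ β) = β := fun β => by rw [hθ, fibMap_tmul, map_one, one_smul]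
  -- the fibre ideal is nonzero
  have hJ : I.map θ ≠ ⊥ := by
    intro h0
    apply htr
    have hspan : ∀ β : B, β = ∑ i, φ (hI.coord (1 ⊗ₜ β) i) • b i := by
      intro β
      have h1 := Ideal.mem_map_of_mem θ (hI.sub_coord_mem (1 ⊗ₜ β))
      rw [h0, Ideal.mem_bot, map_sub, hθ1, sub_eq_zero, sigB_apply, map_sum] at h1
      refine h1.trans ?_
      exact Finset.sum_congr rfl fun i _ => by rw [hθ, fibMap_tmul]
    haveI : Module.Finite k B := Module.Finite.of_surjective (Fintype.linearCombination k b)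
      (fun β => ⟨fun i => φ (hI.coord (1 ⊗ₜ β) i), by
        rw [Fintype.linearCombination_apply]; exact (hspan β).symm⟩)
    exact Algebra.IsAlgebraic.isAlgebraic x
  have h𝔪 : RingHom.ker P ≠ ⊤ := (RingHom.ker_ne_top _)
  obtain ⟨a, ha, w, hw, haw⟩ := dedekind_local_principal (I.map θ) hJ (RingHom.ker P) h𝔪
  obtain ⟨f, hf, rfl⟩ := (Ideal.mem_map_iff_of_surjective θ hθs).1 ha
  have hv₀ : ev (1 ⊗ₜ w) ≠ 0 := by rw [hev, hθ1]; exact hw
  have hpq : (RingHom.ker φ).map (algebraMap A (A ⊗[k] B)) ≤ RingHom.ker ev := by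
    rw [Ideal.map_le_iff_le_comap]
    intro a ha
    rw [Ideal.mem_comap, RingHom.mem_ker]
    exact ha
  have hle : I ≤ Ideal.span {f} ⊔ RingHom.ker ev • I := by
    intro z hz
    obtain ⟨t, ht⟩ := haw (θ z) (Ideal.mem_map_of_mem θ hz)
    set d := (1 ⊗ₜ w) * z - f * (1 ⊗ₜ t) with hd
    have hdI : d ∈ I := sub_mem (I.mul_mem_left _ hz) (I.mul_mem_right _ hf)
    have hd0 : θ d = 0 := by rw [hd, map_sub, map_mul, map_mul, hθ1, hθ1, ht, sub_self]
    have hdp : d ∈ (RingHom.ker φ).map (algebraMap A (A ⊗[k] B)) := by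
      have := sub_one_tmul_fibMap_mem (B := B) φ d
      rwa [← hθ, hd0, TensorProduct.tmul_zero, sub_zero] at this
    have hdq : d ∈ RingHom.ker ev • I :=
      Ideal.mul_mono_left hpq (hI.mem_map_mul_of_mem _ hdI hdp)
    set u : A ⊗[k] B := algebraMap k _ (ev (1 ⊗ₜ w))⁻¹ with hu
    have he : 1 - u * (1 ⊗ₜ w) ∈ RingHom.ker ev := by
      rw [RingHom.mem_ker, map_sub, map_one, map_mul, hu, AlgHom.commutes]
      simp [hv₀]
    have hz' : z = f * (u * (1 ⊗ₜ t)) + (u * d + (1 - u * (1 ⊗ₜ w)) * z) := by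
      rw [hd]; ring
    rw [hz']
    apply Submodule.add_mem_sup
    · exact Ideal.mul_mem_right _ _ (Ideal.mem_span_singleton_self f)
    · exact add_mem (Ideal.mul_mem_left _ _ hdq) (Ideal.mul_mem_mul he hz)
  obtain ⟨r, hr, hrI⟩ := Submodule.exists_sub_one_mem_and_smul_le_of_fg_of_le_sup
    (I := RingHom.ker ev) (N := Ideal.span {f}) (N' := I) (P := I) hfg le_rfl hle
  refine ⟨f, hf, r, ?_, fun z hz => ?_⟩
  · rw [RingHom.mem_ker, map_sub, map_one, sub_eq_zero] at hr
    rw [hr]; exact one_ne_zero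
  · rw [← Ideal.mem_span_singleton]
    exact hrI (Submodule.smul_mem_pointwise_smul z r I hz)

/-- the case of a finitely generated base -/
theorem IsBasisMod.mem_mul_dualIdeal_of_finiteType [IsAlgClosed k] [IsDedekindDomain B]
    [Algebra.FiniteType k A] [Algebra.FiniteType k B] (hI : IsBasisMod I b) (x : B)
    (htr : Transcendental k x) {c : A ⊗[k] B} (hc : c ∈ I) : c ∈ I * dualIdeal I c := by
  haveI : Algebra.FiniteType k (A ⊗[k] B) :=
    Algebra.FiniteType.trans (S := A) inferInstance inferInstance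
  haveI : IsNoetherianRing (A ⊗[k] B) := Algebra.FiniteType.isNoetherianRing k _
  apply mem_mul_dualIdeal_of_local I hc
  intro q hq
  obtain ⟨ev, rfl⟩ := exists_algHom_ker_eq (k := k) q hq
  obtain ⟨f, hf, v, hv, h⟩ := hI.local_principal x htr (IsNoetherian.noetherian I) ev
  exact ⟨f, hf, v, hv, h⟩

theorem bcMap_aeval {A' : Type u} [CommRing A'] [Algebra k A'] (φ : A →ₐ[k] A') (x : B) (χ : A[X]) :
    bcMap B φ (Polynomial.aeval ((1 : A) ⊗ₜ[k] x) χ) =
      Polynomial.aeval ((1 : A') ⊗ₜ[k] x) (χ.map φ.toRingHom) := by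
  induction χ using Polynomial.induction_on' with
  | add p q hp hq => rw [map_add, map_add, hp, hq, Polynomial.map_add, map_add]
  | monomial n a =>
    rw [Polynomial.aeval_monomial, Polynomial.map_monomial, Polynomial.aeval_monomial, map_mul,
      map_pow]
    simp [Algebra.TensorProduct.algebraMap_apply]

/-- **H2**, precise form. -/
theorem IsBasisMod.exists_monic_mem_mul_dualIdeal [IsAlgClosed k] [IsDedekindDomain B]
    [Algebra.FiniteType k B] (hI : IsBasisMod I b) (x : B) (htr : Transcendental k x) :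
    ∃ χ : A[X], χ.Monic ∧ Polynomial.aeval ((1 : A) ⊗ₜ[k] x) χ ∈ I ∧
      Polynomial.aeval ((1 : A) ⊗ₜ[k] x) χ ∈
        I * dualIdeal I (Polynomial.aeval ((1 : A) ⊗ₜ[k] x) χ) := by
  obtain ⟨H⟩ := nonempty_hilbRep (k := k) b
  obtain ⟨φ, rfl⟩ := (H.univ A I hI).exists
  haveI := H.finiteType
  obtain ⟨χ, hχ, hχI⟩ := H.basis.exists_monic ((1 : H.R) ⊗ₜ[k] x)
  have h := H.basis.mem_mul_dualIdeal_of_finiteType x htr hχI
  have h' := mem_mul_dualIdeal_map (bcMap B φ).toRingHom H.Iu h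
  have e : (bcMap B φ).toRingHom (Polynomial.aeval ((1 : H.R) ⊗ₜ[k] x) χ) =
      Polynomial.aeval ((1 : A) ⊗ₜ[k] x) (χ.map φ.toRingHom) := bcMap_aeval φ x χ
  rw [e] at h'
  refine ⟨χ.map φ.toRingHom, hχ.map _, ?_, h'⟩
  rw [← e]
  exact Ideal.mem_map_of_mem _ hχI

/-- **H2** -/
theorem IsBasisMod.invertible [IsAlgClosed k] [Algebra.FiniteType k B] [IsDedekindDomain B]
    (x : B) (hfin : (Polynomial.aeval (R := k) x).toRingHom.Finite) (htr : Transcendental k x)
    (hI : IsBasisMod I b) : Module.Invertible (A ⊗[k] B) I := by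
  obtain ⟨χ, hχ, -, h⟩ := hI.exists_monic_mem_mul_dualIdeal x htr
  exact invertible_of_mem_mul_dualIdeal I
    (aeval_mem_nonZeroDivisors A x hfin htr hχ.mem_nonZeroDivisors) h

end main

end Fermat.Agent.S25
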