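import Fermat.Agent.S25.H.Hilb

/-! # S25 / H3b (general part) : ideals on two charts -/
set_option autoImplicit false
set_option linter.style.haveILetI false
universe u
open TensorProduct Polynomial

namespace Fermat.Agent.S25
namespace IdealAux

section finite
variable {k : Type u} [Field k] {B : Type u} [CommRing B] [Algebra k B] {g : ℕ}
  {A : Type u} [CommRing A] [Algebra k A]

theorem finite_quotient {I : Ideal (A ⊗[k] B)} {b : Fin g → B} (h : IsBasisMod I b) :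
    Module.Finite A ((A ⊗[k] B) ⧸ I) := by
  classical
  refine ⟨⟨Finset.univ.image fun i => Ideal.Quotient.mk I ((1 : A) ⊗ₜ[k] b i), ?_⟩⟩
  rw [eq_top_iff]
  rintro z -
  obtain ⟨z, rfl⟩ := Ideal.Quotient.mk_surjective z
  obtain ⟨c, hc, -⟩ := h z
  have e : Ideal.Quotient.mk I z = ∑ i, c i • Ideal.Quotient.mk I ((1 : A) ⊗ₜ[k] b i) := by
    have h1 : Ideal.Quotient.mk I z = Ideal.Quotient.mk I (∑ i, c i ⊗ₜ[k] b i) :=
      Ideal.Quotient.eq.mpr hc
    rw [h1, map_sum]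
    refine Finset.sum_congr rfl fun i _ => ?_
    have h2 : c i ⊗ₜ[k] b i = c i • ((1 : A) ⊗ₜ[k] b i) := by
      rw [TensorProduct.smul_tmul', smul_eq_mul, mul_one]
    rw [h2]
    rfl
  rw [e]
  refine Submodule.sum_mem _ fun i _ => Submodule.smul_mem _ _ (Submodule.subset_span ?_)
  simp

theorem exists_monic_aeval_mem {I : Ideal (A ⊗[k] B)} {b : Fin g → B} (h : IsBasisMod I b)
    (z : A ⊗[k] B) : ∃ p : A[X], p.Monic ∧ Polynomial.aeval z p ∈ I := by
  haveI := finite_quotient h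
  obtain ⟨p, hp, hz⟩ := IsIntegral.of_finite A (Ideal.Quotient.mk I z)
  refine ⟨p, hp, ?_⟩
  rw [← Ideal.Quotient.eq_zero_iff_mem]
  have : Ideal.Quotient.mk I (Polynomial.aeval z p)
      = Polynomial.aeval (Ideal.Quotient.mkₐ A I z) p :=
    (Polynomial.aeval_algHom_apply (Ideal.Quotient.mkₐ A I) z p).symm
  rw [this]
  exact hz

end finite

section twochart
variable {A R₀ R₁ R₀₁ : Type u} [CommRing A] [CommRing R₀] [CommRing R₁] [CommRing R₀₁]
  [Algebra A R₀] [Algebra A R₁] [Algebra A R₀₁]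

/-- if `x` is integral modulo `I₀`, the closure of `V(I₀)` in the other chart misses `y = 0`. -/
theorem sup_span_of_monic (φ₀ : R₀ →ₐ[A] R₀₁) (φ₁ : R₁ →ₐ[A] R₀₁) (x : R₀) (y : R₁)
    (hxy : φ₀ x * φ₁ y = 1) (I₀ : Ideal R₀) (p : A[X]) (hp : p.Monic)
    (hpx : Polynomial.aeval x p ∈ I₀) :
    (I₀.map φ₀).comap φ₁ ⊔ Ideal.span {y} = ⊤ := by
  set q := p.reverse with hq
  have h1 : φ₁ (Polynomial.aeval y q) = (φ₁ y) ^ p.natDegree * φ₀ (Polynomial.aeval x p) := by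
    letI : Invertible (φ₀ x) := ⟨φ₁ y, by rw [mul_comm]; exact hxy, hxy⟩
    have h := Polynomial.eval₂_reverse_mul_pow (algebraMap A R₀₁) (φ₀ x) p
    have e1 : φ₁ (Polynomial.aeval y q) = Polynomial.eval₂ (algebraMap A R₀₁) (φ₁ y) q := by
      rw [← Polynomial.aeval_algHom_apply, Polynomial.aeval_def]
    have e2 : φ₀ (Polynomial.aeval x p) = Polynomial.eval₂ (algebraMap A R₀₁) (φ₀ x) p := by
      rw [← Polynomial.aeval_algHom_apply, Polynomial.aeval_def]
    have e3 : (⅟(φ₀ x)) = φ₁ y := rfl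
    rw [e3] at h
    rw [e1, e2, ← h, mul_comm, mul_assoc, ← mul_pow, hxy, one_pow, mul_one]
  have h2 : Polynomial.aeval y q ∈ (I₀.map φ₀).comap φ₁ := by
    rw [Ideal.mem_comap, h1]
    exact Ideal.mul_mem_left _ _ (Ideal.mem_map_of_mem _ hpx)
  have h3 : Polynomial.aeval y q = Polynomial.aeval y q.divX * y + 1 := by
    conv_lhs => rw [← Polynomial.divX_mul_X_add q]
    rw [map_add, map_mul, Polynomial.aeval_X, Polynomial.aeval_C, hq,
      Polynomial.coeff_zero_reverse, hp.leadingCoeff, map_one]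
  rw [Ideal.eq_top_iff_one]
  have h4 : (1 : R₁) = Polynomial.aeval y q - Polynomial.aeval y q.divX * y := by
    rw [h3]; ring
  rw [h4]
  exact Ideal.sub_mem _ (Ideal.mem_sup_left h2)
    (Ideal.mem_sup_right (Ideal.mul_mem_left _ _ (Ideal.mem_span_singleton_self y)))

end twochart

section bc
variable {R₁ R₀₁ R₁' R₀₁' : Type u} [CommRing R₁] [CommRing R₀₁] [CommRing R₁'] [CommRing R₀₁']

/-- "the ideal on the other chart" commutes with base change. -/
theorem comap_map_eq (φ₁ : R₁ →+* R₀₁) (φ₁' : R₁' →+* R₀₁') (ρ₁ : R₁ →+* R₁') (ρ₀₁ : R₀₁ →+* R₀₁')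
    (comm : ∀ a, ρ₀₁ (φ₁ a) = φ₁' (ρ₁ a)) (y' : R₁')
    (hloc : ∀ (J : Ideal R₁') (z : R₁'), φ₁' z ∈ J.map φ₁' → ∃ m : ℕ, y' ^ m * z ∈ J)
    (I₀₁ : Ideal R₀₁) (hI : I₀₁ = (I₀₁.comap φ₁).map φ₁)
    (hsup : (I₀₁.comap φ₁).map ρ₁ ⊔ Ideal.span {y'} = ⊤) :
    (I₀₁.map ρ₀₁).comap φ₁' = (I₀₁.comap φ₁).map ρ₁ := by
  set J := (I₀₁.comap φ₁).map ρ₁ with hJ
  have hcomp : ρ₀₁.comp φ₁ = φ₁'.comp ρ₁ := RingHom.ext comm
  have e : I₀₁.map ρ₀₁ = J.map φ₁' := by
    conv_lhs => rw [hI]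
    rw [hJ, Ideal.map_map, Ideal.map_map, hcomp]
  apply le_antisymm
  · intro z hz
    rw [Ideal.mem_comap, e] at hz
    obtain ⟨m, hm⟩ := hloc J z hz
    have hs : J ⊔ Ideal.span {y' ^ m} = ⊤ := by
      have := Ideal.sup_pow_eq_top (n := m) hsup
      rwa [Ideal.span_singleton_pow] at this
    have h1 : (1 : R₁') ∈ J ⊔ Ideal.span {y' ^ m} := hs ▸ Submodule.mem_top
    obtain ⟨j, hj, c, hc, hjc⟩ := Submodule.mem_sup.mp h1
    obtain ⟨c', rfl⟩ := Ideal.mem_span_singleton'.mp hc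
    have : z = j * z + c' * (y' ^ m * z) := by
      calc z = 1 * z := (one_mul z).symm
        _ = (j + c' * y' ^ m) * z := by rw [hjc]
        _ = j * z + c' * (y' ^ m * z) := by ring
    rw [this]
    exact Ideal.add_mem _ (Ideal.mul_mem_right _ _ hj) (Ideal.mul_mem_left _ _ hm)
  · rw [hJ, Ideal.map_le_iff_le_comap]
    intro z hz
    rw [Ideal.mem_comap, Ideal.mem_comap, ← comm]
    exact Ideal.mem_map_of_mem _ hz

/-- the restriction of a ring hom to an ideal spans the image ideal. -/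
theorem span_range_map {R R' : Type u} [CommRing R] [CommRing R'] (ρ : R →+* R') (I : Ideal R)
    (I' : Ideal R') (e : I' = I.map ρ) (b : I → I') (hb : ∀ z, (b z : R') = ρ z) :
    Submodule.span R' (Set.range b) = ⊤ := by
  apply Submodule.map_injective_of_injective (f := I'.subtype) Subtype.val_injective
  rw [Submodule.map_span, Submodule.map_top, Submodule.range_subtype]
  conv_rhs => rw [e]
  change Ideal.span _ = Ideal.span _
  congr 1
  ext w
  constructor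
  · rintro ⟨_, ⟨z, rfl⟩, rfl⟩
    exact ⟨z, z.2, (hb z).symm⟩
  · rintro ⟨z, hz, rfl⟩
    exact ⟨b ⟨z, hz⟩, ⟨_, rfl⟩, hb _⟩

end bc

end IdealAux
end Fermat.Agent.S25
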