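import Fermat.Agent.S25.H.InvIdeal

/-! # S25 / H3a : transporting an invertible ideal to the other chart (abstract form) -/
set_option autoImplicit false
set_option maxHeartbeats 400000
open Polynomial

namespace Fermat.Agent.S25
namespace OtherChart

variable {S₀ S₁ S₀₁ : Type*} [CommRing S₀] [CommRing S₁] [CommRing S₀₁]
  (φ₀ : S₀ →+* S₀₁) (φ₁ : S₁ →+* S₀₁)

theorem dvd_of_mem_map {I₀ : Ideal S₀} {c m : S₀} (hm : m ∈ dualIdeal I₀ c) {w : S₀₁}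
    (hw : w ∈ I₀.map φ₀) : φ₀ c ∣ φ₀ m * w := by
  induction hw using Submodule.span_induction with
  | mem z hz =>
    obtain ⟨z₀, hz₀, rfl⟩ := hz
    obtain ⟨t, ht⟩ := hm z₀ hz₀
    exact ⟨φ₀ t, by rw [← map_mul, ht, map_mul]⟩
  | zero => simp
  | add x y _ _ hx hy => rw [mul_add]; exact dvd_add hx hy
  | smul r x _ hx => rw [smul_eq_mul, mul_left_comm]; exact Dvd.dvd.mul_left hx r

variable {φ₀ φ₁}

theorem mem_dualIdeal_other (hinj : Function.Injective φ₁) {x : S₀} {y : S₁}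
    (hxy : φ₀ x * φ₁ y = 1) (hloc : ∀ w : S₀₁, ∃ (m : ℕ) (s : S₁), φ₁ y ^ m * w = φ₁ s)
    {c : S₀} {q : S₁} {d : ℕ} (hq : φ₁ q = φ₁ y ^ d * φ₀ c) (hcop : IsCoprime q y)
    {I₀ : Ideal S₀} {m : S₀} (hm : m ∈ dualIdeal I₀ c) {N : ℕ} {m' : S₁}
    (hm' : φ₁ y ^ N * φ₀ m = φ₁ m') : m' ∈ dualIdeal ((I₀.map φ₀).comap φ₁) q := by
  intro z hz
  obtain ⟨u, hu⟩ := dvd_of_mem_map φ₀ hm (Ideal.mem_comap.1 hz)
  obtain ⟨L, u₁, hu₁⟩ := hloc (φ₁ y ^ N * (φ₀ x ^ d * u))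
  have h1 : y ^ L * (m' * z) = q * u₁ := by
    apply hinj
    rw [map_mul, map_mul, map_mul, map_pow, ← hm', ← hu₁, hq]
    have e : φ₁ y ^ d * φ₀ x ^ d = 1 := by rw [← mul_pow, mul_comm, hxy, one_pow]
    generalize φ₁ y = Y at *
    generalize φ₀ x = X at *
    generalize φ₀ m = m₀ at *
    generalize φ₁ z = z₁ at *
    generalize φ₀ c = c₀ at *
    calc Y ^ L * (Y ^ N * m₀ * z₁) = Y ^ L * (Y ^ N * (m₀ * z₁)) := by ring
      _ = Y ^ L * (Y ^ N * (c₀ * u)) := by rw [hu]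
      _ = (Y ^ d * X ^ d) * (Y ^ L * (Y ^ N * (c₀ * u))) := by rw [e, one_mul]
      _ = Y ^ d * c₀ * (Y ^ L * (Y ^ N * (X ^ d * u))) := by ring
  obtain ⟨α, β, hαβ⟩ := hcop.pow_right (n := L)
  refine ⟨α * (m' * z) + β * u₁, ?_⟩
  calc m' * z = (α * q + β * y ^ L) * (m' * z) := by rw [hαβ, one_mul]
    _ = α * q * (m' * z) + β * (y ^ L * (m' * z)) := by ring
    _ = q * (α * (m' * z) + β * u₁) := by rw [h1]; ring

theorem exists_mem_mul_dualIdeal_other (hinj : Function.Injective φ₁) {x : S₀} {y : S₁}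
    (hxy : φ₀ x * φ₁ y = 1) (hloc : ∀ w : S₀₁, ∃ (m : ℕ) (s : S₁), φ₁ y ^ m * w = φ₁ s)
    {c : S₀} {q : S₁} {d : ℕ} (hq : φ₁ q = φ₁ y ^ d * φ₀ c) (hcop : IsCoprime q y)
    {I₀ : Ideal S₀} {w : S₀} (hw : w ∈ I₀ * dualIdeal I₀ c) :
    ∃ (M : ℕ) (w' : S₁), w' ∈ (I₀.map φ₀).comap φ₁ * dualIdeal ((I₀.map φ₀).comap φ₁) q ∧
      φ₁ w' = φ₁ y ^ M * φ₀ w := by
  induction hw using Submodule.mul_induction_on' with
  | mem_mul_mem a ha m hm =>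
    obtain ⟨N, a', ha'⟩ := hloc (φ₀ a)
    obtain ⟨N', m', hm'⟩ := hloc (φ₀ m)
    refine ⟨N + N', a' * m', Ideal.mul_mem_mul ?_
      (mem_dualIdeal_other hinj hxy hloc hq hcop hm hm'), ?_⟩
    · rw [Ideal.mem_comap, ← ha']
      exact Ideal.mul_mem_left _ _ (Ideal.mem_map_of_mem _ ha)
    · rw [map_mul, ← ha', ← hm', map_mul]; ring
  | add w₁ _ w₂ _ h₁ h₂ =>
    obtain ⟨M₁, w₁', hw₁, e₁⟩ := h₁
    obtain ⟨M₂, w₂', hw₂, e₂⟩ := h₂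
    refine ⟨M₁ + M₂, y ^ M₂ * w₁' + y ^ M₁ * w₂',
      add_mem (Ideal.mul_mem_left _ _ hw₁) (Ideal.mul_mem_left _ _ hw₂), ?_⟩
    rw [map_add, map_mul, map_mul, map_pow, map_pow, e₁, e₂, map_add]; ring

theorem mem_mul_dualIdeal_other (hinj : Function.Injective φ₁) {x : S₀} {y : S₁}
    (hxy : φ₀ x * φ₁ y = 1) (hloc : ∀ w : S₀₁, ∃ (m : ℕ) (s : S₁), φ₁ y ^ m * w = φ₁ s)
    {c : S₀} {q : S₁} {d : ℕ} (hq : φ₁ q = φ₁ y ^ d * φ₀ c) (hcop : IsCoprime q y)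
    {I₀ : Ideal S₀} (h : c ∈ I₀ * dualIdeal I₀ c) :
    q ∈ (I₀.map φ₀).comap φ₁ * dualIdeal ((I₀.map φ₀).comap φ₁) q := by
  have hcI : c ∈ I₀ := Ideal.mul_le_left h
  have hqI : q ∈ (I₀.map φ₀).comap φ₁ := by
    rw [Ideal.mem_comap, hq]
    exact Ideal.mul_mem_left _ _ (Ideal.mem_map_of_mem _ hcI)
  have hqJ : q ∈ dualIdeal ((I₀.map φ₀).comap φ₁) q := fun z _ => Dvd.intro z rfl
  obtain ⟨M, w', hw', e⟩ := exists_mem_mul_dualIdeal_other hinj hxy hloc hq hcop h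
  have h2 : y ^ M * q = y ^ d * w' := by
    apply hinj
    rw [map_mul, map_mul, map_pow, map_pow, e, hq]; ring
  obtain ⟨α, β, hαβ⟩ := hcop.pow_right (n := M)
  have : q = α * (q * q) + β * (y ^ d * w') := by
    calc q = (α * q + β * y ^ M) * q := by rw [hαβ, one_mul]
      _ = α * (q * q) + β * (y ^ M * q) := by ring
      _ = _ := by rw [h2]
  have h3 : α * (q * q) + β * (y ^ d * w') ∈
      (I₀.map φ₀).comap φ₁ * dualIdeal ((I₀.map φ₀).comap φ₁) q :=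
    add_mem (Ideal.mul_mem_left _ _ (Ideal.mul_mem_mul hqI hqJ))
      (Ideal.mul_mem_left _ _ (Ideal.mul_mem_left _ _ hw'))
  rwa [← this] at h3

/-- the reversed polynomial, evaluated on the other chart -/
theorem aeval_reverse {A : Type*} [CommRing A] [Algebra A S₀] [Algebra A S₁] [Algebra A S₀₁]
    (ψ₀ : S₀ →ₐ[A] S₀₁) (ψ₁ : S₁ →ₐ[A] S₀₁) {x : S₀} {y : S₁} (hxy : ψ₀ x * ψ₁ y = 1) (χ : A[X]) :
    ψ₁ (aeval y χ.reverse) = ψ₁ y ^ χ.natDegree * ψ₀ (aeval x χ) := by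
  letI : Invertible (ψ₀ x) := ⟨ψ₁ y, by rw [mul_comm, hxy], hxy⟩
  have h := eval₂_reverse_mul_pow (algebraMap A S₀₁) (ψ₀ x) χ
  have h1 : ψ₁ (aeval y χ.reverse) = eval₂ (algebraMap A S₀₁) (⅟(ψ₀ x)) χ.reverse := by
    rw [← aeval_algHom_apply]; rfl
  have h2 : ψ₀ (aeval x χ) = eval₂ (algebraMap A S₀₁) (ψ₀ x) χ := by
    rw [← aeval_algHom_apply]; rfl
  rw [h1, h2, ← h]
  have e : ψ₁ y ^ χ.natDegree * ψ₀ x ^ χ.natDegree = 1 := by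
    rw [← mul_pow, mul_comm, hxy, one_pow]
  calc eval₂ (algebraMap A S₀₁) (⅟(ψ₀ x)) χ.reverse
      = eval₂ (algebraMap A S₀₁) (⅟(ψ₀ x)) χ.reverse * (ψ₁ y ^ χ.natDegree * ψ₀ x ^ χ.natDegree) := by
        rw [e, mul_one]
    _ = _ := by ring

theorem isCoprime_aeval_reverse {A : Type*} [CommRing A] [Algebra A S₁] (y : S₁) {χ : A[X]}
    (hχ : χ.Monic) : IsCoprime (aeval y χ.reverse) y := by
  obtain ⟨h, hh⟩ := X_dvd_sub_C (p := χ.reverse)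
  rw [coeff_zero_reverse, hχ.leadingCoeff, map_one] at hh
  have := congrArg (aeval y) hh
  rw [map_sub, map_one, map_mul, aeval_X] at this
  refine ⟨1, -(aeval y h), ?_⟩
  rw [one_mul, neg_mul, mul_comm, ← this]; ring

theorem reverse_mem_nonZeroDivisors {A : Type*} [CommRing A] {χ : A[X]} (hχ : χ.Monic) :
    χ.reverse ∈ nonZeroDivisors A[X] := by
  apply mem_nonZeroDivisors_of_trailingCoeff
  rw [reverse_trailingCoeff, hχ.leadingCoeff]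
  exact one_mem _

end OtherChart
end Fermat.Agent.S25
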