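import Fermat.Agent.S25.L.TensGen

/-! # S25 / H3c (general part) : zero ideals of elements of invertible modules -/
set_option autoImplicit false
universe u
open TensorProduct

namespace Fermat.Agent.S25
namespace SecAux

section basic
variable {R : Type u} [CommRing R] {N : Type u} [AddCommGroup N] [Module R N]

variable (R) in
/-- the ideal of zeros of `s ∈ N` : all `l s`, `l ∈ N^∨`. -/
def zero (s : N) : Ideal R := LinearMap.range (Module.Dual.eval R N s)

theorem mem_zero {s : N} {a : R} : a ∈ zero R s ↔ ∃ l : Module.Dual R N, l s = a := Iff.rfl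

theorem apply_mem_zero (s : N) (l : Module.Dual R N) : l s ∈ zero R s := ⟨l, rfl⟩

/-- an invertible module has rank one. -/
theorem rank_one [Module.Invertible R N] (l : Module.Dual R N) (n s : N) : l n • s = l s • n := by
  have h := congrArg (fun t => TensorProduct.lid R N (LinearMap.rTensor N l t))
    (Module.Invertible.tmul_comm (R := R) (m₁ := n) (m₂ := s))
  simpa using h

/-- an ideal containing all `l n` is the unit ideal. -/
theorem eq_top_of_forall_apply_mem [Module.Invertible R N] (T : Ideal R)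
    (h : ∀ (l : Module.Dual R N) (n : N), l n ∈ T) : T = ⊤ := by
  rw [eq_top_iff, ← SL.span_eval (S := R) (P := N), Submodule.span_le]
  rintro _ ⟨n, l, rfl⟩
  exact h l n

/-- evaluation at `s` identifies `N^∨` with the zero ideal of `s`, if the latter is invertible. -/
noncomputable def evalEquiv [Module.Invertible R N] (s : N) (I : Ideal R) (hI : zero R s = I)
    [Module.Invertible R I] : Module.Dual R N ≃ₗ[R] I :=
  LinearEquiv.ofBijective
    ((Module.Dual.eval R N s).codRestrict I (fun l => hI ▸ apply_mem_zero s l))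
    (Module.Invertible.bijective_of_surjective (by
      rintro ⟨a, ha⟩
      rw [← hI] at ha
      obtain ⟨l, rfl⟩ := ha
      exact ⟨l, rfl⟩))

@[simp] theorem evalEquiv_apply [Module.Invertible R N] (s : N) (I : Ideal R) (hI : zero R s = I)
    [Module.Invertible R I] (l : Module.Dual R N) : (evalEquiv s I hI l : R) = l s := rfl

theorem zero_equiv {N' : Type u} [AddCommGroup N'] [Module R N'] (e : N ≃ₗ[R] N') (s : N) :
    zero R (e s) = zero R s := by
  ext a
  constructor
  · rintro ⟨l, rfl⟩
    exact ⟨l.comp e.toLinearMap, rfl⟩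
  · rintro ⟨l, rfl⟩
    exact ⟨l.comp e.symm.toLinearMap, by
      show l (e.symm (e s)) = l s
      rw [e.symm_apply_apply]⟩

theorem zero_smul_unit (s : N) (u : Rˣ) : zero R ((u : R) • s) = zero R s := by
  ext a
  constructor
  · rintro ⟨l, rfl⟩
    exact ⟨(u : R) • l, by
      show (u : R) • l s = l ((u : R) • s)
      rw [map_smul]⟩
  · rintro ⟨l, rfl⟩
    exact ⟨((u⁻¹ : Rˣ) : R) • l, by
      show ((u⁻¹ : Rˣ) : R) • l ((u : R) • s) = l s
      rw [map_smul, smul_smul, Units.inv_mul, one_smul]⟩

/-- if `s` generates `N` modulo `y` then the zero ideal of `s` is comaximal with `y`. -/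
theorem zero_sup_span [Module.Invertible R N] (s : N) (y : R)
    (h : Submodule.span R {s} ⊔ (Ideal.span {y} • ⊤ : Submodule R N) = ⊤) :
    zero R s ⊔ Ideal.span {y} = ⊤ := by
  apply eq_top_of_forall_apply_mem (N := N)
  intro l n
  have hn : n ∈ Submodule.span R {s} ⊔ (Ideal.span {y} • ⊤ : Submodule R N) := by
    rw [h]; exact Submodule.mem_top
  obtain ⟨a, ha, b, hb, rfl⟩ := Submodule.mem_sup.mp hn
  rw [map_add]
  refine Submodule.add_mem_sup ?_ ?_
  · obtain ⟨c, rfl⟩ := Submodule.mem_span_singleton.mp ha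
    rw [map_smul]
    exact Ideal.mul_mem_left _ _ (apply_mem_zero s l)
  · rw [Submodule.ideal_span_singleton_smul] at hb
    obtain ⟨b', -, rfl⟩ := hb
    show l (y • b') ∈ _
    rw [map_smul, smul_eq_mul]
    exact Ideal.mul_mem_right _ _ (Ideal.mem_span_singleton_self y)

/-- the zero ideal of the inclusion `I → R`, `I` an invertible ideal, is `I`. -/
theorem zero_subtype (I : Ideal R) [Module.Invertible R I] :
    zero R (Submodule.subtype I : Module.Dual R I) = I := by
  ext a
  constructor
  · rintro ⟨Φ, rfl⟩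
    obtain ⟨z, rfl⟩ := (Module.evalEquiv R I).surjective Φ
    exact z.2
  · intro ha
    exact ⟨Module.Dual.eval R I ⟨a, ha⟩, rfl⟩

/-- the inclusion generates `I^∨` modulo `y` if `I` is comaximal with `y`. -/
theorem span_subtype_sup (I : Ideal R) (y : R) (h : I ⊔ Ideal.span {y} = ⊤) :
    Submodule.span R {(Submodule.subtype I : Module.Dual R I)} ⊔
      (Ideal.span {y} • ⊤ : Submodule R (Module.Dual R I)) = ⊤ := by
  rw [eq_top_iff]
  intro μ _
  obtain ⟨j, hj, t, ht, hjt⟩ := Submodule.mem_sup.mp ((Ideal.eq_top_iff_one _).mp h)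
  have e : μ = μ ⟨j, hj⟩ • (Submodule.subtype I : Module.Dual R I) + t • μ := by
    ext z
    show μ z = μ ⟨j, hj⟩ * (z : R) + t * μ z
    have h1 : μ ⟨j, hj⟩ * (z : R) = j * μ z := by
      have e1 : (z : R) • (⟨j, hj⟩ : I) = j • z := Subtype.ext (mul_comm _ _)
      have := congrArg μ e1
      rw [map_smul, map_smul, smul_eq_mul, smul_eq_mul] at this
      rw [← this, mul_comm]
    rw [h1, ← add_mul, hjt, one_mul]
  rw [e]
  exact Submodule.add_mem_sup (Submodule.smul_mem _ _ (Submodule.mem_span_singleton_self _))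
    (Submodule.smul_mem_smul ht Submodule.mem_top)

end basic

section loc
variable {R S : Type u} [CommRing R] [CommRing S] {φ : R →+* S} {x : R}
  {N M : Type u} [AddCommGroup N] [Module R N] [AddCommGroup M] [Module S M] {r : N →ₛₗ[φ] M}

/-- zero ideals commute with localisation. -/
theorem zero_map_of_isLoc (hr : SL.IsLoc φ x r) (hφ : Function.Injective φ) [Module.Finite R N]
    (n : N) : (zero R n).map φ = zero S (r n) := by
  apply le_antisymm
  · rw [Ideal.map_le_iff_le_comap]
    rintro _ ⟨l, rfl⟩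
    exact ⟨hr.dualMap l, hr.dualMap_apply l n⟩
  · rintro _ ⟨μ, rfl⟩
    obtain ⟨m, l, hl⟩ := (hr.isLoc_dualMap hφ).span μ
    have h1 : φ x ^ m * μ (r n) = φ (l n) := by
      rw [← hr.dualMap_apply, ← hl]; rfl
    have hu : IsUnit (φ x ^ m) := hr.unit.pow m
    show μ (r n) ∈ _
    rw [← Ideal.unit_mul_mem_iff_mem _ hu, h1]
    exact Ideal.mem_map_of_mem _ (apply_mem_zero n l)

/-- membership in an extended ideal, for a localisation away from `x`. -/
theorem exists_pow_mul_mem (hring : ∀ s : S, ∃ (m : ℕ) (a : R), (φ x) ^ m * s = φ a)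
    (hφ : Function.Injective φ) (J : Ideal R) (z : R) (hz : φ z ∈ J.map φ) :
    ∃ m : ℕ, x ^ m * z ∈ J := by
  let T : Ideal S :=
    { carrier := {s | ∃ (m : ℕ), ∃ a ∈ J, (φ x) ^ m * s = φ a}
      add_mem' := by
        rintro s s' ⟨m, a, ha, h⟩ ⟨m', a', ha', h'⟩
        refine ⟨m + m', x ^ m' * a + x ^ m * a',
          J.add_mem (J.mul_mem_left _ ha) (J.mul_mem_left _ ha'), ?_⟩
        rw [map_add, map_mul, map_mul, map_pow, map_pow, ← h, ← h']
        ring
      zero_mem' := ⟨0, 0, J.zero_mem, by simp⟩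
      smul_mem' := by
        rintro c s ⟨m, a, ha, h⟩
        obtain ⟨i, c', hc'⟩ := hring c
        refine ⟨i + m, c' * a, J.mul_mem_left _ ha, ?_⟩
        rw [map_mul, ← h, ← hc', smul_eq_mul]
        ring }
  have hT : J.map φ ≤ T := by
    rw [Ideal.map_le_iff_le_comap]
    intro a ha
    exact ⟨0, a, ha, by simp⟩
  obtain ⟨m, a, ha, h⟩ := hT hz
  refine ⟨m, ?_⟩
  have : x ^ m * z = a := hφ (by rw [map_mul, map_pow, h])
  rw [this]; exact ha

/-- an ideal comaximal with `x` is saturated. -/
theorem comap_map_eq (hring : ∀ s : S, ∃ (m : ℕ) (a : R), (φ x) ^ m * s = φ a)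
    (hφ : Function.Injective φ) (J : Ideal R) (hJ : J ⊔ Ideal.span {x} = ⊤) :
    (J.map φ).comap φ = J := by
  apply le_antisymm _ Ideal.le_comap_map
  intro z hz
  obtain ⟨m, hm⟩ := exists_pow_mul_mem hring hφ J z hz
  have h1 : J ⊔ Ideal.span {x ^ m} = ⊤ := by
    rw [← Ideal.span_singleton_pow]
    exact Ideal.sup_pow_eq_top hJ
  obtain ⟨j, hj, t, ht, hjt⟩ := Submodule.mem_sup.mp ((Ideal.eq_top_iff_one _).mp h1)
  obtain ⟨c, rfl⟩ := Ideal.mem_span_singleton'.mp ht
  have : z = j * z + c * (x ^ m * z) := by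
    rw [← mul_assoc, ← add_mul, hjt, one_mul]
  rw [this]
  exact J.add_mem (J.mul_mem_right _ hj) (J.mul_mem_left _ hm)

end loc

section bc
variable {R R' : Type u} [CommRing R] [CommRing R'] {ρ : R →+* R'}
  {N P : Type u} [AddCommGroup N] [Module R N] [AddCommGroup P] [Module R' P]

/-- zero ideals commute with base change. -/
theorem zero_map_of_span [Module.Invertible R N] [Module.Invertible R' P] (b : N →ₛₗ[ρ] P)
    (hb : Submodule.span R' (Set.range b) = ⊤) (s : N) :
    zero R' (b s) = (zero R s).map ρ := by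
  apply le_antisymm
  · rintro _ ⟨l', rfl⟩
    show l' (b s) ∈ _
    let T : Ideal R :=
      { carrier := {a | ρ a * l' (b s) ∈ (zero R s).map ρ}
        add_mem' := by
          intro a a' h h'
          show ρ (a + a') * l' (b s) ∈ (zero R s).map ρ
          rw [map_add, add_mul]
          exact Ideal.add_mem _ h h'
        zero_mem' := by
          show ρ 0 * l' (b s) ∈ (zero R s).map ρ
          rw [map_zero, zero_mul]; exact Ideal.zero_mem _
        smul_mem' := by
          intro c a h
          show ρ (c • a) * l' (b s) ∈ (zero R s).map ρ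
          rw [smul_eq_mul, map_mul, mul_assoc]
          exact Ideal.mul_mem_left _ _ h }
    have hT : T = ⊤ := eq_top_of_forall_apply_mem (N := N) T (fun l n => by
      show ρ (l n) * l' (b s) ∈ (zero R s).map ρ
      have h1 : ρ (l n) * l' (b s) = ρ (l s) * l' (b n) := by
        rw [← smul_eq_mul, ← map_smul, ← b.map_smulₛₗ, rank_one l n s, b.map_smulₛₗ, map_smul,
          smul_eq_mul]
      rw [h1]
      exact Ideal.mul_mem_right _ _ (Ideal.mem_map_of_mem _ (apply_mem_zero s l)))
    have h1 : (1 : R) ∈ T := hT ▸ Submodule.mem_top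
    have h2 : ρ 1 * l' (b s) ∈ (zero R s).map ρ := h1
    rwa [map_one, one_mul] at h2
  · rw [Ideal.map_le_iff_le_comap]
    rintro _ ⟨l, rfl⟩
    obtain ⟨l', hl'⟩ := (SL.isUniv_of_span b hb).lift R' (ρ.toSemilinearMap.comp l)
    exact ⟨l', hl' s⟩

end bc

end SecAux
end Fermat.Agent.S25
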