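import Mathlib

/-! # S25 / H3b (general part) : the index of a composite of linear maps -/
set_option autoImplicit false
set_option linter.style.haveILetI false
universe u

namespace Fermat.Agent.S25
namespace Index

open Module

section
variable {R : Type u} [Ring R] {M N : Type u} [AddCommGroup M] [AddCommGroup N] [Module R M]
  [Module R N]

theorem length_eq_ker_add_range (h : M →ₗ[R] N) :
    length R M = length R (LinearMap.ker h) + length R (LinearMap.range h) :=
  length_eq_add_of_exact (LinearMap.ker h).subtype h.rangeRestrict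
    (Submodule.subtype_injective _) h.surjective_rangeRestrict (by
      intro x
      constructor
      · intro hx
        exact ⟨⟨x, by simpa [Subtype.ext_iff] using hx⟩, rfl⟩
      · rintro ⟨y, rfl⟩
        exact Subtype.ext y.2)

end

section
variable {R : Type u} [Ring R] {U V W : Type u} [AddCommGroup U] [AddCommGroup V] [AddCommGroup W]
  [Module R U] [Module R V] [Module R W] (f : U →ₗ[R] V) (g : V →ₗ[R] W)

/-- the six term exact sequence `0 → ker f → ker gf → ker g → coker f → coker gf → coker g → 0`,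
in terms of lengths. -/
theorem length_comp : ∃ b c e : ℕ∞,
    length R (LinearMap.ker (g ∘ₗ f)) = length R (LinearMap.ker f) + b ∧
    length R (LinearMap.ker g) = b + c ∧
    length R (V ⧸ LinearMap.range f) = c + e ∧
    length R (W ⧸ LinearMap.range (g ∘ₗ f)) = e + length R (W ⧸ LinearMap.range g) := by
  -- the four maps
  let α : LinearMap.ker (g ∘ₗ f) →ₗ[R] LinearMap.ker g :=
    (f ∘ₗ (LinearMap.ker (g ∘ₗ f)).subtype).codRestrict (LinearMap.ker g) (fun v => v.2)
  let β : LinearMap.ker g →ₗ[R] V ⧸ LinearMap.range f :=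
    (LinearMap.range f).mkQ ∘ₗ (LinearMap.ker g).subtype
  have hγ : LinearMap.range f ≤ (LinearMap.range (g ∘ₗ f)).comap g := by
    rintro _ ⟨u, rfl⟩
    exact ⟨u, rfl⟩
  let γ : V ⧸ LinearMap.range f →ₗ[R] W ⧸ LinearMap.range (g ∘ₗ f) :=
    Submodule.mapQ _ _ g hγ
  have hδ : LinearMap.range (g ∘ₗ f) ≤ LinearMap.range g := LinearMap.range_comp_le_range f g
  let δ : W ⧸ LinearMap.range (g ∘ₗ f) →ₗ[R] W ⧸ LinearMap.range g := Submodule.factor hδ
  -- exactness
  have e1 : length R (LinearMap.ker α) = length R (LinearMap.ker f) := by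
    let ψ : LinearMap.ker α →ₗ[R] LinearMap.ker f :=
      ((LinearMap.ker (g ∘ₗ f)).subtype ∘ₗ (LinearMap.ker α).subtype).codRestrict _ (fun v => by
        have := v.2
        rw [LinearMap.mem_ker] at this ⊢
        exact congrArg Subtype.val this)
    have hψ : Function.Bijective ψ := by
      constructor
      · intro a b hab
        have h' : (ψ a : U) = (ψ b : U) := congrArg Subtype.val hab
        exact Subtype.ext (Subtype.ext h')
      · intro u
        have hu : f u.1 = 0 := u.2
        refine ⟨⟨⟨u.1, by rw [LinearMap.mem_ker, LinearMap.comp_apply, hu, map_zero]⟩, ?_⟩, rfl⟩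
        rw [LinearMap.mem_ker]
        exact Subtype.ext hu
    exact (LinearEquiv.ofBijective ψ hψ).length_eq
  have e2 : LinearMap.ker β = LinearMap.range α := by
    ext v
    constructor
    · intro hv
      have hv' : (LinearMap.range f).mkQ v.1 = 0 := hv
      rw [Submodule.mkQ_apply, Submodule.Quotient.mk_eq_zero] at hv'
      obtain ⟨u, hu⟩ := hv'
      refine ⟨⟨u, ?_⟩, Subtype.ext hu⟩
      rw [LinearMap.mem_ker, LinearMap.comp_apply, hu]
      exact v.2
    · rintro ⟨u, rfl⟩
      change (LinearMap.range f).mkQ (f u.1) = 0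
      rw [Submodule.mkQ_apply, Submodule.Quotient.mk_eq_zero]
      exact ⟨u.1, rfl⟩
  have e3 : LinearMap.ker γ = LinearMap.range β := by
    ext v
    obtain ⟨v, rfl⟩ := Submodule.mkQ_surjective _ v
    constructor
    · intro hv
      have hv' : (LinearMap.range (g ∘ₗ f)).mkQ (g v) = 0 := hv
      rw [Submodule.mkQ_apply, Submodule.Quotient.mk_eq_zero] at hv'
      obtain ⟨u, hu⟩ := hv'
      refine ⟨⟨v - f u, ?_⟩, ?_⟩
      · rw [LinearMap.mem_ker, map_sub, ← hu, LinearMap.comp_apply, sub_self]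
      · change (LinearMap.range f).mkQ (v - f u) = (LinearMap.range f).mkQ v
        rw [map_sub, sub_eq_self, Submodule.mkQ_apply, Submodule.Quotient.mk_eq_zero]
        exact ⟨u, rfl⟩
    · rintro ⟨w, hw⟩
      rw [← hw, LinearMap.mem_ker]
      change (LinearMap.range (g ∘ₗ f)).mkQ (g w.1) = 0
      rw [show g w.1 = 0 from w.2, map_zero]
  have e4 : LinearMap.ker δ = LinearMap.range γ := by
    ext w
    obtain ⟨w, rfl⟩ := Submodule.mkQ_surjective _ w
    constructor
    · intro hw
      have hw' : (LinearMap.range g).mkQ w = 0 := hw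
      rw [Submodule.mkQ_apply, Submodule.Quotient.mk_eq_zero] at hw'
      obtain ⟨v, rfl⟩ := hw'
      exact ⟨(LinearMap.range f).mkQ v, rfl⟩
    · rintro ⟨v, hv⟩
      obtain ⟨v, rfl⟩ := Submodule.mkQ_surjective _ v
      rw [← hv, LinearMap.mem_ker]
      change (LinearMap.range g).mkQ (g v) = 0
      rw [Submodule.mkQ_apply, Submodule.Quotient.mk_eq_zero]
      exact ⟨v, rfl⟩
  have e5 : LinearMap.range δ = ⊤ := by
    rw [LinearMap.range_eq_top]
    exact Submodule.factor_surjective hδ
  refine ⟨length R (LinearMap.range α), length R (LinearMap.range β),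
    length R (LinearMap.range γ), ?_, ?_, ?_, ?_⟩
  · rw [length_eq_ker_add_range α, e1]
  · rw [length_eq_ker_add_range β, e2]
  · rw [length_eq_ker_add_range γ, e3]
  · rw [length_eq_ker_add_range δ, e4, e5, length_top]

end

section field
variable {K : Type u} [Field K] {P Q P' Q' : Type u} [AddCommGroup P] [AddCommGroup Q]
  [AddCommGroup P'] [AddCommGroup Q'] [Module K P] [Module K Q] [Module K P'] [Module K Q']

/-- comparison of the Euler characteristics of a two term complex and of a subcomplex of finite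
codimension. -/
theorem chi_sub (d : P →ₗ[K] Q) (d' : P' →ₗ[K] Q') (uP : P' →ₗ[K] P) (uQ : Q' →ₗ[K] Q)
    (hP : Function.Injective uP) (hQ : Function.Injective uQ) (hcomm : uQ ∘ₗ d' = d ∘ₗ uP)
    [Module.Finite K (LinearMap.ker d)] [Module.Finite K (Q ⧸ LinearMap.range d)]
    [Module.Finite K (LinearMap.ker d')] [Module.Finite K (Q' ⧸ LinearMap.range d')]
    [Module.Finite K (P ⧸ LinearMap.range uP)] [Module.Finite K (Q ⧸ LinearMap.range uQ)] :
    (finrank K (LinearMap.ker d') : ℤ) - finrank K (Q' ⧸ LinearMap.range d') =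
      (finrank K (LinearMap.ker d) : ℤ) - finrank K (Q ⧸ LinearMap.range d)
        - finrank K (P ⧸ LinearMap.range uP) + finrank K (Q ⧸ LinearMap.range uQ) := by
  obtain ⟨b₁, c₁, e₁, h11, h12, h13, h14⟩ := length_comp d' uQ
  obtain ⟨b₂, c₂, e₂, h21, h22, h23, h24⟩ := length_comp uP d
  rw [hcomm] at h11 h14
  have kQ : length K (LinearMap.ker uQ) = 0 := by
    rw [LinearMap.ker_eq_bot.mpr hQ]; exact length_bot
  have kP : length K (LinearMap.ker uP) = 0 := by
    rw [LinearMap.ker_eq_bot.mpr hP]; exact length_bot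
  rw [kQ] at h12
  rw [kP, zero_add] at h21
  have hb₁ : b₁ = 0 := by
    have := h12.symm; exact (add_eq_zero.mp this).1
  have hc₁ : c₁ = 0 := by
    have := h12.symm; exact (add_eq_zero.mp this).2
  rw [hb₁, add_zero] at h11
  rw [hc₁, zero_add] at h13
  simp only [length_eq_finrank] at h11 h13 h14 h21 h22 h23 h24
  -- everything is finite
  rw [h21] at h11
  rw [h24, ← h13] at h14
  subst h11
  have hc₂ : c₂ ≠ ⊤ := by
    intro h; rw [h, add_top] at h22; exact ENat.natCast_ne_top _ h22
  have he₂ : e₂ ≠ ⊤ := by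
    intro h; rw [h, add_top] at h23; exact ENat.natCast_ne_top _ h23
  lift c₂ to ℕ using hc₂
  lift e₂ to ℕ using he₂
  norm_cast at h22 h23 h14
  omega

end field

section AL
variable {K : Type u} [Field K] {X Y Z X' Y' Z' : Type u} [AddCommGroup X] [AddCommGroup Y]
  [AddCommGroup Z] [AddCommGroup X'] [AddCommGroup Y'] [AddCommGroup Z'] [Module K X] [Module K Y]
  [Module K Z] [Module K X'] [Module K Y'] [Module K Z']
  (rX : X →ₗ[K] Z) (rY : Y →ₗ[K] Z) (rX' : X' →ₗ[K] Z') (rY' : Y' →ₗ[K] Z')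
  (uX : X' →ₗ[K] X) (uY : Y' →ₗ[K] Y) (uZ : Z' →ₗ[K] Z)

/-- Two-chart complexes: a subcomplex which differs from the big one only in the chart `X`
(the quotients on the chart `Y` and on the overlap being identified by `rY`). -/
theorem chi_twoChart (hX : Function.Injective uX) (hY : Function.Injective uY)
    (hZ : Function.Injective uZ)
    (cX : ∀ x, uZ (rX' x) = rX (uX x)) (cY : ∀ y, uZ (rY' y) = rY (uY y))
    (f1 : ∀ y, rY y ∈ LinearMap.range uZ → y ∈ LinearMap.range uY)
    (f2 : ∀ z, ∃ y, z - rY y ∈ LinearMap.range uZ)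
    [Module.Finite K (LinearMap.ker (rX.coprod (-rY)))]
    [Module.Finite K (Z ⧸ LinearMap.range (rX.coprod (-rY)))]
    [Module.Finite K (LinearMap.ker (rX'.coprod (-rY')))]
    [Module.Finite K (Z' ⧸ LinearMap.range (rX'.coprod (-rY')))]
    [Module.Finite K (X ⧸ LinearMap.range uX)] :
    (finrank K (LinearMap.ker (rX'.coprod (-rY'))) : ℤ)
        - finrank K (Z' ⧸ LinearMap.range (rX'.coprod (-rY'))) =
      (finrank K (LinearMap.ker (rX.coprod (-rY))) : ℤ)
        - finrank K (Z ⧸ LinearMap.range (rX.coprod (-rY))) - finrank K (X ⧸ LinearMap.range uX) := by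
  set d := rX.coprod (-rY) with hd
  set d' := rX'.coprod (-rY') with hd'
  let uP : X' × Y →ₗ[K] X × Y := uX.prodMap LinearMap.id
  let dS : X' × Y →ₗ[K] Z := d ∘ₗ uP
  have hdS : ∀ x y, dS (x, y) = rX (uX x) - rY y := by
    intro x y
    simp [dS, uP, hd, sub_eq_add_neg]
  have hd'a : ∀ x y, d' (x, y) = rX' x - rY' y := by
    intro x y
    simp [hd', sub_eq_add_neg]
  -- kernels
  let φ : X' × Y' →ₗ[K] X' × Y := LinearMap.id.prodMap uY
  have hφ : ∀ v ∈ LinearMap.ker d', φ v ∈ LinearMap.ker dS := by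
    rintro ⟨x, y⟩ hv
    rw [LinearMap.mem_ker, hd'a] at hv
    change dS (x, uY y) = 0
    rw [hdS, ← cX, ← cY, ← map_sub, hv, map_zero]
  let E0 : LinearMap.ker d' →ₗ[K] LinearMap.ker dS := φ.restrict hφ
  have hE0 : Function.Bijective E0 := by
    constructor
    · rintro ⟨⟨x, y⟩, h⟩ ⟨⟨x', y'⟩, h'⟩ e
      have e' : φ (x, y) = φ (x', y') := congrArg Subtype.val e
      have e1 : x = x' := congrArg Prod.fst e'
      have e2 : uY y = uY y' := congrArg Prod.snd e'
      exact Subtype.ext (Prod.ext e1 (hY e2))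
    · rintro ⟨⟨x, y⟩, h⟩
      rw [LinearMap.mem_ker, hdS, sub_eq_zero] at h
      obtain ⟨y', rfl⟩ := f1 y ⟨rX' x, by rw [cX, h]⟩
      refine ⟨⟨(x, y'), ?_⟩, rfl⟩
      rw [LinearMap.mem_ker, hd'a]
      apply hZ
      rw [map_sub, cX, cY, h, sub_self, map_zero]
  -- cokernels
  have hle : LinearMap.range d' ≤ (LinearMap.range dS).comap uZ := by
    rintro _ ⟨⟨x, y⟩, rfl⟩
    refine ⟨(x, uY y), ?_⟩
    rw [hdS, hd'a, map_sub, cX, cY]
  let E1 : (Z' ⧸ LinearMap.range d') →ₗ[K] (Z ⧸ LinearMap.range dS) := Submodule.mapQ _ _ uZ hle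
  have hE1 : Function.Bijective E1 := by
    constructor
    · rw [← LinearMap.ker_eq_bot, LinearMap.ker_eq_bot']
      intro w hw
      obtain ⟨w, rfl⟩ := Submodule.mkQ_surjective _ w
      have hw' : (LinearMap.range dS).mkQ (uZ w) = 0 := hw
      rw [Submodule.mkQ_apply, Submodule.Quotient.mk_eq_zero] at hw'
      obtain ⟨⟨x, y⟩, hxy⟩ := hw'
      rw [hdS] at hxy
      obtain ⟨y', rfl⟩ := f1 y ⟨rX' x - w, by rw [map_sub, cX, ← hxy]; abel⟩
      rw [Submodule.mkQ_apply, Submodule.Quotient.mk_eq_zero]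
      refine ⟨(x, y'), ?_⟩
      apply hZ
      rw [hd'a, map_sub, cX, cY, hxy]
    · intro z
      obtain ⟨z, rfl⟩ := Submodule.mkQ_surjective _ z
      obtain ⟨y, w, hw⟩ := f2 z
      refine ⟨(LinearMap.range d').mkQ w, ?_⟩
      change (LinearMap.range dS).mkQ (uZ w) = (LinearMap.range dS).mkQ z
      rw [hw, map_sub, sub_eq_self, Submodule.mkQ_apply, Submodule.Quotient.mk_eq_zero]
      exact ⟨(0, -y), by rw [hdS]; simp⟩
  let e0 := LinearEquiv.ofBijective E0 hE0
  let e1 := LinearEquiv.ofBijective E1 hE1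
  haveI : Module.Finite K (LinearMap.ker dS) := Module.Finite.equiv e0
  haveI : Module.Finite K (Z ⧸ LinearMap.range dS) := Module.Finite.equiv e1
  -- the quotient of the source
  let π : X × Y →ₗ[K] X ⧸ LinearMap.range uX := (LinearMap.range uX).mkQ ∘ₗ LinearMap.fst K X Y
  have hπ : Function.Surjective π :=
    (Submodule.mkQ_surjective _).comp LinearMap.fst_surjective
  have hkπ : LinearMap.ker π = LinearMap.range uP := by
    ext ⟨x, y⟩
    constructor
    · intro h
      have h' : (LinearMap.range uX).mkQ x = 0 := h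
      rw [Submodule.mkQ_apply, Submodule.Quotient.mk_eq_zero] at h'
      obtain ⟨x', rfl⟩ := h'
      exact ⟨(x', y), rfl⟩
    · rintro ⟨⟨x', y'⟩, h⟩
      have h1 : uX x' = x := congrArg Prod.fst h
      change (LinearMap.range uX).mkQ x = 0
      rw [Submodule.mkQ_apply, Submodule.Quotient.mk_eq_zero]
      exact ⟨x', h1⟩
  let e2 : ((X × Y) ⧸ LinearMap.range uP) ≃ₗ[K] (X ⧸ LinearMap.range uX) :=
    (Submodule.quotEquivOfEq _ _ hkπ.symm).trans (π.quotKerEquivOfSurjective hπ)
  haveI : Module.Finite K ((X × Y) ⧸ LinearMap.range uP) := Module.Finite.equiv e2.symm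
  have hid : LinearMap.range (LinearMap.id : Z →ₗ[K] Z) = ⊤ := LinearMap.range_id
  haveI : Subsingleton (Z ⧸ LinearMap.range (LinearMap.id : Z →ₗ[K] Z)) := by
    rw [hid]; infer_instance
  have huP : Function.Injective uP := by
    rintro ⟨x, y⟩ ⟨x', y'⟩ h
    have h1 : uX x = uX x' := congrArg Prod.fst h
    have h2 : y = y' := congrArg Prod.snd h
    exact Prod.ext (hX h1) h2
  have key := chi_sub d dS uP LinearMap.id huP Function.injective_id (by rw [LinearMap.id_comp])
  have h0 : finrank K (Z ⧸ LinearMap.range (LinearMap.id : Z →ₗ[K] Z)) = 0 :=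
    finrank_zero_of_subsingleton
  rw [h0, e2.finrank_eq, ← e0.finrank_eq, ← e1.finrank_eq] at key
  rw [key]
  simp

/-- exchanging the two charts -/
noncomputable def kerSwap : LinearMap.ker (rY.coprod (-rX)) ≃ₗ[K] LinearMap.ker (rX.coprod (-rY)) :=
  (LinearEquiv.ofEq _ _ (by
    ext ⟨y, x⟩
    simp only [LinearMap.mem_ker, Submodule.mem_comap, LinearMap.coprod_apply, LinearMap.neg_apply,
      LinearEquiv.coe_coe, LinearEquiv.prodComm_apply, Prod.swap_prod_mk, ← sub_eq_add_neg,
      sub_eq_zero]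
    exact eq_comm)).trans
  ((LinearEquiv.prodComm K Y X).ofSubmodule' (LinearMap.ker (rX.coprod (-rY))))

theorem range_swap : LinearMap.range (rY.coprod (-rX)) = LinearMap.range (rX.coprod (-rY)) := by
  rw [LinearMap.range_coprod, LinearMap.range_coprod, LinearMap.range_neg, LinearMap.range_neg,
    sup_comm]

/-- the same with the roles of the charts exchanged. -/
theorem chi_twoChart' (hX : Function.Injective uX) (hY : Function.Injective uY)
    (hZ : Function.Injective uZ)
    (cX : ∀ x, uZ (rX' x) = rX (uX x)) (cY : ∀ y, uZ (rY' y) = rY (uY y))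
    (f1 : ∀ x, rX x ∈ LinearMap.range uZ → x ∈ LinearMap.range uX)
    (f2 : ∀ z, ∃ x, z - rX x ∈ LinearMap.range uZ)
    [Module.Finite K (LinearMap.ker (rX.coprod (-rY)))]
    [Module.Finite K (Z ⧸ LinearMap.range (rX.coprod (-rY)))]
    [Module.Finite K (LinearMap.ker (rX'.coprod (-rY')))]
    [Module.Finite K (Z' ⧸ LinearMap.range (rX'.coprod (-rY')))]
    [Module.Finite K (Y ⧸ LinearMap.range uY)] :
    (finrank K (LinearMap.ker (rX'.coprod (-rY'))) : ℤ)
        - finrank K (Z' ⧸ LinearMap.range (rX'.coprod (-rY'))) =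
      (finrank K (LinearMap.ker (rX.coprod (-rY))) : ℤ)
        - finrank K (Z ⧸ LinearMap.range (rX.coprod (-rY))) - finrank K (Y ⧸ LinearMap.range uY) := by
  haveI : Module.Finite K (LinearMap.ker (rY.coprod (-rX))) :=
    Module.Finite.equiv (kerSwap rX rY).symm
  haveI : Module.Finite K (LinearMap.ker (rY'.coprod (-rX'))) :=
    Module.Finite.equiv (kerSwap rX' rY').symm
  haveI : Module.Finite K (Z ⧸ LinearMap.range (rY.coprod (-rX))) :=
    Module.Finite.equiv (Submodule.quotEquivOfEq _ _ (range_swap rX rY)).symm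
  haveI : Module.Finite K (Z' ⧸ LinearMap.range (rY'.coprod (-rX'))) :=
    Module.Finite.equiv (Submodule.quotEquivOfEq _ _ (range_swap rX' rY')).symm
  have key := chi_twoChart rY rX rY' rX' uY uX uZ hY hX hZ cY cX f1 f2
  rw [(kerSwap rX rY).finrank_eq, (kerSwap rX' rY').finrank_eq,
    (Submodule.quotEquivOfEq _ _ (range_swap rX rY)).finrank_eq,
    (Submodule.quotEquivOfEq _ _ (range_swap rX' rY')).finrank_eq] at key
  exact key

end AL

end Index
end Fermat.Agent.S25
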