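import Fermat.Agent.S25.L.SemiLin2

/-! # S25 / H3b (general part) : the submodule `I N` of an invertible module -/
set_option autoImplicit false
set_option linter.style.haveILetI false
universe u
open TensorProduct

namespace Fermat.Agent.S25
namespace SubDatum

section A
variable {R : Type u} [CommRing R] {N N'' J : Type u} [AddCommGroup N] [Module R N]
  [AddCommGroup N''] [Module R N''] [AddCommGroup J] [Module R J]

/-- a model `N''` of `N ⊗ J`, `J ⊆ R`, embeds into `N` with image `J N`. -/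
theorem exists_toN (j : J →ₗ[R] R) (hj : Function.Injective j) [Module.Invertible R N]
    [Module.Invertible R J] [Module.Invertible R N''] (m : N →ₗ[R] J →ₗ[R] N'')
    (hm : Submodule.span R {z | ∃ n a, m n a = z} = ⊤) :
    ∃ u : N'' →ₗ[R] N, (∀ n a, u (m n a) = j a • n) ∧ Function.Injective u ∧
      LinearMap.range u = (LinearMap.range j : Ideal R) • (⊤ : Submodule R N) := by
  let e : N ⊗[R] J ≃ₗ[R] N'' := LinearEquiv.ofBijective _ (SL.lift₂_bijective m hm)
  let v : N ⊗[R] J →ₗ[R] N := (TensorProduct.rid R N).toLinearMap ∘ₗ (LinearMap.lTensor N j)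
  have hv : ∀ n (a : J), v (n ⊗ₜ a) = j a • n := fun n a => by simp [v]
  have hvi : Function.Injective v :=
    (TensorProduct.rid R N).injective.comp
      (Module.Flat.lTensor_preserves_injective_linearMap j hj)
  have he : ∀ n a, e.symm (m n a) = n ⊗ₜ a := by
    intro n a
    rw [LinearEquiv.symm_apply_eq]
    exact (TensorProduct.lift.tmul n a).symm
  have hu : ∀ n a, (v ∘ₗ e.symm.toLinearMap) (m n a) = j a • n := by
    intro n a
    rw [LinearMap.comp_apply, LinearEquiv.coe_coe, he, hv]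
  refine ⟨v ∘ₗ e.symm.toLinearMap, hu, hvi.comp e.symm.injective, ?_⟩
  apply le_antisymm
  · rintro _ ⟨z, rfl⟩
    rw [LinearMap.comp_apply]
    generalize (e.symm.toLinearMap z) = t
    induction t using TensorProduct.induction_on with
    | zero => rw [map_zero]; exact Submodule.zero_mem _
    | tmul n a => rw [hv]; exact Submodule.smul_mem_smul ⟨a, rfl⟩ Submodule.mem_top
    | add s t hs ht => rw [map_add]; exact Submodule.add_mem _ hs ht
  · rw [Submodule.smul_le]
    rintro _ ⟨a, rfl⟩ n _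
    exact ⟨m n a, hu n a⟩

end A

section D
variable {R S : Type u} [CommRing R] [CommRing S] {φ : R →+* S} {y : R}
  {N M : Type u} [AddCommGroup N] [Module R N] [AddCommGroup M] [Module S M] {r : N →ₛₗ[φ] M}

/-- if `J + (y) = 1` and `J N ⊆ N'`, then `N/N' → M/M'` is bijective, `M'` the localisation
of `N'`. -/
theorem quot_facts (hr : SL.IsLoc φ y r) (N' : Submodule R N) (M' : Submodule S M) (J : Ideal R)
    (hJ : J ⊔ Ideal.span {y} = ⊤) (hJN : J • (⊤ : Submodule R N) ≤ N')
    (h1 : ∀ n ∈ N', r n ∈ M') (h2 : ∀ m ∈ M', ∃ (j : ℕ), ∃ n ∈ N', (φ y) ^ j • m = r n) :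
    (∀ n, r n ∈ M' → n ∈ N') ∧ (∀ m, ∃ n, m - r n ∈ M') := by
  have hpow : ∀ j : ℕ, ∃ a ∈ J, ∃ c : R, a + c * y ^ j = 1 := by
    intro j
    have hs : J ⊔ Ideal.span {y ^ j} = ⊤ := by
      have := Ideal.sup_pow_eq_top (n := j) hJ
      rwa [Ideal.span_singleton_pow] at this
    have h1 : (1 : R) ∈ J ⊔ Ideal.span {y ^ j} := hs ▸ Submodule.mem_top
    obtain ⟨a, ha, c, hc, hac⟩ := Submodule.mem_sup.mp h1
    obtain ⟨c', rfl⟩ := Ideal.mem_span_singleton'.mp hc
    exact ⟨a, ha, c', hac⟩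
  constructor
  · intro n hn
    obtain ⟨j, n', hn', e⟩ := h2 _ hn
    have e' : y ^ j • n = n' := hr.inj (by rw [r.map_smulₛₗ, map_pow, e])
    obtain ⟨a, ha, c, hac⟩ := hpow j
    have : n = a • n + c • (y ^ j • n) := by
      rw [smul_smul, ← add_smul, hac, one_smul]
    rw [this, e']
    exact Submodule.add_mem _ (hJN (Submodule.smul_mem_smul ha Submodule.mem_top))
      (Submodule.smul_mem _ _ hn')
  · intro m
    obtain ⟨j, n, hn⟩ := hr.span m
    obtain ⟨a, ha, c, hac⟩ := hpow j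
    refine ⟨c • n, ?_⟩
    have e1 : m = φ a • m + φ c • ((φ y) ^ j • m) := by
      rw [smul_smul, ← add_smul, ← map_pow, ← map_mul, ← map_add, hac, map_one, one_smul]
    have e2 : m - r (c • n) = φ a • m := by
      rw [r.map_smulₛₗ, ← hn, sub_eq_iff_eq_add]
      exact e1
    rw [e2]
    -- `φ a • m ∈ M'`
    obtain ⟨v, hv⟩ := hr.unit
    have e3 : φ a • m = ((v⁻¹ : Sˣ) : S) ^ j • r (a • n) := by
      rw [r.map_smulₛₗ, ← hn, smul_smul, smul_smul, ← hv]
      have : ((v⁻¹ : Sˣ) : S) ^ j * φ a * (v : S) ^ j = φ a := by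
        rw [mul_right_comm, ← mul_pow, Units.inv_mul, one_pow, one_mul]
      rw [this]
    rw [e3]
    exact Submodule.smul_mem _ _ (h1 _ (hJN (Submodule.smul_mem_smul ha Submodule.mem_top)))

end D

section G
variable {K R : Type u} [Field K] [CommRing R] [Algebra K R] (I : Ideal R)
  [Module.Finite K (R ⧸ I)] (N : Type u) [AddCommGroup N] [Module R N] [Module K N]
  [IsScalarTower K R N] [Module.Invertible R N]

/-- `N / I N ≃ R / I` when `R / I` is finite dimensional. -/
theorem nonempty_quot_equiv : Nonempty ((N ⧸ (I • ⊤ : Submodule R N)) ≃ₗ[K] (R ⧸ I)) := by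
  haveI : IsArtinianRing (R ⧸ I) := IsArtinianRing.of_finite K (R ⧸ I)
  obtain ⟨e⟩ := (Module.Invertible.free_iff_linearEquiv (R := R ⧸ I)
    (M := (R ⧸ I) ⊗[R] N)).mp inferInstance
  let e₁ : (R ⧸ I) ⊗[R] N ≃ₗ[R] N ⧸ (I • ⊤ : Submodule R N) :=
    TensorProduct.quotTensorEquivQuotSMul N I
  let E : (N ⧸ (I • ⊤ : Submodule R N)) ≃ₗ[R] (R ⧸ I) := e₁.symm.trans (e.restrictScalars R)
  exact ⟨E.restrictScalars K⟩

variable {N}
theorem nonempty_quot_range_equiv {N'' : Type u} [AddCommGroup N''] [Module R N''] [Module K N'']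
    [IsScalarTower K R N''] (u : N'' →ₗ[R] N) (hu : LinearMap.range u = I • (⊤ : Submodule R N)) :
    Nonempty ((N ⧸ LinearMap.range (u.restrictScalars K)) ≃ₗ[K] (R ⧸ I)) := by
  obtain ⟨e⟩ := nonempty_quot_equiv (K := K) I N
  have h1 : LinearMap.range (u.restrictScalars K) = (I • (⊤ : Submodule R N)).restrictScalars K := by
    rw [← hu]
    rfl
  exact ⟨(Submodule.quotEquivOfEq _ _ h1).trans
    ((Submodule.Quotient.restrictScalarsEquiv K (I • (⊤ : Submodule R N))).trans e)⟩

end G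

end SubDatum
end Fermat.Agent.S25
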