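import Fermat.Agent.S25.L.PicAlg
import Fermat.Agent.S25.H.Index
import Fermat.Agent.S25.H.SubDatum

/-! # S25 / H3b : twisting a line bundle datum by an ideal datum -/
set_option autoImplicit false
set_option linter.style.haveILetI false
universe u
open TensorProduct

namespace Fermat.Agent.S25
variable {k : Type u} [Field k] {Γ : CurveAlg k}
variable {A : Type u} [CommRing A] [Algebra k A]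

/-- an embedding of a line bundle datum into the trivial one -/
structure LB.ToUnit (ℐ : LB Γ A) where
  j₀ : ℐ.N₀ →ₗ[Γ.R₀ A] Γ.R₀ A
  j₁ : ℐ.N₁ →ₗ[Γ.R₁ A] Γ.R₁ A
  j₀₁ : ℐ.N₀₁ →ₗ[Γ.R₀₁ A] Γ.R₀₁ A
  inj₀ : Function.Injective j₀
  inj₁ : Function.Injective j₁
  comm₀ : ∀ a, j₀₁ (ℐ.r₀ a) = Γ.φ₀ A (j₀ a)
  comm₁ : ∀ a, j₀₁ (ℐ.r₁ a) = Γ.φ₁ A (j₁ a)

/-- `𝒩 ⊗ ℐ` is a subdatum of `𝒩`. -/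
theorem LB.Tens.exists_sub (hΓ : Γ.IsGood) {𝒩 ℐ 𝒩'' : LB Γ A} (t : LB.Tens 𝒩 ℐ 𝒩'')
    (j : ℐ.ToUnit) :
    ∃ (u₀ : 𝒩''.N₀ →ₗ[Γ.R₀ A] 𝒩.N₀) (u₁ : 𝒩''.N₁ →ₗ[Γ.R₁ A] 𝒩.N₁)
      (u₀₁ : 𝒩''.N₀₁ →ₗ[Γ.R₀₁ A] 𝒩.N₀₁),
      Function.Injective u₀ ∧ Function.Injective u₁ ∧ Function.Injective u₀₁ ∧
      LinearMap.range u₀ = (LinearMap.range j.j₀ : Ideal (Γ.R₀ A)) • (⊤ : Submodule (Γ.R₀ A) 𝒩.N₀) ∧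
      LinearMap.range u₁ = (LinearMap.range j.j₁ : Ideal (Γ.R₁ A)) • (⊤ : Submodule (Γ.R₁ A) 𝒩.N₁) ∧
      (∀ n, u₀₁ (𝒩''.r₀ n) = 𝒩.r₀ (u₀ n)) ∧ (∀ n, u₀₁ (𝒩''.r₁ n) = 𝒩.r₁ (u₁ n)) := by
  obtain ⟨u₀, hu₀, hi₀, hr₀⟩ := SubDatum.exists_toN j.j₀ j.inj₀ t.m₀ t.span₀
  obtain ⟨u₁, hu₁, hi₁, hr₁⟩ := SubDatum.exists_toN j.j₁ j.inj₁ t.m₁ t.span₁
  obtain ⟨u₀₁, hu₀₁⟩ := (LB.isLoc₀ hΓ 𝒩'').exists_lift (RingHom.id _) (Γ.φ₀ A).toRingHom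
    (fun _ => rfl) (𝒩.r₀.comp u₀)
  have c₀ : ∀ n, u₀₁ (𝒩''.r₀ n) = 𝒩.r₀ (u₀ n) := hu₀₁
  have key : t.m₀₁.compr₂ u₀₁ = (LinearMap.lsmul (Γ.R₀₁ A) 𝒩.N₀₁).flip.compl₂ j.j₀₁ :=
    (LB.isLoc₀ hΓ 𝒩).isUniv.ext₂ (LB.isLoc₀ hΓ ℐ).isUniv _ _ (fun n a => by
      rw [LinearMap.compr₂_apply, t.comm₀, c₀, hu₀, LinearMap.compl₂_apply, LinearMap.flip_apply,
        LinearMap.lsmul_apply, j.comm₀, 𝒩.r₀.map_smulₛₗ]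
      rfl)
  have key' : ∀ ν α, u₀₁ (t.m₀₁ ν α) = j.j₀₁ α • ν := fun ν α =>
    LinearMap.congr_fun (LinearMap.congr_fun key ν) α
  have c₁ : ∀ n, u₀₁ (𝒩''.r₁ n) = 𝒩.r₁ (u₁ n) := by
    have h := SL.ext_of_span₂ t.m₁ t.span₁ (u₀₁.comp 𝒩''.r₁) (𝒩.r₁.comp u₁) (fun n a => by
      rw [LinearMap.comp_apply, LinearMap.comp_apply, ← t.comm₁, key', hu₁, j.comm₁,
        𝒩.r₁.map_smulₛₗ]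
      rfl)
    exact fun n => LinearMap.congr_fun h n
  refine ⟨u₀, u₁, u₀₁, hi₀, hi₁, ?_, hr₀, hr₁, c₀, c₁⟩
  rw [← LinearMap.ker_eq_bot, LinearMap.ker_eq_bot']
  intro z hz
  obtain ⟨i, n₀, hn⟩ := 𝒩''.span₀ z
  have h1 : 𝒩.r₀ (u₀ n₀) = 0 := by rw [← c₀, ← hn, map_smul, hz, smul_zero]
  have h2 : n₀ = 0 := hi₀ (𝒩.inj₀ (by rw [h1, map_zero, map_zero]))
  rw [h2, map_zero] at hn
  exact (((LB.isLoc₀ hΓ 𝒩'').unit.pow i).smul_eq_zero).mp hn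

section field
variable {K : Type u} [Field K] [Algebra k K]

theorem LB.chi_eq (𝒩 : LB Γ K) : 𝒩.chi =
    (Module.finrank K (LinearMap.ker (𝒩.r₀A.coprod (-𝒩.r₁A))) : ℤ)
      - Module.finrank K (𝒩.N₀₁ ⧸ LinearMap.range (𝒩.r₀A.coprod (-𝒩.r₁A))) := by
  rw [LB.chi, 𝒩.H1EquivCoker.finrank_eq]
  rfl

/-- twisting by an ideal datum supported in the chart `U₀`. -/
theorem LB.Tens.chi_eq₀ (hΓ : Γ.IsGood) {𝒩 ℐ 𝒩'' : LB Γ K} (t : LB.Tens 𝒩 ℐ 𝒩'') (j : ℐ.ToUnit)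
    (hJ : (LinearMap.range j.j₁ : Ideal (Γ.R₁ K)) ⊔ Ideal.span {Γ.yA K} = ⊤)
    [Module.Finite K (Γ.R₀ K ⧸ (LinearMap.range j.j₀ : Ideal (Γ.R₀ K)))] :
    𝒩''.chi = 𝒩.chi - Module.finrank K (Γ.R₀ K ⧸ (LinearMap.range j.j₀ : Ideal (Γ.R₀ K))) := by
  obtain ⟨u₀, u₁, u₀₁, hi₀, hi₁, hi₀₁, hr₀, hr₁, c₀, c₁⟩ := t.exists_sub hΓ j
  obtain ⟨f1, f2⟩ := SubDatum.quot_facts (LB.isLoc₁ hΓ 𝒩) (LinearMap.range u₁)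
    (LinearMap.range u₀₁) _ hJ hr₁.ge
    (by rintro _ ⟨n, rfl⟩; exact ⟨_, c₁ n⟩)
    (by
      rintro _ ⟨z, rfl⟩
      obtain ⟨i, n₁, hn⟩ := 𝒩''.span₁ z
      exact ⟨i, u₁ n₁, ⟨n₁, rfl⟩, by rw [← c₁, ← hn, map_smul]; rfl⟩)
  obtain ⟨e⟩ := SubDatum.nonempty_quot_range_equiv (K := K) _ u₀ hr₀
  haveI : Module.Finite K (LinearMap.ker (𝒩.r₀A.coprod (-𝒩.r₁A))) := LB.finite_H0_field hΓ 𝒩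
  haveI : Module.Finite K (LinearMap.ker (𝒩''.r₀A.coprod (-𝒩''.r₁A))) := LB.finite_H0_field hΓ 𝒩''
  haveI : Module.Finite K (𝒩.N₀₁ ⧸ LinearMap.range (𝒩.r₀A.coprod (-𝒩.r₁A))) :=
    haveI := LB.finite_H1 hΓ 𝒩
    Module.Finite.equiv 𝒩.H1EquivCoker
  haveI : Module.Finite K (𝒩''.N₀₁ ⧸ LinearMap.range (𝒩''.r₀A.coprod (-𝒩''.r₁A))) :=
    haveI := LB.finite_H1 hΓ 𝒩''
    Module.Finite.equiv 𝒩''.H1EquivCoker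
  haveI : Module.Finite K (𝒩.N₀ ⧸ LinearMap.range (u₀.restrictScalars K)) :=
    Module.Finite.equiv e.symm
  rw [LB.chi_eq, LB.chi_eq, ← e.finrank_eq]
  exact Index.chi_twoChart 𝒩.r₀A 𝒩.r₁A 𝒩''.r₀A 𝒩''.r₁A (u₀.restrictScalars K)
    (u₁.restrictScalars K) (u₀₁.restrictScalars K) hi₀ hi₁ hi₀₁ c₀ c₁ f1 f2

/-- twisting by an ideal datum supported in the chart `U₁`. -/
theorem LB.Tens.chi_eq₁ (hΓ : Γ.IsGood) {𝒩 ℐ 𝒩'' : LB Γ K} (t : LB.Tens 𝒩 ℐ 𝒩'') (j : ℐ.ToUnit)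
    (hJ : (LinearMap.range j.j₀ : Ideal (Γ.R₀ K)) ⊔ Ideal.span {Γ.xA K} = ⊤)
    [Module.Finite K (Γ.R₁ K ⧸ (LinearMap.range j.j₁ : Ideal (Γ.R₁ K)))] :
    𝒩''.chi = 𝒩.chi - Module.finrank K (Γ.R₁ K ⧸ (LinearMap.range j.j₁ : Ideal (Γ.R₁ K))) := by
  obtain ⟨u₀, u₁, u₀₁, hi₀, hi₁, hi₀₁, hr₀, hr₁, c₀, c₁⟩ := t.exists_sub hΓ j
  obtain ⟨f1, f2⟩ := SubDatum.quot_facts (LB.isLoc₀ hΓ 𝒩) (LinearMap.range u₀)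
    (LinearMap.range u₀₁) _ hJ hr₀.ge
    (by rintro _ ⟨n, rfl⟩; exact ⟨_, c₀ n⟩)
    (by
      rintro _ ⟨z, rfl⟩
      obtain ⟨i, n₀, hn⟩ := 𝒩''.span₀ z
      exact ⟨i, u₀ n₀, ⟨n₀, rfl⟩, by rw [← c₀, ← hn, map_smul]; rfl⟩)
  obtain ⟨e⟩ := SubDatum.nonempty_quot_range_equiv (K := K) _ u₁ hr₁
  haveI : Module.Finite K (LinearMap.ker (𝒩.r₀A.coprod (-𝒩.r₁A))) := LB.finite_H0_field hΓ 𝒩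
  haveI : Module.Finite K (LinearMap.ker (𝒩''.r₀A.coprod (-𝒩''.r₁A))) := LB.finite_H0_field hΓ 𝒩''
  haveI : Module.Finite K (𝒩.N₀₁ ⧸ LinearMap.range (𝒩.r₀A.coprod (-𝒩.r₁A))) :=
    haveI := LB.finite_H1 hΓ 𝒩
    Module.Finite.equiv 𝒩.H1EquivCoker
  haveI : Module.Finite K (𝒩''.N₀₁ ⧸ LinearMap.range (𝒩''.r₀A.coprod (-𝒩''.r₁A))) :=
    haveI := LB.finite_H1 hΓ 𝒩''
    Module.Finite.equiv 𝒩''.H1EquivCoker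
  haveI : Module.Finite K (𝒩.N₁ ⧸ LinearMap.range (u₁.restrictScalars K)) :=
    Module.Finite.equiv e.symm
  rw [LB.chi_eq, LB.chi_eq, ← e.finrank_eq]
  exact Index.chi_twoChart' 𝒩.r₀A 𝒩.r₁A 𝒩''.r₀A 𝒩''.r₁A (u₀.restrictScalars K)
    (u₁.restrictScalars K) (u₀₁.restrictScalars K) hi₀ hi₁ hi₀₁ c₀ c₁ f1 f2

end field

end Fermat.Agent.S25
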