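import Fermat.Agent.S25.L.PicAlg
import Fermat.Agent.S25.H.HilbInv
import Fermat.Agent.S25.H.IdealAux
import Fermat.Agent.S25.H.SubLB
import Fermat.Agent.S25.H.SectionsAux
import Fermat.Agent.S25.H.OtherChart

/-! # S25 / H3 : ideal data `O(-D)`, zero ideals of sections -/
set_option autoImplicit false
set_option linter.style.haveILetI false
universe u
open TensorProduct Polynomial

namespace Fermat.Agent.S25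
variable {k : Type u} [Field k] {Γ : CurveAlg k}
variable {A A' : Type u} [CommRing A] [Algebra k A] [CommRing A'] [Algebra k A']

theorem exists_pow_mul_eq₀ (hΓ : Γ.IsGood) (J : Ideal (Γ.R₀ A)) (w : Γ.R₀₁ A)
    (hw : w ∈ J.map (Γ.φ₀ A)) : ∃ (m : ℕ) (a : Γ.R₀ A), a ∈ J ∧ (Γ.φ₀ A (Γ.xA A)) ^ m * w = Γ.φ₀ A a := by
  letI : Algebra (Γ.R₀ A) (Γ.R₀₁ A) := (Γ.φ₀ A).toRingHom.toAlgebra
  haveI : IsLocalization (Submonoid.powers (Γ.xA A)) (Γ.R₀₁ A) := CurveAlg.isLocalization_φ₀ hΓ A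
  have hw' : w ∈ J.map (algebraMap (Γ.R₀ A) (Γ.R₀₁ A)) := hw
  obtain ⟨⟨⟨a, ha⟩, ⟨_, m, rfl⟩⟩, h⟩ :=
    (IsLocalization.mem_map_algebraMap_iff (Submonoid.powers (Γ.xA A)) (Γ.R₀₁ A)).mp hw'
  refine ⟨m, a, ha, ?_⟩
  have h' : w * Γ.φ₀ A ((Γ.xA A) ^ m) = Γ.φ₀ A a := h
  rw [← h', map_pow, mul_comm]

theorem exists_pow_mul_eq₁ (hΓ : Γ.IsGood) (J : Ideal (Γ.R₁ A)) (w : Γ.R₀₁ A)
    (hw : w ∈ J.map (Γ.φ₁ A)) : ∃ (m : ℕ) (a : Γ.R₁ A), a ∈ J ∧ (Γ.φ₁ A (Γ.yA A)) ^ m * w = Γ.φ₁ A a := by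
  letI : Algebra (Γ.R₁ A) (Γ.R₀₁ A) := (Γ.φ₁ A).toRingHom.toAlgebra
  haveI : IsLocalization (Submonoid.powers (Γ.yA A)) (Γ.R₀₁ A) := CurveAlg.isLocalization_φ₁ hΓ A
  have hw' : w ∈ J.map (algebraMap (Γ.R₁ A) (Γ.R₀₁ A)) := hw
  obtain ⟨⟨⟨a, ha⟩, ⟨_, m, rfl⟩⟩, h⟩ :=
    (IsLocalization.mem_map_algebraMap_iff (Submonoid.powers (Γ.yA A)) (Γ.R₀₁ A)).mp hw'
  refine ⟨m, a, ha, ?_⟩
  have h' : w * Γ.φ₁ A ((Γ.yA A) ^ m) = Γ.φ₁ A a := h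
  rw [← h', map_pow, mul_comm]

/-- The line bundle datum given by two invertible ideals which agree on the overlap. -/
noncomputable def LB.ofIdeals (hΓ : Γ.IsGood) (I₀ : Ideal (Γ.R₀ A)) (I₁ : Ideal (Γ.R₁ A))
    (h : I₀.map (Γ.φ₀ A) = I₁.map (Γ.φ₁ A)) (h₀ : Module.Invertible (Γ.R₀ A) I₀)
    (h₁ : Module.Invertible (Γ.R₁ A) I₁) : LB Γ A where
  N₀ := I₀
  N₁ := I₁
  N₀₁ := (I₀.map (Γ.φ₀ A) : Ideal (Γ.R₀₁ A))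
  r₀ := { toFun := fun z => ⟨Γ.φ₀ A z.1, Ideal.mem_map_of_mem _ z.2⟩
          map_add' := fun a b => by ext; simp
          map_smul' := fun a b => by ext; simp }
  r₁ := { toFun := fun z => ⟨Γ.φ₁ A z.1, h ▸ Ideal.mem_map_of_mem _ z.2⟩
          map_add' := fun a b => by ext; simp
          map_smul' := fun a b => by ext; simp }
  inv₀ := h₀
  inv₁ := h₁
  inj₀ := fun a b hab => Subtype.ext (CurveAlg.φ₀_injective hΓ A (congrArg Subtype.val hab))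
  inj₁ := fun a b hab => Subtype.ext (CurveAlg.φ₁_injective hΓ A (congrArg Subtype.val hab))
  span₀ := fun n => by
    obtain ⟨m, a, ha, e⟩ := exists_pow_mul_eq₀ hΓ I₀ n.1 n.2
    exact ⟨m, ⟨a, ha⟩, Subtype.ext e⟩
  span₁ := fun n => by
    obtain ⟨m, a, ha, e⟩ := exists_pow_mul_eq₁ hΓ I₁ n.1 (h ▸ n.2)
    exact ⟨m, ⟨a, ha⟩, Subtype.ext e⟩

/-- the ideal on the chart `U₁` of a closed subscheme of `U₀ × Spec A` (closed in `C × Spec A`). -/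
noncomputable def CurveAlg.other₁ (Γ : CurveAlg k) (I₀ : Ideal (Γ.R₀ A)) : Ideal (Γ.R₁ A) :=
  (I₀.map (Γ.φ₀ A)).comap (Γ.φ₁ A)
noncomputable def CurveAlg.other₀ (Γ : CurveAlg k) (I₁ : Ideal (Γ.R₁ A)) : Ideal (Γ.R₀ A) :=
  (I₁.map (Γ.φ₁ A)).comap (Γ.φ₀ A)

variable [hΓ : Fact Γ.IsGood]

theorem map_other₁ (I₀ : Ideal (Γ.R₀ A)) : I₀.map (Γ.φ₀ A) = (Γ.other₁ I₀).map (Γ.φ₁ A) := by
  letI : Algebra (Γ.R₁ A) (Γ.R₀₁ A) := (Γ.φ₁ A).toRingHom.toAlgebra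
  haveI : IsLocalization (Submonoid.powers (Γ.yA A)) (Γ.R₀₁ A) :=
    CurveAlg.isLocalization_φ₁ hΓ.out A
  exact (IsLocalization.map_comap (Submonoid.powers (Γ.yA A)) (Γ.R₀₁ A) (I₀.map (Γ.φ₀ A))).symm
theorem map_other₀ (I₁ : Ideal (Γ.R₁ A)) : (Γ.other₀ I₁).map (Γ.φ₀ A) = I₁.map (Γ.φ₁ A) := by
  letI : Algebra (Γ.R₀ A) (Γ.R₀₁ A) := (Γ.φ₀ A).toRingHom.toAlgebra
  haveI : IsLocalization (Submonoid.powers (Γ.xA A)) (Γ.R₀₁ A) :=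
    CurveAlg.isLocalization_φ₀ hΓ.out A
  exact IsLocalization.map_comap (Submonoid.powers (Γ.xA A)) (Γ.R₀₁ A) (I₁.map (Γ.φ₁ A))

/-- key point of H3: if `R₀/I₀` is finite free over `A`, the ideal on the other chart is invertible. -/
theorem invertible_other₁ [IsAlgClosed k] {g : ℕ} {b : Fin g → Γ.B₀} {I₀ : Ideal (Γ.R₀ A)}
    (h : IsBasisMod I₀ b) : Module.Invertible (Γ.R₁ A) (Γ.other₁ I₀) := by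
  haveI := hΓ.out.finiteType₀
  haveI := hΓ.out.dedekind₀
  haveI := hΓ.out.isDomain₁
  obtain ⟨χ, hχ, -, hc⟩ := h.exists_monic_mem_mul_dualIdeal Γ.x hΓ.out.transc₀
  have hxy : (Γ.φ₀ A) (Γ.xA A) * (Γ.φ₁ A) (Γ.yA A) = 1 := CurveAlg.φ₀_xA_mul_φ₁_yA hΓ.out A
  have key := OtherChart.mem_mul_dualIdeal_other (φ₀ := (Γ.φ₀ A).toRingHom)
    (φ₁ := (Γ.φ₁ A).toRingHom) (CurveAlg.φ₁_injective hΓ.out A) (x := Γ.xA A) (y := Γ.yA A) hxy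
    (fun w => by
      obtain ⟨m, a, -, e⟩ := exists_pow_mul_eq₁ hΓ.out ⊤ w (by rw [Ideal.map_top]; trivial)
      exact ⟨m, a, e⟩)
    (OtherChart.aeval_reverse (Γ.φ₀ A) (Γ.φ₁ A) hxy χ)
    (OtherChart.isCoprime_aeval_reverse (Γ.yA A) hχ) hc
  exact invertible_of_mem_mul_dualIdeal _
    (aeval_mem_nonZeroDivisors A Γ.y hΓ.out.finite₁ hΓ.out.transc₁
      (OtherChart.reverse_mem_nonZeroDivisors hχ)) key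
theorem invertible_other₀ [IsAlgClosed k] {g : ℕ} {b : Fin g → Γ.B₁} {I₁ : Ideal (Γ.R₁ A)}
    (h : IsBasisMod I₁ b) : Module.Invertible (Γ.R₀ A) (Γ.other₀ I₁) := by
  haveI := hΓ.out.finiteType₁
  haveI := hΓ.out.dedekind₁
  haveI := hΓ.out.isDomain₀
  obtain ⟨χ, hχ, -, hc⟩ := h.exists_monic_mem_mul_dualIdeal Γ.y hΓ.out.transc₁
  have hxy : (Γ.φ₁ A) (Γ.yA A) * (Γ.φ₀ A) (Γ.xA A) = 1 := by
    rw [mul_comm]; exact CurveAlg.φ₀_xA_mul_φ₁_yA hΓ.out A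
  have key := OtherChart.mem_mul_dualIdeal_other (φ₀ := (Γ.φ₁ A).toRingHom)
    (φ₁ := (Γ.φ₀ A).toRingHom) (CurveAlg.φ₀_injective hΓ.out A) (x := Γ.yA A) (y := Γ.xA A) hxy
    (fun w => by
      obtain ⟨m, a, -, e⟩ := exists_pow_mul_eq₀ hΓ.out ⊤ w (by rw [Ideal.map_top]; trivial)
      exact ⟨m, a, e⟩)
    (OtherChart.aeval_reverse (Γ.φ₁ A) (Γ.φ₀ A) hxy χ)
    (OtherChart.isCoprime_aeval_reverse (Γ.xA A) hχ) hc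
  exact invertible_of_mem_mul_dualIdeal _
    (aeval_mem_nonZeroDivisors A Γ.x hΓ.out.finite₀ hΓ.out.transc₀
      (OtherChart.reverse_mem_nonZeroDivisors hχ)) key
/-- and it is comaximal with `y`. -/
theorem other₁_sup_span_yA {g : ℕ} {b : Fin g → Γ.B₀} {I₀ : Ideal (Γ.R₀ A)}
    (h : IsBasisMod I₀ b) : Γ.other₁ I₀ ⊔ Ideal.span {Γ.yA A} = ⊤ := by
  obtain ⟨p, hp, hpx⟩ := IdealAux.exists_monic_aeval_mem h (Γ.xA A)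
  exact IdealAux.sup_span_of_monic (Γ.φ₀ A) (Γ.φ₁ A) (Γ.xA A) (Γ.yA A)
    (CurveAlg.φ₀_xA_mul_φ₁_yA hΓ.out A) I₀ p hp hpx

open Classical in
/-- class of `O(-D)`, `D = V(I₀) ⊂ U₀ × Spec A` finite over `A` (junk value `1` otherwise). -/
noncomputable def negDiv₀ (I₀ : Ideal (Γ.R₀ A)) : PicAlg Γ A :=
  if h : Module.Invertible (Γ.R₀ A) I₀ ∧ Module.Invertible (Γ.R₁ A) (Γ.other₁ I₀) then
    PicAlg.mk (LB.ofIdeals hΓ.out I₀ (Γ.other₁ I₀) (map_other₁ I₀) h.1 h.2) else 1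
open Classical in
noncomputable def negDiv₁ (I₁ : Ideal (Γ.R₁ A)) : PicAlg Γ A :=
  if h : Module.Invertible (Γ.R₀ A) (Γ.other₀ I₁) ∧ Module.Invertible (Γ.R₁ A) I₁ then
    PicAlg.mk (LB.ofIdeals hΓ.out (Γ.other₀ I₁) I₁ (map_other₀ I₁) h.1 h.2) else 1

/-! #### H3b, part 1 : base change of ideal data -/

theorem other₀_sup_span_xA {g : ℕ} {b : Fin g → Γ.B₁} {I₁ : Ideal (Γ.R₁ A)}
    (h : IsBasisMod I₁ b) : Γ.other₀ I₁ ⊔ Ideal.span {Γ.xA A} = ⊤ := by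
  obtain ⟨p, hp, hpy⟩ := IdealAux.exists_monic_aeval_mem h (Γ.yA A)
  exact IdealAux.sup_span_of_monic (Γ.φ₁ A) (Γ.φ₀ A) (Γ.yA A) (Γ.xA A)
    (by rw [mul_comm]; exact CurveAlg.φ₀_xA_mul_φ₁_yA hΓ.out A) I₁ p hp hpy

theorem exists_pow_mul_mem₁ (J : Ideal (Γ.R₁ A)) (z : Γ.R₁ A)
    (hz : Γ.φ₁ A z ∈ J.map (Γ.φ₁ A)) : ∃ m : ℕ, (Γ.yA A) ^ m * z ∈ J := by
  letI : Algebra (Γ.R₁ A) (Γ.R₀₁ A) := (Γ.φ₁ A).toRingHom.toAlgebra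
  haveI : IsLocalization (Submonoid.powers (Γ.yA A)) (Γ.R₀₁ A) :=
    CurveAlg.isLocalization_φ₁ hΓ.out A
  have hz' : algebraMap (Γ.R₁ A) (Γ.R₀₁ A) z ∈ J.map (algebraMap (Γ.R₁ A) (Γ.R₀₁ A)) := hz
  obtain ⟨⟨⟨a, ha⟩, ⟨_, m, rfl⟩⟩, h⟩ :=
    (IsLocalization.mem_map_algebraMap_iff (Submonoid.powers (Γ.yA A)) (Γ.R₀₁ A)).mp hz'
  refine ⟨m, ?_⟩
  have h' : Γ.φ₁ A (z * (Γ.yA A) ^ m) = Γ.φ₁ A a := by rw [map_mul]; exact h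
  rw [mul_comm, CurveAlg.φ₁_injective hΓ.out A h']
  exact ha

theorem exists_pow_mul_mem₀ (J : Ideal (Γ.R₀ A)) (z : Γ.R₀ A)
    (hz : Γ.φ₀ A z ∈ J.map (Γ.φ₀ A)) : ∃ m : ℕ, (Γ.xA A) ^ m * z ∈ J := by
  letI : Algebra (Γ.R₀ A) (Γ.R₀₁ A) := (Γ.φ₀ A).toRingHom.toAlgebra
  haveI : IsLocalization (Submonoid.powers (Γ.xA A)) (Γ.R₀₁ A) :=
    CurveAlg.isLocalization_φ₀ hΓ.out A
  have hz' : algebraMap (Γ.R₀ A) (Γ.R₀₁ A) z ∈ J.map (algebraMap (Γ.R₀ A) (Γ.R₀₁ A)) := hz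
  obtain ⟨⟨⟨a, ha⟩, ⟨_, m, rfl⟩⟩, h⟩ :=
    (IsLocalization.mem_map_algebraMap_iff (Submonoid.powers (Γ.xA A)) (Γ.R₀₁ A)).mp hz'
  refine ⟨m, ?_⟩
  have h' : Γ.φ₀ A (z * (Γ.xA A) ^ m) = Γ.φ₀ A a := by rw [map_mul]; exact h
  rw [mul_comm, CurveAlg.φ₀_injective hΓ.out A h']
  exact ha

omit hΓ in
theorem map_φ₀_map_ρ₀ (f : A →ₐ[k] A') (I₀ : Ideal (Γ.R₀ A)) :
    (I₀.map (Γ.ρ₀ f)).map (Γ.φ₀ A') = (I₀.map (Γ.φ₀ A)).map (Γ.ρ₀₁ f) := by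
  change Ideal.map (Γ.φ₀ A').toRingHom (Ideal.map (Γ.ρ₀ f).toRingHom I₀)
    = Ideal.map (Γ.ρ₀₁ f).toRingHom (Ideal.map (Γ.φ₀ A).toRingHom I₀)
  rw [Ideal.map_map, Ideal.map_map]
  congr 1
  exact RingHom.ext fun a => (Γ.ρ₀₁_φ₀ f a).symm

omit hΓ in
theorem map_φ₁_map_ρ₁ (f : A →ₐ[k] A') (I₁ : Ideal (Γ.R₁ A)) :
    (I₁.map (Γ.ρ₁ f)).map (Γ.φ₁ A') = (I₁.map (Γ.φ₁ A)).map (Γ.ρ₀₁ f) := by
  change Ideal.map (Γ.φ₁ A').toRingHom (Ideal.map (Γ.ρ₁ f).toRingHom I₁)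
    = Ideal.map (Γ.ρ₀₁ f).toRingHom (Ideal.map (Γ.φ₁ A).toRingHom I₁)
  rw [Ideal.map_map, Ideal.map_map]
  congr 1
  exact RingHom.ext fun a => (Γ.ρ₀₁_φ₁ f a).symm

theorem other₁_map {g : ℕ} {b : Fin g → Γ.B₀} {I₀ : Ideal (Γ.R₀ A)} (h : IsBasisMod I₀ b)
    (f : A →ₐ[k] A') : Γ.other₁ (I₀.map (Γ.ρ₀ f)) = (Γ.other₁ I₀).map (Γ.ρ₁ f) := by
  unfold CurveAlg.other₁
  rw [map_φ₀_map_ρ₀]
  refine IdealAux.comap_map_eq (Γ.φ₁ A).toRingHom (Γ.φ₁ A').toRingHom (Γ.ρ₁ f).toRingHom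
    (Γ.ρ₀₁ f).toRingHom (Γ.ρ₀₁_φ₁ f) (Γ.yA A') exists_pow_mul_mem₁ (I₀.map (Γ.φ₀ A))
    (map_other₁ I₀) ?_
  have h1 := congrArg (Ideal.map (Γ.ρ₁ f)) (other₁_sup_span_yA h)
  rw [Ideal.map_sup, Ideal.map_span, Set.image_singleton, Γ.ρ₁_yA, Ideal.map_top] at h1
  exact h1

theorem other₀_map {g : ℕ} {b : Fin g → Γ.B₁} {I₁ : Ideal (Γ.R₁ A)} (h : IsBasisMod I₁ b)
    (f : A →ₐ[k] A') : Γ.other₀ (I₁.map (Γ.ρ₁ f)) = (Γ.other₀ I₁).map (Γ.ρ₀ f) := by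
  unfold CurveAlg.other₀
  rw [map_φ₁_map_ρ₁]
  refine IdealAux.comap_map_eq (Γ.φ₀ A).toRingHom (Γ.φ₀ A').toRingHom (Γ.ρ₀ f).toRingHom
    (Γ.ρ₀₁ f).toRingHom (Γ.ρ₀₁_φ₀ f) (Γ.xA A') exists_pow_mul_mem₀ (I₁.map (Γ.φ₁ A))
    (map_other₀ I₁).symm ?_
  have h1 := congrArg (Ideal.map (Γ.ρ₀ f)) (other₀_sup_span_xA h)
  rw [Ideal.map_sup, Ideal.map_span, Set.image_singleton, Γ.ρ₀_xA, Ideal.map_top] at h1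
  exact h1

/-- base change of ideal data -/
theorem nonempty_BC_ofIdeals (f : A →ₐ[k] A') {I₀ : Ideal (Γ.R₀ A)} {I₁ : Ideal (Γ.R₁ A)}
    (h : I₀.map (Γ.φ₀ A) = I₁.map (Γ.φ₁ A)) (h₀ : Module.Invertible (Γ.R₀ A) I₀)
    (h₁ : Module.Invertible (Γ.R₁ A) I₁) {I₀' : Ideal (Γ.R₀ A')} {I₁' : Ideal (Γ.R₁ A')}
    (h' : I₀'.map (Γ.φ₀ A') = I₁'.map (Γ.φ₁ A')) (h₀' : Module.Invertible (Γ.R₀ A') I₀')
    (h₁' : Module.Invertible (Γ.R₁ A') I₁') (e₀ : I₀' = I₀.map (Γ.ρ₀ f))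
    (e₁ : I₁' = I₁.map (Γ.ρ₁ f)) :
    Nonempty (LB.BC f (LB.ofIdeals hΓ.out I₀ I₁ h h₀ h₁) (LB.ofIdeals hΓ.out I₀' I₁' h' h₀' h₁')) := by
  have m₀ : ∀ z : I₀, Γ.ρ₀ f z.1 ∈ I₀' := fun z => e₀ ▸ Ideal.mem_map_of_mem _ z.2
  have m₁ : ∀ z : I₁, Γ.ρ₁ f z.1 ∈ I₁' := fun z => e₁ ▸ Ideal.mem_map_of_mem _ z.2
  have m₀₁ : ∀ z : (I₀.map (Γ.φ₀ A) : Ideal (Γ.R₀₁ A)), Γ.ρ₀₁ f z.1 ∈ I₀'.map (Γ.φ₀ A') := by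
    intro z
    rw [e₀, map_φ₀_map_ρ₀]
    exact Ideal.mem_map_of_mem _ z.2
  exact ⟨{
    b₀ := { toFun := fun z => (⟨Γ.ρ₀ f z.1, m₀ z⟩ : I₀')
            map_add' := fun a b => Subtype.ext (map_add (Γ.ρ₀ f) a.1 b.1)
            map_smul' := fun a b => Subtype.ext (map_mul (Γ.ρ₀ f) a b.1) }
    b₁ := { toFun := fun z => (⟨Γ.ρ₁ f z.1, m₁ z⟩ : I₁')
            map_add' := fun a b => Subtype.ext (map_add (Γ.ρ₁ f) a.1 b.1)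
            map_smul' := fun a b => Subtype.ext (map_mul (Γ.ρ₁ f) a b.1) }
    b₀₁ := { toFun := fun z => (⟨Γ.ρ₀₁ f z.1, m₀₁ z⟩ : (I₀'.map (Γ.φ₀ A') : Ideal (Γ.R₀₁ A')))
             map_add' := fun a b => Subtype.ext (map_add (Γ.ρ₀₁ f) a.1 b.1)
             map_smul' := fun a b => Subtype.ext (map_mul (Γ.ρ₀₁ f) a b.1) }
    comm₀ := fun n => Subtype.ext (Γ.ρ₀₁_φ₀ f n.1)
    comm₁ := fun n => Subtype.ext (Γ.ρ₀₁_φ₁ f n.1)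
    span₀ := IdealAux.span_range_map (Γ.ρ₀ f).toRingHom I₀ I₀' e₀ _ (fun _ => rfl)
    span₁ := IdealAux.span_range_map (Γ.ρ₁ f).toRingHom I₁ I₁' e₁ _ (fun _ => rfl) }⟩

theorem invertible₀_of_isBasisMod [IsAlgClosed k] {g : ℕ} {b : Fin g → Γ.B₀} {I₀ : Ideal (Γ.R₀ A)}
    (h : IsBasisMod I₀ b) : Module.Invertible (Γ.R₀ A) I₀ :=
  haveI := hΓ.out.finiteType₀
  haveI := hΓ.out.dedekind₀
  h.invertible Γ.x hΓ.out.finite₀ hΓ.out.transc₀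
theorem invertible₁_of_isBasisMod [IsAlgClosed k] {g : ℕ} {b : Fin g → Γ.B₁} {I₁ : Ideal (Γ.R₁ A)}
    (h : IsBasisMod I₁ b) : Module.Invertible (Γ.R₁ A) I₁ :=
  haveI := hΓ.out.finiteType₁
  haveI := hΓ.out.dedekind₁
  h.invertible Γ.y hΓ.out.finite₁ hΓ.out.transc₁

theorem negDiv₀_eq [IsAlgClosed k] {g : ℕ} {b : Fin g → Γ.B₀} {I₀ : Ideal (Γ.R₀ A)}
    (h : IsBasisMod I₀ b) : negDiv₀ I₀ = PicAlg.mk (LB.ofIdeals hΓ.out I₀ (Γ.other₁ I₀)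
      (map_other₁ I₀) (invertible₀_of_isBasisMod h) (invertible_other₁ h)) :=
  dif_pos ⟨invertible₀_of_isBasisMod h, invertible_other₁ h⟩
theorem negDiv₁_eq [IsAlgClosed k] {g : ℕ} {b : Fin g → Γ.B₁} {I₁ : Ideal (Γ.R₁ A)}
    (h : IsBasisMod I₁ b) : negDiv₁ I₁ = PicAlg.mk (LB.ofIdeals hΓ.out (Γ.other₀ I₁) I₁
      (map_other₀ I₁) (invertible_other₀ h) (invertible₁_of_isBasisMod h)) :=
  dif_pos ⟨invertible_other₀ h, invertible₁_of_isBasisMod h⟩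

theorem map_negDiv₀ [IsAlgClosed k] {g : ℕ} {b : Fin g → Γ.B₀} {I₀ : Ideal (Γ.R₀ A)}
    (h : IsBasisMod I₀ b) (f : A →ₐ[k] A') :
    PicAlg.map f (negDiv₀ I₀) = negDiv₀ (I₀.map (Γ.ρ₀ f)) := by
  have h' : IsBasisMod (I₀.map (Γ.ρ₀ f)) b := h.map f
  rw [negDiv₀_eq h, negDiv₀_eq h', PicAlg.map_mk_eq_iff]
  exact nonempty_BC_ofIdeals f _ _ _ _ _ _ rfl (other₁_map h f)
theorem map_negDiv₁ [IsAlgClosed k] {g : ℕ} {b : Fin g → Γ.B₁} {I₁ : Ideal (Γ.R₁ A)}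
    (h : IsBasisMod I₁ b) (f : A →ₐ[k] A') :
    PicAlg.map f (negDiv₁ I₁) = negDiv₁ (I₁.map (Γ.ρ₁ f)) := by
  have h' : IsBasisMod (I₁.map (Γ.ρ₁ f)) b := h.map f
  rw [negDiv₁_eq h, negDiv₁_eq h', PicAlg.map_mk_eq_iff]
  exact nonempty_BC_ofIdeals f _ _ _ _ _ _ (other₀_map h f) rfl

/-- an ideal datum is a subdatum of the trivial datum -/
noncomputable def LB.ofIdealsToUnit (I₀ : Ideal (Γ.R₀ A)) (I₁ : Ideal (Γ.R₁ A))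
    (h : I₀.map (Γ.φ₀ A) = I₁.map (Γ.φ₁ A)) (h₀ : Module.Invertible (Γ.R₀ A) I₀)
    (h₁ : Module.Invertible (Γ.R₁ A) I₁) : (LB.ofIdeals hΓ.out I₀ I₁ h h₀ h₁).ToUnit where
  j₀ := Submodule.subtype I₀
  j₁ := Submodule.subtype I₁
  j₀₁ := Submodule.subtype (I₀.map (Γ.φ₀ A))
  inj₀ := Subtype.val_injective
  inj₁ := Subtype.val_injective
  comm₀ := fun _ => rfl
  comm₁ := fun _ => rfl

/-- RR-lite: twisting by `O(-D)` lowers the degree by `deg D`. -/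
theorem deg_mul_negDiv₀ [IsAlgClosed k] {K : Type u} [Field K] [Algebra k K] {g : ℕ}
    {b : Fin g → Γ.B₀} {I₀ : Ideal (Γ.R₀ K)} (h : IsBasisMod I₀ b) (n : PicAlg Γ K) :
    PicAlg.deg (n * negDiv₀ I₀) = PicAlg.deg n - g := by
  obtain ⟨𝒩, rfl⟩ := PicAlg.exists_rep n
  rw [negDiv₀_eq h]
  obtain ⟨t⟩ := PicAlg.mulAux_spec 𝒩 (LB.ofIdeals hΓ.out I₀ (Γ.other₁ I₀)
      (map_other₁ I₀) (invertible₀_of_isBasisMod h) (invertible_other₁ h))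
  let J := LB.ofIdealsToUnit I₀ (Γ.other₁ I₀) (map_other₁ I₀)
    (invertible₀_of_isBasisMod h) (invertible_other₁ h)
  have e₀ : (LinearMap.range J.j₀ : Ideal (Γ.R₀ K)) = I₀ := Submodule.range_subtype I₀
  have e₁ : (LinearMap.range J.j₁ : Ideal (Γ.R₁ K)) = Γ.other₁ I₀ := Submodule.range_subtype _
  haveI : Module.Finite K (Γ.R₀ K ⧸ (LinearMap.range J.j₀ : Ideal (Γ.R₀ K))) := by
    rw [e₀]; exact IdealAux.finite_quotient h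
  have key := t.chi_eq₀ hΓ.out J (by rw [e₁]; exact other₁_sup_span_yA h)
  have e₂ : Module.finrank K (Γ.R₀ K ⧸ (LinearMap.range J.j₀ : Ideal (Γ.R₀ K))) = g := by
    rw [e₀, h.quotEquiv.finrank_eq, Module.finrank_fin_fun]
  rw [e₂] at key
  change (PicAlg.mulAux 𝒩 _).chi - (1 - (Γ.genus : ℤ)) = 𝒩.chi - (1 - (Γ.genus : ℤ)) - g
  rw [key]
  ring
theorem deg_mul_negDiv₁ [IsAlgClosed k] {K : Type u} [Field K] [Algebra k K] {g : ℕ}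
    {b : Fin g → Γ.B₁} {I₁ : Ideal (Γ.R₁ K)} (h : IsBasisMod I₁ b) (n : PicAlg Γ K) :
    PicAlg.deg (n * negDiv₁ I₁) = PicAlg.deg n - g := by
  obtain ⟨𝒩, rfl⟩ := PicAlg.exists_rep n
  rw [negDiv₁_eq h]
  obtain ⟨t⟩ := PicAlg.mulAux_spec 𝒩 (LB.ofIdeals hΓ.out (Γ.other₀ I₁) I₁
      (map_other₀ I₁) (invertible_other₀ h) (invertible₁_of_isBasisMod h))
  let J := LB.ofIdealsToUnit (Γ.other₀ I₁) I₁ (map_other₀ I₁)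
    (invertible_other₀ h) (invertible₁_of_isBasisMod h)
  have e₁ : (LinearMap.range J.j₁ : Ideal (Γ.R₁ K)) = I₁ := Submodule.range_subtype I₁
  have e₀ : (LinearMap.range J.j₀ : Ideal (Γ.R₀ K)) = Γ.other₀ I₁ := Submodule.range_subtype _
  haveI : Module.Finite K (Γ.R₁ K ⧸ (LinearMap.range J.j₁ : Ideal (Γ.R₁ K))) := by
    rw [e₁]; exact IdealAux.finite_quotient h
  have key := t.chi_eq₁ hΓ.out J (by rw [e₀]; exact other₀_sup_span_xA h)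
  have e₂ : Module.finrank K (Γ.R₁ K ⧸ (LinearMap.range J.j₁ : Ideal (Γ.R₁ K))) = g := by
    rw [e₁, h.quotEquiv.finrank_eq, Module.finrank_fin_fun]
  rw [e₂] at key
  change (PicAlg.mulAux 𝒩 _).chi - (1 - (Γ.genus : ℤ)) = 𝒩.chi - (1 - (Γ.genus : ℤ)) - g
  rw [key]
  ring

/-! ### zero ideals of sections -/

/-- the ideal of zeros of `s₀ ∈ N₀` : all `λ(s₀)`, `λ ∈ N₀^∨`. -/
noncomputable def LB.zero₀ (𝒩 : LB Γ A) (s₀ : 𝒩.N₀) : Ideal (Γ.R₀ A) :=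
  LinearMap.range (Module.Dual.eval (Γ.R₀ A) 𝒩.N₀ s₀)

omit hΓ in
theorem LB.r₀_eq_r₁_of_H0 (𝒩 : LB Γ A) (s : 𝒩.H0) : 𝒩.r₀ s.1.1 = 𝒩.r₁ s.1.2 := by
  have h : s.1 ∈ LinearMap.ker (𝒩.r₀A.coprod (-𝒩.r₁A)) := s.2
  rw [LinearMap.mem_ker, LinearMap.coprod_apply, LinearMap.neg_apply, ← sub_eq_add_neg,
    sub_eq_zero] at h
  exact h

/-- on the chart `U₁` the zero ideal of a section generating at infinity is `other₁`. -/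
theorem LB.zero₁_eq_other₁ (𝒩 : LB Γ A) (s : 𝒩.H0)
    (h₁ : Submodule.span (Γ.R₁ A) {s.1.2} ⊔ (Ideal.span {Γ.yA A} • ⊤ : Submodule (Γ.R₁ A) 𝒩.N₁) = ⊤) :
    SecAux.zero (Γ.R₁ A) s.1.2 = Γ.other₁ (𝒩.zero₀ s.1.1) := by
  have hJ := SecAux.zero_sup_span s.1.2 (Γ.yA A) h₁
  have e0 : (𝒩.zero₀ s.1.1).map (Γ.φ₀ A) = SecAux.zero (Γ.R₀₁ A) (𝒩.r₀ s.1.1) :=
    SecAux.zero_map_of_isLoc (LB.isLoc₀ hΓ.out 𝒩) (CurveAlg.φ₀_injective hΓ.out A) s.1.1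
  have e1 : (SecAux.zero (Γ.R₁ A) s.1.2).map (Γ.φ₁ A) = SecAux.zero (Γ.R₀₁ A) (𝒩.r₁ s.1.2) :=
    SecAux.zero_map_of_isLoc (LB.isLoc₁ hΓ.out 𝒩) (CurveAlg.φ₁_injective hΓ.out A) s.1.2
  rw [CurveAlg.other₁, e0, 𝒩.r₀_eq_r₁_of_H0 s, ← e1]
  exact (SecAux.comap_map_eq (φ := (Γ.φ₁ A).toRingHom) (LB.isLoc₁ hΓ.out 𝒩).ring
    (CurveAlg.φ₁_injective hΓ.out A) _ hJ).symm

/-- Sec1: a section whose divisor is finite over `A`, contained in `U₀ × Spec A`. -/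
theorem mk_mul_negDiv₀_zero₀ [IsAlgClosed k] {g : ℕ} {b : Fin g → Γ.B₀} (𝒩 : LB Γ A) (s : 𝒩.H0)
    (h : IsBasisMod (𝒩.zero₀ s.1.1) b)
    (h₁ : Submodule.span (Γ.R₁ A) {s.1.2} ⊔ (Ideal.span {Γ.yA A} • ⊤ : Submodule (Γ.R₁ A) 𝒩.N₁) = ⊤) :
    PicAlg.mk 𝒩 * negDiv₀ (𝒩.zero₀ s.1.1) = 1 := by
  have hI₀ : Module.Invertible (Γ.R₀ A) (𝒩.zero₀ s.1.1) :=
    haveI := hΓ.out.finiteType₀
    haveI := hΓ.out.dedekind₀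
    h.invertible Γ.x hΓ.out.finite₀ hΓ.out.transc₀
  have hI₁ : Module.Invertible (Γ.R₁ A) (Γ.other₁ (𝒩.zero₀ s.1.1)) := invertible_other₁ h
  rw [negDiv₀, dif_pos ⟨hI₀, hI₁⟩]
  set 𝒥 := LB.ofIdeals hΓ.out (𝒩.zero₀ s.1.1) (Γ.other₁ (𝒩.zero₀ s.1.1))
    (map_other₁ (𝒩.zero₀ s.1.1)) hI₀ hI₁ with h𝒥
  have key : (LB.dual hΓ.out 𝒩).Equiv 𝒥 := by
    let e₀ : (LB.dual hΓ.out 𝒩).N₀ ≃ₗ[Γ.R₀ A] 𝒥.N₀ :=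
      SecAux.evalEquiv s.1.1 (𝒩.zero₀ s.1.1) rfl
    let e₁ : (LB.dual hΓ.out 𝒩).N₁ ≃ₗ[Γ.R₁ A] 𝒥.N₁ :=
      SecAux.evalEquiv s.1.2 (Γ.other₁ (𝒩.zero₀ s.1.1)) (𝒩.zero₁_eq_other₁ s h₁)
    obtain ⟨e₀₁, he₀₁⟩ := LB.exists_e₀₁ hΓ.out e₀
    let sub : 𝒥.N₀₁ →ₗ[Γ.R₀₁ A] Γ.R₀₁ A := Submodule.subtype ((𝒩.zero₀ s.1.1).map (Γ.φ₀ A))
    have hev : (sub.comp (e₀₁ : (LB.dual hΓ.out 𝒩).N₀₁ →ₗ[Γ.R₀₁ A] 𝒥.N₀₁)) =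
        Module.Dual.eval (Γ.R₀₁ A) 𝒩.N₀₁ (𝒩.r₀ s.1.1) :=
      (LB.isLoc₀ hΓ.out (LB.dual hΓ.out 𝒩)).ext _ _ (fun l => by
        rw [LinearMap.comp_apply, LinearEquiv.coe_coe, he₀₁]
        exact ((LB.isLoc₀ hΓ.out 𝒩).dualMap_apply l s.1.1).symm)
    refine ⟨{ e₀ := e₀, e₁ := e₁, e₀₁ := e₀₁, comm₀ := he₀₁, comm₁ := fun l => ?_ }⟩
    apply Subtype.ext
    have h2 := LinearMap.congr_fun hev ((LB.dual hΓ.out 𝒩).r₁ l)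
    rw [LinearMap.comp_apply, LinearEquiv.coe_coe] at h2
    refine h2.trans ?_
    rw [𝒩.r₀_eq_r₁_of_H0 s]
    exact (LB.isLoc₁ hΓ.out 𝒩).dualMap_apply l s.1.2
  rw [← PicAlg.mk_eq_mk.mpr key, PicAlg.one_def]
  exact PicAlg.mk_mul_mk_eq_iff.mpr ⟨LB.dualTens hΓ.out 𝒩⟩

/-- Sec2: the canonical section of `O(D)`. -/
theorem exists_section_of_isBasisMod [IsAlgClosed k] {g : ℕ} {b : Fin g → Γ.B₀} {I₀ : Ideal (Γ.R₀ A)}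
    (h : IsBasisMod I₀ b) : ∃ (𝒩 : LB Γ A) (s : 𝒩.H0), PicAlg.mk 𝒩 = (negDiv₀ I₀)⁻¹ ∧
      𝒩.zero₀ s.1.1 = I₀ ∧
      Submodule.span (Γ.R₁ A) {s.1.2} ⊔ (Ideal.span {Γ.yA A} • ⊤ : Submodule (Γ.R₁ A) 𝒩.N₁) = ⊤ := by
  have hI₀ : Module.Invertible (Γ.R₀ A) I₀ :=
    haveI := hΓ.out.finiteType₀
    haveI := hΓ.out.dedekind₀
    h.invertible Γ.x hΓ.out.finite₀ hΓ.out.transc₀
  have hI₁ : Module.Invertible (Γ.R₁ A) (Γ.other₁ I₀) := invertible_other₁ h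
  set 𝒥 := LB.ofIdeals hΓ.out I₀ (Γ.other₁ I₀) (map_other₁ I₀) hI₀ hI₁ with h𝒥
  let s₀ : (LB.dual hΓ.out 𝒥).N₀ := Submodule.subtype I₀
  let s₁ : (LB.dual hΓ.out 𝒥).N₁ := Submodule.subtype (Γ.other₁ I₀)
  have hr₀ : (LB.dual hΓ.out 𝒥).r₀ s₀ = Submodule.subtype (I₀.map (Γ.φ₀ A)) :=
    (LB.isLoc₀ hΓ.out 𝒥).ext _ _ (fun z => (LB.isLoc₀ hΓ.out 𝒥).dualMap_apply s₀ z)
  have hr₁ : (LB.dual hΓ.out 𝒥).r₁ s₁ = Submodule.subtype (I₀.map (Γ.φ₀ A)) :=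
    (LB.isLoc₁ hΓ.out 𝒥).ext _ _ (fun z => (LB.isLoc₁ hΓ.out 𝒥).dualMap_apply s₁ z)
  have hs : (s₀, s₁) ∈ (LB.dual hΓ.out 𝒥).H0 := by
    rw [LB.H0, LinearMap.mem_ker, LinearMap.coprod_apply, LinearMap.neg_apply, ← sub_eq_add_neg,
      sub_eq_zero]
    exact hr₀.trans hr₁.symm
  refine ⟨LB.dual hΓ.out 𝒥, ⟨(s₀, s₁), hs⟩, ?_, ?_, ?_⟩
  · rw [negDiv₀, dif_pos ⟨hI₀, hI₁⟩]
    apply eq_inv_of_mul_eq_one_right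
    rw [PicAlg.one_def]
    exact PicAlg.mk_mul_mk_eq_iff.mpr ⟨LB.dualTens hΓ.out 𝒥⟩
  · exact SecAux.zero_subtype I₀
  · exact SecAux.span_subtype_sup (Γ.other₁ I₀) (Γ.yA A) (other₁_sup_span_yA h)

/-- zero ideals are compatible with isomorphisms, units and base change -/
theorem LB.Iso.zero₀ {𝒩 𝒩' : LB Γ A} (e : LB.Iso 𝒩 𝒩') (s₀ : 𝒩.N₀) :
    𝒩'.zero₀ (e.e₀ s₀) = 𝒩.zero₀ s₀ := SecAux.zero_equiv e.e₀ s₀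
theorem LB.zero₀_smul_unit (𝒩 : LB Γ A) (s₀ : 𝒩.N₀) (u : (Γ.R₀ A)ˣ) :
    𝒩.zero₀ ((u : Γ.R₀ A) • s₀) = 𝒩.zero₀ s₀ := SecAux.zero_smul_unit s₀ u
theorem LB.BC.zero₀ {f : A →ₐ[k] A'} {𝒩 : LB Γ A} {𝒩' : LB Γ A'} (h : LB.BC f 𝒩 𝒩') (s₀ : 𝒩.N₀) :
    𝒩'.zero₀ (h.b₀ s₀) = (𝒩.zero₀ s₀).map (Γ.ρ₀ f) := SecAux.zero_map_of_span h.b₀ h.span₀ s₀

end Fermat.Agent.S25
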