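import Fermat.Agent.S25.H.Points

/-! # S25 / H5a : the class of the fibre at infinity, vanishing of `H¹` for large twists -/
set_option autoImplicit false
universe u
open TensorProduct Polynomial

namespace Fermat.Agent.S25

namespace InftyAux

variable {k : Type u} [Field k] {B : Type u} [CommRing B] [Algebra k B]

/-- `B/yB` is finite dimensional when `B` is finite over `k[y]`. -/
theorem finite_quotient_span (y : B) (hfin : (Polynomial.aeval (R := k) y).toRingHom.Finite) :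
    Module.Finite k (B ⧸ Ideal.span {y}) := by
  classical
  let : Algebra k[X] B := (Polynomial.aeval (R := k) y).toRingHom.toAlgebra
  have hfin' : Module.Finite k[X] B := hfin
  obtain ⟨S, hS⟩ := hfin'.fg_top
  refine ⟨⟨S.image (Ideal.Quotient.mk (Ideal.span {y})), ?_⟩⟩
  rw [eq_top_iff]
  rintro v -
  obtain ⟨z, rfl⟩ := Ideal.Quotient.mk_surjective v
  have hz : z ∈ Submodule.span k[X] (S : Set B) := by rw [hS]; trivial
  induction hz using Submodule.span_induction with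
  | mem z hz =>
    apply Submodule.subset_span
    simp only [Finset.coe_image]
    exact ⟨z, hz, rfl⟩
  | zero => simp
  | add a b _ _ ha hb => rw [map_add]; exact add_mem ha hb
  | smul p z _ hz =>
    have h1 : p • z = Polynomial.aeval y p * z := rfl
    have h2 : Ideal.Quotient.mk (Ideal.span {y}) (Polynomial.aeval y p) =
        algebraMap k _ (p.coeff 0) := by
      obtain ⟨q, hq⟩ := Polynomial.X_dvd_sub_C (p := p)
      have h3 : p = C (p.coeff 0) + X * q := by rw [← hq]; ring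
      conv_lhs => rw [h3]
      rw [map_add, map_mul, aeval_X, aeval_C, map_add, map_mul]
      have : Ideal.Quotient.mk (Ideal.span {y}) y = 0 :=
        Ideal.Quotient.eq_zero_iff_mem.mpr (Ideal.mem_span_singleton_self y)
      rw [this, zero_mul, add_zero]
      rfl
    rw [h1, map_mul, h2, ← Algebra.smul_def]
    exact Submodule.smul_mem _ _ hz

/-- `y` is not a unit. -/
theorem not_isUnit_of_transcendental [Nontrivial B] (y : B)
    (hfin : (Polynomial.aeval (R := k) y).toRingHom.Finite) (htr : Transcendental k y) :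
    ¬ IsUnit y := by
  let : Algebra k[X] B := (Polynomial.aeval (R := k) y).toRingHom.toAlgebra
  have hfin' : Module.Finite k[X] B := hfin
  have hint : Algebra.IsIntegral k[X] B := inferInstance
  have hinj : Function.Injective (algebraMap k[X] B) :=
    transcendental_iff_injective.mp htr
  have hprime : (Ideal.span {(X : k[X])}).IsPrime := by
    rw [Ideal.span_singleton_prime X_ne_zero]; exact prime_X
  obtain ⟨Q, -, hQ, hQc⟩ := Ideal.exists_ideal_over_prime_of_isIntegral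
    (Ideal.span {(X : k[X])}) (⊥ : Ideal B) (by
      rw [← RingHom.ker_eq_comap_bot, (RingHom.injective_iff_ker_eq_bot _).mp hinj]
      exact bot_le)
  intro hu
  apply hQ.ne_top
  apply Ideal.eq_top_of_isUnit_mem _ _ hu
  have : (X : k[X]) ∈ Q.comap (algebraMap k[X] B) := by
    rw [hQc]; exact Ideal.mem_span_singleton_self _
  have h2 : algebraMap k[X] B X = y := by
    show Polynomial.aeval y X = y
    simp
  rw [Ideal.mem_comap, h2] at this
  exact this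

theorem exists_isBasisMod_span [Nontrivial B] (y : B)
    (hfin : (Polynomial.aeval (R := k) y).toRingHom.Finite) (htr : Transcendental k y) :
    ∃ (d : ℕ) (b : Fin d → B), 0 < d ∧ ∀ (A : Type u) [CommRing A] [Algebra k A],
      IsBasisMod (Ideal.span {(1 : A) ⊗ₜ[k] y}) b := by
  classical
  have hV := finite_quotient_span y hfin
  have hnt : Nontrivial (B ⧸ Ideal.span {y}) := by
    rw [Ideal.Quotient.nontrivial_iff, Ne, Ideal.span_singleton_eq_top]
    exact not_isUnit_of_transcendental y hfin htr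
  let bas := Module.finBasis k (B ⧸ Ideal.span {y})
  let d := Module.finrank k (B ⧸ Ideal.span {y})
  let b : Fin d → B := fun i => Quotient.out (bas i)
  have hb : ∀ i, Ideal.Quotient.mk (Ideal.span {y}) (b i) = bas i := fun i =>
    Quotient.out_eq _
  let π₀ : B →ₗ[k] (Fin d → k) :=
    bas.equivFun.toLinearMap ∘ₗ (Ideal.Quotient.mkₐ k (Ideal.span {y})).toLinearMap
  have hπ₀b : ∀ i, π₀ (b i) = Pi.single i 1 := by
    intro i
    show bas.equivFun (Ideal.Quotient.mk _ (b i)) = _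
    rw [hb]
    ext j
    rw [Module.Basis.equivFun_self]
    by_cases h : i = j
    · subst h; simp
    · simp [h]
  have hπ₀y : ∀ β, π₀ (β * y) = 0 := by
    intro β
    show bas.equivFun (Ideal.Quotient.mk _ (β * y)) = _
    have : Ideal.Quotient.mk (Ideal.span {y}) (β * y) = 0 :=
      Ideal.Quotient.eq_zero_iff_mem.mpr (Ideal.mul_mem_left _ _ (Ideal.mem_span_singleton_self y))
    rw [this, map_zero]
  have hdec : ∀ β, ∃ β', β - ∑ i, π₀ β i • b i = β' * y := by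
    intro β
    have : β - ∑ i, π₀ β i • b i ∈ Ideal.span {y} := by
      rw [← Ideal.Quotient.eq_zero_iff_mem, map_sub, sub_eq_zero, map_sum]
      have h1 : ∀ i, Ideal.Quotient.mk (Ideal.span {y}) (π₀ β i • b i) = π₀ β i • bas i := by
        intro i
        rw [← hb i]
        exact map_smul (Ideal.Quotient.mkₐ k (Ideal.span {y})) _ _
      simp only [h1]
      exact (bas.sum_equivFun _).symm
    obtain ⟨β', h'⟩ := Ideal.mem_span_singleton'.mp this
    exact ⟨β', h'.symm⟩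
  refine ⟨d, b, Module.finrank_pos, fun A _ _ => ?_⟩
  let π₀' : B →ₗ[k] (Fin d → A) :=
    { toFun := fun β l => algebraMap k A (π₀ β l)
      map_add' := fun a b => by ext l; simp
      map_smul' := fun c a => by
        ext l
        simp only [map_smul, Pi.smul_apply, smul_eq_mul, map_mul, RingHom.id_apply]
        rw [Algebra.smul_def] }
  let π : A ⊗[k] B →ₗ[A] (Fin d → A) := LinearMap.liftBaseChange A π₀'
  have hπ : ∀ (a : A) (β : B), π (a ⊗ₜ β) = a • π₀' β := fun a β =>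
    LinearMap.liftBaseChange_tmul _ _ _ _
  apply IsBasisMod.of_linearMap π
  · intro i
    rw [hπ, one_smul]
    ext l
    show algebraMap k A (π₀ (b i) l) = _
    rw [hπ₀b]
    by_cases h : l = i
    · subst h; simp
    · simp [Pi.single_eq_of_ne h]
  · intro z
    constructor
    · intro hz
      obtain ⟨w, rfl⟩ := Ideal.mem_span_singleton'.mp hz
      induction w using TensorProduct.induction_on with
      | zero => simp
      | tmul a β =>
        rw [Algebra.TensorProduct.tmul_mul_tmul, hπ]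
        have : π₀' (β * y) = 0 := by
          ext l
          show algebraMap k A (π₀ (β * y) l) = _
          rw [hπ₀y]; simp
        rw [this, smul_zero]
      | add a b ha hb => rw [add_mul, map_add, ha (Ideal.mul_mem_left _ _ (Ideal.mem_span_singleton_self _)), hb (Ideal.mul_mem_left _ _ (Ideal.mem_span_singleton_self _)), add_zero]
    · intro hz
      have key : ∀ z : A ⊗[k] B, z - ∑ i, π z i ⊗ₜ[k] b i ∈ Ideal.span {(1 : A) ⊗ₜ[k] y} := by
        intro z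
        induction z using TensorProduct.induction_on with
        | zero => simp
        | tmul a β =>
          obtain ⟨β', hβ'⟩ := hdec β
          have h1 : a ⊗ₜ[k] β - ∑ i, π (a ⊗ₜ β) i ⊗ₜ[k] b i = (a ⊗ₜ[k] β') * ((1 : A) ⊗ₜ[k] y) := by
            rw [Algebra.TensorProduct.tmul_mul_tmul, mul_one, ← hβ', TensorProduct.tmul_sub,
              TensorProduct.tmul_sum]
            congr 1
            apply Finset.sum_congr rfl
            intro i _
            rw [hπ]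
            show (a * algebraMap k A (π₀ β i)) ⊗ₜ[k] b i = _
            rw [TensorProduct.tmul_smul, TensorProduct.smul_tmul', Algebra.smul_def, mul_comm]
          rw [h1]
          exact Ideal.mul_mem_left _ _ (Ideal.mem_span_singleton_self _)
        | add a a' ha hb =>
          have : a + a' - ∑ i, π (a + a') i ⊗ₜ[k] b i =
              (a - ∑ i, π a i ⊗ₜ[k] b i) + (a' - ∑ i, π a' i ⊗ₜ[k] b i) := by
            simp only [map_add, Pi.add_apply, TensorProduct.add_tmul, Finset.sum_add_distrib]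
            ring
          rw [this]
          exact add_mem ha hb
      have := key z
      simpa [hz] using this

end InftyAux

namespace InftyAux

/-- division by a nonzerodivisor on the principal ideal it generates -/
noncomputable def divSpan {R : Type u} [CommRing R] (y : R) (hy : y ∈ nonZeroDivisors R) :
    ↥(Ideal.span {y}) →ₗ[R] R where
  toFun a := (Ideal.mem_span_singleton'.mp a.2).choose
  map_add' a b := by
    rw [← mul_cancel_right_mem_nonZeroDivisors hy, add_mul,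
      (Ideal.mem_span_singleton'.mp a.2).choose_spec, (Ideal.mem_span_singleton'.mp b.2).choose_spec,
      (Ideal.mem_span_singleton'.mp (a + b).2).choose_spec]
    rfl
  map_smul' c a := by
    rw [← mul_cancel_right_mem_nonZeroDivisors hy, RingHom.id_apply, smul_eq_mul, mul_assoc,
      (Ideal.mem_span_singleton'.mp a.2).choose_spec,
      (Ideal.mem_span_singleton'.mp (c • a).2).choose_spec]
    rfl

theorem divSpan_mul {R : Type u} [CommRing R] (y : R) (hy : y ∈ nonZeroDivisors R)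
    (a : ↥(Ideal.span {y})) : divSpan y hy a * y = a :=
  (Ideal.mem_span_singleton'.mp a.2).choose_spec

theorem divSpan_self {R : Type u} [CommRing R] (y : R) (hy : y ∈ nonZeroDivisors R) :
    divSpan y hy ⟨y, Ideal.mem_span_singleton_self y⟩ = 1 := by
  rw [← mul_cancel_right_mem_nonZeroDivisors hy, divSpan_mul, one_mul]

variable {k : Type u} [Field k] {Γ : CurveAlg k} {A : Type u} [CommRing A] [Algebra k A]

/-- `𝒩(∞)`: same modules, `r₁` multiplied by `x`. -/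
@[reducible] noncomputable def twist (hΓ : Γ.IsGood) (𝒩 : LB Γ A) : LB Γ A where
  N₀ := 𝒩.N₀
  N₁ := 𝒩.N₁
  N₀₁ := 𝒩.N₀₁
  r₀ := 𝒩.r₀
  r₁ := (Γ.φ₀ A (Γ.xA A)) • 𝒩.r₁
  inv₀ := 𝒩.inv₀
  inv₁ := 𝒩.inv₁
  inj₀ := 𝒩.inj₀
  inj₁ := by
    intro a b hab
    apply 𝒩.inj₁
    have h := congrArg (fun z => (Γ.φ₁ A (Γ.yA A)) • z) hab
    simp only [LinearMap.smul_apply, smul_smul] at h
    rw [mul_comm, CurveAlg.φ₀_xA_mul_φ₁_yA hΓ A, one_smul, one_smul] at h
    exact h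
  span₀ := 𝒩.span₀
  span₁ := by
    intro n
    obtain ⟨m, n₁, h⟩ := 𝒩.span₁ n
    refine ⟨m, Γ.yA A • n₁, ?_⟩
    rw [LinearMap.smul_apply, 𝒩.r₁.map_smulₛₗ, smul_smul]
    show _ = (Γ.φ₀ A (Γ.xA A) * Γ.φ₁ A (Γ.yA A)) • _
    rw [CurveAlg.φ₀_xA_mul_φ₁_yA hΓ A, one_smul, h]

end InftyAux

variable {k : Type u} [Field k] {Γ : CurveAlg k} [hΓ : Fact Γ.IsGood]
variable {A A' : Type u} [CommRing A] [Algebra k A] [CommRing A'] [Algebra k A']

/-- the structure map `k → A` -/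
noncomputable abbrev kmap (k : Type u) [Field k] (A : Type u) [CommRing A] [Algebra k A] : k →ₐ[k] A :=
  Algebra.ofId k A

/-- the class of `O(∞)`, `∞` = the divisor `y = 0`. -/
noncomputable def infty (Γ : CurveAlg k) [Fact Γ.IsGood] (A : Type u) [CommRing A] [Algebra k A] :
    PicAlg Γ A := (negDiv₁ (Ideal.span {Γ.yA A}))⁻¹

theorem exists_isBasisMod_span_yA : ∃ (d : ℕ) (b : Fin d → Γ.B₁), 0 < d ∧
    ∀ (A : Type u) [CommRing A] [Algebra k A], IsBasisMod (Ideal.span {Γ.yA A}) b :=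
  haveI := hΓ.out.isDomain₁
  InftyAux.exists_isBasisMod_span Γ.y hΓ.out.finite₁ hΓ.out.transc₁

variable [IsAlgClosed k]

theorem map_infty (f : A →ₐ[k] A') : PicAlg.map f (infty Γ A) = infty Γ A' := by
  obtain ⟨d, b, -, hb⟩ := exists_isBasisMod_span_yA (Γ := Γ)
  unfold infty
  rw [map_inv, map_negDiv₁ (hb A) f, Ideal.map_span, Set.image_singleton]
  have : Γ.ρ₁ f (Γ.yA A) = Γ.yA A' := by
    simp [CurveAlg.ρ₁, CurveAlg.yA]
  rw [this]

theorem exists_deg_mul_infty : ∃ d : ℕ, 0 < d ∧ ∀ (K : Type u) [Field K] [Algebra k K]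
    (n : PicAlg Γ K), PicAlg.deg (n * infty Γ K) = PicAlg.deg n + d := by
  obtain ⟨d, b, hd, hb⟩ := exists_isBasisMod_span_yA (Γ := Γ)
  refine ⟨d, hd, fun K _ _ n => ?_⟩
  have h := deg_mul_negDiv₁ (hb K) (n * infty Γ K)
  have h2 : n * infty Γ K * negDiv₁ (Ideal.span {Γ.yA K}) = n := by
    unfold infty
    rw [mul_assoc, inv_mul_cancel, mul_one]
  rw [h2] at h
  linarith

namespace InftyAux

omit [IsAlgClosed k] in
theorem one_mem_other₀_span_yA : (1 : Γ.R₀ A) ∈ Γ.other₀ (Ideal.span {Γ.yA A}) := by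
  unfold CurveAlg.other₀
  rw [Ideal.mem_comap, map_one, ← CurveAlg.φ₀_xA_mul_φ₁_yA hΓ.out A]
  exact Ideal.mul_mem_left _ _ (Ideal.mem_map_of_mem _ (Ideal.mem_span_singleton_self _))

/-- `𝒩(∞) ⊗ O(-∞) = 𝒩`. -/
noncomputable def twistTens (𝒩 : LB Γ A)
    (h₀ : Module.Invertible (Γ.R₀ A) (Γ.other₀ (Ideal.span {Γ.yA A})))
    (h₁ : Module.Invertible (Γ.R₁ A) (Ideal.span {Γ.yA A})) :
    LB.Tens (twist hΓ.out 𝒩) (LB.ofIdeals hΓ.out (Γ.other₀ (Ideal.span {Γ.yA A}))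
      (Ideal.span {Γ.yA A}) (map_other₀ _) h₀ h₁) 𝒩 where
  m₀ := (LinearMap.lsmul (Γ.R₀ A) 𝒩.N₀).flip.compl₂ (Submodule.subtype _)
  m₁ := (LinearMap.lsmul (Γ.R₁ A) 𝒩.N₁).flip.compl₂
    (divSpan (Γ.yA A) (CurveAlg.yA_mem_nonZeroDivisors hΓ.out A))
  m₀₁ := (LinearMap.lsmul (Γ.R₀₁ A) 𝒩.N₀₁).flip.compl₂ (Submodule.subtype _)
  comm₀ := by
    intro n a
    show (Γ.φ₀ A a.1) • 𝒩.r₀ n = 𝒩.r₀ (a.1 • n)
    rw [𝒩.r₀.map_smulₛₗ]
    rfl
  comm₁ := by
    intro n a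
    show (Γ.φ₁ A a.1) • ((Γ.φ₀ A (Γ.xA A)) • 𝒩.r₁ n) =
      𝒩.r₁ (divSpan (Γ.yA A) (CurveAlg.yA_mem_nonZeroDivisors hΓ.out A) a • n)
    rw [𝒩.r₁.map_smulₛₗ, smul_smul]
    congr 1
    conv_lhs => rw [← divSpan_mul (Γ.yA A) (CurveAlg.yA_mem_nonZeroDivisors hΓ.out A) a]
    rw [map_mul, mul_assoc, mul_comm (Γ.φ₁ A (Γ.yA A)), CurveAlg.φ₀_xA_mul_φ₁_yA hΓ.out A, mul_one]
    rfl
  span₀ := by
    rw [eq_top_iff]
    rintro n -
    apply Submodule.subset_span
    refine ⟨n, ⟨1, one_mem_other₀_span_yA⟩, ?_⟩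
    show (1 : Γ.R₀ A) • n = n
    rw [one_smul]
  span₁ := by
    rw [eq_top_iff]
    rintro n -
    apply Submodule.subset_span
    refine ⟨n, ⟨Γ.yA A, Ideal.mem_span_singleton_self _⟩, ?_⟩
    show divSpan (Γ.yA A) (CurveAlg.yA_mem_nonZeroDivisors hΓ.out A) _ • n = n
    rw [divSpan_self, one_smul]

theorem mk_twist (𝒩 : LB Γ A) :
    PicAlg.mk (twist hΓ.out 𝒩) = PicAlg.mk 𝒩 * infty Γ A := by
  obtain ⟨d, b, -, hb⟩ := exists_isBasisMod_span_yA (Γ := Γ)
  have h₀ : Module.Invertible (Γ.R₀ A) (Γ.other₀ (Ideal.span {Γ.yA A})) := invertible_other₀ (hb A)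
  have h₁ : Module.Invertible (Γ.R₁ A) (Ideal.span {Γ.yA A}) := invertible₁_of_isBasisMod (hb A)
  have h := PicAlg.mk_mul_mk_eq_iff.mpr ⟨twistTens 𝒩 h₀ h₁⟩
  have h2 : negDiv₁ (Ideal.span {Γ.yA A}) = PicAlg.mk (LB.ofIdeals hΓ.out
      (Γ.other₀ (Ideal.span {Γ.yA A})) (Ideal.span {Γ.yA A}) (map_other₀ _) h₀ h₁) := by
    rw [negDiv₁, dif_pos ⟨h₀, h₁⟩]
  unfold infty
  rw [h2, ← h, mul_assoc, mul_inv_cancel, mul_one]

end InftyAux

/-- a representative of `n · O(j∞)`: same modules, `r₁` multiplied by `x^j`. -/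
theorem exists_rep_mul_infty_pow (𝒩 : LB Γ A) (j : ℕ) : ∃ 𝒩' : LB Γ A,
    PicAlg.mk 𝒩' = PicAlg.mk 𝒩 * infty Γ A ^ j ∧
    ∃ (e₀ : 𝒩.N₀ ≃ₗ[Γ.R₀ A] 𝒩'.N₀) (e₁ : 𝒩.N₁ ≃ₗ[Γ.R₁ A] 𝒩'.N₁) (e₀₁ : 𝒩.N₀₁ ≃ₗ[Γ.R₀₁ A] 𝒩'.N₀₁),
      (∀ n, 𝒩'.r₀ (e₀ n) = e₀₁ (𝒩.r₀ n)) ∧
      (∀ n, 𝒩'.r₁ (e₁ n) = (Γ.φ₀ A (Γ.xA A)) ^ j • e₀₁ (𝒩.r₁ n)) := by
  induction j with
  | zero =>
    exact ⟨𝒩, by simp, LinearEquiv.refl _ _, LinearEquiv.refl _ _, LinearEquiv.refl _ _,
      fun n => rfl, fun n => by simp⟩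
  | succ j ih =>
    obtain ⟨𝒩', h, e₀, e₁, e₀₁, h₀, h₁⟩ := ih
    refine ⟨InftyAux.twist hΓ.out 𝒩', ?_, e₀, e₁, e₀₁, h₀, fun n => ?_⟩
    · rw [InftyAux.mk_twist, h, pow_succ, mul_assoc]
    · show (Γ.φ₀ A (Γ.xA A)) • 𝒩'.r₁ (e₁ n) = _
      rw [h₁, smul_smul, pow_succ, mul_comm]

/-- **(V)** Serre vanishing. -/
theorem exists_h1_mul_infty_pow_eq_zero {K : Type u} [Field K] [Algebra k K] (n : PicAlg Γ K) :
    ∃ j₀ : ℕ, ∀ j, j₀ ≤ j → PicAlg.h1 (n * infty Γ K ^ j) = 0 := by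
  obtain ⟨𝒩, rfl⟩ := PicAlg.exists_rep n
  have hfin : Module.Finite K 𝒩.H1 := LB.finite_H1 hΓ.out 𝒩
  have hxy : Γ.φ₀ K (Γ.xA K) * Γ.φ₁ K (Γ.yA K) = 1 := CurveAlg.φ₀_xA_mul_φ₁_yA hΓ.out K
  set x := Γ.φ₀ K (Γ.xA K) with hx
  set y := Γ.φ₁ K (Γ.yA K) with hy
  set W₀ : Submodule K 𝒩.N₀₁ := LinearMap.range 𝒩.r₀A ⊔ LinearMap.range 𝒩.r₁A with hW₀
  let W : ℕ → Submodule K 𝒩.N₀₁ := fun j =>
    LinearMap.range 𝒩.r₀A ⊔ LinearMap.range ((Algebra.lsmul K K 𝒩.N₀₁ (x ^ j)).comp 𝒩.r₁A)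
  have hmem : ∀ j n, n ∈ W j ↔ ∃ a b, n = 𝒩.r₀ a + x ^ j • 𝒩.r₁ b := by
    intro j n
    rw [Submodule.mem_sup]
    constructor
    · rintro ⟨_, ⟨a, rfl⟩, _, ⟨b, rfl⟩, rfl⟩
      exact ⟨a, b, rfl⟩
    · rintro ⟨a, b, rfl⟩
      exact ⟨_, ⟨a, rfl⟩, _, ⟨b, rfl⟩, rfl⟩
  have hmono : Monotone W := by
    apply monotone_nat_of_le_succ
    intro j n hn
    obtain ⟨a, b, rfl⟩ := (hmem j n).mp hn
    refine (hmem (j + 1) _).mpr ⟨a, Γ.yA K • b, ?_⟩
    rw [𝒩.r₁.map_smulₛₗ, smul_smul]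
    show _ = _ + (x ^ (j + 1) * y) • _
    rw [pow_succ, mul_assoc, hxy, mul_one]
  have hW0 : W₀ ≤ W 0 := by
    intro n hn
    obtain ⟨_, ⟨a, rfl⟩, _, ⟨b, rfl⟩, rfl⟩ := Submodule.mem_sup.mp hn
    exact (hmem 0 _).mpr ⟨a, b, by rw [pow_zero, one_smul]; rfl⟩
  have hex : ∀ n, ∃ m, n ∈ W m := by
    intro n
    obtain ⟨m, n₁, h⟩ := 𝒩.span₁ n
    refine ⟨m, (hmem m n).mpr ⟨0, n₁, ?_⟩⟩
    rw [← h, smul_smul, ← mul_pow, hxy, one_pow, one_smul, map_zero, zero_add]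
  have hnoeth : IsNoetherian K 𝒩.H1 := inferInstance
  let f : ℕ →o Submodule K 𝒩.H1 :=
    ⟨fun j => (W j).map W₀.mkQ, fun a b h => Submodule.map_mono (hmono h)⟩
  obtain ⟨j₀, hj₀⟩ := monotone_stabilizes_iff_noetherian.mpr hnoeth f
  have htop : ∀ j, j₀ ≤ j → W j = ⊤ := by
    intro j hj
    rw [eq_top_iff]
    rintro n -
    obtain ⟨m, hm⟩ := hex n
    have h1 : W₀.mkQ n ∈ f (max m j₀) :=
      Submodule.mem_map_of_mem (hmono (le_max_left m j₀) hm)
    rw [← hj₀ _ (le_max_right m j₀), hj₀ j hj] at h1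
    obtain ⟨n', hn', hnn'⟩ := h1
    have h2 : n - n' ∈ W₀ := by
      rw [← Submodule.Quotient.mk_eq_zero, Submodule.Quotient.mk_sub, sub_eq_zero]
      exact hnn'.symm
    have h3 : n = (n - n') + n' := by abel
    rw [h3]
    exact add_mem (hmono (Nat.zero_le j) (hW0 h2)) hn'
  refine ⟨j₀, fun j hj => ?_⟩
  obtain ⟨𝒩', h, e₀, e₁, e₀₁, h₀, h₁⟩ := exists_rep_mul_infty_pow 𝒩 j
  rw [← h]
  show Module.finrank K 𝒩'.H1 = 0
  have htop' : LinearMap.range 𝒩'.r₀A ⊔ LinearMap.range 𝒩'.r₁A = ⊤ := by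
    rw [eq_top_iff]
    rintro n' -
    obtain ⟨n, rfl⟩ := e₀₁.surjective n'
    have hn : n ∈ W j := by rw [htop j hj]; trivial
    obtain ⟨a, b, rfl⟩ := (hmem j n).mp hn
    rw [map_add, map_smul, ← h₀, ← h₁]
    exact Submodule.add_mem_sup ⟨e₀ a, rfl⟩ ⟨e₁ b, rfl⟩
  have : Subsingleton 𝒩'.H1 := Submodule.Quotient.subsingleton_iff.mpr htop'
  exact Module.finrank_zero_of_subsingleton

end Fermat.Agent.S25
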