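import Fermat.Agent.S25.L.PicAlg

/-! # S25 / H4 (auxiliary) : sections of line bundle data over a field

* invertible modules over a domain;
* `H⁰` of a datum, products of sections;
* `H⁰(O) = K`, `h¹(O) = g`;
* a class with sections in both directions is trivial;
* a class with a nonzero section has `h¹ ≤ g`.
-/
set_option autoImplicit false
universe u
open TensorProduct Polynomial

namespace Fermat.Agent.S25
namespace Sect

/-! ### invertible modules -/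
section alg
variable {S : Type u} [CommRing S] {P Q T : Type u} [AddCommGroup P] [Module S P]
  [AddCommGroup Q] [Module S Q] [AddCommGroup T] [Module S T]

theorem dual_smul_comm [Module.Invertible S P] (l : Module.Dual S P) (p p' : P) :
    l p • p' = l p' • p := by
  have h := congrArg (TensorProduct.lift ((LinearMap.lsmul S P).comp l))
    (Module.Invertible.tmul_comm (R := S) (m₁ := p) (m₂ := p'))
  simpa using h

theorem mem_smul_top_of_dual [Module.Invertible S P] (I : Ideal S) (p : P)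
    (h : ∀ l : Module.Dual S P, l p ∈ I) : p ∈ I • (⊤ : Submodule S P) := by
  have key : ∀ c ∈ Submodule.span S
      {z | ∃ (q : P) (f : Module.Dual S P), Module.Dual.eval S P q f = z},
      c • p ∈ I • (⊤ : Submodule S P) := by
    intro c hc
    induction hc using Submodule.span_induction with
    | mem z hz =>
      obtain ⟨q, f, rfl⟩ := hz
      have e : Module.Dual.eval S P q f • p = f p • q := dual_smul_comm f q p
      rw [e]
      exact Submodule.smul_mem_smul (h f) Submodule.mem_top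
    | zero => rw [zero_smul]; exact Submodule.zero_mem _
    | add a b _ _ ha hb => rw [add_smul]; exact Submodule.add_mem _ ha hb
    | smul a b _ hb => rw [smul_eq_mul, mul_smul]; exact Submodule.smul_mem _ _ hb
  have h1 := key 1 (by rw [SL.span_eval]; exact Submodule.mem_top)
  rwa [one_smul] at h1

theorem dual_mem_of_mem_smul_top (I : Ideal S) (p : P) (hp : p ∈ I • (⊤ : Submodule S P))
    (l : Module.Dual S P) : l p ∈ I := by
  induction hp using Submodule.smul_induction_on' with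
  | smul r hr n _ => rw [map_smul, smul_eq_mul]; exact I.mul_mem_right _ hr
  | add x _ y _ hx hy => rw [map_add]; exact I.add_mem hx hy

theorem exists_dual_ne_zero [Module.Invertible S P] {p : P} (hp : p ≠ 0) :
    ∃ l : Module.Dual S P, l p ≠ 0 := by
  by_contra hcon
  push Not at hcon
  have := mem_smul_top_of_dual (⊥ : Ideal S) p (fun l => by rw [hcon l]; exact Submodule.zero_mem _)
  rw [Submodule.bot_smul] at this
  exact hp ((Submodule.mem_bot S).mp this)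

theorem smul_ne_zero' [IsDomain S] [Module.Invertible S P] {a : S} {p : P} (ha : a ≠ 0)
    (hp : p ≠ 0) : a • p ≠ 0 := by
  obtain ⟨l, hl⟩ := exists_dual_ne_zero (S := S) hp
  intro h
  have := congrArg l h
  rw [map_smul, map_zero, smul_eq_mul] at this
  exact (mul_ne_zero ha hl) this

theorem bil_ne_zero [IsDomain S] [Module.Invertible S P] [Module.Invertible S Q]
    [Module.Invertible S T] (m : P →ₗ[S] Q →ₗ[S] T)
    (h : Submodule.span S {z | ∃ p q, m p q = z} = ⊤) {p : P} {q : Q} (hp : p ≠ 0) (hq : q ≠ 0) :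
    m p q ≠ 0 := by
  obtain ⟨l, hl⟩ := exists_dual_ne_zero (S := S) hp
  obtain ⟨l', hl'⟩ := exists_dual_ne_zero (S := S) hq
  intro h0
  have := SL.factorₗ_apply m h ((LinearMap.mul S S).compl₁₂ l l') p q
  rw [h0, map_zero] at this
  exact (mul_ne_zero hl hl') this.symm

end alg

/-! ### sections -/
section sections
variable {k : Type u} [Field k] {Γ : CurveAlg k} {A : Type u} [CommRing A] [Algebra k A]

theorem mem_H0_iff (𝒩 : LB Γ A) (s : 𝒩.N₀ × 𝒩.N₁) : s ∈ 𝒩.H0 ↔ 𝒩.r₀ s.1 = 𝒩.r₁ s.2 := by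
  unfold LB.H0
  rw [LinearMap.mem_ker, LinearMap.coprod_apply, LinearMap.neg_apply, ← sub_eq_add_neg, sub_eq_zero]
  rfl

theorem mul_mem_H0 {𝒩 𝒩' 𝒩'' : LB Γ A} (t : LB.Tens 𝒩 𝒩' 𝒩'') {s : 𝒩.N₀ × 𝒩.N₁}
    {s' : 𝒩'.N₀ × 𝒩'.N₁} (hs : s ∈ 𝒩.H0) (hs' : s' ∈ 𝒩'.H0) :
    (t.m₀ s.1 s'.1, t.m₁ s.2 s'.2) ∈ 𝒩''.H0 := by
  rw [mem_H0_iff] at hs hs' ⊢
  rw [← t.comm₀, ← t.comm₁, hs, hs']

theorem fst_ne_zero {𝒩 : LB Γ A} {s : 𝒩.N₀ × 𝒩.N₁} (hs : s ∈ 𝒩.H0) (h : s ≠ 0) : s.1 ≠ 0 := by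
  rw [mem_H0_iff] at hs
  intro h1
  apply h
  rw [h1, map_zero] at hs
  have h2 : s.2 = 0 := 𝒩.inj₁ (by rw [← hs, map_zero])
  exact Prod.ext h1 h2

theorem snd_ne_zero {𝒩 : LB Γ A} {s : 𝒩.N₀ × 𝒩.N₁} (hs : s ∈ 𝒩.H0) (h : s ≠ 0) : s.2 ≠ 0 := by
  rw [mem_H0_iff] at hs
  intro h1
  apply h
  rw [h1, map_zero] at hs
  have h2 : s.1 = 0 := 𝒩.inj₀ (by rw [hs, map_zero])
  exact Prod.ext h2 h1

end sections

/-! ### the trivial datum -/
section unit
variable {k : Type u} [Field k] {Γ : CurveAlg k}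

theorem mem_H0_unit_iff (hΓ : Γ.IsGood) {A : Type u} [CommRing A] [Algebra k A]
    (s : (LB.unit hΓ A).N₀ × (LB.unit hΓ A).N₁) :
    s ∈ (LB.unit hΓ A).H0 ↔ Γ.φ₀ A s.1 = Γ.φ₁ A s.2 := mem_H0_iff (LB.unit hΓ A) s

/-- a pair of functions agreeing on the overlap, as a section of the trivial datum. -/
def unitSec (hΓ : Γ.IsGood) {A : Type u} [CommRing A] [Algebra k A] (a : Γ.R₀ A) (b : Γ.R₁ A)
    (h : Γ.φ₀ A a = Γ.φ₁ A b) : (LB.unit hΓ A).H0 := ⟨(a, b), (mem_H0_unit_iff hΓ _).mpr h⟩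

/-- the section `1` of the trivial datum. -/
def oneSec (hΓ : Γ.IsGood) (A : Type u) [CommRing A] [Algebra k A] : (LB.unit hΓ A).H0 :=
  unitSec hΓ 1 1 ((map_one (Γ.φ₀ A)).trans (map_one (Γ.φ₁ A)).symm)

/-- over the algebraically closed base field, global functions are constant. -/
theorem exists_const_base [IsAlgClosed k] (hΓ : Γ.IsGood) (a : Γ.R₀ k) (b : Γ.R₁ k)
    (h : Γ.φ₀ k a = Γ.φ₁ k b) :
    ∃ c : k, a = algebraMap k (Γ.R₀ k) c ∧ b = algebraMap k (Γ.R₁ k) c := by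
  have := CurveAlg.isDomain_R₀ hΓ k
  have := LB.finite_H0_field hΓ (LB.unit hΓ k)
  let ψ : k[X] →ₗ[k] (LB.unit hΓ k).H0 :=
    { toFun := fun p => unitSec hΓ (aeval a p) (aeval b p) (by
        rw [← aeval_algHom_apply, ← aeval_algHom_apply, h])
      map_add' := fun p q => by
        apply Subtype.ext
        show (aeval a (p + q), aeval b (p + q)) = (aeval a p + aeval a q, aeval b p + aeval b q)
        rw [map_add, map_add]
      map_smul' := fun c p => by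
        apply Subtype.ext
        show (aeval a (c • p), aeval b (c • p))
          = (algebraMap k (Γ.R₀ k) c * aeval a p, algebraMap k (Γ.R₁ k) c * aeval b p)
        rw [map_smul, map_smul, Algebra.smul_def, Algebra.smul_def] }
  have hni : ¬ Function.Injective ψ := fun hi =>
    Polynomial.not_finite (R := k) (Module.Finite.of_injective ψ hi)
  have hint : IsIntegral k a := by
    rw [← isAlgebraic_iff_isIntegral]
    by_contra hna
    apply hni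
    rw [← LinearMap.ker_eq_bot, LinearMap.ker_eq_bot']
    intro p hp
    by_contra hp0
    exact hna ⟨p, hp0, congrArg (fun z => z.1.1) hp⟩
  have hdeg := IsAlgClosed.degree_eq_one_of_irreducible k (minpoly.irreducible hint)
  obtain ⟨c, hc⟩ := minpoly.mem_range_of_degree_eq_one k a hdeg
  refine ⟨c, hc.symm, ?_⟩
  apply CurveAlg.φ₁_injective hΓ k
  rw [← h, ← hc, AlgHom.commutes, AlgHom.commutes]

theorem oneSec_ne_zero (hΓ : Γ.IsGood) (A : Type u) [CommRing A] [Algebra k A] [Nontrivial A] :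
    oneSec hΓ A ≠ 0 := by
  intro h
  have h1 : (1 : Γ.R₀ A) = 0 := congrArg (fun z => z.1.1) h
  have h2 := congrArg (Γ.eA A) h1
  rw [map_one, map_zero] at h2
  exact one_ne_zero h2

theorem finrank_H0_unit_base [IsAlgClosed k] (hΓ : Γ.IsGood) :
    Module.finrank k (LB.unit hΓ k).H0 = 1 := by
  rw [finrank_eq_one_iff_of_nonzero' _ (oneSec_ne_zero hΓ k)]
  rintro ⟨s, hs⟩
  obtain ⟨c, h1, h2⟩ := exists_const_base hΓ s.1 s.2 ((mem_H0_unit_iff hΓ s).mp hs)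
  refine ⟨c, Subtype.ext ?_⟩
  show (algebraMap k (Γ.R₀ k) c * 1, algebraMap k (Γ.R₁ k) c * 1) = s
  rw [mul_one, mul_one]
  exact Prod.ext h1.symm h2.symm

/-- `h¹(O) = g` over the base field. -/
theorem finrank_H1_unit_base (hΓ : Γ.IsGood) :
    Module.finrank k (LB.unit hΓ k).H1 = Γ.genus := by
  let e : (LB.unit hΓ k).N₀₁ ≃ₗ[k] Γ.B₀₁ :=
    { toFun := Algebra.TensorProduct.lid k Γ.B₀₁
      invFun := (Algebra.TensorProduct.lid k Γ.B₀₁).symm
      left_inv := (Algebra.TensorProduct.lid k Γ.B₀₁).left_inv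
      right_inv := (Algebra.TensorProduct.lid k Γ.B₀₁).right_inv
      map_add' := map_add (Algebra.TensorProduct.lid k Γ.B₀₁)
      map_smul' := fun c (z : Γ.R₀₁ k) => by
        show Algebra.TensorProduct.lid k Γ.B₀₁ (algebraMap k (Γ.R₀₁ k) c * z) = c • _
        rw [map_mul, AlgEquiv.commutes, Algebra.smul_def] }
  have he₀ : ∀ z : Γ.R₀ k, e (Γ.φ₀ k z) = Γ.ι₀ (Algebra.TensorProduct.lid k Γ.B₀ z) := by
    intro z
    show Algebra.TensorProduct.lid k Γ.B₀₁ (Γ.φ₀ k z) = _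
    induction z using TensorProduct.induction_on with
    | zero => simp
    | tmul a b => simp [CurveAlg.φ₀]
    | add a b ha hb => rw [map_add, map_add, map_add, map_add, ha, hb]
  have he₁ : ∀ z : Γ.R₁ k, e (Γ.φ₁ k z) = Γ.ι₁ (Algebra.TensorProduct.lid k Γ.B₁ z) := by
    intro z
    show Algebra.TensorProduct.lid k Γ.B₀₁ (Γ.φ₁ k z) = _
    induction z using TensorProduct.induction_on with
    | zero => simp
    | tmul a b => simp [CurveAlg.φ₁]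
    | add a b ha hb => rw [map_add, map_add, map_add, map_add, ha, hb]
  refine (Submodule.Quotient.equiv _ _ e ?_).finrank_eq
  rw [Submodule.map_sup]
  congr 1
  · ext w
    constructor
    · rintro ⟨_, ⟨z, rfl⟩, rfl⟩
      exact ⟨_, (he₀ z).symm⟩
    · rintro ⟨b, rfl⟩
      refine ⟨_, ⟨(Algebra.TensorProduct.lid k Γ.B₀).symm b, rfl⟩, ?_⟩
      refine (he₀ _).trans ?_
      rw [AlgEquiv.apply_symm_apply]
      rfl
  · ext w
    constructor
    · rintro ⟨_, ⟨z, rfl⟩, rfl⟩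
      exact ⟨_, (he₁ z).symm⟩
    · rintro ⟨b, rfl⟩
      refine ⟨_, ⟨(Algebra.TensorProduct.lid k Γ.B₁).symm b, rfl⟩, ?_⟩
      refine (he₁ _).trans ?_
      rw [AlgEquiv.apply_symm_apply]
      rfl


variable [hΓ : Fact Γ.IsGood] [IsAlgClosed k] {K : Type u} [Field K] [Algebra k K]

theorem h0_one : PicAlg.h0 (1 : PicAlg Γ K) = 1 := by
  have h := PicAlg.h0_map (Algebra.ofId k K) (1 : PicAlg Γ k)
  rw [map_one] at h
  rw [h]
  exact finrank_H0_unit_base hΓ.out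

omit [IsAlgClosed k] in
theorem h1_one : PicAlg.h1 (1 : PicAlg Γ K) = Γ.genus := by
  have h := PicAlg.h1_map (Algebra.ofId k K) (1 : PicAlg Γ k)
  rw [map_one] at h
  rw [h]
  exact finrank_H1_unit_base hΓ.out

theorem deg_one : PicAlg.deg (1 : PicAlg Γ K) = 0 := by
  unfold PicAlg.deg PicAlg.chi
  rw [h0_one, h1_one]
  ring

/-- global functions are constant. -/
theorem exists_const (a : Γ.R₀ K) (b : Γ.R₁ K) (h : Γ.φ₀ K a = Γ.φ₁ K b) :
    ∃ c : K, a = algebraMap K (Γ.R₀ K) c ∧ b = algebraMap K (Γ.R₁ K) c := by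
  have h1 : Module.finrank K (LB.unit hΓ.out K).H0 = 1 := h0_one (Γ := Γ) (K := K)
  rw [finrank_eq_one_iff_of_nonzero' _ (oneSec_ne_zero hΓ.out K)] at h1
  obtain ⟨c, hc⟩ := h1 (unitSec hΓ.out a b h)
  have h2 : (algebraMap K (Γ.R₀ K) c * 1, algebraMap K (Γ.R₁ K) c * 1) = (a, b) :=
    congrArg Subtype.val hc
  rw [mul_one, mul_one, Prod.mk.injEq] at h2
  exact ⟨c, h2.1.symm, h2.2.symm⟩

end unit

/-! ### trivial classes -/
section triv
variable {k : Type u} [Field k] {Γ : CurveAlg k}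
variable [hΓ : Fact Γ.IsGood] [IsAlgClosed k] {K : Type u} [Field K] [Algebra k K]

omit hΓ [IsAlgClosed k] in
theorem exists_ne_zero_of_h0_pos {𝒩 : LB Γ K} (h : 0 < PicAlg.h0 (PicAlg.mk 𝒩)) :
    ∃ s : 𝒩.N₀ × 𝒩.N₁, s ∈ 𝒩.H0 ∧ s ≠ 0 := by
  have h' : 0 < Module.finrank K 𝒩.H0 := h
  have := Module.nontrivial_of_finrank_pos h'
  obtain ⟨s, hs⟩ := exists_ne (0 : 𝒩.H0)
  exact ⟨s.1, s.2, fun h0 => hs (Subtype.ext h0)⟩

omit [IsAlgClosed k] in
theorem h0_pos_of_ne_zero {𝒩 : LB Γ K} {s : 𝒩.N₀ × 𝒩.N₁} (hs : s ∈ 𝒩.H0) (h : s ≠ 0) :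
    0 < PicAlg.h0 (PicAlg.mk 𝒩) := by
  have := LB.finite_H0_field hΓ.out 𝒩
  show 0 < Module.finrank K 𝒩.H0
  rw [Module.finrank_pos_iff_exists_ne_zero]
  exact ⟨⟨s, hs⟩, fun h0 => h (congrArg Subtype.val h0)⟩

omit [IsAlgClosed k] in
/-- a datum with a section generating both charts is trivial. -/
theorem mk_eq_one_of_span {A : Type u} [CommRing A] [Algebra k A] {𝒩 : LB Γ A}
    {s : 𝒩.N₀ × 𝒩.N₁} (hs : s ∈ 𝒩.H0)
    (h₀ : Submodule.span (Γ.R₀ A) {s.1} = ⊤) (h₁ : Submodule.span (Γ.R₁ A) {s.2} = ⊤) :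
    PicAlg.mk 𝒩 = 1 := by
  apply PicAlg.eq_one_of_isPB
  refine ⟨LinearMap.toSpanSingleton A 𝒩.N₀ s.1, LinearMap.toSpanSingleton A 𝒩.N₁ s.2,
    fun l => ?_, ?_, ?_⟩
  · rw [LinearMap.toSpanSingleton_apply, LinearMap.toSpanSingleton_apply]
    have e := (mem_H0_iff 𝒩 s).mp hs
    have e₀ := 𝒩.r₀A.map_smul l s.1
    have e₁ := 𝒩.r₁A.map_smul l s.2
    rw [LB.r₀A_apply, LB.r₀A_apply] at e₀
    rw [LB.r₁A_apply, LB.r₁A_apply] at e₁
    rw [e₀, e₁, e]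
  · rw [eq_top_iff, ← h₀, Submodule.span_le, Set.singleton_subset_iff]
    exact Submodule.subset_span ⟨1, by rw [LinearMap.toSpanSingleton_apply, one_smul]⟩
  · rw [eq_top_iff, ← h₁, Submodule.span_le, Set.singleton_subset_iff]
    exact Submodule.subset_span ⟨1, by rw [LinearMap.toSpanSingleton_apply, one_smul]⟩

/-- pure algebra: if `m p q` is a unit, then `p` generates. -/
theorem span_eq_top_of_isUnit {S : Type u} [CommRing S] [IsDomain S] {P Q : Type u}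
    [AddCommGroup P] [Module S P] [AddCommGroup Q] [Module S Q] [Module.Invertible S P]
    [Module.Invertible S Q] (m : P →ₗ[S] Q →ₗ[S] S)
    (h : Submodule.span S {z | ∃ p q, m p q = z} = ⊤) {p : P} {q : Q} {v : S} (hv : IsUnit v)
    (hu : v = m p q) : Submodule.span S {p} = ⊤ := by
  have hq : q ≠ 0 := by
    rintro rfl
    rw [map_zero] at hu
    rw [hu] at hv
    exact not_isUnit_zero hv
  obtain ⟨u, rfl⟩ := hv
  rw [eq_top_iff]
  intro n _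
  have key : m n q • p = (u : S) • n := by
    by_contra hne
    have h1 := bil_ne_zero m h (sub_ne_zero.mpr hne) hq
    apply h1
    rw [map_sub, LinearMap.sub_apply, map_smul, map_smul, LinearMap.smul_apply,
      LinearMap.smul_apply, ← hu, smul_eq_mul, smul_eq_mul, mul_comm, sub_self]
  have : n = ((u⁻¹ : Sˣ) : S) • (m n q • p) := by
    rw [key, smul_smul, Units.inv_mul, one_smul]
  rw [this, smul_smul]
  exact Submodule.smul_mem _ _ (Submodule.mem_span_singleton_self p)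

theorem eq_one_of_h0_pos (n : PicAlg Γ K) (h : 0 < PicAlg.h0 n) (h' : 0 < PicAlg.h0 n⁻¹) :
    n = 1 := by
  obtain ⟨𝒩, rfl⟩ := PicAlg.exists_rep n
  obtain ⟨𝒩', h𝒩'⟩ := PicAlg.exists_rep (PicAlg.mk 𝒩)⁻¹
  rw [← h𝒩'] at h'
  have h1 : PicAlg.mk 𝒩 * PicAlg.mk 𝒩' = PicAlg.mk (LB.unit hΓ.out K) := by
    rw [h𝒩', mul_inv_cancel, PicAlg.one_def]
  obtain ⟨t⟩ := PicAlg.mk_mul_mk_eq_iff.mp h1
  obtain ⟨s, hs, hs0⟩ := exists_ne_zero_of_h0_pos h
  obtain ⟨s', hs', hs0'⟩ := exists_ne_zero_of_h0_pos h'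
  have := CurveAlg.isDomain_R₀ hΓ.out K
  have := CurveAlg.isDomain_R₁ hΓ.out K
  have hm := mul_mem_H0 t hs hs'
  obtain ⟨c, hc₀, hc₁⟩ := exists_const (Γ := Γ) (K := K) _ _ ((mem_H0_unit_iff hΓ.out _).mp hm)
  have hne : t.m₀ s.1 s'.1 ≠ 0 :=
    bil_ne_zero t.m₀ t.span₀ (fst_ne_zero hs hs0) (fst_ne_zero hs' hs0')
  have hc : c ≠ 0 := by
    rintro rfl
    rw [map_zero] at hc₀
    exact hne hc₀
  refine mk_eq_one_of_span hs ?_ ?_
  · exact span_eq_top_of_isUnit (S := Γ.R₀ K) t.m₀ t.span₀ (p := s.1) (q := s'.1)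
      ((IsUnit.mk0 c hc).map (algebraMap K (Γ.R₀ K))) hc₀.symm
  · exact span_eq_top_of_isUnit (S := Γ.R₁ K) t.m₁ t.span₁ (p := s.2) (q := s'.2)
      ((IsUnit.mk0 c hc).map (algebraMap K (Γ.R₁ K))) hc₁.symm

end triv

/-! ### `h¹ ≤ g` for effective classes -/
section h1
variable {k : Type u} [Field k] {Γ : CurveAlg k}
variable [hΓ : Fact Γ.IsGood] [IsAlgClosed k] {K : Type u} [Field K] [Algebra k K]

/-- every nonzero ideal of `R₀ K` contains a nonzero polynomial in `x`. -/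
theorem exists_poly_mem (a : Γ.R₀ K) (ha : a ≠ 0) :
    ∃ c : K[X], c ≠ 0 ∧ ∃ a', aeval (Γ.xA K) c = a' * a := by
  have := CurveAlg.isDomain_R₀ hΓ.out K
  let _ : Algebra K[X] (Γ.R₀ K) := (aeval (Γ.xA K)).toRingHom.toAlgebra
  obtain ⟨n, β, hβ⟩ := CurveAlg.exists_basis_R₀ hΓ.out K
  have hfin : Module.Finite K[X] (Γ.R₀ K) := by
    apply Module.Finite.of_surjective (Fintype.linearCombination K[X] β)
    intro z
    obtain ⟨p, hp, -⟩ := hβ z
    refine ⟨p, ?_⟩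
    rw [Fintype.linearCombination_apply, hp]
    rfl
  have hint : IsIntegral K[X] a := IsIntegral.of_finite K[X] a
  have h := Ideal.comap_ne_bot_of_integral_mem (R := K[X]) (I := Ideal.span {a}) ha
    (Ideal.mem_span_singleton_self a) hint
  obtain ⟨c, hc, hc0⟩ := Submodule.exists_mem_ne_zero_of_ne_bot h
  rw [Ideal.mem_comap, Ideal.mem_span_singleton'] at hc
  obtain ⟨a', ha'⟩ := hc
  exact ⟨c, hc0, a', ha'.symm⟩

theorem exists_decomp_step {𝒩 : LB Γ K} {t : 𝒩.N₀} (ht : t ≠ 0) (n₀ : 𝒩.N₀) :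
    ∃ (f : Γ.R₀₁ K) (n₀' : 𝒩.N₀),
      Γ.φ₁ K (Γ.yA K) • 𝒩.r₀ n₀ = f • 𝒩.r₀ t + 𝒩.r₀ n₀' := by
  obtain ⟨l, hl⟩ := exists_dual_ne_zero (S := Γ.R₀ K) ht
  obtain ⟨c, hc0, a', ha'⟩ := exists_poly_mem (Γ := Γ) (K := K) (l t) hl
  obtain ⟨q, hq, hqX⟩ := exists_eq_pow_rootMultiplicity_mul_and_not_dvd c hc0 0
  rw [C_0, sub_zero] at hq hqX
  set i := rootMultiplicity 0 c
  have hc₀ : q.coeff 0 ≠ 0 := fun h => hqX (X_dvd_iff.mpr h)
  set c₀ := q.coeff 0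
  set D : Γ.R₀ K := aeval (Γ.xA K) (divX q)
  have hE : aeval (Γ.xA K) q = D * Γ.xA K + algebraMap K (Γ.R₀ K) c₀ := by
    conv_lhs => rw [← divX_mul_X_add q]
    rw [map_add, map_mul, aeval_X, aeval_C]
  have hXY := CurveAlg.φ₀_xA_mul_φ₁_yA hΓ.out K
  set X := Γ.φ₀ K (Γ.xA K)
  set Y := Γ.φ₁ K (Γ.yA K)
  -- the relation in `N₀`
  have h1 : (Γ.xA K ^ i * (D * Γ.xA K + algebraMap K (Γ.R₀ K) c₀)) • n₀ = (a' * l n₀) • t := by
    have hc' : aeval (Γ.xA K) c = Γ.xA K ^ i * aeval (Γ.xA K) q := by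
      rw [hq, map_mul, map_pow, aeval_X]
    rw [← hE, ← hc', ha', mul_smul, mul_smul, dual_smul_comm l t n₀]
  have h2 := congrArg 𝒩.r₀ h1
  rw [𝒩.r₀.map_smulₛₗ, 𝒩.r₀.map_smulₛₗ] at h2
  have h3 : (X ^ i * (Γ.φ₀ K D * X + algebraMap K (Γ.R₀₁ K) c₀)) • 𝒩.r₀ n₀
      = Γ.φ₀ K (a' * l n₀) • 𝒩.r₀ t := by
    refine Eq.trans ?_ h2
    congr 1
    show _ = Γ.φ₀ K _
    rw [map_mul, map_add, map_mul, map_pow, AlgHom.commutes]
  set γ := algebraMap K (Γ.R₀₁ K) c₀⁻¹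
  have hγ : γ * algebraMap K (Γ.R₀₁ K) c₀ = 1 := by
    rw [← map_mul, inv_mul_cancel₀ hc₀, map_one]
  have hP : Y ^ (i + 1) * X ^ i = Y := by
    rw [pow_succ, mul_assoc, mul_comm Y, ← mul_assoc, ← mul_pow, mul_comm Y X, hXY, one_pow, one_mul]
  refine ⟨γ * Y ^ (i + 1) * Γ.φ₀ K (a' * l n₀), (-(algebraMap K (Γ.R₀ K) c₀⁻¹ * D)) • n₀, ?_⟩
  rw [mul_smul, ← h3, 𝒩.r₀.map_smulₛₗ, smul_smul, ← add_smul]
  congr 1
  show _ = _ + Γ.φ₀ K _
  rw [map_neg, map_mul, AlgHom.commutes, mul_assoc γ, ← mul_assoc (Y ^ (i + 1)), hP]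
  linear_combination (-(γ * Γ.φ₀ K D)) * hXY - Y * hγ

theorem exists_decomp {𝒩 : LB Γ K} {t : 𝒩.N₀} (ht : t ≠ 0) (n : 𝒩.N₀₁) :
    ∃ (f : Γ.R₀₁ K) (n₀ : 𝒩.N₀), n = f • 𝒩.r₀ t + 𝒩.r₀ n₀ := by
  have hXY := CurveAlg.φ₀_xA_mul_φ₁_yA hΓ.out K
  have key : ∀ (m : ℕ) (n₀ : 𝒩.N₀), ∃ (f : Γ.R₀₁ K) (n₀' : 𝒩.N₀),
      Γ.φ₁ K (Γ.yA K) ^ m • 𝒩.r₀ n₀ = f • 𝒩.r₀ t + 𝒩.r₀ n₀' := by
    intro m
    induction m with
    | zero => exact fun n₀ => ⟨0, n₀, by rw [pow_zero, one_smul, zero_smul, zero_add]⟩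
    | succ m ih =>
      intro n₀
      obtain ⟨f, n₁, h1⟩ := exists_decomp_step ht n₀
      obtain ⟨f', n₂, h2⟩ := ih n₁
      refine ⟨Γ.φ₁ K (Γ.yA K) ^ m * f + f', n₂, ?_⟩
      rw [pow_succ, mul_smul, h1, smul_add, h2, add_smul, mul_smul, add_assoc]
  obtain ⟨m, n₀, hm⟩ := 𝒩.span₀ n
  obtain ⟨f, n₀', h⟩ := key m n₀
  refine ⟨f, n₀', ?_⟩
  rw [← h, ← hm, smul_smul, ← mul_pow, mul_comm, hXY, one_pow, one_smul]

/-- a datum with a nonzero section has `h¹ ≤ g`. -/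
theorem finrank_H1_le {𝒩 : LB Γ K} {s : 𝒩.N₀ × 𝒩.N₁} (hs : s ∈ 𝒩.H0) (h : s ≠ 0) :
    Module.finrank K 𝒩.H1 ≤ Γ.genus := by
  have hg : Module.finrank K (LB.unit hΓ.out K).H1 = Γ.genus := h1_one (Γ := Γ) (K := K)
  rw [← hg]
  have := LB.finite_H1 hΓ.out (LB.unit hΓ.out K)
  have hs' := (mem_H0_iff 𝒩 s).mp hs
  let μ : (LB.unit hΓ.out K).N₀₁ →ₗ[K] 𝒩.N₀₁ :=
    { toFun := fun f : Γ.R₀₁ K => f • 𝒩.r₀ s.1
      map_add' := fun (f g : Γ.R₀₁ K) => add_smul f g _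
      map_smul' := fun c (f : Γ.R₀₁ K) => mul_smul (algebraMap K (Γ.R₀₁ K) c) f _ }
  have hμ : LinearMap.range (LB.unit hΓ.out K).r₀A ⊔ LinearMap.range (LB.unit hΓ.out K).r₁A
      ≤ (LinearMap.range 𝒩.r₀A ⊔ LinearMap.range 𝒩.r₁A).comap μ := by
    refine sup_le ?_ ?_
    · rintro _ ⟨a, rfl⟩
      let a' : Γ.R₀ K := a
      refine Submodule.mem_sup_left ⟨a' • s.1, ?_⟩
      exact 𝒩.r₀.map_smulₛₗ a' s.1
    · rintro _ ⟨b, rfl⟩
      let b' : Γ.R₁ K := b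
      refine Submodule.mem_sup_right ⟨b' • s.2, ?_⟩
      refine (𝒩.r₁.map_smulₛₗ b' s.2).trans ?_
      rw [← hs']
      rfl
  refine LinearMap.finrank_le_finrank_of_surjective (f := Submodule.mapQ _ _ μ hμ) ?_
  intro w
  obtain ⟨n, rfl⟩ := Submodule.Quotient.mk_surjective _ w
  obtain ⟨f, n₀, hn⟩ := exists_decomp (fst_ne_zero hs h) n
  let f' : (LB.unit hΓ.out K).N₀₁ := f
  refine ⟨Submodule.Quotient.mk f', ?_⟩
  rw [Submodule.mapQ_apply, Submodule.Quotient.eq]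
  have : μ f' - n = 𝒩.r₀A (-n₀) := by
    rw [hn, map_neg]
    show f • 𝒩.r₀ s.1 - (f • 𝒩.r₀ s.1 + 𝒩.r₀ n₀) = - 𝒩.r₀ n₀
    abel
  rw [this]
  exact Submodule.mem_sup_left ⟨_, rfl⟩

theorem deg_nonneg_of_h0_pos (n : PicAlg Γ K) (h : 0 < PicAlg.h0 n) : 0 ≤ PicAlg.deg n := by
  obtain ⟨𝒩, rfl⟩ := PicAlg.exists_rep n
  obtain ⟨s, hs, hs0⟩ := exists_ne_zero_of_h0_pos h
  have h1 : PicAlg.h1 (PicAlg.mk 𝒩) ≤ Γ.genus := finrank_H1_le hs hs0
  unfold PicAlg.deg PicAlg.chi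
  omega

end h1
end Sect
end Fermat.Agent.S25
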