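import Fermat.Agent.S25.H.Sect
import Fermat.Agent.S25.H.Twist

/-! # S25 / H4 (auxiliary) : sections vanishing at a point -/
set_option autoImplicit false
universe u
open TensorProduct Polynomial

namespace Fermat.Agent.S25
namespace Sect

/-! ### algebra -/
section alg
variable {S : Type u} [CommRing S] {P : Type u} [AddCommGroup P] [Module S P]
  [Module.Invertible S P]

/-- vanishing at a prime is detected by one linear form. -/
theorem exists_dual_detect (𝔪 : Ideal S) [h𝔪 : 𝔪.IsPrime] :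
    ∃ l : Module.Dual S P, ∀ p : P, l p ∈ 𝔪 → p ∈ 𝔪 • (⊤ : Submodule S P) := by
  have h1 : ∃ (l : Module.Dual S P) (q : P), l q ∉ 𝔪 := by
    by_contra hcon
    push Not at hcon
    apply h𝔪.ne_top
    rw [eq_top_iff, ← SL.span_eval (S := S) (P := P)]
    refine Submodule.span_le.mpr ?_
    rintro _ ⟨q, f, rfl⟩
    exact hcon f q
  obtain ⟨l, q, hq⟩ := h1
  refine ⟨l, fun p hp => mem_smul_top_of_dual 𝔪 p fun l' => ?_⟩
  have e : l q * l' p = l p * l' q := by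
    have := congrArg l' (dual_smul_comm l q p)
    rwa [map_smul, map_smul, smul_eq_mul, smul_eq_mul] at this
  have h2 : l q * l' p ∈ 𝔪 := by rw [e]; exact 𝔪.mul_mem_right _ hp
  exact (h𝔪.mem_or_mem h2).resolve_left hq

/-- an element which does not generate vanishes at a maximal ideal. -/
theorem exists_maximal_of_span_ne_top {p : P} (h : Submodule.span S {p} ≠ ⊤) :
    ∃ 𝔪 : Ideal S, 𝔪.IsMaximal ∧ p ∈ 𝔪 • (⊤ : Submodule S P) := by
  have hZ : LinearMap.range (Module.Dual.eval S P p) ≠ ⊤ := by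
    intro htop
    apply h
    obtain ⟨l, hl⟩ : (1 : S) ∈ LinearMap.range (Module.Dual.eval S P p) := by
      rw [htop]; exact Submodule.mem_top
    have hl' : l p = 1 := hl
    rw [eq_top_iff]
    intro q _
    have : q = l q • p := by rw [← dual_smul_comm l p q, hl', one_smul]
    rw [this]
    exact Submodule.smul_mem _ _ (Submodule.mem_span_singleton_self p)
  obtain ⟨𝔪, h𝔪, hle⟩ := Ideal.exists_le_maximal (LinearMap.range (Module.Dual.eval S P p)) hZ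
  exact ⟨𝔪, h𝔪, mem_smul_top_of_dual 𝔪 p fun l => hle ⟨l, rfl⟩⟩

end alg

/-- Nullstellensatz: maximal ideals of `K ⊗ B` are kernels of points. -/
theorem exists_point_of_isMaximal {k : Type u} [Field k] {K : Type u} [Field K] [Algebra k K]
    [IsAlgClosed K] {B : Type u} [CommRing B] [Algebra k B] [Algebra.FiniteType k B]
    (𝔪 : Ideal (K ⊗[k] B)) [h𝔪 : 𝔪.IsMaximal] :
    ∃ P : B →ₐ[k] K, RingHom.ker
      (Algebra.TensorProduct.lift (Algebra.ofId K K) P (fun _ _ => Commute.all _ _)) = 𝔪 := by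
  let _ := Ideal.Quotient.field 𝔪
  have hfin : Module.Finite K ((K ⊗[k] B) ⧸ 𝔪) :=
    finite_of_finite_type_of_isJacobsonRing K ((K ⊗[k] B) ⧸ 𝔪)
  have hbij : Function.Bijective (algebraMap K ((K ⊗[k] B) ⧸ 𝔪)) :=
    IsAlgClosed.algebraMap_bijective_of_isIntegral
  let e : K ≃ₐ[K] ((K ⊗[k] B) ⧸ 𝔪) := AlgEquiv.ofBijective (Algebra.ofId K _) hbij
  let π : (K ⊗[k] B) →ₐ[K] K := (e.symm : _ →ₐ[K] K).comp (Ideal.Quotient.mkₐ K 𝔪)
  refine ⟨(π.restrictScalars k).comp Algebra.TensorProduct.includeRight, ?_⟩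
  have hπ : Algebra.TensorProduct.lift (Algebra.ofId K K)
      ((π.restrictScalars k).comp Algebra.TensorProduct.includeRight)
      (fun _ _ => Commute.all _ _) = π := by
    apply Algebra.TensorProduct.ext
    · ext
    · ext b
      simp
  rw [hπ]
  ext z
  rw [RingHom.mem_ker]
  show e.symm (Ideal.Quotient.mk 𝔪 z) = 0 ↔ _
  rw [map_eq_zero_iff _ e.symm.injective, Ideal.Quotient.eq_zero_iff_mem]

/-! ### dimension counts -/
section field
variable {k : Type u} [Field k] {Γ : CurveAlg k} [hΓ : Fact Γ.IsGood]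
  {K : Type u} [Field K] [Algebra k K]

theorem finrank_H0_le_vanish₀_add_one (𝒩 : LB Γ K) (π : Γ.R₀ K →ₐ[K] K) :
    Module.finrank K 𝒩.H0 ≤ Module.finrank K (Twist.vanish₀ 𝒩 (RingHom.ker π)) + 1 := by
  have : (RingHom.ker π).IsPrime := RingHom.ker_isPrime π
  obtain ⟨l, hl⟩ := exists_dual_detect (P := 𝒩.N₀) (RingHom.ker π)
  let ev : 𝒩.H0 →ₗ[K] K :=
    π.toLinearMap ∘ₗ (l.restrictScalars K) ∘ₗ (LinearMap.fst K _ _) ∘ₗ 𝒩.H0.subtype
  have hker : LinearMap.ker ev ≤ Twist.vanish₀ 𝒩 (RingHom.ker π) := fun s hs =>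
    (Twist.mem_vanish₀ 𝒩 _ s).mpr (hl _ hs)
  have := LB.finite_H0_field hΓ.out 𝒩
  have h1 := LinearMap.finrank_range_add_finrank_ker ev
  have h2 : Module.finrank K (LinearMap.range ev) ≤ 1 :=
    (Submodule.finrank_le _).trans_eq (Module.finrank_self K)
  have h3 := Submodule.finrank_mono hker
  omega

theorem finrank_H0_le_vanish₁_add_one (𝒩 : LB Γ K) (π : Γ.R₁ K →ₐ[K] K) :
    Module.finrank K 𝒩.H0 ≤ Module.finrank K (Twist.vanish₁ 𝒩 (RingHom.ker π)) + 1 := by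
  have : (RingHom.ker π).IsPrime := RingHom.ker_isPrime π
  obtain ⟨l, hl⟩ := exists_dual_detect (P := 𝒩.N₁) (RingHom.ker π)
  let ev : 𝒩.H0 →ₗ[K] K :=
    π.toLinearMap ∘ₗ (l.restrictScalars K) ∘ₗ (LinearMap.snd K _ _) ∘ₗ 𝒩.H0.subtype
  have hker : LinearMap.ker ev ≤ Twist.vanish₁ 𝒩 (RingHom.ker π) := fun s hs =>
    (Twist.mem_vanish₁ 𝒩 _ s).mpr (hl _ hs)
  have := LB.finite_H0_field hΓ.out 𝒩
  have h1 := LinearMap.finrank_range_add_finrank_ker ev
  have h2 : Module.finrank K (LinearMap.range ev) ≤ 1 :=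
    (Submodule.finrank_le _).trans_eq (Module.finrank_self K)
  have h3 := Submodule.finrank_mono hker
  omega

theorem finrank_vanish₀_pos (𝒩 : LB Γ K) (I : Ideal (Γ.R₀ K)) {s : 𝒩.N₀ × 𝒩.N₁} (hs : s ∈ 𝒩.H0)
    (h0 : s ≠ 0) (h : s.1 ∈ I • (⊤ : Submodule (Γ.R₀ K) 𝒩.N₀)) :
    0 < Module.finrank K (Twist.vanish₀ 𝒩 I) := by
  have := LB.finite_H0_field hΓ.out 𝒩
  let σ : Twist.vanish₀ 𝒩 I := ⟨⟨s, hs⟩, h⟩
  have hσ : σ ≠ 0 := fun e => h0 (congrArg (fun z => z.1.1) e)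
  exact (Module.finrank_pos_iff_exists_ne_zero (R := K)).mpr ⟨σ, hσ⟩

theorem finrank_vanish₁_pos (𝒩 : LB Γ K) (I : Ideal (Γ.R₁ K)) {s : 𝒩.N₀ × 𝒩.N₁} (hs : s ∈ 𝒩.H0)
    (h0 : s ≠ 0) (h : s.2 ∈ I • (⊤ : Submodule (Γ.R₁ K) 𝒩.N₁)) :
    0 < Module.finrank K (Twist.vanish₁ 𝒩 I) := by
  have := LB.finite_H0_field hΓ.out 𝒩
  let σ : Twist.vanish₁ 𝒩 I := ⟨⟨s, hs⟩, h⟩
  have hσ : σ ≠ 0 := fun e => h0 (congrArg (fun z => z.1.1) e)
  exact (Module.finrank_pos_iff_exists_ne_zero (R := K)).mpr ⟨σ, hσ⟩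

end field
end Sect
end Fermat.Agent.S25
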