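import Fermat.Agent.S25.H.Ideal
import Fermat.Agent.S25.H.Sect
import Fermat.Agent.S25.H.SectPt

/-! # S25 / H3-H4 : point bundles `O(P)`, Riemann-Roch-lite, effective classes are sums of points -/
set_option autoImplicit false
universe u
open TensorProduct Polynomial

namespace Fermat.Agent.S25
variable {k : Type u} [Field k] {Γ : CurveAlg k}
variable {A A' : Type u} [CommRing A] [Algebra k A] [CommRing A'] [Algebra k A']

/-- the section `Spec A → U₀ × Spec A` given by a point `P ∈ U₀(A)`. -/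
noncomputable def pointHom₀ (P : Γ.B₀ →ₐ[k] A) : Γ.R₀ A →ₐ[A] A :=
  Algebra.TensorProduct.lift (Algebra.ofId A A) P (fun _ _ => Commute.all _ _)
noncomputable def pointHom₁ (P : Γ.B₁ →ₐ[k] A) : Γ.R₁ A →ₐ[A] A :=
  Algebra.TensorProduct.lift (Algebra.ofId A A) P (fun _ _ => Commute.all _ _)

namespace PointsAux

/-- generic version of `pointHom₀`, `pointHom₁`. -/
noncomputable def ptHom {B : Type u} [CommRing B] [Algebra k B] (P : B →ₐ[k] A) : A ⊗[k] B →ₐ[A] A :=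
  Algebra.TensorProduct.lift (Algebra.ofId A A) P (fun _ _ => Commute.all _ _)

theorem ptHom_tmul {B : Type u} [CommRing B] [Algebra k B] (P : B →ₐ[k] A) (a : A) (β : B) :
    ptHom P (a ⊗ₜ[k] β) = a * P β := by
  simp [ptHom]

theorem isBasisMod_ker_ptHom {B : Type u} [CommRing B] [Algebra k B] (P : B →ₐ[k] A) :
    IsBasisMod (RingHom.ker (ptHom P)) (fun _ : Fin 1 => (1 : B)) := by
  refine IsBasisMod.of_linearMap (LinearMap.pi fun _ => (ptHom P).toLinearMap) ?_ ?_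
  · intro i
    ext j
    have : j = i := Subsingleton.elim _ _
    subst this
    simp [ptHom_tmul]
  · intro z
    rw [RingHom.mem_ker]
    constructor
    · intro h
      ext j
      simpa using h
    · intro h
      have := congrFun h 0
      simpa using this

theorem ptHom_comp_bcMap {B : Type u} [CommRing B] [Algebra k B] (f : A →ₐ[k] A') (P : B →ₐ[k] A)
    (z : A ⊗[k] B) : ptHom (f.comp P) (bcMap B f z) = f (ptHom P z) := by
  induction z using TensorProduct.induction_on with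
  | zero => simp
  | tmul a β => simp [ptHom_tmul]
  | add x y hx hy => simp only [map_add, hx, hy]

theorem map_ker_ptHom {B : Type u} [CommRing B] [Algebra k B] (f : A →ₐ[k] A') (P : B →ₐ[k] A) :
    (RingHom.ker (ptHom P)).map (bcMap B f) = RingHom.ker (ptHom (f.comp P)) := by
  refine IsBasisMod.eq_of_le ((isBasisMod_ker_ptHom P).map f) (isBasisMod_ker_ptHom (f.comp P)) ?_
  rw [Ideal.map_le_iff_le_comap]
  intro z hz
  rw [RingHom.mem_ker] at hz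
  rw [Ideal.mem_comap, RingHom.mem_ker]
  exact (ptHom_comp_bcMap f P z).trans (by rw [hz, map_zero])

theorem ptHom_comp_map {B B' : Type u} [CommRing B] [Algebra k B] [CommRing B'] [Algebra k B']
    (ι : B →ₐ[k] B') (P : B' →ₐ[k] A) (z : A ⊗[k] B) :
    ptHom P (Algebra.TensorProduct.map (AlgHom.id A A) ι z) = ptHom (P.comp ι) z := by
  induction z using TensorProduct.induction_on with
  | zero => simp
  | tmul a β => simp [ptHom_tmul]
  | add x y hx hy => simp only [map_add, hx, hy]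

end PointsAux

open PointsAux

theorem isBasisMod_ker_pointHom₀ (P : Γ.B₀ →ₐ[k] A) :
    IsBasisMod (RingHom.ker (pointHom₀ P)) (fun _ : Fin 1 => (1 : Γ.B₀)) := isBasisMod_ker_ptHom P
theorem isBasisMod_ker_pointHom₁ (P : Γ.B₁ →ₐ[k] A) :
    IsBasisMod (RingHom.ker (pointHom₁ P)) (fun _ : Fin 1 => (1 : Γ.B₁)) := isBasisMod_ker_ptHom P

variable [hΓ : Fact Γ.IsGood]

/-- the class of `O(P)`. -/
noncomputable def pt₀ (P : Γ.B₀ →ₐ[k] A) : PicAlg Γ A := (negDiv₀ (RingHom.ker (pointHom₀ P)))⁻¹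
noncomputable def pt₁ (P : Γ.B₁ →ₐ[k] A) : PicAlg Γ A := (negDiv₁ (RingHom.ker (pointHom₁ P)))⁻¹

variable [IsAlgClosed k]

theorem map_pt₀ (f : A →ₐ[k] A') (P : Γ.B₀ →ₐ[k] A) : PicAlg.map f (pt₀ P) = pt₀ (f.comp P) := by
  unfold pt₀
  rw [map_inv, map_negDiv₀ (isBasisMod_ker_pointHom₀ P) f]
  congr 2
  exact map_ker_ptHom f P
theorem map_pt₁ (f : A →ₐ[k] A') (P : Γ.B₁ →ₐ[k] A) : PicAlg.map f (pt₁ P) = pt₁ (f.comp P) := by
  unfold pt₁
  rw [map_inv, map_negDiv₁ (isBasisMod_ker_pointHom₁ P) f]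
  congr 2
  exact map_ker_ptHom f P

namespace PointsAux

omit [IsAlgClosed k] in
theorem negDiv₀_eq_negDiv₁ {I₀ : Ideal (Γ.R₀ A)} {I₁ : Ideal (Γ.R₁ A)} (h₁ : Γ.other₁ I₀ = I₁)
    (h₀ : Γ.other₀ I₁ = I₀) : negDiv₀ I₀ = negDiv₁ I₁ := by
  subst h₁
  unfold negDiv₀ negDiv₁
  by_cases h : Module.Invertible (Γ.R₀ A) I₀ ∧ Module.Invertible (Γ.R₁ A) (Γ.other₁ I₀)
  · have h' : Module.Invertible (Γ.R₀ A) (Γ.other₀ (Γ.other₁ I₀)) ∧
        Module.Invertible (Γ.R₁ A) (Γ.other₁ I₀) := by rw [h₀]; exact h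
    rw [dif_pos h, dif_pos h']
    congr 1
    congr 1
    · exact h₀.symm
  · have h' : ¬ (Module.Invertible (Γ.R₀ A) (Γ.other₀ (Γ.other₁ I₀)) ∧
        Module.Invertible (Γ.R₁ A) (Γ.other₁ I₀)) := by rw [h₀]; exact h
    rw [dif_neg h, dif_neg h']

omit [IsAlgClosed k] in
theorem other₁_ker (P : Γ.B₀₁ →ₐ[k] A) :
    Γ.other₁ (RingHom.ker (pointHom₀ (P.comp Γ.ι₀))) = RingHom.ker (pointHom₁ (P.comp Γ.ι₁)) := by
  have e₀ : RingHom.ker (pointHom₀ (P.comp Γ.ι₀)) = (RingHom.ker (ptHom P)).comap (Γ.φ₀ A) := by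
    ext z
    rw [Ideal.mem_comap, RingHom.mem_ker, RingHom.mem_ker]
    exact Eq.congr_left (ptHom_comp_map Γ.ι₀ P z).symm
  have e₁ : RingHom.ker (pointHom₁ (P.comp Γ.ι₁)) = (RingHom.ker (ptHom P)).comap (Γ.φ₁ A) := by
    ext z
    rw [Ideal.mem_comap, RingHom.mem_ker, RingHom.mem_ker]
    exact Eq.congr_left (ptHom_comp_map Γ.ι₁ P z).symm
  unfold CurveAlg.other₁
  rw [e₀, e₁]
  congr 1
  let _ := (Γ.φ₀ A).toRingHom.toAlgebra
  have := CurveAlg.isLocalization_φ₀ hΓ.out A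
  exact IsLocalization.map_under (Submonoid.powers (Γ.xA A)) (Γ.R₀₁ A) (RingHom.ker (ptHom P))

omit [IsAlgClosed k] in
theorem other₀_ker (P : Γ.B₀₁ →ₐ[k] A) :
    Γ.other₀ (RingHom.ker (pointHom₁ (P.comp Γ.ι₁))) = RingHom.ker (pointHom₀ (P.comp Γ.ι₀)) := by
  have e₀ : RingHom.ker (pointHom₀ (P.comp Γ.ι₀)) = (RingHom.ker (ptHom P)).comap (Γ.φ₀ A) := by
    ext z
    rw [Ideal.mem_comap, RingHom.mem_ker, RingHom.mem_ker]
    exact Eq.congr_left (ptHom_comp_map Γ.ι₀ P z).symm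
  have e₁ : RingHom.ker (pointHom₁ (P.comp Γ.ι₁)) = (RingHom.ker (ptHom P)).comap (Γ.φ₁ A) := by
    ext z
    rw [Ideal.mem_comap, RingHom.mem_ker, RingHom.mem_ker]
    exact Eq.congr_left (ptHom_comp_map Γ.ι₁ P z).symm
  unfold CurveAlg.other₀
  rw [e₀, e₁]
  congr 1
  let _ := (Γ.φ₁ A).toRingHom.toAlgebra
  have := CurveAlg.isLocalization_φ₁ hΓ.out A
  exact IsLocalization.map_under (Submonoid.powers (Γ.yA A)) (Γ.R₀₁ A) (RingHom.ker (ptHom P))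

end PointsAux

/-- a point of the overlap gives the same class on both charts (the two ideal data are EQUAL). -/
theorem pt₀_eq_pt₁ (P : Γ.B₀₁ →ₐ[k] A) : pt₀ (P.comp Γ.ι₀) = pt₁ (P.comp Γ.ι₁) := by
  unfold pt₀ pt₁
  rw [negDiv₀_eq_negDiv₁ (other₁_ker P) (other₀_ker P)]

section field
variable {K : Type u} [Field K] [Algebra k K]

theorem deg_one : PicAlg.deg (1 : PicAlg Γ K) = 0 := Sect.deg_one
theorem h0_one : PicAlg.h0 (1 : PicAlg Γ K) = 1 := Sect.h0_one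
theorem deg_mul_pt₀ (n : PicAlg Γ K) (P : Γ.B₀ →ₐ[k] K) : PicAlg.deg (n * pt₀ P) = PicAlg.deg n + 1 := by
  have h := deg_mul_negDiv₀ (isBasisMod_ker_pointHom₀ P) (n * pt₀ P)
  have e : n * pt₀ P * negDiv₀ (RingHom.ker (pointHom₀ P)) = n := by
    unfold pt₀
    rw [mul_assoc, inv_mul_cancel, mul_one]
  rw [e] at h
  push_cast at h
  linarith
theorem deg_mul_pt₁ (n : PicAlg Γ K) (P : Γ.B₁ →ₐ[k] K) : PicAlg.deg (n * pt₁ P) = PicAlg.deg n + 1 := by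
  have h := deg_mul_negDiv₁ (isBasisMod_ker_pointHom₁ P) (n * pt₁ P)
  have e : n * pt₁ P * negDiv₁ (RingHom.ker (pointHom₁ P)) = n := by
    unfold pt₁
    rw [mul_assoc, inv_mul_cancel, mul_one]
  rw [e] at h
  push_cast at h
  linarith

/-- `h⁰(n(-P)) ≥ h⁰(n) - 1`, and `≤ h⁰(n)`. -/
theorem h0_mul_pt₀_inv_le (n : PicAlg Γ K) (P : Γ.B₀ →ₐ[k] K) :
    PicAlg.h0 (n * (pt₀ P)⁻¹) ≤ PicAlg.h0 n ∧ PicAlg.h0 n ≤ PicAlg.h0 (n * (pt₀ P)⁻¹) + 1 := by
  obtain ⟨𝒩, rfl⟩ := PicAlg.exists_rep n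
  have := LB.finite_H0_field hΓ.out 𝒩
  unfold pt₀
  rw [inv_inv, Twist.h0_mk_mul_negDiv₀ (isBasisMod_ker_pointHom₀ P)]
  exact ⟨Submodule.finrank_le _, Sect.finrank_H0_le_vanish₀_add_one 𝒩 (pointHom₀ P)⟩
theorem h0_mul_pt₁_inv_le (n : PicAlg Γ K) (P : Γ.B₁ →ₐ[k] K) :
    PicAlg.h0 (n * (pt₁ P)⁻¹) ≤ PicAlg.h0 n ∧ PicAlg.h0 n ≤ PicAlg.h0 (n * (pt₁ P)⁻¹) + 1 := by
  obtain ⟨𝒩, rfl⟩ := PicAlg.exists_rep n
  have := LB.finite_H0_field hΓ.out 𝒩
  unfold pt₁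
  rw [inv_inv, Twist.h0_mk_mul_negDiv₁ (isBasisMod_ker_pointHom₁ P)]
  exact ⟨Submodule.finrank_le _, Sect.finrank_H0_le_vanish₁_add_one 𝒩 (pointHom₁ P)⟩

/-- a class with sections in both directions is trivial (uses `K ⊗ B_i` domain, `H⁰(O) = K`). -/
theorem eq_one_of_h0_pos (n : PicAlg Γ K) (h : 0 < PicAlg.h0 n) (h' : 0 < PicAlg.h0 n⁻¹) : n = 1 :=
  Sect.eq_one_of_h0_pos n h h'

/-- one step: a nonzero section either trivialises `n` or vanishes at a `K`-point. -/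
theorem eq_one_or_exists_point [IsAlgClosed K] (n : PicAlg Γ K) (h : 0 < PicAlg.h0 n) :
    n = 1 ∨ (∃ P : Γ.B₀ →ₐ[k] K, 0 < PicAlg.h0 (n * (pt₀ P)⁻¹)) ∨
      (∃ P : Γ.B₁ →ₐ[k] K, 0 < PicAlg.h0 (n * (pt₁ P)⁻¹)) := by
  obtain ⟨𝒩, rfl⟩ := PicAlg.exists_rep n
  obtain ⟨s, hs, hs0⟩ := Sect.exists_ne_zero_of_h0_pos h
  have := hΓ.out.finiteType₀
  have := hΓ.out.finiteType₁
  by_cases h₀ : Submodule.span (Γ.R₀ K) {s.1} = ⊤
  · by_cases h₁ : Submodule.span (Γ.R₁ K) {s.2} = ⊤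
    · exact Or.inl (Sect.mk_eq_one_of_span hs h₀ h₁)
    · obtain ⟨𝔪, h𝔪, hmem⟩ := Sect.exists_maximal_of_span_ne_top h₁
      obtain ⟨P, hP⟩ := Sect.exists_point_of_isMaximal 𝔪
      refine Or.inr (Or.inr ⟨P, ?_⟩)
      have hP' : RingHom.ker (pointHom₁ P) = 𝔪 := hP
      unfold pt₁
      rw [inv_inv, Twist.h0_mk_mul_negDiv₁ (isBasisMod_ker_pointHom₁ P), hP']
      exact Sect.finrank_vanish₁_pos 𝒩 𝔪 hs hs0 hmem
  · obtain ⟨𝔪, h𝔪, hmem⟩ := Sect.exists_maximal_of_span_ne_top h₀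
    obtain ⟨P, hP⟩ := Sect.exists_point_of_isMaximal 𝔪
    refine Or.inr (Or.inl ⟨P, ?_⟩)
    have hP' : RingHom.ker (pointHom₀ P) = 𝔪 := hP
    unfold pt₀
    rw [inv_inv, Twist.h0_mk_mul_negDiv₀ (isBasisMod_ker_pointHom₀ P), hP']
    exact Sect.finrank_vanish₀_pos 𝒩 𝔪 hs hs0 hmem

/-- a class with a nonzero section has degree `≥ 0`. -/
theorem deg_nonneg_of_h0_pos (n : PicAlg Γ K) (h : 0 < PicAlg.h0 n) : 0 ≤ PicAlg.deg n :=
  Sect.deg_nonneg_of_h0_pos n h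

/-- **H4** -/
theorem exists_points_of_h0_pos [IsAlgClosed K] (n : PicAlg Γ K) (h : 0 < PicAlg.h0 n) :
    ∃ (l₀ : List (Γ.B₀ →ₐ[k] K)) (l₁ : List (Γ.B₁ →ₐ[k] K)),
      n = (l₀.map pt₀).prod * (l₁.map pt₁).prod := by
  have key : ∀ (d : ℕ) (n : PicAlg Γ K), PicAlg.deg n = d → 0 < PicAlg.h0 n →
      ∃ (l₀ : List (Γ.B₀ →ₐ[k] K)) (l₁ : List (Γ.B₁ →ₐ[k] K)),
        n = (l₀.map pt₀).prod * (l₁.map pt₁).prod := by
    intro d
    induction d with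
    | zero =>
      intro n hd hn
      rcases eq_one_or_exists_point n hn with rfl | ⟨P, hP⟩ | ⟨P, hP⟩
      · exact ⟨[], [], by simp⟩
      · exfalso
        have h1 := deg_mul_pt₀ (n * (pt₀ P)⁻¹) P
        rw [inv_mul_cancel_right] at h1
        have h2 := deg_nonneg_of_h0_pos _ hP
        push_cast at hd
        omega
      · exfalso
        have h1 := deg_mul_pt₁ (n * (pt₁ P)⁻¹) P
        rw [inv_mul_cancel_right] at h1
        have h2 := deg_nonneg_of_h0_pos _ hP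
        push_cast at hd
        omega
    | succ d ih =>
      intro n hd hn
      rcases eq_one_or_exists_point n hn with rfl | ⟨P, hP⟩ | ⟨P, hP⟩
      · exact ⟨[], [], by simp⟩
      · have h1 := deg_mul_pt₀ (n * (pt₀ P)⁻¹) P
        rw [inv_mul_cancel_right] at h1
        push_cast at hd
        obtain ⟨l₀, l₁, hl⟩ := ih (n * (pt₀ P)⁻¹) (by omega) hP
        refine ⟨P :: l₀, l₁, ?_⟩
        rw [List.map_cons, List.prod_cons, mul_assoc, ← hl, mul_comm, inv_mul_cancel_right]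
      · have h1 := deg_mul_pt₁ (n * (pt₁ P)⁻¹) P
        rw [inv_mul_cancel_right] at h1
        push_cast at hd
        obtain ⟨l₀, l₁, hl⟩ := ih (n * (pt₁ P)⁻¹) (by omega) hP
        refine ⟨l₀, P :: l₁, ?_⟩
        rw [List.map_cons, List.prod_cons, mul_left_comm, ← hl, mul_comm, inv_mul_cancel_right]
  exact key (PicAlg.deg n).toNat n (Int.toNat_of_nonneg (deg_nonneg_of_h0_pos n h)).symm h
end field

end Fermat.Agent.S25
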